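import Fermat.Agent.LT.DihedralTheta.ConverseSeries
import Fermat.Agent.LT.Reduction.Siegel

/-!
# The converse statement: invariance under the Weyl element gives a cusp form
-/

set_option autoImplicit false

noncomputable section

open MeasureTheory Set
open NumberField (InfinitePlace)

namespace Fermat.Agent.LT.DihedralTheta

open Whittaker

variable {F : Type*} [Field F] [NumberField F]

omit [NumberField F] in
/-- The Bruhat decomposition gives generation by translations, dilations, scalars and `weylElt`. -/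
theorem gl_two_generated {S : Subgroup (GL (Fin 2) F)} (hu : ∀ β : F, unip β ∈ S)
    (hd : ∀ a : Fˣ, dia a ∈ S) (hs : ∀ a : Fˣ, scalarGlobal F a ∈ S) (hw : weylElt F ∈ S)
    (γ : GL (Fin 2) F) : γ ∈ S := by
  have hdet : γ.val 0 0 * γ.val 1 1 - γ.val 0 1 * γ.val 1 0 ≠ 0 := by
    rw [← Matrix.det_fin_two]; exact Matrix.GeneralLinearGroup.det_ne_zero γ
  have hB : ∀ δ : GL (Fin 2) F, δ.val 1 0 = 0 → δ ∈ S := by
    intro δ h
    have hdet' : δ.val 0 0 * δ.val 1 1 - δ.val 0 1 * δ.val 1 0 ≠ 0 := by
      rw [← Matrix.det_fin_two]; exact Matrix.GeneralLinearGroup.det_ne_zero δ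
    rw [h, mul_zero, sub_zero, mul_ne_zero_iff] at hdet'
    have e : δ = scalarGlobal F (Units.mk0 _ hdet'.2) *
        (dia (Units.mk0 (δ.val 0 0 / δ.val 1 1) (div_ne_zero hdet'.1 hdet'.2)) *
          unip (δ.val 0 1 / δ.val 0 0)) := by
      apply Units.ext
      ext i j
      have h00 := hdet'.1
      have h11 := hdet'.2
      fin_cases i <;> fin_cases j <;>
        simp [scalarGlobal, dia, unip, Matrix.mul_apply, Fin.sum_univ_two, h] <;> field_simp
    rw [e]
    exact mul_mem (hs _) (mul_mem (hd _) (hu _))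
  by_cases h : γ.val 1 0 = 0
  · exact hB γ h
  · have h' : (γ * (unip (γ.val 1 1 / γ.val 1 0))⁻¹ * (weylElt F)⁻¹).val 1 0 = 0 := by
      rw [unip, ← AddChar.map_neg_eq_inv, Units.val_mul, Units.val_mul]
      simp [weylElt, Matrix.mul_apply, Fin.sum_univ_two, Matrix.inv_def, Matrix.det_fin_two,
        Matrix.adjugate_fin_two]
      field_simp
      ring
    have := mul_mem (mul_mem (hB _ h') hw) (hu (γ.val 1 1 / γ.val 1 0))
    rwa [inv_mul_cancel_right, inv_mul_cancel_right] at this

omit [NumberField F] in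
/-- The Weyl element through upper triangular unipotents and its own inverse. -/
theorem weylElt_eq : weylElt F =
    unip 1 * weylElt F * unip 1 * (weylElt F)⁻¹ * unip 1 := by
  apply Units.ext
  ext i j
  fin_cases i <;> fin_cases j <;>
    simp [weylElt, unip, Matrix.mul_apply, Fin.sum_univ_two, Matrix.inv_def, Matrix.det_fin_two,
      Matrix.adjugate_fin_two]

variable {U : Level F} {A : GLFin F → F → ℂ}

/-- Invariance at a point. -/
def phiStab (φ : Y U → ℂ) : Subgroup (GL (Fin 2) F) where
  carrier := {γ | ∀ y, φ (γ • y) = φ y}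
  one_mem' y := by rw [one_smul]
  mul_mem' {a b} ha hb y := by rw [mul_smul, ha, hb]
  inv_mem' {a} ha y := by rw [← ha (a⁻¹ • y), smul_inv_smul]

variable [NumberField.IsTotallyComplex F]

/-- The expansion is invariant under the rational unipotent elements. -/
theorem IsWhittakerCoeff.unip_invariant (hA : IsWhittakerCoeff U A) (β : F) (y : Y U) :
    phiExp U A (unip β • y) = phiExp U A y := by
  obtain ⟨P, c⟩ := y
  induction c using QuotientGroup.induction_on with
  | H g =>
  rw [show (unip β • ((P, (g : GLFin F ⧸ U.toSubgroup)) : Y U)) =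
    (fun w => glEmb F w (unip β) • P w,
      ((glIncl F (unip β) * g : GLFin F) : GLFin F ⧸ U.toSubgroup)) from rfl]
  refine (hA.hasSum_phiExp_mk _ _).unique ((hA.hasSum_phiExp_mk P g).congr_fun fun ξ => ?_)
  have e : ∀ w, glEmb F w (unip β) • P w
      = H3.pt (H3.zc (P w) + w.embedding β) (H3.tc (P w)) := fun w => by
    conv_lhs => rw [glEmb_unip, ← H3.pt_coord (P w)]
    rw [H3.affine_smul _ _ _ _ (H3.tc_pos _), one_mul, norm_one, one_mul]
  have hz : (fun w => H3.zc (glEmb F w (unip β) • P w))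
      = (fun w => H3.zc (P w)) + fun w : InfinitePlace F => w.embedding β := funext fun w => by
    rw [e, H3.zc_pt _ (H3.tc_pos _)]; rfl
  have ht : (fun w => H3.tc (glEmb F w (unip β) • P w)) = fun w => H3.tc (P w) := funext fun w => by
    rw [e, H3.tc_pt _ (H3.tc_pos _)]
  have hx : expChar ξ (fun w => w.embedding β) * psiGlobal (ξ * β) = 1 := by
    rw [expChar, pairing_embedding, psiGlobal, ← Complex.exp_add, ← Complex.exp_zero]
    congr 1
    push_cast
    ring
  simp only [phiTerm, hz, ht, expChar_add, glIncl_unip]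
  rw [hA.unip_left, ← map_mul, psiFin_finIncl]
  linear_combination (A g ξ * expChar ξ (fun w => H3.zc (P w)) *
    (bessel ξ (fun w => H3.tc (P w)) : ℂ)) * hx

/-- The expansion is invariant under the rational diagonal elements. -/
theorem IsWhittakerCoeff.dia_invariant (hA : IsWhittakerCoeff U A) (a : Fˣ) (y : Y U) :
    phiExp U A (dia a • y) = phiExp U A y := by
  obtain ⟨P, c⟩ := y
  induction c using QuotientGroup.induction_on with
  | H g =>
  rw [show (dia a • ((P, (g : GLFin F ⧸ U.toSubgroup)) : Y U)) =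
    (fun w => glEmb F w (dia a) • P w,
      ((glIncl F (dia a) * g : GLFin F) : GLFin F ⧸ U.toSubgroup)) from rfl]
  refine ((Equiv.mulRight₀ ((a⁻¹ : Fˣ) : F) (a⁻¹).ne_zero).hasSum_iff.mpr
    (hA.hasSum_phiExp_mk _ _)).unique ((hA.hasSum_phiExp_mk P g).congr_fun fun ξ => ?_)
  have hpos : ∀ w : InfinitePlace F, 0 < w (a : F) * H3.tc (P w) := fun w =>
    mul_pos (InfinitePlace.pos_iff.mpr a.ne_zero) (H3.tc_pos _)
  have e : ∀ w, glEmb F w (dia a) • P w
      = H3.pt (w.embedding (a : F) * H3.zc (P w)) (w (a : F) * H3.tc (P w)) := fun w => by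
    conv_lhs => rw [glEmb_dia, ← H3.pt_coord (P w)]
    rw [H3.affine_smul _ _ _ _ (H3.tc_pos _), add_zero, norm_embedding]
  show phiTerm (A (glIncl F (dia a) * g)) (ξ * ((a⁻¹ : Fˣ) : F))
    (fun w => glEmb F w (dia a) • P w) = phiTerm (A g) ξ P
  simp only [phiTerm, e, H3.zc_pt _ (hpos _), H3.tc_pt _ (hpos _)]
  set η := ξ * ((a⁻¹ : Fˣ) : F)
  have hη : η * (a : F) = ξ := by simp [η]
  rw [hA.dia_left, hη]
  have e1 : expChar η (fun w => w.embedding (a : F) * H3.zc (P w))
      = expChar ξ fun w => H3.zc (P w) := by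
    rw [expChar, expChar, ← pairing_mul, hη]
  have e2 : bessel η (fun w => w (a : F) * H3.tc (P w)) = bessel ξ fun w => H3.tc (P w) := by
    refine Finset.prod_congr rfl fun w _ => ?_
    rw [show w ξ = w η * w (a : F) by rw [← map_mul, hη]]
    simp only [mul_assoc]
  rw [e1, e2]

/-- Invariance under the Weyl element up to a constant gives automorphy. -/
theorem IsWhittakerCoeff.isAutomorphic (hA : IsWhittakerCoeff U A)
    (hw : ∃ κ : ℂ, ∀ y, phiExp U A (weylElt F • y) = κ * phiExp U A y) :
    IsAutomorphic (phiExp U A) := by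
  obtain ⟨κ, hκ⟩ := hw
  have hw' : weylElt F ∈ phiStab (phiExp U A) := by
    intro y
    rw [weylElt_eq, mul_smul, mul_smul, mul_smul, mul_smul, hA.unip_invariant, hκ,
      hA.unip_invariant, ← hκ, smul_inv_smul, hA.unip_invariant]
  exact fun γ => gl_two_generated (S := phiStab (phiExp U A)) hA.unip_invariant hA.dia_invariant
    (fun a y => by rw [scalarGlobal_smul]) hw' γ

/-- The expansion is continuous at every coset. -/
theorem IsWhittakerCoeff.continuous (hA : IsWhittakerCoeff U A) (c : GLFin F ⧸ U.toSubgroup) :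
    Continuous fun P => phiExp U A (P, c) := by
  rw [continuous_iff_continuousAt]
  intro P₀
  obtain ⟨w₀, -, hw₀⟩ := Finset.exists_min_image Finset.univ (fun w => H3.tc (P₀ w))
    Finset.univ_nonempty
  set m := H3.tc (P₀ w₀) / 2 with hm
  have hm0 : 0 < m := half_pos (H3.tc_pos _)
  obtain ⟨M, hM, hle⟩ := hA.exists_majorant c hm0
  set s : Set (InfinitePlace F → H3) := {P | ∀ w, m < H3.tc (P w)} with hs
  have hso : IsOpen s := by
    rw [show s = ⋂ w, (fun P : InfinitePlace F → H3 => H3.tc (P w)) ⁻¹' Ioi m by ext; simp [hs]]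
    exact isOpen_iInter_of_finite fun w =>
      isOpen_Ioi.preimage (H3.continuous_tc.comp (continuous_apply w))
  have hP₀ : P₀ ∈ s := fun w =>
    (half_lt_self (H3.tc_pos _)).trans_le (hw₀ w (Finset.mem_univ w))
  have hc : ContinuousOn (fun P => ∑' ξ, phiTerm (A c.out) ξ P) s :=
    continuousOn_tsum (fun ξ => (continuous_phiTerm (hA.zero _) ξ).continuousOn) hM
      fun ξ P hP => hle ξ P fun w => (hP w).le
  exact (hc.continuousAt (hso.mem_nhds hP₀))

/-- An automorphic expansion is bounded. -/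
theorem IsWhittakerCoeff.bounded (hA : IsWhittakerCoeff U A)
    (hauto : IsAutomorphic (phiExp U A)) : ∃ C : ℝ, ∀ y, ‖phiExp U A y‖ ≤ C := by
  obtain ⟨R, a, B, b, hb, hcov⟩ := Reduction.exists_siegel U
  choose M hM hle using fun r : GLFin F =>
    hA.exists_majorant (QuotientGroup.mk r : GLFin F ⧸ U.toSubgroup) hb
  refine ⟨∑ r ∈ R, max (∑' ξ, M r ξ) 0, fun y => ?_⟩
  obtain ⟨γ, hsiegel, r, hr, hyr⟩ := hcov y
  rw [← hauto γ y, ← Prod.mk.eta (p := γ • y), hyr, phiExp_eq]
  refine le_trans ?_ ((le_max_left _ _).trans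
    (Finset.single_le_sum (f := fun r => max (∑' ξ, M r ξ) 0) (fun r _ => le_max_right _ _) hr))
  exact tsum_of_norm_bounded (hM r).hasSum fun ξ => hle r ξ _ fun w => (hsiegel w).1

/-- The expansion is an eigenfunction of the radial averages. -/
theorem IsWhittakerCoeff.isRadialEigen (hA : IsWhittakerCoeff U A) :
    IsRadialEigen (phiExp U A) := by
  rw [isRadialEigen_iff_isPiEigen]
  intro c k hk hs P
  obtain ⟨K, hK, hKz⟩ := H3.exists_compact_prod_profile hs (isCompact_singleton (x := P))
  obtain ⟨T, hT⟩ := (hK.image (continuous_finsetSum Finset.univ fun (w : InfinitePlace F) _ =>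
    (H3.continuous_tc.comp (continuous_apply w)).inv₀ fun Q => (H3.tc_pos _).ne')).bddAbove
  set m := (max T 1)⁻¹ with hm
  have hm0 : 0 < m := inv_pos.mpr (zero_lt_one.trans_le (le_max_right _ _))
  have hmle : ∀ Q ∈ K, ∀ w, m ≤ H3.tc (Q w) := fun Q hQ w => by
    rw [hm, inv_le_comm₀ (zero_lt_one.trans_le (le_max_right _ _)) (H3.tc_pos _)]
    refine le_trans ?_ ((hT (Set.mem_image_of_mem _ hQ)).trans (le_max_left _ _))
    exact Finset.single_le_sum (f := fun v => (H3.tc (Q v))⁻¹)
      (fun v _ => (inv_pos.mpr (H3.tc_pos _)).le) (Finset.mem_univ w)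
  obtain ⟨M, hM, hle⟩ := hA.exists_majorant c hm0
  set g : F → (InfinitePlace F → H3) → ℂ := fun ξ Q =>
    (∏ w, k w (H3.cdist (P w) (Q w))) • phiTerm (A c.out) ξ Q with hg
  have hint : ∀ ξ, Integrable (g ξ) (Measure.pi fun _ => H3.vol) := fun ξ =>
    H3.integrable_prod_profile_smul hk hs P (continuous_phiTerm (hA.zero _) ξ)
  have hbase : Integrable (fun Q => (∏ w, k w (H3.cdist (P w) (Q w))) • (1 : ℂ))
      (Measure.pi fun _ : InfinitePlace F => H3.vol) :=
    H3.integrable_prod_profile_smul hk hs P continuous_const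
  have hsum : Summable fun ξ => ∫ Q, ‖g ξ Q‖ ∂(Measure.pi fun _ => H3.vol) := by
    refine Summable.of_nonneg_of_le (fun ξ => integral_nonneg fun Q => norm_nonneg _) (fun ξ => ?_)
      (hM.mul_left (∫ Q, ‖(∏ w, k w (H3.cdist (P w) (Q w))) • (1 : ℂ)‖
        ∂(Measure.pi fun _ : InfinitePlace F => H3.vol)))
    rw [← integral_mul_const]
    refine integral_mono (hint ξ).norm (hbase.norm.mul_const _) fun Q => ?_
    simp only [hg, norm_smul, norm_one, mul_one]
    by_cases hQ : Q ∈ K
    · exact mul_le_mul_of_nonneg_left (hle ξ Q (hmle Q hQ)) (norm_nonneg _)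
    · simp [hKz P rfl Q hQ]
  have hterm : ∀ ξ, ∫ Q, g ξ Q ∂(Measure.pi fun _ => H3.vol)
      = (∏ w, H3.sph (k w)) • phiTerm (A c.out) ξ P := by
    intro ξ
    rcases eq_or_ne ξ 0 with rfl | hξ
    · simp [hg, phiTerm, hA.zero]
    have h := H3.isPiEigen_prod_whit (a := fun w : InfinitePlace F => 2 * w.embedding ξ)
      (fun w => mul_ne_zero two_ne_zero ((map_ne_zero w.embedding).mpr hξ)) k hk hs P
    rw [H3.piKop] at h
    simp only [hg, phiTerm_eq_whit (hA.zero _), ← smul_eq_mul, smul_comm _ (A c.out ξ • _)] at h ⊢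
    rw [integral_smul, h]
  have : Countable F := (Module.finBasis ℚ F).equivFun.injective.countable
  show H3.piKop k (fun P => phiExp U A (P, c)) P = _
  rw [H3.piKop]
  simp only [phiExp_eq, ← tsum_const_smul'']
  exact (integral_tsum_of_summable_integral_norm hint hsum).symm.trans (tsum_congr hterm)

/-- A nontrivial character of the torus has integral zero over a box. -/
theorem integral_box_torusChar {ι : Type*} [Fintype ι] {n : ι → ℤ} (hn : n ≠ 0) :
    ∫ u in box ι, torusChar n u = 0 := by
  obtain ⟨i, hi⟩ := Function.ne_iff.mp hn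
  classical
  set s : ι → ℝ := Pi.single i (1 / (2 * n i))
  have h := integral_box_add (torusChar_periodic n) s
  have hs : torusChar n s = -1 := by
    have : ∑ j, (n j : ℝ) * s j = 1 / 2 := by
      rw [Finset.sum_eq_single i (fun j _ hj => by simp [s, hj]) (by simp)]
      have : (n i : ℝ) ≠ 0 := by exact_mod_cast hi
      simp [s]; field_simp
    rw [torusChar, this, show ((2 * Real.pi * (1 / 2) : ℝ) : ℂ) = (Real.pi : ℂ) by push_cast; ring,
      Complex.exp_pi_mul_I]
  simp only [torusChar_add, hs, integral_mul_const] at h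
  linear_combination (-1 / 2 : ℂ) * h

/-- The constant term of the expansion vanishes. -/
theorem IsWhittakerCoeff.zeroConst (hA : IsWhittakerCoeff U A) (c : GLFin F ⧸ U.toSubgroup)
    {t : InfinitePlace F → ℝ} (b : Module.Basis (Fin (Module.finrank ℚ F)) ℚ F)
    (ht : ∀ w, 0 < t w) (hb : ∀ i, glIncl F (unip (b i)) • c = c) :
    ∫ u in box (Fin (Module.finrank ℚ F)), phiExp U A (ptAt (boxEmb b u) t, c) = 0 := by
  obtain ⟨w₀, -, hw₀⟩ := Finset.exists_min_image Finset.univ t Finset.univ_nonempty
  obtain ⟨M, hM, hle⟩ := hA.exists_majorant c (ht w₀)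
  have hfin : IsFiniteMeasure (volume.restrict (box (Fin (Module.finrank ℚ F)))) := by
    refine ⟨?_⟩
    rw [Measure.restrict_apply_univ, show box (Fin (Module.finrank ℚ F))
      = Set.pi univ fun _ => Ioc (0 : ℝ) 1 by ext u; simp [box], volume_pi_pi]
    simp
  set f : F → (Fin (Module.finrank ℚ F) → ℝ) → ℂ := fun ξ u =>
    phiTerm (A c.out) ξ (ptAt (boxEmb b u) t)
  have hfle : ∀ ξ u, ‖f ξ u‖ ≤ M ξ := fun ξ u => hle ξ _ fun w => by
    rw [show ptAt (boxEmb b u) t w = H3.pt (boxEmb b u w) (t w) from rfl, H3.tc_pt _ (ht w)]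
    exact hw₀ w (Finset.mem_univ w)
  have hint : ∀ ξ, Integrable (f ξ) (volume.restrict (box _)) := fun ξ =>
    Integrable.of_bound ((continuous_phiTerm (hA.zero _) ξ).comp ((continuous_ptAt ht).comp
      (LinearMap.continuous_of_finiteDimensional (boxEmb b)))).aestronglyMeasurable (M ξ)
      (Filter.Eventually.of_forall (hfle ξ))
  have hsum : Summable fun ξ => ∫ u in box _, ‖f ξ u‖ :=
    Summable.of_nonneg_of_le (fun ξ => integral_nonneg fun u => norm_nonneg _)
      (fun ξ => integral_mono (hint ξ).norm (integrable_const _) (hfle ξ))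
      (by simpa using hM.mul_left _)
  have : Countable F := (Module.finBasis ℚ F).equivFun.injective.countable
  simp only [phiExp_eq]
  rw [← integral_tsum_of_summable_integral_norm hint hsum]
  refine (tsum_congr fun ξ => ?_).trans tsum_zero
  rcases eq_or_ne (A c.out ξ) 0 with h0 | h0
  · simp [f, phiTerm, h0]
  obtain ⟨n, rfl⟩ := hA.support hb h0
  have hn : n ≠ 0 := by rintro rfl; exact h0 (by simp [freq, hA.zero])
  simp only [f, phiTerm, ptAt, H3.zc_pt _ (ht _), H3.tc_pt _ (ht _), expChar_freq]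
  rw [integral_mul_const, integral_const_mul, integral_box_torusChar hn, mul_zero, zero_mul]

/-- **(1)** Invariance under the Weyl element up to a constant gives a cusp form. -/
theorem IsWhittakerCoeff.isSphericalCuspForm (hA : IsWhittakerCoeff U A)
    (hw : ∃ κ : ℂ, ∀ y, phiExp U A (weylElt F • y) = κ * phiExp U A y) :
    IsSphericalCuspForm (phiExp U A) where
  cuspEigen :=
    { automorphic := hA.isAutomorphic hw
      continuous := hA.continuous
      bounded := hA.bounded (hA.isAutomorphic hw)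
      eigen := fun w y a ha => eigen_of_isRadialEigen hA.isRadialEigen hA.continuous
        (hA.bounded (hA.isAutomorphic hw)) w y a ha
      zeroConst := fun c _ b ht hb => hA.zeroConst c b ht hb }
  radial := hA.isRadialEigen

end Fermat.Agent.LT.DihedralTheta

end
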