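import Fermat.Agent.LT.DihedralTheta.ConverseSeries
import Fermat.Agent.LT.Whittaker.Hecke
import Fermat.Agent.LT.Places.Hecke
import Mathlib.MeasureTheory.Measure.Lebesgue.Integral

/-!
# Hecke eigenvalues pass from the coefficients to the function; the integral `∫ exp (-A cosh r)`
-/

set_option autoImplicit false

noncomputable section

open MeasureTheory
open NumberField (InfinitePlace)

namespace Fermat.Agent.LT.DihedralTheta

open Whittaker

/-- `exp (-A cosh r)` is integrable. -/
theorem integrable_exp_neg_cosh {A : ℝ} (hA : 0 < A) :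
    Integrable fun r : ℝ => Real.exp (-(A * Real.cosh r)) := by
  have hc : Continuous fun r : ℝ => Real.exp (-(A * Real.cosh r)) := by fun_prop
  rw [← integrableOn_univ, ← Set.Iic_union_Ioi (a := (0 : ℝ))]
  refine IntegrableOn.union ?_ (integrableOn_besselK hA)
  refine (integrableOn_exp_mul_Iic hA 0).mono' hc.aestronglyMeasurable
    ((ae_restrict_mem measurableSet_Iic).mono fun r (hr : r ≤ 0) => ?_)
  rw [Real.norm_eq_abs, Real.abs_exp, Real.exp_le_exp]
  have h1 := self_le_cosh (-r)
  rw [Real.cosh_neg] at h1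
  nlinarith

/-- `∫ exp (-A cosh r) dr = 2 K(A)`. -/
theorem integral_exp_neg_cosh {A : ℝ} :
    ∫ r : ℝ, Real.exp (-(A * Real.cosh r)) = 2 * besselK A := by
  have h := integral_comp_abs (f := fun r : ℝ => Real.exp (-(A * Real.cosh r)))
  simpa only [Real.cosh_abs, besselK] using h

variable {F : Type*} [Field F] [NumberField F] [NumberField.IsTotallyComplex F] {U : Level F}
  {A : GLFin F → F → ℂ}

/-- A combination of coefficient functions gives the combination of the functions. -/
theorem IsWhittakerCoeff.sum_phiExp (hA : IsWhittakerCoeff U A) {ι : Type*} [Fintype ι]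
    (s : ι → GLFin F) {c : ℂ} (g : GLFin F) (h : ∀ ξ, ∑ i, A (g * s i) ξ = c * A g ξ)
    (P : InfinitePlace F → H3) :
    ∑ i, phiExp U A (P, ((g * s i : GLFin F) : GLFin F ⧸ U.toSubgroup))
      = c * phiExp U A (P, (g : GLFin F ⧸ U.toSubgroup)) := by
  refine (hasSum_sum fun i _ => hA.hasSum_phiExp_mk P (g * s i)).unique
    (((hA.hasSum_phiExp_mk P g).mul_left c).congr_fun fun ξ => ?_)
  simp only [phiTerm]
  rw [← Finset.sum_mul, ← Finset.sum_mul, h]
  ring

/-- **(4)** An eigen relation of the coefficients gives the eigenvalue of the double coset. -/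
theorem IsWhittakerCoeff.doubleOp_eq (hA : IsWhittakerCoeff U A) {ι : Type*} [Fintype ι]
    {x : GLFin F} {s : ι → GLFin F} (hs : IsCosetList U x s) {c : ℂ}
    (h : ∀ g ξ, ∑ i, A (g * s i) ξ = c * A g ξ) (y : Y U) :
    doubleOp x (phiExp U A) y = c * phiExp U A y := by
  obtain ⟨P, b⟩ := y
  induction b using QuotientGroup.induction_on with
  | H g => rw [doubleOp_eq_sum hs]; exact hA.sum_phiExp s g (h g) P

/-- The same for `T_v` at a good place. -/
theorem IsWhittakerCoeff.heckeAt_eq (hA : IsWhittakerCoeff U A) {v : Places.FinPlace F}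
    (hU : Places.IsGoodAt U v) [Fintype (Places.Residue v)] {c : ℂ}
    (h : ∀ g ξ, ∑ r : Option (Places.Residue v), A (g * Places.localGL v (Places.rep v r)) ξ
      = c * A g ξ) (y : Y U) :
    (Places.heckeAt U v hU).op (phiExp U A) y = c * phiExp U A y := by
  obtain ⟨P, b⟩ := y
  induction b using QuotientGroup.induction_on with
  | H g => rw [Places.heckeAt_op hU]; exact hA.sum_phiExp _ g (h g) P

end Fermat.Agent.LT.DihedralTheta

end
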