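import Fermat.Agent.LT.DihedralTheta.GlobalCoeff

/-!
# Hecke eigen relation and nonvanishing of the coefficient function
-/

set_option autoImplicit false

noncomputable section

open IsDedekindDomain NumberField WithZero
open Fermat.Agent.LT.Places

namespace Fermat.Agent.LT.DihedralTheta

variable {F : Type*} [Field F] [NumberField F]

lemma rep_some_eq (v : FinPlace F) (r : Residue v) :
    rep v (some r) = bmat (piLocal v : v.adicCompletion F) (resLift v r) 1 (piLocal v).ne_zero
      one_ne_zero :=
  Units.ext (Matrix.ext fun i j => by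
    rw [bmat_val]
    fin_cases i <;> fin_cases j <;> simp [rep, piDia, dia, Matrix.mul_apply, Fin.sum_univ_two])

lemma rep_none_eq (v : FinPlace F) :
    rep v none = bmat 1 0 (piLocal v : v.adicCompletion F) one_ne_zero (piLocal v).ne_zero :=
  Units.ext (Matrix.ext fun i j => by
    rw [bmat_val]
    fin_cases i <;> fin_cases j <;>
      simp [rep, piDia, swapGL, dia, Matrix.mul_apply, Fin.sum_univ_two])

/-- Left multiplication by the integral group permutes the representatives. -/
lemma exists_rep_perm (v : FinPlace F) [Fintype (Residue v)]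
    {k : GL (Fin 2) (v.adicCompletion F)} (hk : k ∈ intGroup v) :
    ∃ σ : Option (Residue v) ≃ Option (Residue v),
      ∀ i, (rep v (σ i))⁻¹ * k * rep v i ∈ intGroup v := by
  have h : ∀ i, ∃ j, (rep v j)⁻¹ * k * rep v i ∈ intGroup v := by
    intro i
    obtain ⟨a, b, ha, hb, e⟩ : ∃ a b, a ∈ intGroup v ∧ b ∈ intGroup v ∧
        rep v i = a * piDia v * b := by
      cases i with
      | none => exact ⟨_, _, swapGL_mem v, swapGL_mem v, rfl⟩
      | some r => exact ⟨_, 1, unip_mem (valued_resLift v r), one_mem _, (mul_one _).symm⟩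
    obtain ⟨j, hj⟩ := exists_rep v (mul_mem hk ha)
    refine ⟨j, ?_⟩
    rw [e, show (rep v j)⁻¹ * k * (a * piDia v * b) = (rep v j)⁻¹ * (k * a * piDia v) * b by
      simp [mul_assoc]]
    exact mul_mem hj hb
  choose σ hσ using h
  have hinj : Function.Injective σ := fun i i' hii => by
    have h1 := mul_mem (inv_mem (hσ i)) (hii ▸ hσ i')
    refine rep_injective v (r := i) (s := i') ?_
    have h2 : ((rep v (σ i))⁻¹ * k * rep v i)⁻¹ * ((rep v (σ i))⁻¹ * k * rep v i') =
        (rep v i)⁻¹ * rep v i' := by group
    rw [h2] at h1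
    exact h1.1
  exact ⟨Equiv.ofBijective σ (Finite.injective_iff_bijective.mp hinj), hσ⟩

namespace ThetaData

variable (D : ThetaData F)

/-- The eigenvalue of the local function passes to the coefficients. -/
theorem coeff_hecke_of_local (v : FinPlace F) {ι : Type*} [Fintype ι]
    (s : ι → GL (Fin 2) (v.adicCompletion F)) {c : ℂ}
    (h : ∀ g ξ, ∑ i, (D.place v).vec.whit (D.place v).psi (g * s i) ξ =
      c * (D.place v).vec.whit (D.place v).psi g ξ) (g : GLFin F) (ξ : F) :
    ∑ i, D.coeff (g * localGL v (s i)) ξ = c * D.coeff g ξ := by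
  classical
  rcases eq_or_ne ξ 0 with rfl | hξ
  · simp
  set G : FinPlace F → ℂ := fun w => if w = v then 1 else D.locWhit w g ξ
  have key : ∀ g' : GLFin F, (∀ w, w ≠ v → glPlace w g' = glPlace w g) →
      D.coeff g' ξ = D.locWhit v g' ξ * ∏ᶠ w, G w := fun g' hg' => by
    rw [D.coeff_of_ne hξ, ← finprod_eq_single (fun w => if w = v then D.locWhit w g' ξ else 1) v
      (fun w hw => if_neg hw) |>.trans (if_pos rfl), ← finprod_mul_distrib ?_ ?_]
    · refine finprod_congr fun w => ?_
      simp only [G]
      split_ifs with hw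
      · rw [mul_one]
      · rw [one_mul, locWhit, locWhit, hg' w hw]
    · exact (Set.finite_singleton v).subset fun w hw => by
        by_contra hne; exact hw (if_neg hne)
    · exact (D.finite_locWhit_ne_one g hξ).subset fun w hw => by
        simp only [G, Function.mem_mulSupport] at hw ⊢
        split_ifs at hw
        · exact absurd rfl hw
        · exact hw
  rw [key g fun w _ => rfl, Finset.sum_congr rfl fun i _ =>
    key (g * localGL v (s i)) fun w hw => by rw [map_mul, glPlace_localGL_ne hw, mul_one],
    ← Finset.sum_mul, ← mul_assoc]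
  congr 1
  simp only [locWhit, map_mul, glPlace_localGL_same]
  exact h _ _

/-- **The Hecke relation at a place with spherical data.** -/
theorem coeff_hecke_spherical {v : FinPlace F} [Fintype (Residue v)]
    (hsph : ∃ (η : v.adicCompletion F → ℂ) (ε : ℂ)
      (h : (placeForm v _ _ (D.place v).trace_le (D.place v).norm_le).IsUnram η ε),
        (D.place v).vec = LocalVec.spherical _ h)
    {lam : ℂ}
    (hrec : ∀ n : ℤ, n ≠ 0 → (D.place v).form.sphSum (D.place v).psi n =
      lam * (D.place v).form.sphSum (D.place v).psi (n - 1) -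
        (D.place v).form.sphSum (D.place v).psi (n - 2))
    (g : GLFin F) (ξ : F) :
    ∑ r : Option (Residue v), D.coeff (g * localGL v (rep v r)) ξ =
      (Real.sqrt (Nat.card (Residue v)) : ℂ) * lam * D.coeff g ξ := by
  refine D.coeff_hecke_of_local v (rep v) (fun g' ξ' => ?_) g ξ
  obtain ⟨η, ε, hu, he⟩ := hsph
  have hG := (D.place v).good
  rw [he] at hG ⊢
  refine (LocalVec.whit_hecke hu hrec hG (rep v) (resLift v)
    (fun r => mem_placeBall_zero.mpr (valued_resLift v r)) (fun i j hij => resLift_injective v ?_)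
    ?_ (piLocal v).ne_zero (placeOrd_piLocal v) (rep_some_eq v) (rep_none_eq v) ?_ g' ξ').trans ?_
  · refine lt_of_le_of_lt (mem_placeBall.mp hij) ?_
    rw [← exp_zero, exp_lt_exp]; norm_num
  · rw [Fintype.card_eq_nat_card]; rfl
  · intro k hk
    obtain ⟨σ, hσ⟩ := exists_rep_perm v (show k ∈ intGroup v from intGL_eq_intGroup v ▸ hk)
    exact ⟨σ, fun i => (intGL_eq_intGroup v).symm ▸ hσ i⟩
  · rfl

/-- A matrix with prescribed components at finitely many places. -/
lemma exists_glPlace_eq (S : Finset (FinPlace F))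
    (k : ∀ v : FinPlace F, GL (Fin 2) (v.adicCompletion F)) :
    ∃ g : GLFin F, ∀ v, (v ∈ S → glPlace v g = k v) ∧ (v ∉ S → glPlace v g = 1) := by
  classical
  induction S using Finset.induction_on with
  | empty => exact ⟨1, fun v => ⟨fun h => absurd h (Finset.notMem_empty v), fun _ => map_one _⟩⟩
  | insert a S ha ih =>
    obtain ⟨g, hg⟩ := ih
    refine ⟨localGL a (k a) * g, fun v => ?_⟩
    rcases eq_or_ne v a with rfl | hv
    · exact ⟨fun _ => by rw [map_mul, glPlace_localGL_same, (hg v).2 ha, mul_one],
        fun h => absurd (Finset.mem_insert_self v S) h⟩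
    · refine ⟨fun h => ?_, fun h => ?_⟩ <;> rw [map_mul, glPlace_localGL_ne hv, one_mul]
      · exact (hg v).1 ((Finset.mem_insert.mp h).resolve_left hv)
      · exact (hg v).2 fun h' => h (Finset.mem_insert_of_mem h')

/-- The coefficient function is nonzero. -/
theorem exists_coeff_ne_zero (h : ∀ v, ¬ (D.place v).IsStd →
    ∃ g, (D.place v).vec.whit (D.place v).psi g 1 ≠ 0) : ∃ g ξ, D.coeff g ξ ≠ 0 := by
  classical
  set k : ∀ v : FinPlace F, GL (Fin 2) (v.adicCompletion F) := fun v =>
    if hv : (D.place v).IsStd then 1 else (h v hv).choose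
  obtain ⟨g, hg⟩ := exists_glPlace_eq D.almost_std.toFinset k
  have hk : ∀ v, glPlace v g = k v := fun v => by
    by_cases hv : (D.place v).IsStd
    · rw [(hg v).2 (by simpa using hv)]; simp [k, hv]
    · exact (hg v).1 (by simpa using hv)
  have hne : ∀ v, D.locWhit v g 1 ≠ 0 := fun v => by
    rw [locWhit, hk v, map_one]
    by_cases hv : (D.place v).IsStd
    · simp only [k, dif_pos hv]
      rw [hv.whit_eq_one (one_mem _) one_ne_zero ((placeBase v).ord_one)]
      exact one_ne_zero
    · simp only [k, dif_neg hv]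
      exact (h v hv).choose_spec
  refine ⟨g, 1, ?_⟩
  rw [D.coeff_of_ne one_ne_zero]
  rw [finprod_eq_prod _ (D.finite_locWhit_ne_one g one_ne_zero)]
  exact Finset.prod_ne_zero_iff.mpr fun v _ => hne v

end ThetaData

end Fermat.Agent.LT.DihedralTheta

end
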