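import Fermat.Agent.LT.DihedralTheta.Residue

/-!
# The tamely ramified form at residue field `𝔽₃`

For `a ^ 2 + p b ^ 2` with `p` a uniformiser, and a character of conductor one, the Gauss
integrals of `ϖ O × O` form a quasi-character times a nonzero constant.
-/

set_option autoImplicit false

open AddSubgroup

namespace Fermat.Agent.LT.DihedralTheta

namespace LocalForm

variable {E : Type*} [Field E] (K : LocalForm E)

/-- Hypotheses of the tamely ramified case. -/
structure IsTame : Prop where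
  s_eq : K.s = 0
  p_ne : K.p ≠ 0
  ord_p : K.ord K.p = 1
  two_ne : (2 : E) ≠ 0
  ord_two : K.ord (2 : E) = 0
  cond_eq : K.cond = 1

/-- The map `z ↦ θ z` for `θ ^ 2 = -p`. -/
def thetaEquiv (hp : K.p ≠ 0) : E × E ≃+ E × E where
  toFun z := (-(K.p * z.2), z.1)
  invFun z := (z.2, -(K.p⁻¹ * z.1))
  left_inv z := by simp [hp]
  right_inv z := by simp [hp]
  map_add' z w := by simp [mul_add]; ring

lemma comap_thetaEquiv (hp : K.p ≠ 0) (hp1 : K.ord K.p = 1) (i j : ℤ) :
    (K.box i j).comap (K.thetaEquiv hp).toAddMonoidHom = K.box j (i - 1) := by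
  ext z
  simp [thetaEquiv, LocalBase.mem_box, K.mul_mem_ball_iff hp, hp1, and_comm]

variable {K} (h : K.IsTame)

namespace IsTame

include h

/-- The norm form on a box at a ramified place. -/
lemma n_mem {i j l : ℤ} {z : E × E} (hz : z ∈ K.box i j) (hi : l ≤ 2 * i) (hj : l ≤ 2 * j + 1) :
    K.n z ∈ K.ball l := by
  obtain ⟨h1, h2⟩ := LocalBase.mem_box.mp hz
  simp only [n, h.s_eq, zero_mul, add_zero]
  refine add_mem ?_ ?_
  · rw [sq]; exact K.mul_mem_ball' h1 h1 (by omega)
  · rw [sq]; exact K.mul_mem_ball' (Or.inr h.ord_p.ge) (K.mul_mem_ball h2 h2) (by omega)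

lemma chi_n {x : E} {i j : ℤ} (hi : 1 ≤ K.ord x + 2 * i) (hj : 0 ≤ K.ord x + 2 * j) :
    ∀ q ∈ K.box i j, K.χ (x * K.n q) = 1 := fun _ hq =>
  K.χ_triv _ (K.mul_mem_ball' (l := min (2 * i) (2 * j + 1)) (Or.inr le_rfl)
    (h.n_mem hq (min_le_left _ _) (min_le_right _ _)) (by rw [h.cond_eq]; omega))

/-- The orthogonal of a box at a ramified place. -/
lemma perp {x : E} (hx : x ≠ 0) {i j : ℤ} {z : E × E}
    (hz : ∀ q ∈ K.box i j, K.χ (x * K.B z q) = 1) :
    z ∈ K.box (1 - i - K.ord x) (-j - K.ord x) := by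
  have h1 : x * (2 * z.1) ∈ K.ball (K.cond - i) := K.mem_ball_of_char fun c hc => by
    have := hz (c, 0) (LocalBase.mem_box.mpr ⟨hc, zero_mem _⟩)
    simp only [B, h.s_eq] at this
    convert this using 2; ring
  have h2 : x * (2 * (K.p * z.2)) ∈ K.ball (K.cond - j) := K.mem_ball_of_char fun c hc => by
    have := hz (0, c) (LocalBase.mem_box.mpr ⟨zero_mem _, hc⟩)
    simp only [B, h.s_eq] at this
    convert this using 2; ring
  rw [K.mul_mem_ball_iff hx, K.mul_mem_ball_iff h.two_ne, h.ord_two, h.cond_eq] at h1 h2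
  rw [K.mul_mem_ball_iff h.p_ne, h.ord_p] at h2
  exact LocalBase.mem_box.mpr ⟨K.ball_le (by omega) h1, K.ball_le (by omega) h2⟩

/-- **The ramified identity.** -/
theorem fourier_tame {φ : E × E → ℂ} {k : ℤ} (hper : IsPer (K.box 1 0) φ)
    (hsupp : HasSupp (K.box k k) φ) {x : E} (hx : x ≠ 0) (hm : K.ord x < 0) (y : E × E) :
    K.fourier (fun z => K.χ (x * K.n z) * φ z) y =
      K.χ (-(K.n y / x)) * φ (x⁻¹ • y) * K.gauss x (K.box 1 0) :=
  K.fourier_phase hper hsupp hx (i := (-K.ord x + 2) / 2) (j := (-K.ord x + 1) / 2)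
    (K.box_le (by omega) (by omega)) (h.chi_n (by omega) (by omega))
    (fun _ hz => K.box_le (by omega) (by omega) (h.perp hx hz)) y

/-- Lowering the valuation by one. -/
lemma gauss_step {x : E} (hx : x ≠ 0) (hm : K.ord x ≤ -2) :
    K.gauss x (K.box 1 0) = (K.q : ℂ)⁻¹ * K.gauss (x * K.p) (K.box 1 0) := by
  rw [K.gauss_eq_of_perp (i := (-K.ord x + 2) / 2) (j := (-K.ord x + 1) / 2) (a' := 1) (b' := 1)
    (K.box_le (by omega) (by omega)) (K.box_le (by omega) (by omega)) (h.chi_n (by omega) (by omega))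
    fun z _ hz => K.box_le (by omega) (by omega) (h.perp hx hz)]
  have h' := K.gauss_comap x (x * K.p) (K.thetaEquiv h.p_ne)
    (fun z => by
      show x * K.n (-(K.p * z.2), z.1) = _
      simp only [n, h.s_eq]; ring)
    1 1 1 0 (by rw [K.comap_thetaEquiv h.p_ne h.ord_p]; norm_num) 0 1
    (fun r => by rw [K.comap_thetaEquiv h.p_ne h.ord_p]; simp)
  rw [h', zero_add, zpow_one, ← mul_assoc, inv_mul_cancel₀ K.q_ne_zero, one_mul]

/-- The Gauss integral is a multiple of a quasi-character. -/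
theorem gauss_tame {η : E → ℂ} {lam : ℂ} (hη : ∀ x, η (x * K.p) = η x)
    (hbase : ∀ x : E, x ≠ 0 → K.ord x = -1 → K.gauss x (K.box 1 0) = lam * η x * (K.q : ℂ)⁻¹)
    (m : ℕ) : ∀ x : E, x ≠ 0 → K.ord x = -((m : ℤ) + 1) →
      K.gauss x (K.box 1 0) = lam * η x * ((K.q : ℂ)⁻¹) ^ (m + 1) := by
  induction m with
  | zero => intro x hx hord; simpa using hbase x hx (by simpa using hord)
  | succ m ih =>
    intro x hx hord
    push_cast at hord
    rw [h.gauss_step hx (by omega), ih _ (mul_ne_zero hx h.p_ne)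
      (by rw [K.ord_mul hx h.p_ne, h.ord_p]; omega), hη]
    ring

end IsTame

end LocalForm

end Fermat.Agent.LT.DihedralTheta
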