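import Fermat.Agent.LT.DihedralTheta.TypeE
import Fermat.Agent.LT.DihedralTheta.Ramified

/-!
# The type `e` model at a place where the quadratic extension is tamely ramified
-/

set_option autoImplicit false

open AddSubgroup

namespace Fermat.Agent.LT.DihedralTheta

/-- The norm of the residue plane, ramified case. -/
def normR (r : ZMod 3 × ZMod 3) : ZMod 3 := r.1 ^ 2

/-- The isotypic functions on the residue plane, ramified case. -/
def tableR (α : ℂ) (r : ZMod 3 × ZMod 3) : ℂ := α * sgnThree r.1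

/-- The sign on `ZMod 3` is multiplicative. -/
lemma sgnThree_mul (a b : ZMod 3) : sgnThree (a * b) = sgnThree a * sgnThree b := by
  have ha : a = 0 ∨ a = 1 ∨ a = 2 := by revert a; decide
  have hb : b = 0 ∨ b = 1 ∨ b = 2 := by revert b; decide
  rcases ha with rfl | rfl | rfl <;> rcases hb with rfl | rfl | rfl <;> simp +decide [sgnThree]

/-- The sign squares to `1` away from `0`. -/
lemma sgnThree_sq {a : ZMod 3} (ha : a ≠ 0) : sgnThree a * sgnThree a = 1 := by
  have h : a = 1 ∨ a = 2 := by revert a; decide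
  rcases h with rfl | rfl <;> simp +decide [sgnThree]

/-- The sign of `1`. -/
lemma sgnThree_one : sgnThree 1 = 1 := by simp [sgnThree]

lemma tableR_twist (α : ℂ) (g : ZMod 3 → ℂ) (j : ZMod 3) (r : ZMod 3 × ZMod 3) :
    tableR α r * g (j * normR r) = tableR (α * g j) r := by
  by_cases h : r.1 = 0
  · simp +decide [tableR, h, sgnThree]
  · have e : ∀ a : ZMod 3, a ≠ 0 → a ^ 2 = 1 := by decide
    simp only [tableR, normR, e _ h, mul_one]
    ring

/-- The finite Fourier transform of a table. -/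
lemma tableR_fourier (α w : ℂ) (hw : 1 + w + w * w = 0) (y : ZMod 3) :
    ∑ r : ZMod 3, α * sgnThree r * w ^ (r * y).val = (w - w ^ 2) * (α * sgnThree y) := by
  have hw2 : w ^ 2 = -1 - w := by linear_combination hw
  have hval : ∀ i : ZMod 3, i.val = if i = 0 then 0 else if i = 1 then 1 else 2 := by decide
  rw [show ∀ g : ZMod 3 → ℂ, ∑ i, g i = g 0 + g 1 + g 2 from fun g => Fin.sum_univ_three g]
  have hy : y = 0 ∨ y = 1 ∨ y = 2 := by revert y; decide
  rcases hy with rfl | rfl | rfl <;> simp +decide [sgnThree, hval, hw2] <;> ring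

namespace LocalForm

variable {E : Type*} [Field E] {K : LocalForm E}

lemma isTame_shift (hq : K.q = 3) (hs : K.s = 0) (hp0 : K.p ≠ 0) (hp : K.ord K.p = 1) {u : E}
    (hu : u ≠ 0) (h : K.ord u = K.cond - 1) : (K.shift u hu).IsTame where
  s_eq := hs
  p_ne := hp0
  ord_p := hp
  two_ne := fun h2 => by
    have := LocalBase.res_two (K := K.toLocalBase) hq
    rw [h2, LocalBase.res_zero hq] at this
    exact absurd this (by decide)
  ord_two := by
    have h2 := (LocalBase.res_ne_zero_iff (K := K.toLocalBase) hq K.two_mem).mp (by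
      rw [LocalBase.res_two hq]; decide)
    exact h2.2
  cond_eq := shift_cond_one hu h

/-- In the tame case `p` reduces to `0`. -/
lemma res_p (hq : K.q = 3) (hp : K.ord K.p = 1) : K.res K.p = 0 :=
  (LocalBase.res_eq_zero_iff hq K.p_mem).mpr (Or.inr hp.ge)

/-- Reduction of the norm form in the tame case. -/
lemma res_n_tame (hq : K.q = 3) (hs : K.s = 0) (hp : K.ord K.p = 1) {z : E × E}
    (hz : z ∈ K.box 0 0) : K.res (K.n z) = normR (K.res z.1, K.res z.2) := by
  obtain ⟨z1, z2⟩ := LocalBase.mem_box.mp hz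
  have m : ∀ {a b : E}, a ∈ K.ball 0 → b ∈ K.ball 0 → a * b ∈ K.ball 0 := fun ha hb =>
    K.mul_mem_ball' ha hb (by norm_num)
  simp only [n, hs, normR, sq, zero_mul, add_zero, LocalBase.res_add hq (m z1 z1) (m K.p_mem (m z2 z2)),
    LocalBase.res_mul hq z1 z1, LocalBase.res_mul hq K.p_mem (m z2 z2), K.res_p hq hp, zero_mul,
    add_zero]

/-- The Fourier transform of a table. -/
theorem fourier_tableR (hq : K.q = 3) (hs : K.s = 0) (hp0 : K.p ≠ 0) (hp : K.ord K.p = 1) {u : E}
    (hu : u ≠ 0) (h : K.ord u = K.cond - 1) (α : ℂ) (y : E × E) :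
    (K.shift u hu).fourier (K.resFun normR (tableR α) 0 u) y =
      (K.zetaAt u 1 - K.zetaAt u 1 ^ 2) / 3 * K.resFun normR (tableR α) 0 u y := by
  classical
  set K' := K.shift u hu
  have hT : K'.IsTame := isTame_shift hq hs hp0 hp hu h
  have hc : K'.cond = 1 := hT.cond_eq
  have hsupp : HasSupp (K'.box 0 0) (K.resFun normR (tableR α) 0 u) := fun z hz => by
    by_contra hh; exact hz (if_neg hh)
  have hper : IsPer (K'.box 1 0) (K.resFun normR (tableR α) 0 u) := by
    intro z ρ hρ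
    have hρ0 : ρ ∈ K.box 0 0 := K.box_le (by norm_num) le_rfl hρ
    simp only [resFun]
    by_cases hz : z ∈ K.box 0 0
    · obtain ⟨r1, r2⟩ := LocalBase.mem_box.mp hρ
      obtain ⟨s1, s2⟩ := LocalBase.mem_box.mp hρ0
      obtain ⟨z1, z2⟩ := LocalBase.mem_box.mp hz
      rw [if_pos hz, if_pos (add_mem hz hρ0)]
      simp only [tableR, normR, zero_mul, Prod.fst_add, LocalBase.res_add hq z1 s1,
        (LocalBase.res_eq_zero_iff hq s1).mpr r1, add_zero]
    · rw [if_neg hz, if_neg fun h' => hz ((AddSubgroup.add_mem_cancel_right _ hρ0).mp h')]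
  have hd : K'.IsDual 1 0 0 0 := by
    refine ⟨fun z hz q hq' => ?_, fun q hq' => ?_, fun z hz => ?_⟩
    · obtain ⟨z1, z2⟩ := LocalBase.mem_box.mp hz
      obtain ⟨q1, q2⟩ := LocalBase.mem_box.mp hq'
      refine K'.χ_triv _ (K'.ball_le hc.le ?_)
      simp only [B, hT.s_eq, zero_mul, add_zero]
      exact add_mem (K'.mul_mem_ball' (K'.mul_mem_ball K'.two_mem z1) q1 (by omega))
        (K'.mul_mem_ball' (K'.mul_mem_ball (K'.mul_mem_ball K'.two_mem (Or.inr hT.ord_p.ge)) z2) q2
          (by omega))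
    · have := hT.perp (x := 1) one_ne_zero (i := 1) (j := 0) (z := q)
        (fun z hz => by rw [one_mul, K'.B_comm]; exact hq' z hz)
      simpa [K'.ord_one] using this
    · have := hT.perp (x := 1) one_ne_zero (i := 0) (j := 0) (z := z)
        (fun q hq' => by rw [one_mul]; exact hz q hq')
      simpa [K'.ord_one] using this
  by_cases hy : y ∈ K.box 0 0
  swap
  · rw [show K.resFun normR (tableR α) 0 u y = 0 from if_neg hy, mul_zero]
    by_contra hne
    exact hy (hd.fourier_supp hper hsupp y hne)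
  let r : ZMod 3 → E × E := fun i => (((i.val : ℕ) : E), 0)
  have hmem : ∀ i : ZMod 3, (((i.val : ℕ)) : E) ∈ K.ball 0 := fun i => by
    simpa using K.intCast_mem_ball (i.val : ℤ)
  have hres : ∀ i : ZMod 3, K.res (((i.val : ℕ)) : E) = i := fun i => by
    simpa using LocalBase.res_intCast (K := K.toLocalBase) hq (i.val : ℤ)
  have hrb : ∀ i, r i ∈ K.box 0 0 := fun i => LocalBase.mem_box.mpr ⟨hmem _, zero_mem _⟩
  have hgper : IsPer (K'.box 1 0)
      fun z => K.resFun normR (tableR α) 0 u z * K'.χ (-K'.B z y) := fun z ρ hρ => by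
    simp only
    rw [hper z ρ hρ, K'.B_add_left, neg_add, AddChar.map_add_eq_mul,
      K'.chi_neg (hd.pair ρ hρ y hy), mul_one]
  have hgsupp : HasSupp (K'.box 0 0)
      fun z => K.resFun normR (tableR α) 0 u z * K'.χ (-K'.B z y) := fun z hz =>
    hsupp z (left_ne_zero_of_mul hz)
  obtain ⟨y1, y2⟩ := LocalBase.mem_box.mp hy
  rw [fourier, integral_eq (K'.isLat_box 1 0) (K'.isLat_box 0 0) hgper hgsupp,
    sumOver_eq_sum r ?_ hgper ?_, K'.vol_box]
  · have hterm : ∀ i, K.resFun normR (tableR α) 0 u (r i) * K'.χ (-K'.B (r i) y) =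
        α * sgnThree i * K'.zeta 1 ^ (i * K.res y.1).val := by
      intro i
      have hB : K.B (r i) y = 2 * ((i.val : ℕ) : E) * y.1 := by simp [B, r, hs]
      have hBm : K.B (r i) y ∈ K.ball 0 := by
        rw [hB]; exact K.mul_mem_ball' (K.mul_mem_ball K.two_mem (hmem i)) y1 (by norm_num)
      rw [show K'.B = K.B from rfl, chi_eq_zeta (K := K') hq hc (neg_mem hBm)]
      simp only [resFun, if_pos (hrb i), r, hres, zero_mul, zetaAt, ZMod.val_zero, Nat.cast_zero,
        mul_zero, AddChar.map_zero_eq_one, mul_one, tableR]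
      congr 1
      have e : K.res (-K.B (r i) y) = i * K.res y.1 := by
        rw [LocalBase.res_neg hq hBm, hB, LocalBase.res_mul hq
          (K.mul_mem_ball' K.two_mem (hmem i) (by norm_num)) y1,
          LocalBase.res_mul hq K.two_mem (hmem i), LocalBase.res_two hq, hres]
        generalize K.res y.1 = a
        revert a; clear hB hBm; revert i; decide
      rw [show K'.res (-K.B (((i.val : ℕ) : E), (0 : E)) y) = _ from e]
      generalize i * K.res y.1 = t
      fin_cases t
      · exact (zeta_zero (K := K')).trans (pow_zero _).symm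
      · exact (pow_one _).symm
      · exact (zeta_two (K := K') hq hc).trans (sq _).symm
    rw [Finset.sum_congr rfl fun i _ => hterm i,
      tableR_fourier α _ (zeta_sum (K := K') hq hc) (K.res y.1),
      show K'.zeta 1 = K.zetaAt u 1 from rfl]
    have hRHS : K.resFun normR (tableR α) 0 u y = α * sgnThree (K.res y.1) := by
      simp [resFun, hy, tableR, zetaAt]
    rw [hRHS]
    show ((((K.q : ℕ) : ℂ)) ^ ((1 : ℤ) + 0))⁻¹ * _ = _
    rw [hq]
    norm_num
    ring
  · intro i i' hii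
    have e1 := LocalBase.res_congr hq (hmem i') (LocalBase.mem_box.mp hii).1
    rwa [hres, hres] at e1
  · intro z hz
    obtain ⟨z1, z2⟩ := LocalBase.mem_box.mp (hgsupp z hz)
    exact ⟨K.res z.1,
      LocalBase.mem_box.mpr ⟨LocalBase.res_spec hq z1, by simpa [r] using z2⟩⟩

/-- The base Gauss value. -/
lemma gauss_base_tame (hq : K.q = 3) (hs : K.s = 0) (hp0 : K.p ≠ 0) (hp : K.ord K.p = 1) {u : E}
    (hu : u ≠ 0) (h : K.ord u = K.cond - 1) {x : E} (hx : x ≠ 0) (hord : K.ord x = -1) :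
    (K.shift u hu).gauss x (K.box 1 0) =
      sgnThree (K.res (x * K.p)) * (K.zetaAt u 1 - K.zetaAt u 1 ^ 2) / 9 := by
  classical
  set K' := K.shift u hu
  have hT : K'.IsTame := isTame_shift hq hs hp0 hp hu h
  have hc : K'.cond = 1 := hT.cond_eq
  set g : E × E → ℂ := fun t => if t ∈ K'.box 1 0 then K'.χ (x * K'.n t) else 0 with hg
  have hxp : K.ord (x * K.p) = 0 := by rw [K.ord_mul hx hp0, hord, hp]; rfl
  have hxb : x ∈ K'.ball (-1) := Or.inr hord.ge
  have hper : IsPer (K'.box 1 1) g := by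
    intro z ρ hρ
    have hρ0 : ρ ∈ K'.box 1 0 := K'.box_le le_rfl zero_le_one hρ
    by_cases hz : z ∈ K'.box 1 0
    · simp only [hg, if_pos hz, if_pos (add_mem hz hρ0)]
      obtain ⟨z1, z2⟩ := LocalBase.mem_box.mp hz
      obtain ⟨r1, r2⟩ := LocalBase.mem_box.mp hρ
      rw [K'.n_add, mul_add, mul_add, AddChar.map_add_eq_mul, AddChar.map_add_eq_mul,
        K'.χ_triv (x * K'.n ρ) (K'.mul_mem_ball' hxb (hT.n_mem (l := 2) hρ (by omega) (by omega))
          (by omega)),
        K'.χ_triv (x * K'.B z ρ) (K'.mul_mem_ball' hxb (l := 2) (by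
          simp only [B, hT.s_eq, zero_mul, add_zero]
          exact add_mem (K'.mul_mem_ball' (K'.mul_mem_ball K'.two_mem z1) r1 (by omega))
            (K'.mul_mem_ball' (K'.mul_mem_ball (K'.mul_mem_ball K'.two_mem (Or.inr hT.ord_p.ge)) z2)
              r2 (by omega))) (by omega)), mul_one, mul_one]
    · simp only [hg, if_neg hz,
        if_neg fun h' => hz ((AddSubgroup.add_mem_cancel_right _ hρ0).mp h')]
  have hsupp : HasSupp (K'.box 1 0) g := fun z hz => by by_contra hh; exact hz (if_neg hh)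
  let r : ZMod 3 → E × E := fun i => (0, ((i.val : ℕ) : E))
  have hmem : ∀ i : ZMod 3, (((i.val : ℕ)) : E) ∈ K.ball 0 := fun i => by
    simpa using K.intCast_mem_ball (i.val : ℤ)
  have hres : ∀ i : ZMod 3, K.res (((i.val : ℕ)) : E) = i := fun i => by
    simpa using LocalBase.res_intCast (K := K.toLocalBase) hq (i.val : ℤ)
  have hrb : ∀ i, r i ∈ K'.box 1 0 := fun i => LocalBase.mem_box.mpr ⟨zero_mem _, hmem _⟩
  rw [show K'.gauss x (K.box 1 0) = integral K'.base g from rfl,
    integral_eq (K'.isLat_box 1 1) (K'.isLat_box 1 0) hper hsupp, sumOver_eq_sum r ?_ hper ?_,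
    K'.vol_box]
  · have hterm : ∀ i, g (r i) = K'.zeta (K.res (x * K.p) * i ^ 2) := fun i => by
      simp only [hg, if_pos (hrb i)]
      rw [show x * K'.n (r i) = x * K.p * (((i.val : ℕ) : E) * ((i.val : ℕ) : E)) by
        simp only [n, r, hT.s_eq]; simp [show K'.p = K.p from rfl]; ring]
      have hm2 := K.mul_mem_ball' (hmem i) (hmem i) (m := 0) (by norm_num)
      rw [chi_eq_zeta (K := K') hq hc (K'.mul_mem_ball' (Or.inr hxp.ge) hm2 (by norm_num))]
      congr 1
      show K.res _ = _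
      rw [LocalBase.res_mul hq (Or.inr hxp.ge) hm2, LocalBase.res_mul hq (hmem i) (hmem i), hres, sq]
    rw [Finset.sum_congr rfl fun i _ => hterm i,
      show ∀ g : ZMod 3 → ℂ, ∑ i, g i = g 0 + g 1 + g 2 from fun g => Fin.sum_univ_three g]
    have hw : 1 + K.zetaAt u 1 + K.zetaAt u 1 * K.zetaAt u 1 = 0 := zeta_sum (K := K') hq hc
    have h2 : K'.zeta 2 = K.zetaAt u 1 ^ 2 := (zeta_two (K := K') hq hc).trans (sq _).symm
    show ((((K.q : ℕ) : ℂ)) ^ ((1 : ℤ) + 1))⁻¹ * _ = _
    rw [hq]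
    have hne : K.res (x * K.p) = 1 ∨ K.res (x * K.p) = 2 := by
      have := LocalBase.res_unit hq hxp (mul_ne_zero hx hp0)
      generalize K.res (x * K.p) = t at this ⊢
      revert t; decide
    have e1 : K'.zeta 1 = K.zetaAt u 1 := rfl
    rcases hne with e | e <;>
      simp +decide [e, sgnThree, h2, e1, zeta_zero (K := K'),
        show ((2 : ZMod 3) ^ 2) = 1 by decide] <;>
      linear_combination ((1 : ℂ) / 9) * hw
  · intro i i' hii
    have e1 := LocalBase.res_congr hq (hmem i') (LocalBase.mem_box.mp hii).2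
    rwa [hres, hres] at e1
  · intro z hz
    obtain ⟨z1, z2⟩ := LocalBase.mem_box.mp (hsupp z hz)
    exact ⟨K.res z.2,
      LocalBase.mem_box.mpr ⟨by simpa [r] using z1, LocalBase.res_spec hq z2⟩⟩

lemma zetaAt_diff_unit (hq : K.q = 3) {u v : E} (hu : u ≠ 0) (h : K.ord u = K.cond - 1)
    (hv : v ≠ 0) (hv0 : K.ord v = 0) :
    K.zetaAt (u * v) 1 - K.zetaAt (u * v) 1 ^ 2 =
      sgnThree (K.res v) * (K.zetaAt u 1 - K.zetaAt u 1 ^ 2) := by
  have hr := LocalBase.res_unit hq hv0 hv
  rw [zetaAt_unit hq hu h hv0, mul_one]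
  have hne : K.res v = 1 ∨ K.res v = 2 := by generalize K.res v = t at hr; revert t; decide
  have h2 : K.zetaAt u 2 = K.zetaAt u 1 * K.zetaAt u 1 :=
    zeta_two (K := K.shift u hu) hq (shift_cond_one hu h)
  have hw : 1 + K.zetaAt u 1 + K.zetaAt u 1 * K.zetaAt u 1 = 0 :=
    zeta_sum (K := K.shift u hu) hq (shift_cond_one hu h)
  rcases hne with e | e <;> simp +decide [e, sgnThree, h2]
  linear_combination (K.zetaAt u 1 - K.zetaAt u 1 ^ 2) * hw

lemma lam_tame (hq : K.q = 3) {η : E → ℂ}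
    (η_mul : ∀ {a b : E}, a ≠ 0 → b ≠ 0 → η (a * b) = η a * η b)
    (hη : ∀ a : E, a ≠ 0 → K.ord a = 0 → η a = sgnThree (K.res a)) {u : E} (hu : u ≠ 0)
    (h : K.ord u = K.cond - 1) :
    η (-u) * K.absv u * ((K.zetaAt u 1 - K.zetaAt u 1 ^ 2) / 3) =
      η (-(K.unif ^ (K.cond - 1))) * K.absv (K.unif ^ (K.cond - 1)) *
        ((K.zetaAt (K.unif ^ (K.cond - 1)) 1 - K.zetaAt (K.unif ^ (K.cond - 1)) 1 ^ 2) / 3) := by
  set u0 := K.unif ^ (K.cond - 1)
  have h00 : u0 ≠ 0 := zpow_ne_zero _ K.unif_ne_zero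
  have h0 : K.ord u0 = K.cond - 1 := K.ord_unif_zpow _
  have hv : u / u0 ≠ 0 := div_ne_zero hu h00
  have hv0 : K.ord (u / u0) = 0 := by
    rw [div_eq_mul_inv, K.ord_mul hu (inv_ne_zero h00), K.ord_inv h00, h, h0]; omega
  have e : u = u0 * (u / u0) := by field_simp
  generalize hvdef : u / u0 = v at e hv hv0
  subst e
  rw [← neg_mul, η_mul (neg_ne_zero.mpr h00) hv, hη v hv hv0, K.absv_mul h00 hv, K.absv_unit hv0,
    zetaAt_diff_unit hq h00 h0 hv hv0]
  linear_combination (η (-u0) * K.absv u0 * ((K.zetaAt u0 1 - K.zetaAt u0 1 ^ 2) / 3)) *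
    sgnThree_sq (LocalBase.res_unit hq hv0 hv)

end LocalForm

open LocalForm in
/-- The tamely ramified model. -/
noncomputable def ResModel.tame {E : Type*} [Field E] {K : LocalForm E} {η : E → ℂ}
    (hq : K.q = 3) (hs : K.s = 0) (hp0 : K.p ≠ 0) (hp : K.ord K.p = 1)
    (η_mul : ∀ {a b : E}, a ≠ 0 → b ≠ 0 → η (a * b) = η a * η b)
    (η_sq : ∀ {a : E}, a ≠ 0 → η a * η a = 1) (hηp : η K.p = 1)
    (hη : ∀ a : E, a ≠ 0 → K.ord a = 0 → η a = sgnThree (K.res a)) (α : ℂ) : ResModel K η where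
  η_mul := η_mul
  η_sq := η_sq
  q_eq := hq
  etaRes := sgnThree
  eta_unit := hη
  la := 1
  lb := 0
  la_nonneg := zero_le_one
  lb_nonneg := le_rfl
  N := normR
  f := tableR α
  per_res z hz ρ hρ := by
    obtain ⟨r1, -⟩ := LocalBase.mem_box.mp hρ
    simp only [tableR, normR, (LocalBase.res_eq_zero_iff hq (K.ball_le (by norm_num) r1)).mpr r1,
      add_zero, and_self]
  n_eq z hz _ := K.res_n_tame hq hs hp hz
  homog s r hs' := by
    refine ⟨by simp only [tableR, sgnThree_mul]; ring, ?_⟩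
    have key : ∀ s a : ZMod 3, s ≠ 0 → (s * a) ^ 2 = a ^ 2 := by decide
    exact key s r.1 hs'
  mu u := (K.zetaAt u 1 - K.zetaAt u 1 ^ 2) / 3
  fourier_eq u hu h j y := by
    have e : K.resFun normR (tableR α) j u =
        K.resFun normR (tableR (α * K.zetaAt u j)) 0 u := by
      funext z
      simp only [LocalForm.resFun]
      split_ifs
      · rw [tableR_twist, zero_mul]
        simp [LocalForm.zetaAt]
      · rfl
    rw [e]
    exact K.fourier_tableR hq hs hp0 hp hu h _ y
  lam := η (-(K.unif ^ (K.cond - 1))) * K.absv (K.unif ^ (K.cond - 1)) *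
    ((K.zetaAt (K.unif ^ (K.cond - 1)) 1 - K.zetaAt (K.unif ^ (K.cond - 1)) 1 ^ 2) / 3)
  lam_eq u hu h := K.lam_tame hq @η_mul hη hu h
  fourier_phase φ hper hsupp x u hu hx hm h y :=
    (isTame_shift hq hs hp0 hp hu h).fourier_tame (k := 0) hper hsupp hx hm y
  gauss_val x u hu hx hm h := by
    have hT := isTame_shift hq hs hp0 hp hu h
    obtain ⟨m, hmq⟩ : ∃ m : ℕ, K.ord x = -((m : ℤ) + 1) := ⟨(-K.ord x - 1).toNat, by omega⟩
    have hηp' : ∀ x, η (x * K.p) = η x ∨ x = 0 := fun x =>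
      (eq_or_ne x 0).symm.imp (fun hx => by rw [η_mul hx hp0, hηp, mul_one]) id
    set w := (K.zetaAt u 1 - K.zetaAt u 1 ^ 2) / 3
    have hG := hT.gauss_tame (η := η) (lam := w)
      (fun x => (hηp' x).elim id fun hx => by subst hx; exact congrArg η (zero_mul _))
      (fun x' hx' ho => by
        have hxp : K.ord (x' * K.p) = 0 := by
          rw [K.ord_mul hx' hp0, hp, show K.ord x' = -1 from ho]; rfl
        refine (K.gauss_base_tame hq hs hp0 hp hu h hx' ho).trans ?_
        rw [← (hηp' x').resolve_right hx', hη _ (mul_ne_zero hx' hp0) hxp]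
        show _ = _ * ((((K.q : ℕ) : ℂ)))⁻¹
        rw [hq]
        simp only [w]
        push_cast
        ring) m x hx hmq
    rw [show (K.shift u hu).gauss x (K.box 1 0) = _ from hG]
    have hl := K.lam_tame hq @η_mul hη hu h
    rw [← hl, ← neg_one_mul u, ← neg_one_mul x, η_mul (by simp) hu, η_mul (by simp) hx,
      LocalForm.absv, LocalForm.absv, hmq, neg_neg, show (K.shift u hu).q = K.q from rfl, ← zpow_natCast (((K.q : ℂ))⁻¹) (m + 1),
      inv_zpow]
    push_cast
    linear_combination -(η u * (K.q : ℂ) ^ (-K.ord u) * w * η x * ((K.q : ℂ) ^ ((m : ℤ) + 1))⁻¹) *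
      η_sq (show (-1 : E) ≠ 0 by simp)

end Fermat.Agent.LT.DihedralTheta
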