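import Fermat.Agent.LT.DihedralTheta.Cases

/-!
# Base values by residue sums

Averaging a Gauss integral of valuation `-1` over the multiples of its argument counts the
isotropic residue vectors; this gives the inert value `-1 / q`.
-/

set_option autoImplicit false

open AddSubgroup

namespace Fermat.Agent.LT.DihedralTheta

namespace LocalForm

variable {E : Type*} [Field E] (K : LocalForm E)

/-- Representatives of the residue ring. -/
abbrev Res : Type _ := K.ball 0 ⧸ (K.ball 1).addSubgroupOf (K.ball 0)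

/-- The residue set is finite. -/
lemma finite_res : Finite K.Res :=
  (Nat.card_pos_iff.mp (Nat.pos_of_ne_zero (by
    have h := K.relIndex_ball_succ 0
    rw [zero_add, relIndex, AddSubgroup.index] at h
    rw [h]; exact K.q_pos.ne'))).2

/-- The residue set has `q` elements. -/
lemma card_res : Nat.card K.Res = K.q := by
  have h := K.relIndex_ball_succ 0
  rwa [zero_add, relIndex, AddSubgroup.index] at h

/-- Orthogonality on the residue ring. -/
lemma sum_char [Fintype K.Res] {a : E} (ha : a ∈ K.ball (K.cond - 1)) [Decidable (a ∈ K.ball K.cond)] :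
    ∑ t : K.Res, K.χ (a * (t.out : E)) = if a ∈ K.ball K.cond then (K.q : ℂ) else 0 := by
  split_ifs with h
  · have : ∀ t : K.Res, K.χ (a * (t.out : E)) = 1 := fun t =>
      K.χ_triv _ (K.mul_mem_ball' h t.out.2 (by omega))
    rw [Finset.sum_congr rfl fun t _ => this t]
    simp [← Nat.card_eq_fintype_card, K.card_res]
  · obtain ⟨c, hc, hχ⟩ : ∃ c ∈ K.ball 0, K.χ (a * c) ≠ 1 := by
      by_contra hh
      push Not at hh
      exact h (by simpa using K.mem_ball_of_char hh)
    let γ : K.Res := ((⟨c, hc⟩ : K.ball 0) : K.Res)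
    have hshift : ∀ t : K.Res, K.χ (a * ((t + γ).out : E)) = K.χ (a * c) * K.χ (a * (t.out : E)) := by
      intro t
      obtain ⟨p, hp⟩ := QuotientAddGroup.mk_out_eq_add ((K.ball 1).addSubgroupOf (K.ball 0))
        (t.out + ⟨c, hc⟩)
      rw [QuotientAddGroup.mk_add, QuotientAddGroup.out_eq'] at hp
      rw [hp]
      simp only [AddSubgroup.coe_add, mul_add, AddChar.map_add_eq_mul]
      rw [K.χ_triv _ (K.mul_mem_ball' ha (AddSubgroup.mem_addSubgroupOf.mp p.2) (by omega))]
      ring
    set T := ∑ t : K.Res, K.χ (a * (t.out : E)) with hT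
    have : T = K.χ (a * c) * T := by
      rw [hT, Finset.mul_sum]
      exact (Fintype.sum_equiv (Equiv.addRight γ) _ _ fun t => (hshift t).symm).symm
    have h0 : (K.χ (a * c) - 1) * T = 0 := by linear_combination -this
    exact (mul_eq_zero.mp h0).resolve_left (sub_ne_zero.mpr hχ)

open Classical in
/-- The average of the Gauss integrals of all multiples of `x` counts isotropic residue vectors. -/
lemma sum_gauss [Fintype K.Res] {x : E} (_hx : x ≠ 0) {a b : ℤ} (ha : a ≤ 1) (hb : b ≤ 1)
    (hone : ∀ z ∈ K.box a b, x * K.n z ∈ K.ball (K.cond - 1))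
    (hB : ∀ z ∈ K.box a b, ∀ ρ ∈ K.box 1 1, x * K.B z ρ ∈ K.ball K.cond)
    (hn : ∀ ρ ∈ K.box 1 1, x * K.n ρ ∈ K.ball K.cond)
    (haniso : ∀ z ∈ K.box a b, x * K.n z ∈ K.ball K.cond → z ∈ K.box 1 1) :
    ∑ t : K.Res, K.gauss (x * (t.out : E)) (K.box a b) = K.q * vol K.base (K.box 1 1) := by
  have hle : K.box 1 1 ≤ K.box a b := K.box_le ha hb
  have hcast : ∀ (t : K.Res) (z : E × E), x * (t.out : E) * K.n z = x * K.n z * (t.out : E) :=
    fun t z => by ring
  have hper : ∀ t : K.Res, IsPer (K.box 1 1)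
      (fun z => if z ∈ K.box a b then K.χ (x * (t.out : E) * K.n z) else 0) := by
    intro t z ρ hρ
    simp only [AddSubgroup.add_mem_cancel_right _ (hle hρ)]
    split_ifs with hz
    · simp only [hcast]
      simp only [K.n_add, mul_add, add_mul, AddChar.map_add_eq_mul]
      rw [K.χ_triv (x * K.n ρ * t.out) (K.mul_mem_ball' (hn ρ hρ) t.out.2 (by omega)),
        K.χ_triv (x * K.B z ρ * t.out) (K.mul_mem_ball' (hB z hz ρ hρ) t.out.2 (by omega))]
      ring
    · rfl
  have hsupp : ∀ t : K.Res, HasSupp (K.box a b)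
      (fun z => if z ∈ K.box a b then K.χ (x * (t.out : E) * K.n z) else 0) := fun t z hz => by
    by_contra h; exact hz (if_neg h)
  have hg : ∀ t : K.Res, K.gauss (x * (t.out : E)) (K.box a b) = vol K.base (K.box 1 1) *
      sumOver (K.box 1 1) (fun z => if z ∈ K.box a b then K.χ (x * (t.out : E) * K.n z) else 0) :=
    fun t => integral_eq (K.isLat_box 1 1) (K.isLat_box a b) (hper t) (hsupp t)
  rw [Finset.sum_congr rfl fun t _ => hg t, ← Finset.mul_sum, mul_comm (K.q : ℂ)]
  congr 1
  simp only [sumOver]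
  rw [← finsum_sum_comm _ _ fun t _ => finite_support (K.isLat_box 1 1) (K.isLat_box a b) (hsupp t)]
  rw [finsum_eq_single _ (0 : (E × E) ⧸ K.box 1 1)]
  · have h0 : (0 : (E × E) ⧸ K.box 1 1).out ∈ K.box 1 1 := by
      rw [← QuotientAddGroup.eq_zero_iff, QuotientAddGroup.out_eq']
    simp only [if_pos (hle h0)]
    rw [Finset.sum_congr rfl fun t _ => congrArg K.χ (hcast t _), K.sum_char (hone _ (hle h0)),
      if_pos (hn _ h0)]
  · intro c hc
    by_cases hz : c.out ∈ K.box a b
    · simp only [if_pos hz]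
      rw [Finset.sum_congr rfl fun t _ => congrArg K.χ (hcast t _), K.sum_char (hone _ hz),
        if_neg fun hh => hc (by
          rw [← QuotientAddGroup.out_eq' c]
          exact (QuotientAddGroup.eq_zero_iff _).mpr (haniso _ hz hh))]
    · simp [if_neg hz]

/-- The character depends on its argument only modulo the conductor. -/
lemma chi_congr {x t t' : E} (h : x * (t - t') ∈ K.ball K.cond) : K.χ (x * t) = K.χ (x * t') := by
  have := K.χ_triv _ h
  rw [mul_sub, AddChar.map_sub_eq_div, div_eq_one_iff_eq] at this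
  · exact this
  · exact (K.χ.val_isUnit _).ne_zero

/-- A Gauss integral depends on its argument modulo the dual of the values of `n`. -/
lemma gauss_congr {x x' : E} {a b : ℤ}
    (h : ∀ z ∈ K.box a b, (x - x') * K.n z ∈ K.ball K.cond) :
    K.gauss x (K.box a b) = K.gauss x' (K.box a b) := by
  classical
  rw [gauss, gauss]
  congr 1
  funext z
  split_ifs with hz
  · have := K.χ_triv _ (h z hz)
    rw [sub_mul, AddChar.map_sub_eq_div, div_eq_one_iff_eq] at this
    · exact this
    · exact (K.χ.val_isUnit _).ne_zero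
  · rfl

/-- Multiplication by `w`. -/
def mulEquiv (w : E × E) (hw : K.n w ≠ 0) : E × E ≃+ E × E where
  toFun z := (w.1 * z.1 - K.p * w.2 * z.2, w.1 * z.2 + w.2 * z.1 + K.s * w.2 * z.2)
  invFun z := ((K.n w)⁻¹ * ((w.1 + K.s * w.2) * z.1 + K.p * w.2 * z.2),
    (K.n w)⁻¹ * (w.1 * z.2 - w.2 * z.1))
  left_inv z := by
    refine Prod.ext ?_ ?_ <;> simp only <;> rw [inv_mul_eq_iff_eq_mul₀ hw] <;> simp only [n] <;> ring
  right_inv z := by
    refine Prod.ext ?_ ?_ <;> simp only
    · calc _ = (K.n w)⁻¹ * (K.n w * z.1) := by simp only [n]; ring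
        _ = z.1 := inv_mul_cancel_left₀ hw _
    · calc _ = (K.n w)⁻¹ * (K.n w * z.2) := by simp only [n]; ring
        _ = z.2 := inv_mul_cancel_left₀ hw _
  map_add' z z' := by
    refine Prod.ext ?_ ?_ <;> simp only [Prod.fst_add, Prod.snd_add] <;> ring

/-- Multiplication by `w` scales the norm form by the norm of `w`. -/
lemma n_mulEquiv (w : E × E) (hw : K.n w ≠ 0) (z : E × E) :
    K.n (K.mulEquiv w hw z) = K.n w * K.n z := by
  show K.n (_, _) = _
  simp only [n]; ring

lemma comap_mulEquiv {w : E × E} (hw : K.n w ≠ 0) (hw0 : w ∈ K.box 0 0)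
    (hu : K.ord (K.n w) = 0) (r : ℤ) :
    (K.box r r).comap (K.mulEquiv w hw).toAddMonoidHom = K.box r r := by
  obtain ⟨h1, h2⟩ := LocalBase.mem_box.mp hw0
  have hinv : ∀ y ∈ K.ball r, (K.n w)⁻¹ * y ∈ K.ball r := fun y hy => by
    rw [K.mul_mem_ball_iff (inv_ne_zero hw), K.ord_inv hw, hu]; simpa using hy
  ext z
  constructor
  · intro hz
    obtain ⟨e1, e2⟩ := LocalBase.mem_box.mp hz
    set y := K.mulEquiv w hw z with hy
    have : z = (K.mulEquiv w hw).symm y := ((K.mulEquiv w hw).symm_apply_apply z).symm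
    rw [this]
    refine LocalBase.mem_box.mpr ⟨hinv _ ?_, hinv _ ?_⟩
    · exact add_mem (K.mul_mem_ball' (add_mem h1 (K.mul_mem_ball' K.s_mem h2 (by omega))) e1 (by omega))
        (K.mul_mem_ball' (K.mul_mem_ball K.p_mem h2) e2 (by omega))
    · exact sub_mem (K.mul_mem_ball' h1 e2 (by omega)) (K.mul_mem_ball' h2 e1 (by omega))
  · intro hz
    obtain ⟨e1, e2⟩ := LocalBase.mem_box.mp hz
    refine LocalBase.mem_box.mpr ⟨?_, ?_⟩
    · exact sub_mem (K.mul_mem_ball' h1 e1 (by omega))
        (K.mul_mem_ball' (K.mul_mem_ball K.p_mem h2) e2 (by omega))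
    · exact add_mem (add_mem (K.mul_mem_ball' h1 e2 (by omega)) (K.mul_mem_ball' h2 e1 (by omega)))
        (K.mul_mem_ball' (K.mul_mem_ball K.s_mem h2) e2 (by omega))

/-- The inert base value. -/
theorem gauss_base_inert (hc : K.cond = 0)
    (haniso : ∀ z ∈ K.box 0 0, K.n z ∈ K.ball 1 → z ∈ K.box 1 1)
    (hsurj : ∀ t ∈ K.ball 0, t ∉ K.ball 1 → ∃ w ∈ K.box 0 0, K.n w - t ∈ K.ball 1)
    (hq : 2 ≤ K.q) {x : E} (hx : x ≠ 0) (hord : K.ord x = -1) :
    K.gauss x (K.box 0 0) = -1 / K.q := by
  classical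
  have := K.finite_res
  have := Fintype.ofFinite K.Res
  have hxb : x ∈ K.ball (-1) := Or.inr hord.ge
  have hsum := K.sum_gauss (a := 0) (b := 0) hx (by norm_num) (by norm_num)
    (fun z hz => K.mul_mem_ball' hxb (K.n_mem hz) (by omega))
    (fun z hz ρ hρ => K.mul_mem_ball' hxb (K.B_mem hz hρ) (by omega))
    (fun ρ hρ => K.mul_mem_ball' hxb (K.n_mem hρ) (by omega))
    (fun z hz h => haniso z hz (by rw [K.mul_mem_ball_iff hx, hord, hc] at h; simpa using h))
  have key : ∀ t : K.Res, t ≠ 0 →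
      K.gauss (x * (t.out : E)) (K.box 0 0) = K.gauss x (K.box 0 0) := by
    intro t ht
    have ht1 : (t.out : E) ∉ K.ball 1 := fun h => ht (by
      rw [← QuotientAddGroup.out_eq' t]
      exact (QuotientAddGroup.eq_zero_iff _).mpr (AddSubgroup.mem_addSubgroupOf.mpr h))
    obtain ⟨w, hw0, hwt⟩ := hsurj _ t.out.2 ht1
    have hnot : K.n w ∉ K.ball 1 := fun h => ht1 (by simpa using sub_mem h hwt)
    have hne : K.n w ≠ 0 := fun h => hnot (h ▸ zero_mem _)
    have hu : K.ord (K.n w) = 0 := le_antisymm (not_lt.mp fun h => hnot (Or.inr (by omega)))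
      ((K.n_mem hw0).resolve_left hne)
    rw [K.gauss_congr (x' := x * K.n w) fun z hz => by
        rw [← mul_sub, mul_assoc]
        refine K.mul_mem_ball' hxb (K.mul_mem_ball (k := 1) (l := 0) ?_ ?_) (by omega)
        · simpa using neg_mem hwt
        · simpa using K.n_mem hz]
    have h := K.gauss_comap x (x * K.n w) (K.mulEquiv w hne)
      (fun z => by rw [K.n_mulEquiv, mul_assoc]) 0 0 0 0 (K.comap_mulEquiv hne hw0 hu 0) 0 0
      (fun r => by rw [K.comap_mulEquiv hne hw0 hu r]; simp)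
    simpa using h
  have h0 : K.gauss (x * ((0 : K.Res).out : E)) (K.box 0 0) = 1 := by
    have : ((0 : K.Res).out : E) ∈ K.ball 1 := by
      refine AddSubgroup.mem_addSubgroupOf.mp ?_
      rw [← QuotientAddGroup.eq_zero_iff, QuotientAddGroup.out_eq']
    rw [K.gauss_eq_vol fun z hz => K.χ_triv _
      (K.mul_mem_ball' (K.mul_mem_ball hxb this) (K.n_mem hz) (by omega)), K.vol_box]
    simp
  rw [← Finset.add_sum_erase _ _ (Finset.mem_univ (0 : K.Res)), h0,
    Finset.sum_congr rfl fun t ht => key t (Finset.ne_of_mem_erase ht), Finset.sum_const,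
    Finset.card_erase_of_mem (Finset.mem_univ _), Finset.card_univ, ← Nat.card_eq_fintype_card,
    K.card_res, nsmul_eq_mul, K.vol_box, Nat.cast_sub (by omega), Nat.cast_one] at hsum
  set G := K.gauss x (K.box 0 0)
  have hq0 := K.q_ne_zero
  have hq1 : (K.q : ℂ) - 1 ≠ 0 := sub_ne_zero.mpr (by exact_mod_cast (show K.q ≠ 1 by omega))
  rw [show ((1 : ℤ) + 1) = 2 from rfl, zpow_two] at hsum
  field_simp at hsum
  have : ((K.q : ℂ) - 1) * (G * K.q + 1) = 0 := by linear_combination hsum
  rw [eq_div_iff hq0]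
  linear_combination (mul_eq_zero.mp this).resolve_left hq1

end LocalForm

end Fermat.Agent.LT.DihedralTheta
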