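import Fermat.Agent.LT.DihedralTheta.Vec

/-!
# The spherical vector at an unramified place
-/

set_option autoImplicit false

open AddSubgroup

namespace Fermat.Agent.LT.DihedralTheta

variable {E : Type*} [Field E] (K : LocalForm E)

namespace LocalForm

open Classical in
/-- The spherical function: the indicator of the unit box, with similitude valuation `cond`. -/
noncomputable def sphFun (z : E × E) (u : E) : ℂ :=
  if z ∈ K.box 0 0 ∧ u ≠ 0 ∧ K.ord u = K.cond then 1 else 0

/-- Shifting by an element of order the conductor gives conductor `0`. -/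
lemma shift_cond_zero {u : E} (hu : u ≠ 0) (h : K.ord u = K.cond) : (K.shift u hu).cond = 0 := by
  show K.cond - K.ord u = 0
  omega

lemma isDual_base (hD : K.disc ≠ 0) (hD0 : K.ord K.disc = 0) {u : E} (hu : u ≠ 0)
    (h : K.ord u = K.cond) : (K.shift u hu).IsDual 0 0 0 0 := by
  set K' := K.shift u hu
  have hc : K'.cond = 0 := K.shift_cond_zero hu h
  have hperp : ∀ z, (∀ y ∈ K'.box 0 0, K'.χ (K'.B z y) = 1) → z ∈ K'.box 0 0 := fun z hz => by
    have := K'.perp_unram hD hD0 (x := 1) one_ne_zero (j := 0) (z := z)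
      (fun q hq => by rw [one_mul]; exact hz q hq)
    simpa [hc, K'.ord_one] using this
  exact ⟨fun z hz y hy => K'.χ_triv _ (K'.ball_le (by omega) (K'.B_mem hz hy)),
    fun y hy => hperp y fun z hz => by rw [K'.B_comm]; exact hy z hz, hperp⟩

open Classical in
lemma fourier_base (hD : K.disc ≠ 0) (hD0 : K.ord K.disc = 0) {u : E} (hu : u ≠ 0)
    (h : K.ord u = K.cond) (y : E × E) :
    (K.shift u hu).fourier (fun z => if z ∈ K.box 0 0 then 1 else 0) y =
      if y ∈ K.box 0 0 then 1 else 0 := by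
  set K' := K.shift u hu
  have hd := K.isDual_base hD hD0 hu h
  have hper : IsPer (K'.box 0 0) (fun z : E × E => if z ∈ K'.box 0 0 then (1 : ℂ) else 0) :=
    fun z p hp => by simp only [AddSubgroup.add_mem_cancel_right _ hp]
  have hsupp : HasSupp (K'.box 0 0) (fun z : E × E => if z ∈ K'.box 0 0 then (1 : ℂ) else 0) :=
    fun z hz => by by_contra hh; exact hz (if_neg hh)
  split_ifs with hy
  · rw [LocalForm.fourier]
    have : (fun z => (if z ∈ K.box 0 0 then (1 : ℂ) else 0) * K'.χ (-K'.B z y)) =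
        fun z => if z ∈ K'.box 0 0 then (1 : ℂ) else 0 := by
      funext z
      show (if z ∈ K'.box 0 0 then (1 : ℂ) else 0) * _ = _
      split_ifs with hz
      · rw [K'.chi_neg (hd.pair z hz y hy), one_mul]
      · rw [zero_mul]
    rw [this, integral_indicator (K'.isLat_box 0 0), K'.vol_box]
    simp
  · by_contra hne
    exact hy (hd.fourier_supp hper hsupp y hne)

/-- The unramified hypotheses, with `ε` the value of the central character at a uniformiser. -/
structure IsUnram (η : E → ℂ) (ε : ℂ) : Prop where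
  disc_ne : K.disc ≠ 0
  disc_ord : K.ord K.disc = 0
  eps_sq : ε ^ 2 = 1
  eta : ∀ a : E, a ≠ 0 → η a = ε ^ K.ord a
  base : ∀ (u : E) (hu : u ≠ 0), K.ord u = K.cond → ∀ x : E, x ≠ 0 → K.ord x = -1 →
    (K.shift u hu).gauss x (K.box 0 0) = ε / K.q

/-- An inert place with the quadratic character is unramified with sign `-1`. -/
lemma isUnram_inert {η : E → ℂ} (hD : K.disc ≠ 0) (hD0 : K.ord K.disc = 0)
    (haniso : ∀ z ∈ K.box 0 0, K.n z ∈ K.ball 1 → z ∈ K.box 1 1)
    (hsurj : ∀ t ∈ K.ball 0, t ∉ K.ball 1 → ∃ w ∈ K.box 0 0, K.n w - t ∈ K.ball 1)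
    (hq : 2 ≤ K.q) (hη : ∀ a : E, a ≠ 0 → η a = (-1 : ℂ) ^ K.ord a) :
    K.IsUnram η (-1) where
  disc_ne := hD
  disc_ord := hD0
  eps_sq := by norm_num
  eta := hη
  base u hu h x hx hord :=
    (K.shift u hu).gauss_base_inert (K.shift_cond_zero hu h) haniso hsurj hq hx hord

end LocalForm

namespace LocalVec

open Classical in
/-- The spherical local vector. -/
noncomputable def spherical {η : E → ℂ} {ε : ℂ} (h : K.IsUnram η ε) : LocalVec K where
  η := η
  η_mul {a b} ha hb := by
    rw [h.eta _ (mul_ne_zero ha hb), h.eta _ ha, h.eta _ hb, K.ord_mul ha hb,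
      zpow_add₀ (fun h0 => by simpa [h0] using h.eps_sq)]
  η_sq {a} ha := by
    rw [h.eta _ ha, ← mul_zpow, ← sq, h.eps_sq, one_zpow]
  e := -K.cond
  φ _ := K.sphFun
  la := 0
  lb := 0
  k0 := 0
  per _ _ u z p hp := by simp only [LocalForm.sphFun, AddSubgroup.add_mem_cancel_right _ hp]
  supp _ _ u z hz := by
    by_contra hh
    exact hz (if_neg fun h' => hh h'.1)
  supp_u _ _ z u hne := by
    have hh : z ∈ K.box 0 0 ∧ u ≠ 0 ∧ K.ord u = K.cond := by by_contra hh; exact hne (if_neg hh)
    exact ⟨hh.2.1, by rw [neg_neg]; exact hh.2.2⟩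
  U := K.intGL
  U_le := le_rfl
  phi_right _ _ _ _ := rfl
  phi_borel a β d ha hd hmem k _ := by
    obtain ⟨ha0, hd0, hβ⟩ := (K.bmat_mem_intGL_iff ha hd).mp hmem
    funext z u
    have hz : a • z ∈ K.box 0 0 ↔ z ∈ K.box 0 0 := by
      simp [LocalBase.mem_box, K.mul_mem_ball_iff ha, ha0]
    have hu : (u / (a * d) ≠ 0 ∧ K.ord (u / (a * d)) = K.cond) ↔ (u ≠ 0 ∧ K.ord u = K.cond) := by
      rcases eq_or_ne u 0 with rfl | hu
      · simp
      · simp only [ne_eq, not_false_eq_true, true_and, hu, div_eq_mul_inv,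
          K.ord_mul hu (inv_ne_zero (mul_ne_zero ha hd)), K.ord_inv (mul_ne_zero ha hd),
          K.ord_mul ha hd, ha0, hd0, add_zero, neg_zero, mul_eq_zero, inv_eq_zero, ha, hd, or_self, not_false_eq_true, true_and]
    simp only [LocalForm.bact, LocalForm.sphFun, hz, hu, h.eta a ha, ha0, zpow_zero,
      K.absv_unit ha0, one_mul]
    split_ifs with hh
    · obtain ⟨hzb, hu0, hord⟩ := hh
      have hβd : β / d ∈ K.ball 0 := by
        rw [div_eq_inv_mul, K.mul_mem_ball_iff (inv_ne_zero hd), K.ord_inv hd, hd0]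
        simpa using hβ
      rw [K.χ_triv _ (K.mul_mem_ball' (K.mul_mem_ball (Or.inr hord.ge) hβd) (K.n_mem hzb)
        (by omega)), one_mul]
    · rw [mul_zero]
  phi_lower _ _ _ _ := rfl
  lam := ε ^ K.cond * (K.q : ℂ) ^ (-K.cond)
  phi_w k _ z u := by
    by_cases hu : u ≠ 0 ∧ K.ord u = K.cond
    · obtain ⟨hu1, hu2⟩ := hu
      rw [K.wact_eq_fourier _ _ hu1, h.eta u hu1, LocalForm.absv]
      have hfun : (fun y => K.sphFun y u) = fun y => if y ∈ K.box 0 0 then (1 : ℂ) else 0 := by
        funext y; simp only [LocalForm.sphFun, hu1, hu2, ne_eq, not_false_eq_true, and_self, and_true]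
      rw [hfun, K.fourier_base h.disc_ne h.disc_ord hu1 hu2]
      simp only [LocalForm.sphFun, hu1, hu2, ne_eq, not_false_eq_true, and_self, and_true, neg_mem_iff]
    · have h0 : (fun y => K.sphFun y u * K.χ (u * K.B y z)) = 0 := by
        funext y
        simp only [LocalForm.sphFun, if_neg fun hh => hu (And.right hh), zero_mul, Pi.zero_apply]
      rw [LocalForm.wact, h0, integral_zero, mul_zero]
      simp only [LocalForm.sphFun, if_neg fun hh => hu (And.right hh), mul_zero]
  fourier_phase k _ x u hu hx hm hord y := by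
    refine (K.shift u hu).fourier_unram h.disc_ne h.disc_ord
      (K.shift_cond_zero hu (by omega)) (k := 0) (fun z p hp => ?_) (fun z hz => ?_) hx hm le_rfl
      (by norm_num) y
    · simp only [LocalForm.sphFun, LocalForm.shift_toLocalBase] at hp ⊢
      simp only [AddSubgroup.add_mem_cancel_right _ hp]
    · by_contra hh
      exact hz (if_neg fun h' => hh h'.1)
  gauss_val x u hu hx hm hord := by
    have hcu : K.ord u = K.cond := by omega
    obtain ⟨m, hmq⟩ : ∃ m : ℕ, K.ord x = -(m : ℤ) := ⟨(-K.ord x).toNat, by omega⟩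
    have hG : (K.shift u hu).gauss x (K.box 0 0) = (ε / K.q) ^ m :=
      (K.shift u hu).gauss_unram h.disc_ne h.disc_ord (K.shift_cond_zero hu hcu) h.eps_sq
        (fun x' hx' ho => h.base u hu hcu x' hx' ho) m x hx hmq
    rw [hG, h.eta u hu, h.eta (-x) (neg_ne_zero.mpr hx), K.ord_neg, LocalForm.absv, LocalForm.absv,
      hcu, hmq, neg_neg, zpow_natCast, zpow_neg ε (m : ℤ), zpow_natCast, div_pow]
    have hε : (ε ^ m)⁻¹ = ε ^ m := inv_eq_of_mul_eq_one_right (by
      rw [← mul_pow, ← sq, h.eps_sq, one_pow])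
    rw [hε]
    ring

end LocalVec

end Fermat.Agent.LT.DihedralTheta
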