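import Fermat.Agent.LT.DihedralTheta.TypeE
import Fermat.Agent.LT.DihedralTheta.Residue
import Fermat.Agent.LT.DihedralTheta.Spherical

/-!
# The type `e` model at a place where the quadratic extension is unramified
-/

set_option autoImplicit false

open AddSubgroup

namespace Fermat.Agent.LT.DihedralTheta

/-- The norm of the residue plane, unramified case. -/
def normU (r : ZMod 3 × ZMod 3) : ZMod 3 := r.1 ^ 2 + r.2 ^ 2

/-- The isotypic functions on the residue plane, unramified case. -/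
def tableU (α c : ℂ) (r : ZMod 3 × ZMod 3) : ℂ :=
  if r.1 = 0 then (if r.2 = 0 then 0 else -α)
  else if r.2 = 0 then α else if r.1 = r.2 then c else -c

/-- The three elements of `ZMod 3`. -/
lemma threeCases (i : ZMod 3) : i = 0 ∨ i = 1 ∨ i = 2 := by revert i; decide

lemma sumThree (g : ZMod 3 → ℂ) : ∑ i, g i = g 0 + g 1 + g 2 := Fin.sum_univ_three g

lemma tableU_twist (α c : ℂ) (g : ZMod 3 → ℂ) (j : ZMod 3) (r : ZMod 3 × ZMod 3) :
    tableU α c r * g (j * normU r) = tableU (α * g j) (c * g (2 * j)) r := by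
  have hN : ∀ r : ZMod 3 × ZMod 3, normU r =
      if r.1 = 0 then (if r.2 = 0 then 0 else 1) else if r.2 = 0 then 1 else 2 := by decide
  rw [hN]
  unfold tableU
  split_ifs <;> simp [mul_comm j]

/-- The finite Fourier transform of a table. -/
lemma tableU_fourier (α c w : ℂ) (hw : 1 + w + w * w = 0) (y : ZMod 3 × ZMod 3) :
    ∑ r : ZMod 3 × ZMod 3, tableU α c r * w ^ (r.1 * y.1 + r.2 * y.2).val =
      -3 * tableU α c y := by
  have hw2 : w ^ 2 = -1 - w := by linear_combination hw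
  have hval : ∀ i : ZMod 3, i.val = if i = 0 then 0 else if i = 1 then 1 else 2 := by decide
  rw [Fintype.sum_prod_type, sumThree, sumThree, sumThree, sumThree]
  obtain ⟨a, b⟩ := y
  rcases threeCases a with rfl | rfl | rfl <;> rcases threeCases b with rfl | rfl | rfl <;>
    simp +decide [tableU, hw2, hval] <;> ring

namespace LocalForm

variable {E : Type*} [Field E] {K : LocalForm E}

lemma disc_res (hq : K.q = 3) (hs : K.res K.s = 0) (hp : K.res K.p = 1) :
    K.disc ≠ 0 ∧ K.ord K.disc = 0 := by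
  have h2 : (2 : E) ∈ K.ball 0 := K.two_mem
  have h4 : (4 : E) * K.p ∈ K.ball 0 := by
    rw [show (4 : E) = 2 * 2 by norm_num]
    exact K.mul_mem_ball' (K.mul_mem_ball h2 h2) K.p_mem (by norm_num)
  have hss : K.s * K.s ∈ K.ball 0 := K.mul_mem_ball' K.s_mem K.s_mem (by norm_num)
  have hd : K.disc ∈ K.ball 0 := by rw [disc, sq]; exact sub_mem hss h4
  refine (LocalBase.res_ne_zero_iff hq hd).mp ?_
  rw [disc, sq, LocalBase.res_sub hq hss h4, LocalBase.res_mul hq K.s_mem K.s_mem,
    show (4 : E) = 2 * 2 by norm_num, LocalBase.res_mul hq (K.mul_mem_ball' h2 h2 (by norm_num)) K.p_mem,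
    LocalBase.res_mul hq h2 h2, LocalBase.res_two hq, hs, hp]
  decide

lemma res_B (hq : K.q = 3) (hs : K.res K.s = 0) (hp : K.res K.p = 1) {z y : E × E}
    (hz : z ∈ K.box 0 0) (hy : y ∈ K.box 0 0) :
    K.res (K.B z y) = 2 * (K.res z.1 * K.res y.1 + K.res z.2 * K.res y.2) := by
  obtain ⟨z1, z2⟩ := LocalBase.mem_box.mp hz
  obtain ⟨y1, y2⟩ := LocalBase.mem_box.mp hy
  have m : ∀ {a b : E}, a ∈ K.ball 0 → b ∈ K.ball 0 → a * b ∈ K.ball 0 := fun ha hb =>
    K.mul_mem_ball' ha hb (by norm_num)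
  have h2 := K.two_mem
  simp only [B, LocalBase.res_add hq, LocalBase.res_mul hq, LocalBase.res_two hq, hs, hp, m h2 z1,
    m (m h2 z1) y1, m z1 y2, m z2 y1, add_mem (m z1 y2) (m z2 y1),
    m K.s_mem (add_mem (m z1 y2) (m z2 y1)), m h2 K.p_mem, m (m h2 K.p_mem) z2,
    m (m (m h2 K.p_mem) z2) y2, z1, z2, y1, y2, h2, K.s_mem, K.p_mem,
    add_mem (m (m h2 z1) y1) (m K.s_mem (add_mem (m z1 y2) (m z2 y1)))]
  ring

/-- Reduction of the norm form in the unramified case. -/
lemma res_n (hq : K.q = 3) (hs : K.res K.s = 0) (hp : K.res K.p = 1) {z : E × E}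
    (hz : z ∈ K.box 0 0) : K.res (K.n z) = normU (K.res z.1, K.res z.2) := by
  obtain ⟨z1, z2⟩ := LocalBase.mem_box.mp hz
  have m : ∀ {a b : E}, a ∈ K.ball 0 → b ∈ K.ball 0 → a * b ∈ K.ball 0 := fun ha hb =>
    K.mul_mem_ball' ha hb (by norm_num)
  simp only [n, normU, sq, LocalBase.res_add hq, LocalBase.res_mul hq, hs, hp, m z1 z1,
    m K.s_mem z1, m (m K.s_mem z1) z2, m z2 z2, m K.p_mem (m z2 z2),
    add_mem (m z1 z1) (m (m K.s_mem z1) z2), z1, z2, K.s_mem, K.p_mem]
  ring

/-- The Fourier transform of a table. -/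
theorem fourier_tableU (hq : K.q = 3) (hs : K.res K.s = 0) (hp : K.res K.p = 1) {u : E}
    (hu : u ≠ 0) (h : K.ord u = K.cond - 1) (α c : ℂ) (y : E × E) :
    (K.shift u hu).fourier (K.resFun normU (tableU α c) 0 u) y =
      -(1 / 3 : ℂ) * K.resFun normU (tableU α c) 0 u y := by
  classical
  obtain ⟨hD, hD0⟩ := K.disc_res hq hs hp
  set K' := K.shift u hu
  have hc : K'.cond = 1 := shift_cond_one hu h
  have hsupp : HasSupp (K'.box 0 0) (K.resFun normU (tableU α c) 0 u) := fun z hz => by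
    by_contra hh; exact hz (if_neg hh)
  have hper : IsPer (K'.box 1 1) (K.resFun normU (tableU α c) 0 u) := by
    intro z ρ hρ
    have hρ0 : ρ ∈ K.box 0 0 := K.box_le (by norm_num) (by norm_num) hρ
    simp only [resFun]
    by_cases hz : z ∈ K.box 0 0
    · obtain ⟨r1, r2⟩ := LocalBase.mem_box.mp hρ
      obtain ⟨s1, s2⟩ := LocalBase.mem_box.mp hρ0
      obtain ⟨z1, z2⟩ := LocalBase.mem_box.mp hz
      rw [if_pos hz, if_pos (add_mem hz hρ0), Prod.fst_add, Prod.snd_add, LocalBase.res_add hq z1 s1,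
        LocalBase.res_add hq z2 s2, (LocalBase.res_eq_zero_iff hq s1).mpr r1,
        (LocalBase.res_eq_zero_iff hq s2).mpr r2, add_zero, add_zero]
    · rw [if_neg hz, if_neg fun h' => hz ((AddSubgroup.add_mem_cancel_right _ hρ0).mp h')]
  have hperp : ∀ j z, (∀ q ∈ K'.box j j, K'.χ (K'.B z q) = 1) → z ∈ K'.box (1 - j) (1 - j) :=
    fun j z hz => by
      have := K'.perp_unram hD hD0 (x := 1) one_ne_zero (j := j) (z := z)
        (fun q hq => by rw [one_mul]; exact hz q hq)
      simpa [hc, K'.ord_one] using this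
  have hd : K'.IsDual 1 1 0 0 :=
    ⟨fun z hz q hq' => K'.χ_triv _ (K'.ball_le (by omega) (K'.B_mem hz hq')),
      fun q hq' => by simpa using hperp 1 q fun z hz => by rw [K'.B_comm]; exact hq' z hz,
      fun z hz => by simpa using hperp 0 z hz⟩
  by_cases hy : y ∈ K.box 0 0
  swap
  · rw [show K.resFun normU (tableU α c) 0 u y = 0 from if_neg hy, mul_zero]
    by_contra hne
    exact hy (hd.fourier_supp hper hsupp y hne)
  let r : ZMod 3 × ZMod 3 → E × E := fun i => (((i.1.val : ℕ) : E), ((i.2.val : ℕ) : E))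
  have hmem : ∀ i : ZMod 3, (((i.val : ℕ)) : E) ∈ K.ball 0 := fun i => by
    simpa using K.intCast_mem_ball (i.val : ℤ)
  have hres : ∀ i : ZMod 3, K.res (((i.val : ℕ)) : E) = i := fun i => by
    simpa using LocalBase.res_intCast (K := K.toLocalBase) hq (i.val : ℤ)
  have hrb : ∀ i, r i ∈ K.box 0 0 := fun i => LocalBase.mem_box.mpr ⟨hmem _, hmem _⟩
  have hgper : IsPer (K'.box 1 1)
      fun z => K.resFun normU (tableU α c) 0 u z * K'.χ (-K'.B z y) := fun z ρ hρ => by
    simp only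
    rw [hper z ρ hρ, K'.B_add_left, neg_add, AddChar.map_add_eq_mul,
      K'.chi_neg (hd.pair ρ hρ y hy), mul_one]
  have hgsupp : HasSupp (K'.box 0 0)
      fun z => K.resFun normU (tableU α c) 0 u z * K'.χ (-K'.B z y) := fun z hz =>
    hsupp z (left_ne_zero_of_mul hz)
  rw [fourier, integral_eq (K'.isLat_box 1 1) (K'.isLat_box 0 0) hgper hgsupp,
    sumOver_eq_sum r ?_ hgper ?_, K'.vol_box]
  · have hterm : ∀ i, K.resFun normU (tableU α c) 0 u (r i) * K'.χ (-K'.B (r i) y) =
        tableU α c i * K'.zeta 1 ^ (i.1 * K.res y.1 + i.2 * K.res y.2).val := by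
      intro i
      have hB : K.B (r i) y ∈ K.ball 0 := by simpa using K.B_mem (i := 0) (j := 0) (hrb i) hy
      rw [show K'.B = K.B from rfl, chi_eq_zeta (K := K') hq hc (neg_mem hB)]
      simp only [resFun, if_pos (hrb i), r, hres, zero_mul, zetaAt, ZMod.val_zero, Nat.cast_zero,
        mul_zero, AddChar.map_zero_eq_one, mul_one]
      congr 1
      have e : K'.res (-K.B (r i) y) = i.1 * K.res y.1 + i.2 * K.res y.2 := by
        show K.res (-K.B (r i) y) = _
        rw [LocalBase.res_neg hq hB, res_B hq hs hp (hrb i) hy]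
        simp only [r, hres]
        generalize K.res y.1 = a, K.res y.2 = b, i.1 = c, i.2 = d
        revert a b c d; decide
      rw [show K'.res (-K.B ((((i.1.val : ℕ) : E)), (((i.2.val : ℕ) : E))) y) = _ from e]
      generalize i.1 * K.res y.1 + i.2 * K.res y.2 = t
      fin_cases t
      · exact (zeta_zero (K := K')).trans (pow_zero _).symm
      · exact (pow_one _).symm
      · exact (zeta_two (K := K') hq hc).trans (sq _).symm
    rw [Finset.sum_congr rfl fun i _ => hterm i,
      tableU_fourier α c _ (zeta_sum (K := K') hq hc) (K.res y.1, K.res y.2)]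
    simp only [resFun, if_pos hy, zero_mul, zetaAt, ZMod.val_zero, Nat.cast_zero, mul_zero,
      AddChar.map_zero_eq_one, mul_one]
    show ((((K.q : ℕ) : ℂ)) ^ ((1 : ℤ) + 1))⁻¹ * _ = _
    rw [hq]
    norm_num
    ring
  · intro i i' hii
    obtain ⟨h1, h2⟩ := LocalBase.mem_box.mp hii
    have e1 := LocalBase.res_congr hq (hmem i'.1) h1
    have e2 := LocalBase.res_congr hq (hmem i'.2) h2
    rw [hres, hres] at e1 e2
    exact Prod.ext e1 e2
  · intro z hz
    obtain ⟨z1, z2⟩ := LocalBase.mem_box.mp (hgsupp z hz)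
    exact ⟨(K.res z.1, K.res z.2),
      LocalBase.mem_box.mpr ⟨LocalBase.res_spec hq z1, LocalBase.res_spec hq z2⟩⟩

end LocalForm

open LocalForm in
/-- The unramified model. -/
noncomputable def ResModel.unram {E : Type*} [Field E] {K : LocalForm E} {η : E → ℂ}
    (hq : K.q = 3) (hs : K.res K.s = 0) (hp : K.res K.p = 1)
    (hη : ∀ a : E, a ≠ 0 → η a = (-1 : ℂ) ^ K.ord a) (α c : ℂ) : ResModel K η where
  η_mul {a b} ha hb := by
    rw [hη _ (mul_ne_zero ha hb), hη _ ha, hη _ hb, K.ord_mul ha hb, zpow_add₀ (by norm_num)]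
  η_sq {a} ha := by rw [hη _ ha, ← mul_zpow]; norm_num
  q_eq := hq
  etaRes _ := 1
  eta_unit a ha h0 := by rw [hη _ ha, h0, zpow_zero]
  la := 1
  lb := 1
  la_nonneg := zero_le_one
  lb_nonneg := zero_le_one
  N := normU
  f := tableU α c
  per_res z hz ρ hρ := by
    obtain ⟨r1, r2⟩ := LocalBase.mem_box.mp hρ
    rw [(LocalBase.res_eq_zero_iff hq (K.ball_le (by norm_num) r1)).mpr r1,
      (LocalBase.res_eq_zero_iff hq (K.ball_le (by norm_num) r2)).mpr r2, add_zero, add_zero]
    exact ⟨rfl, rfl⟩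
  n_eq z hz _ := K.res_n hq hs hp hz
  homog s r hs' := by
    have key : ∀ s a b : ZMod 3, s ≠ 0 →
        ((s * a = 0 ↔ a = 0) ∧ (s * b = 0 ↔ b = 0) ∧ (s * a = s * b ↔ a = b) ∧
          (s * a) ^ 2 + (s * b) ^ 2 = a ^ 2 + b ^ 2) := by decide
    obtain ⟨h1, h2, h3, h4⟩ := key s r.1 r.2 hs'
    exact ⟨by simp only [tableU, h1, h2, h3, one_mul], h4⟩
  mu _ := -(1 / 3)
  fourier_eq u hu h j y := by
    have e : K.resFun normU (tableU α c) j u =
        K.resFun normU (tableU (α * K.zetaAt u j) (c * K.zetaAt u (2 * j))) 0 u := by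
      funext z
      simp only [LocalForm.resFun]
      split_ifs
      · rw [tableU_twist, zero_mul]
        simp [LocalForm.zetaAt]
      · rfl
    rw [e]
    exact K.fourier_tableU hq hs hp hu h _ _ y
  lam := (-1 : ℂ) ^ K.cond * (3 : ℂ) ^ (-K.cond)
  lam_eq u hu h := by
    have h1 : (-1 : ℂ) ≠ 0 := by norm_num
    rw [hη _ (neg_ne_zero.mpr hu), K.ord_neg, h, LocalForm.absv, hq, h, zpow_sub₀ h1, neg_sub,
      zpow_sub₀ (by norm_num : ((3 : ℕ) : ℂ) ≠ 0), zpow_one, zpow_one, zpow_neg]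
    push_cast
    field_simp
  fourier_phase φ hper hsupp x u hu hx hm h y := by
    obtain ⟨hD, hD0⟩ := K.disc_res hq hs hp
    exact (K.shift u hu).fourier_unram hD hD0 (shift_cond_one hu h) (k := 0) hper hsupp hx hm
      zero_le_one le_rfl y
  gauss_val x u hu hx hm h := by
    obtain ⟨hD, hD0⟩ := K.disc_res hq hs hp
    have huπ : u * K.unif ≠ 0 := mul_ne_zero hu K.unif_ne_zero
    have hord' : K.ord (u * K.unif) = K.cond := by rw [K.ord_mul hu K.unif_ne_zero, h, K.ord_unif]; omega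
    obtain ⟨m, hmq⟩ : ∃ m : ℕ, K.ord x = -((m : ℤ) + 1) := ⟨(-K.ord x - 1).toNat, by omega⟩
    have hbase : ∀ x' : E, x' ≠ 0 → K.ord x' = -1 →
        (K.shift _ huπ).gauss x' (K.box 0 0) = -1 / K.q := fun x' hx' ho => by
      refine (K.shift _ huπ).gauss_base_inert (K.shift_cond_zero huπ hord') (fun z hz hn => ?_)
        (fun t ht ht1 => ?_) (by rw [show (K.shift _ huπ).q = K.q from rfl, hq]; norm_num) hx' ho
      · obtain ⟨z1, z2⟩ := LocalBase.mem_box.mp hz
        have hh : normU (K.res z.1, K.res z.2) = 0 := by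
          rw [← K.res_n hq hs hp hz]
          exact (LocalBase.res_eq_zero_iff hq (by simpa using K.n_mem hz)).mpr hn
        have key : ∀ a b : ZMod 3, normU (a, b) = 0 → a = 0 ∧ b = 0 := by decide
        obtain ⟨e1, e2⟩ := key _ _ hh
        exact LocalBase.mem_box.mpr
          ⟨(LocalBase.res_eq_zero_iff hq z1).mp e1, (LocalBase.res_eq_zero_iff hq z2).mp e2⟩
      · have hne : K.res t ≠ 0 := fun h0 => ht1 ((LocalBase.res_eq_zero_iff hq ht).mp h0)
        obtain ⟨a, b, hab⟩ : ∃ a b : ZMod 3, normU (a, b) = K.res t := by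
          generalize K.res t = r at hne
          revert r; decide
        have hmem : ∀ i : ZMod 3, (((i.val : ℕ)) : E) ∈ K.ball 0 := fun i => by
          simpa using K.intCast_mem_ball (i.val : ℤ)
        have hres : ∀ i : ZMod 3, K.res (((i.val : ℕ)) : E) = i := fun i => by
          simpa using LocalBase.res_intCast (K := K.toLocalBase) hq (i.val : ℤ)
        have hw : ((((a.val : ℕ)) : E), (((b.val : ℕ)) : E)) ∈ K.box 0 0 :=
          LocalBase.mem_box.mpr ⟨hmem a, hmem b⟩
        refine ⟨_, hw, ?_⟩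
        have hn0 : K.n ((((a.val : ℕ)) : E), (((b.val : ℕ)) : E)) ∈ K.ball 0 := by
          simpa using K.n_mem hw
        show K.n _ - t ∈ K.ball 1
        rw [← LocalBase.res_eq_zero_iff hq (sub_mem hn0 ht), LocalBase.res_sub hq hn0 ht,
          K.res_n hq hs hp hw, hres, hres, hab, sub_self]
    have hG : (K.shift u hu).gauss x (K.box 1 1) = ((K.q : ℂ) ^ (2 : ℤ))⁻¹ * ((-1) / K.q) ^ m := by
      have hsc := (K.shift u hu).gauss_scale x 0 0
      simp only [zero_add, LocalForm.shift_toLocalBase] at hsc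
      rw [hsc]
      congr 1
      have e : (K.shift u hu).gauss (x * K.unif ^ 2) (K.box 0 0) =
          (K.shift _ huπ).gauss (x * K.unif) (K.box 0 0) := by
        simp only [LocalForm.gauss, LocalForm.shift_chi, LocalForm.shift_n,
          LocalForm.shift_toLocalBase]
        congr 1
        funext z
        congr 2
        ring
      rw [e]
      exact (K.shift _ huπ).gauss_unram hD hD0 (K.shift_cond_zero huπ hord') (by norm_num) hbase m _
        (mul_ne_zero hx K.unif_ne_zero)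
        (by show K.ord (x * K.unif) = _; rw [K.ord_mul hx K.unif_ne_zero, K.ord_unif, hmq]; ring)
    rw [hG, hη _ hu, hη _ (neg_ne_zero.mpr hx), K.ord_neg, LocalForm.absv, LocalForm.absv, h, hmq, hq]
    rw [neg_neg, neg_sub, zpow_sub₀ (by norm_num : (-1 : ℂ) ≠ 0),
      zpow_sub₀ (by norm_num : ((3 : ℕ) : ℂ) ≠ 0), zpow_neg (-1 : ℂ) ((m : ℤ) + 1),
      zpow_add₀ (by norm_num : (-1 : ℂ) ≠ 0), zpow_add₀ (by norm_num : ((3 : ℕ) : ℂ) ≠ 0),
      zpow_natCast, zpow_natCast, zpow_one, zpow_one, zpow_neg, div_pow, zpow_two]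
    have hsq : ((-1 : ℂ) ^ m) ^ 2 = 1 := by rw [← pow_mul, mul_comm, pow_mul]; norm_num
    push_cast
    field_simp
    ring_nf
    rw [pow_mul] at *
    simp [hsq]

end Fermat.Agent.LT.DihedralTheta
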