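import Fermat.Agent.LT.DihedralTheta.LocalWhit
import Fermat.Agent.LT.DihedralTheta.Spherical

/-!
# The spherical Whittaker function and the Hecke identity

The integrals of the character over the elements of given norm valuation satisfy the recursion of
the local Euler factor; hence the operator of `diag (π, 1)` has eigenvalue `√q (α + β)`.
-/

set_option autoImplicit false

open AddSubgroup Matrix

namespace Fermat.Agent.LT.DihedralTheta

variable {E : Type*} [Field E] (K : LocalForm E)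

/-- A multiplicative unramified function on the quadratic algebra. -/
structure LocalForm.IsUnramChar (ψ : E × E → ℂ) : Prop where
  mul : ∀ {w z : E × E}, K.n w ≠ 0 → K.n z ≠ 0 → ψ (K.qmul w z) = ψ w * ψ z
  unit : ∀ z ∈ K.box 0 0, K.n z ≠ 0 → K.ord (K.n z) = 0 → ψ z = 1

namespace LocalForm

open Classical in
/-- The restriction of `ψ` to the elements of norm valuation `n` in `D`. -/
noncomputable def slice (ψ : E × E → ℂ) (D : AddSubgroup (E × E)) (n : ℤ) (z : E × E) : ℂ :=
  if z ∈ D ∧ K.n z ≠ 0 ∧ K.ord (K.n z) = n then ψ z else 0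

/-- The normalised integral of `ψ` over the integral elements of norm valuation `n`. -/
noncomputable def sphSum (ψ : E × E → ℂ) (n : ℤ) : ℂ :=
  (K.q : ℂ) ^ n * integral K.base (K.slice ψ (K.box 0 0) n) / K.unitVol

/-- A slice is supported in its lattice. -/
lemma slice_supp (ψ : E × E → ℂ) (D : AddSubgroup (E × E)) (n : ℤ) :
    HasSupp D (K.slice ψ D n) := fun z hz => by
  by_contra h; exact hz (if_neg fun h' => h h'.1)

/-- A slice of an unramified character is periodic under a small box. -/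
lemma slice_per {ψ : E × E → ℂ} (hψ : K.IsUnramChar ψ) {i j : ℤ} (hi : 0 ≤ i) (hj : 0 ≤ j) (n : ℤ)
    {R : ℤ} (hRi : i ≤ R) (hRj : j ≤ R) (hR : n + 1 ≤ R) :
    IsPer (K.box R R) (K.slice ψ (K.box i j) n) := by
  have main : ∀ z, ∀ ρ ∈ K.box R R, K.slice ψ (K.box i j) n z ≠ 0 →
      K.slice ψ (K.box i j) n (z + ρ) = K.slice ψ (K.box i j) n z := by
    intro z ρ hρ hne
    have hz : z ∈ K.box i j ∧ K.n z ≠ 0 ∧ K.ord (K.n z) = n := by
      by_contra h; exact hne (if_neg h)
    obtain ⟨σ, hσ, e⟩ := K.exists_qmul_one_add hz.2.1 (i := 0) (K.box_le hi hj hz.1) hρ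
    have hσ1 : σ ∈ K.box 1 1 := K.box_le (by omega) (by omega) hσ
    have h0 : (1, 0) + σ ∈ K.box 0 0 :=
      add_mem (LocalBase.mem_box.mpr ⟨K.one_mem_ball, zero_mem _⟩)
        (K.box_le (by norm_num) (by norm_num) hσ1)
    obtain ⟨s1, s2⟩ := LocalBase.mem_box.mp hσ1
    have hv : K.n ((1, 0) + σ) - 1 ∈ K.ball 1 := by
      rw [show K.n ((1, 0) + σ) - 1 = 2 * σ.1 + K.s * σ.2 + K.n σ by
        simp only [LocalForm.n, Prod.fst_add, Prod.snd_add]; ring]
      exact add_mem (add_mem (K.mul_mem_ball' K.two_mem s1 (by omega))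
        (K.mul_mem_ball' K.s_mem s2 (by omega))) (K.ball_le (by omega) (K.n_mem hσ1))
    have hnot : K.n ((1, 0) + σ) ∉ K.ball 1 := fun h1 => by
      have := sub_mem h1 hv
      rw [sub_sub_cancel] at this
      have := this.resolve_left one_ne_zero
      rw [K.ord_one] at this; omega
    have hv0 : K.n ((1, 0) + σ) ≠ 0 := fun h0' => hnot (by rw [h0']; exact zero_mem _)
    have hvo : K.ord (K.n ((1, 0) + σ)) = 0 :=
      le_antisymm (not_lt.mp fun h => hnot (Or.inr h)) ((K.n_mem h0).resolve_left hv0)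
    have hzρ : z + ρ ∈ K.box i j ∧ K.n (z + ρ) ≠ 0 ∧ K.ord (K.n (z + ρ)) = n := by
      refine ⟨add_mem hz.1 (K.box_le hRi hRj hρ), ?_, ?_⟩
      · rw [e, K.n_qmul]; exact mul_ne_zero hz.2.1 hv0
      · rw [e, K.n_qmul, K.ord_mul hz.2.1 hv0, hvo, hz.2.2, add_zero]
    simp only [slice, if_pos hzρ, if_pos hz]
    rw [e, hψ.mul hz.2.1 hv0, hψ.unit _ h0 hv0 hvo, mul_one]
  intro z ρ hρ
  by_cases h0 : K.slice ψ (K.box i j) n z = 0
  · by_contra hne
    rw [h0] at hne
    have := main (z + ρ) (-ρ) (neg_mem hρ) hne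
    rw [add_neg_cancel_right, h0] at this
    exact hne this.symm
  · exact main z ρ hρ h0

/-- The trivial character is unramified. -/
lemma isUnramChar_one : K.IsUnramChar (fun _ => (1 : ℂ)) :=
  ⟨fun _ _ => (one_mul 1).symm, fun _ _ _ _ => rfl⟩

/-- The mass of the units is the integral of the slice of norm order zero. -/
lemma unitVol_eq : K.unitVol = integral K.base (K.slice (fun _ => 1) (K.box 0 0) 0) := rfl

/-- The mass of the units is nonzero. -/
lemma unitVol_ne : K.unitVol ≠ 0 := by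
  classical
  have hper := K.slice_per K.isUnramChar_one (i := 0) (j := 0) le_rfl le_rfl 0 (R := 1)
    zero_le_one zero_le_one le_rfl
  have hsupp := K.slice_supp (fun _ => (1 : ℂ)) (K.box 0 0) 0
  have hfin := finite_support (K.isLat_box 1 1) (K.isLat_box 0 0) hsupp
  rw [unitVol_eq, integral_eq (K.isLat_box 1 1) (K.isLat_box 0 0) hper hsupp]
  refine mul_ne_zero (vol_ne_zero (K.isLat_box 1 1)) ?_
  rw [sumOver, finsum_eq_sum_of_support_subset _ (s := hfin.toFinset) (fun c hc => by simpa using hc)]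
  rw [Finset.sum_congr rfl (g := fun _ => (1 : ℂ)) fun c hc => ?_, Finset.sum_const, nsmul_one,
    Nat.cast_ne_zero, ← Nat.pos_iff_ne_zero, Finset.card_pos]
  · refine ⟨(((1 : E), (0 : E)) : (E × E) ⧸ K.box 1 1), ?_⟩
    have h1 : K.slice (fun _ => (1 : ℂ)) (K.box 0 0) 0 (1, 0) = 1 :=
      if_pos ⟨LocalBase.mem_box.mpr ⟨K.one_mem_ball, zero_mem _⟩,
        by simp [LocalForm.n], by simp [LocalForm.n, K.ord_one]⟩
    rw [Set.Finite.mem_toFinset, Function.mem_support, hper.out_eq, h1]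
    exact one_ne_zero
  · have hc' : K.slice (fun _ => (1 : ℂ)) (K.box 0 0) 0 c.out ≠ 0 := by simpa using hc
    simp only [slice] at hc' ⊢
    split_ifs at hc' ⊢ with hh
    · rfl
    · exact absurd rfl hc'

variable {K} {ψ : E × E → ℂ} (hψ : K.IsUnramChar ψ)

include hψ

/-- The spherical sum at `0` is `1`. -/
lemma sphSum_zero : K.sphSum ψ 0 = 1 := by
  classical
  have : K.slice ψ (K.box 0 0) 0 = K.slice (fun _ => 1) (K.box 0 0) 0 := by
    funext z
    simp only [slice]
    split_ifs with h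
    · exact hψ.unit z h.1 h.2.1 h.2.2
    · rfl
  rw [sphSum, zpow_zero, one_mul, this, ← unitVol_eq, div_self K.unitVol_ne]

omit hψ in
lemma slice_neg {n : ℤ} (hn : n < 0) : K.slice ψ (K.box 0 0) n = 0 := by
  funext z
  refine if_neg fun ⟨hz, h0, ho⟩ => ?_
  have := (K.n_mem hz).resolve_left h0
  omega

omit hψ in
/-- The spherical sums vanish at negative indices. -/
lemma sphSum_neg {n : ℤ} (hn : n < 0) : K.sphSum ψ n = 0 := by
  rw [sphSum, slice_neg hn, integral_zero, mul_zero, zero_div]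

/-- Scaling by the uniformiser. -/
lemma integral_slice_smul (n : ℤ) :
    integral K.base (K.slice ψ (K.box 1 1) n) =
      ψ (K.unif, 0) * ((K.q : ℂ) ^ (2 : ℤ))⁻¹ * integral K.base (K.slice ψ (K.box 0 0) (n - 2)) := by
  classical
  have hu := K.unif_ne_zero
  have hnu : K.n (K.unif, 0) ≠ 0 := by simp [LocalForm.n, hu]
  set R := max (n + 1) 1
  have hper := K.slice_per hψ (i := 1) (j := 1) zero_le_one zero_le_one n (R := R)
    (le_max_right _ _) (le_max_right _ _) (le_max_left _ _)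
  have h := integral_comp_equiv (smulEquiv K.unif hu) (K.isLat_box R R) (K.isLat_box 1 1) hper
    (K.slice_supp ψ _ n) (by rw [K.comap_smulEquiv]; exact K.isLat_box _ _)
    (by rw [K.comap_smulEquiv]; exact K.isLat_box _ _)
  have hfun : (fun z => K.slice ψ (K.box 1 1) n (smulEquiv K.unif hu z)) =
      fun z => ψ (K.unif, 0) * K.slice ψ (K.box 0 0) (n - 2) z := by
    funext z
    show K.slice ψ (K.box 1 1) n (K.unif • z) = _
    simp only [slice]
    have hiff : (K.unif • z ∈ K.box 1 1 ∧ K.n (K.unif • z) ≠ 0 ∧ K.ord (K.n (K.unif • z)) = n) ↔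
        (z ∈ K.box 0 0 ∧ K.n z ≠ 0 ∧ K.ord (K.n z) = n - 2) := by
      rcases eq_or_ne (K.n z) 0 with h0 | h0
      · simp [K.n_smul, h0]
      · simp [K.n_smul, h0, hu, LocalBase.mem_box, K.mul_mem_ball_iff hu, K.ord_unif,
          K.ord_mul (pow_ne_zero 2 hu) h0, K.ord_pow hu]
        omega
    rw [if_congr hiff rfl rfl]
    split_ifs with hh
    · rw [← K.qmul_scalar, hψ.mul hnu hh.2.1]
    · rw [mul_zero]
  rw [hfun, K.comap_smulEquiv, K.vol_box, K.vol_box, K.ord_unif, integral_const_mul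
    ⟨_, _, K.isLat_box (max (n - 1) 0) (max (n - 1) 0), K.isLat_box 0 0,
      K.slice_per hψ le_rfl le_rfl (n - 2) (le_max_right _ _) (le_max_right _ _)
        (by have := le_max_left (n - 1) (0 : ℤ); omega), K.slice_supp ψ _ _⟩] at h
  have hq : ((K.q : ℂ) ^ (R - 1 + (R - 1)))⁻¹ / ((K.q : ℂ) ^ (R + R))⁻¹ = (K.q : ℂ) ^ (2 : ℤ) := by
    rw [div_inv_eq_mul, inv_mul_eq_iff_eq_mul₀ (zpow_ne_zero _ K.q_ne_zero), ← zpow_add₀ K.q_ne_zero]
    ring_nf
  rw [hq] at h
  have h2 := zpow_ne_zero 2 K.q_ne_zero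
  linear_combination -((K.q : ℂ) ^ (2 : ℤ))⁻¹ * h -
    integral K.base (K.slice ψ (K.box 1 1) n) * mul_inv_cancel₀ h2

omit hψ in
/-- Conjugation as a change of variables. -/
def conjEquiv (K : LocalForm E) : E × E ≃+ E × E where
  toFun := K.qconj
  invFun := K.qconj
  left_inv z := by simp [qconj]
  right_inv z := by simp [qconj]
  map_add' z w := by simp [qconj, Prod.ext_iff]; constructor <;> ring

omit hψ in
lemma comap_conjEquiv (r : ℤ) : (K.box r r).comap K.conjEquiv.toAddMonoidHom = K.box r r := by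
  ext z
  refine ⟨fun h => ?_, fun h => K.qconj_mem h⟩
  have := K.qconj_mem (show K.qconj z ∈ K.box r r from h)
  rwa [show K.qconj (K.qconj z) = z from K.conjEquiv.left_inv z] at this

omit hψ in
lemma n_qconj (z : E × E) : K.n (K.qconj z) = K.n z := by simp [LocalForm.n, qconj]; ring

omit hψ in
/-- Conjugation is multiplicative. -/
lemma qconj_qmul (w z : E × E) : K.qconj (K.qmul w z) = K.qmul (K.qconj w) (K.qconj z) := by
  simp only [qmul, qconj]; refine Prod.ext ?_ ?_ <;> simp only <;> ring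

lemma isUnramChar_conj : K.IsUnramChar (fun z => ψ (K.qconj z)) where
  mul {w z} hw hz := by
    rw [qconj_qmul, hψ.mul (by rwa [n_qconj]) (by rwa [n_qconj])]
  unit z hz h0 ho := hψ.unit _ (K.qconj_mem hz) (by rwa [n_qconj]) (by rwa [n_qconj])

/-- Conjugation invariance of the sums. -/
lemma integral_slice_conj (n : ℤ) :
    integral K.base (K.slice (fun z => ψ (K.qconj z)) (K.box 0 0) n) =
      integral K.base (K.slice ψ (K.box 0 0) n) := by
  classical
  set R := max (n + 1) 0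
  have h := integral_comp_equiv K.conjEquiv (K.isLat_box R R) (K.isLat_box 0 0)
    (K.slice_per hψ le_rfl le_rfl n (le_max_right _ _) (le_max_right _ _) (le_max_left _ _))
    (K.slice_supp ψ _ n) (by rw [comap_conjEquiv]; exact K.isLat_box _ _)
    (by rw [comap_conjEquiv]; exact K.isLat_box _ _)
  rw [comap_conjEquiv, div_self (vol_ne_zero (K.isLat_box R R)), one_mul] at h
  rw [← h]
  congr 1
  funext z
  show _ = K.slice ψ (K.box 0 0) n (K.qconj z)
  have : K.qconj z ∈ K.box 0 0 ↔ z ∈ K.box 0 0 := by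
    rw [show K.qconj z ∈ K.box 0 0 ↔ z ∈ (K.box 0 0).comap K.conjEquiv.toAddMonoidHom from Iff.rfl,
      comap_conjEquiv]
  simp only [slice, n_qconj, this]

end LocalForm

namespace LocalForm

variable {K} (hs : K.s ≠ 0) (hs0 : K.ord K.s = 0) (hp : K.p ∈ K.ball 1)

include hs hs0 hp

/-- A prime element of the split algebra. -/
lemma exists_split_prime : ∃ a ∈ K.ball 1, K.n (a, 1) ≠ 0 ∧ K.ord (K.n (a, 1)) = 1 := by
  have hn : ∀ a, K.n (a, 1) = a ^ 2 + K.s * a + K.p := fun a => by simp [LocalForm.n]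
  by_cases h2 : K.p ∈ K.ball 2
  · refine ⟨K.unif, Or.inr K.ord_unif.ge, ?_⟩
    have h1 : K.unif ^ 2 + K.p ∈ K.ball 2 :=
      add_mem (Or.inr (by rw [K.ord_pow K.unif_ne_zero, K.ord_unif]; norm_num)) h2
    have hnot : K.n (K.unif, 1) ∉ K.ball 2 := fun h => by
      have := sub_mem h h1
      rw [hn, show K.unif ^ 2 + K.s * K.unif + K.p - (K.unif ^ 2 + K.p) = K.s * K.unif by ring,
        K.mul_mem_ball_iff hs, hs0] at this
      have := this.resolve_left K.unif_ne_zero
      rw [K.ord_unif] at this; omega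
    have hmem : K.n (K.unif, 1) ∈ K.ball 1 := by
      rw [hn, show K.unif ^ 2 + K.s * K.unif + K.p = K.unif ^ 2 + K.p + K.s * K.unif by ring]
      exact add_mem (K.ball_le (by norm_num) h1)
        (K.mul_mem_ball' K.s_mem (Or.inr K.ord_unif.ge) (by norm_num))
    have h0 : K.n (K.unif, 1) ≠ 0 := fun h => hnot (h ▸ zero_mem _)
    exact ⟨h0, le_antisymm (not_lt.mp fun h => hnot (Or.inr h)) (hmem.resolve_left h0)⟩
  · refine ⟨0, zero_mem _, ?_⟩
    have h0 : K.p ≠ 0 := fun h => h2 (h ▸ zero_mem _)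
    rw [hn]
    simp only [zero_pow two_ne_zero, mul_zero, add_zero, zero_add]
    exact ⟨h0, le_antisymm (not_lt.mp fun h => h2 (Or.inr h)) (hp.resolve_left h0)⟩

omit hs hs0 in
lemma comap_prime {a : E} (ha : a ∈ K.ball 1) (hn : K.n (a, 1) ≠ 0)
    (hno : K.ord (K.n (a, 1)) = 1) (r : ℤ) :
    (K.box (r + 1) r).comap (K.mulEquiv (a, 1) hn).toAddMonoidHom = K.box r r := by
  have ha0 : a ∈ K.ball 0 := K.ball_le (by norm_num) ha
  ext z
  show K.mulEquiv (a, 1) hn z ∈ K.box (r + 1) r ↔ _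
  constructor
  · intro hz
    obtain ⟨y1, y2⟩ := LocalBase.mem_box.mp hz
    set y := K.mulEquiv (a, 1) hn z with hy
    have e : z = (K.mulEquiv (a, 1) hn).symm y := ((K.mulEquiv (a, 1) hn).symm_apply_apply z).symm
    rw [e]
    refine LocalBase.mem_box.mpr ⟨?_, ?_⟩
    · show (K.n (a, 1))⁻¹ * ((a + K.s * 1) * y.1 + K.p * 1 * y.2) ∈ K.ball r
      rw [mul_one, mul_one, K.mul_mem_ball_iff (inv_ne_zero hn), K.ord_inv hn, hno]
      exact add_mem (K.mul_mem_ball' (add_mem ha0 K.s_mem) y1 (by omega))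
        (K.mul_mem_ball' hp y2 (by omega))
    · show (K.n (a, 1))⁻¹ * (a * y.2 - 1 * y.1) ∈ K.ball r
      rw [K.mul_mem_ball_iff (inv_ne_zero hn), K.ord_inv hn, hno, one_mul]
      exact sub_mem (K.mul_mem_ball' ha y2 (by omega)) (K.ball_le (by omega) y1)
  · intro hz
    obtain ⟨z1, z2⟩ := LocalBase.mem_box.mp hz
    refine LocalBase.mem_box.mpr ⟨?_, ?_⟩
    · show a * z.1 - K.p * 1 * z.2 ∈ K.ball (r + 1)
      rw [mul_one]
      exact sub_mem (K.mul_mem_ball' ha z1 (by omega)) (K.mul_mem_ball' hp z2 (by omega))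
    · show a * z.2 + 1 * z.1 + K.s * 1 * z.2 ∈ K.ball r
      rw [mul_one, one_mul]
      exact add_mem (add_mem (K.mul_mem_ball' ha0 z2 (by omega)) z1)
        (K.mul_mem_ball' K.s_mem z2 (by omega))

variable {ψ : E × E → ℂ}

omit hs hs0 in
/-- The slice through the first prime. -/
lemma integral_slice_prime (hψ : K.IsUnramChar ψ) {a : E} (ha : a ∈ K.ball 1)
    (hn : K.n (a, 1) ≠ 0) (hno : K.ord (K.n (a, 1)) = 1) (n : ℤ) :
    integral K.base (K.slice ψ (K.box 1 0) n) =
      ψ (a, 1) * (K.q : ℂ)⁻¹ * integral K.base (K.slice ψ (K.box 0 0) (n - 1)) := by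
  classical
  set R := max (n + 1) 1
  have hper := K.slice_per hψ (i := 1) (j := 0) zero_le_one le_rfl n (R := R)
    (le_max_right _ _) (zero_le_one.trans (le_max_right _ _)) (le_max_left _ _)
  have h := integral_comp_equiv (K.mulEquiv (a, 1) hn) (K.isLat_box (R + 1) R) (K.isLat_box 1 0)
    (hper.mono (K.box_le (by omega) le_rfl)) (K.slice_supp ψ _ n)
    (by rw [comap_prime hp ha hn hno]; exact K.isLat_box _ _)
    (by rw [show K.box 1 0 = K.box (0 + 1) 0 from rfl, comap_prime hp ha hn hno]; exact K.isLat_box _ _)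
  have hfun : (fun z => K.slice ψ (K.box 1 0) n (K.mulEquiv (a, 1) hn z)) =
      fun z => ψ (a, 1) * K.slice ψ (K.box 0 0) (n - 1) z := by
    funext z
    have hmem : K.mulEquiv (a, 1) hn z ∈ K.box 1 0 ↔ z ∈ K.box 0 0 := by
      rw [show K.box 1 0 = K.box (0 + 1) 0 from rfl, ← comap_prime hp ha hn hno 0]; rfl
    simp only [slice]
    have hiff : (K.mulEquiv (a, 1) hn z ∈ K.box 1 0 ∧ K.n (K.mulEquiv (a, 1) hn z) ≠ 0 ∧
        K.ord (K.n (K.mulEquiv (a, 1) hn z)) = n) ↔
        (z ∈ K.box 0 0 ∧ K.n z ≠ 0 ∧ K.ord (K.n z) = n - 1) := by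
      rw [hmem, K.n_mulEquiv]
      rcases eq_or_ne (K.n z) 0 with h0 | h0
      · simp [h0]
      · simp [h0, hn, K.ord_mul hn h0, hno]
        omega
    rw [if_congr hiff rfl rfl]
    split_ifs with hh
    · exact hψ.mul hn hh.2.1
    · rw [mul_zero]
  rw [hfun, comap_prime hp ha hn hno, K.vol_box, K.vol_box, integral_const_mul
    ⟨_, _, K.isLat_box R R, K.isLat_box 0 0, K.slice_per hψ le_rfl le_rfl (n - 1)
      (by omega) (by omega) (by omega), K.slice_supp ψ _ _⟩] at h
  have hq : ((K.q : ℂ) ^ (R + R))⁻¹ / ((K.q : ℂ) ^ (R + 1 + R))⁻¹ = (K.q : ℂ) := by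
    rw [div_inv_eq_mul, inv_mul_eq_iff_eq_mul₀ (zpow_ne_zero _ K.q_ne_zero),
      show R + 1 + R = R + R + 1 by ring, zpow_add₀ K.q_ne_zero, zpow_one]
  rw [hq] at h
  have := K.q_ne_zero
  field_simp
  linear_combination -h

/-- The recursion in the split case. -/
theorem sphSum_split (hψ : K.IsUnramChar ψ) (hπ : ψ (K.unif, 0) = 1) :
    ∃ a ∈ K.ball 1, K.n (a, 1) ≠ 0 ∧ K.ord (K.n (a, 1)) = 1 ∧ ∀ n : ℤ, n ≠ 0 →
      K.sphSum ψ n = (ψ (a, 1) + ψ (K.qconj (a, 1))) * K.sphSum ψ (n - 1) - K.sphSum ψ (n - 2) := by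
  classical
  obtain ⟨a, ha, hn, hno⟩ := exists_split_prime hs hs0 hp
  refine ⟨a, ha, hn, hno, fun n hne => ?_⟩
  set ψ' := fun z => ψ (K.qconj z)
  set R := max (n + 1) 1
  have hR1 : (1 : ℤ) ≤ R := le_max_right _ _
  have hR2 : n + 1 ≤ R := le_max_left _ _
  set f0 := K.slice ψ (K.box 0 0) n
  set f1 := K.slice ψ (K.box 1 0) n
  set f2 := fun z => K.slice ψ' (K.box 1 0) n (K.qconj z)
  set f3 := K.slice ψ (K.box 1 1) n
  have hP2 : ∀ z : E × E, K.qconj z ∈ K.box 1 0 ↔ (z.1 + K.s * z.2 ∈ K.ball 1 ∧ z.2 ∈ K.ball 0) :=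
    fun z => by simp [qconj, LocalBase.mem_box]
  have hid : ∀ z, f3 z = f1 z + f2 z + (-f0 z) := by
    intro z
    simp only [f0, f1, f2, f3, slice, ψ', n_qconj]
    rw [show K.qconj (K.qconj z) = z from K.conjEquiv.left_inv z]
    by_cases hc : K.n z ≠ 0 ∧ K.ord (K.n z) = n
    swap
    · simp [hc]
    obtain ⟨h0, ho⟩ := hc
    simp only [h0, ho, ne_eq, not_false_eq_true, and_true, hP2]
    by_cases hz : z ∈ K.box 0 0
    swap
    · have e1 : z ∉ K.box 1 0 := fun h => hz (K.box_le zero_le_one le_rfl h)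
      have e3 : z ∉ K.box 1 1 := fun h => hz (K.box_le zero_le_one zero_le_one h)
      have e2 : ¬ (z.1 + K.s * z.2 ∈ K.ball 1 ∧ z.2 ∈ K.ball 0) := fun ⟨h1, h2⟩ =>
        hz (LocalBase.mem_box.mpr ⟨by
          simpa using sub_mem (K.ball_le (by norm_num : (0 : ℤ) ≤ 1) h1)
            (K.mul_mem_ball' K.s_mem h2 (by norm_num : (0 : ℤ) ≤ 0 + 0)), h2⟩)
      simp [if_neg e1, if_neg e2, if_neg e3, if_neg hz]
    obtain ⟨z1, z2⟩ := LocalBase.mem_box.mp hz
    have hn1 : K.n z ∈ K.ball 1 ↔ z.1 * (z.1 + K.s * z.2) ∈ K.ball 1 := by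
      rw [show K.n z = z.1 * (z.1 + K.s * z.2) + K.p * z.2 ^ 2 by simp [LocalForm.n]; ring]
      exact AddSubgroup.add_mem_cancel_right _ (by
        rw [sq]; exact K.mul_mem_ball' hp (K.mul_mem_ball z2 z2) (by norm_num))
    have hge : 1 ≤ K.ord (K.n z) ∨ K.ord (K.n z) = 0 := by
      have := (K.n_mem hz).resolve_left h0; omega
    by_cases e1 : z.1 ∈ K.ball 1 <;> by_cases e2 : z.1 + K.s * z.2 ∈ K.ball 1
    · have e3 : z.2 ∈ K.ball 1 := by
        have := sub_mem e2 e1
        rw [add_sub_cancel_left, K.mul_mem_ball_iff hs, hs0] at this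
        simpa using this
      simp [LocalBase.mem_box, z1, z2, e1, e2, e3]
    · have e3 : z.2 ∉ K.ball 1 := fun h =>
        e2 (add_mem e1 (K.mul_mem_ball' K.s_mem h (by norm_num)))
      simp [LocalBase.mem_box, z1, z2, e1, e2, e3]
    · simp [LocalBase.mem_box, z1, z2, e1, e2]
    · exfalso
      have h1 : K.n z ∈ K.ball 1 := by
        rcases hge with h | h
        · exact Or.inr h
        · omega
      have hm := hn1.mp h1
      have hu : ∀ {x : E}, x ∈ K.ball 0 → x ∉ K.ball 1 → x ≠ 0 ∧ K.ord x = 0 := fun hx hx1 =>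
        have hx0 : _ ≠ (0 : E) := fun hh => hx1 (by rw [hh]; exact zero_mem _)
        ⟨hx0, le_antisymm (not_lt.mp fun h => hx1 (Or.inr h)) (hx.resolve_left hx0)⟩
      obtain ⟨u0, uo⟩ := hu z1 e1
      rw [K.mul_mem_ball_iff u0, uo] at hm
      exact e2 (by simpa using hm)
  have hψ' := isUnramChar_conj hψ
  have hper0 := K.slice_per hψ (i := 0) (j := 0) le_rfl le_rfl n (R := R) (by omega) (by omega) hR2
  have hper1 := K.slice_per hψ (i := 1) (j := 0) zero_le_one le_rfl n (R := R) hR1 (by omega) hR2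
  have hper2' := K.slice_per hψ' (i := 1) (j := 0) zero_le_one le_rfl n (R := R) hR1 (by omega) hR2
  have hper2 : IsPer (K.box R R) f2 := fun z ρ hρ => by
    show K.slice ψ' _ n (K.qconj (z + ρ)) = _
    rw [show K.qconj (z + ρ) = K.qconj z + K.qconj ρ from K.conjEquiv.map_add z ρ]
    exact hper2' _ _ (K.qconj_mem hρ)
  have hs0' : HasSupp (K.box 0 0) f0 := K.slice_supp ψ _ n
  have hs1 : HasSupp (K.box 0 0) f1 := fun z hz =>
    K.box_le zero_le_one le_rfl (K.slice_supp ψ _ n z hz)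
  have hs2 : HasSupp (K.box 0 0) f2 := fun z hz => by
    have := K.qconj_mem (K.box_le zero_le_one le_rfl (K.slice_supp ψ' _ n _ hz) :
      K.qconj z ∈ K.box 0 0)
    rwa [show K.qconj (K.qconj z) = z from K.conjEquiv.left_inv z] at this
  have h2 : integral K.base f2 =
      ψ (K.qconj (a, 1)) * (K.q : ℂ)⁻¹ * integral K.base (K.slice ψ (K.box 0 0) (n - 1)) := by
    have h := integral_comp_equiv K.conjEquiv (K.isLat_box R R) (K.isLat_box 0 0) hper2'
      (fun z hz => K.box_le zero_le_one le_rfl (K.slice_supp ψ' _ n z hz))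
      (by rw [comap_conjEquiv]; exact K.isLat_box _ _)
      (by rw [comap_conjEquiv]; exact K.isLat_box _ _)
    rw [comap_conjEquiv, div_self (vol_ne_zero (K.isLat_box R R)), one_mul] at h
    refine h.trans ?_
    rw [integral_slice_prime hp hψ' ha hn hno, integral_slice_conj hψ]
  have h3 : integral K.base f3 = integral K.base f1 + integral K.base f2 + -integral K.base f0 := by
    have hsum := integral_finset_sum (S := K.base) (Finset.univ : Finset (Fin 3))
      ![f1, f2, fun z => -f0 z] (K.isLat_box R R) (K.isLat_box 0 0)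
      (fun i _ => by
        fin_cases i
        · exact hper1
        · exact hper2
        · exact fun z ρ hρ => congrArg Neg.neg (hper0 z ρ hρ))
      (fun i _ => by
        fin_cases i
        · exact hs1
        · exact hs2
        · exact fun z hz => hs0' z (neg_ne_zero.mp hz))
    simp only [Fin.sum_univ_three, Matrix.cons_val_zero, Matrix.cons_val_one, Matrix.cons_val] at hsum
    have hneg : integral K.base (fun z => -f0 z) = -integral K.base f0 := by
      have := integral_const_mul (f := f0) ⟨_, _, K.isLat_box R R, K.isLat_box 0 0, hper0, hs0'⟩ (-1)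
      simpa using this
    rw [show f3 = fun z => f1 z + f2 z + (-f0 z) from funext hid]
    exact hsum.trans (by rw [hneg])
  rw [integral_slice_smul hψ, hπ, one_mul, h2, integral_slice_prime hp hψ ha hn hno] at h3
  simp only [sphSum, zpow_sub₀ K.q_ne_zero, zpow_one, zpow_two] at h3 ⊢
  have := K.q_ne_zero
  have := K.unitVol_ne
  field_simp at h3 ⊢
  linear_combination h3

omit hs hs0 hp in
/-- The recursion in the inert case. -/
theorem sphSum_inert (hψ : K.IsUnramChar ψ) (hπ : ψ (K.unif, 0) = -1)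
    (haniso : ∀ z ∈ K.box 0 0, K.n z ∈ K.ball 1 → z ∈ K.box 1 1) {n : ℤ} (hn : n ≠ 0) :
    K.sphSum ψ n = 0 * K.sphSum ψ (n - 1) - K.sphSum ψ (n - 2) := by
  classical
  have hid : K.slice ψ (K.box 0 0) n = K.slice ψ (K.box 1 1) n := by
    funext z
    simp only [slice]
    refine if_congr ⟨fun ⟨hz, h0, ho⟩ => ⟨haniso z hz (Or.inr ?_), h0, ho⟩, fun ⟨hz, h0, ho⟩ =>
      ⟨K.box_le zero_le_one zero_le_one hz, h0, ho⟩⟩ rfl rfl
    have := (K.n_mem hz).resolve_left h0
    omega
  simp only [sphSum]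
  rw [hid, integral_slice_smul hψ, hπ, zpow_sub₀ K.q_ne_zero n 2]
  ring

end LocalForm

namespace LocalVec

variable {K} {η : E → ℂ} {ε : ℂ} (h : K.IsUnram η ε) {ψ : E × E → ℂ}

/-- The spherical Whittaker function. -/
theorem whit_spherical {k : GL (Fin 2) E} (hk : k ∈ K.intGL) {ξ : E} (hξ : ξ ≠ 0) :
    (LocalVec.spherical K h).whit ψ k ξ =
      K.sqrtQ ^ (-(K.ord ξ - K.cond)) * K.sphSum ψ (K.ord ξ - K.cond) := by
  classical
  have hη : η 1 = 1 := by rw [h.eta 1 one_ne_zero, K.ord_one, zpow_zero]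
  have hfl : (LocalVec.spherical K h).fl k = K.sphFun := by
    have e := (LocalVec.spherical K h).fl_eq hk (g := k) (a := 1) (β := 0) (d := 1)
      (ha := one_ne_zero) (hd := one_ne_zero)
      (by rw [show bmat (1 : E) 0 1 one_ne_zero one_ne_zero = 1 by
        ext i j; fin_cases i <;> fin_cases j <;> simp, one_mul])
    rw [e]
    funext z u
    simp [LocalForm.bact, spherical, hη, K.absv_unit K.ord_one]
  have hint : (LocalVec.spherical K h).whitInt ψ k ξ =
      K.slice ψ (K.box 0 0) (K.ord ξ - K.cond) := by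
    funext z
    simp only [whitInt, hfl, LocalForm.sphFun, LocalForm.slice]
    have hiff : (z ∈ K.box 0 0 ∧ ξ / K.n z ≠ 0 ∧ K.ord (ξ / K.n z) = K.cond) ↔
        (z ∈ K.box 0 0 ∧ K.n z ≠ 0 ∧ K.ord (K.n z) = K.ord ξ - K.cond) := by
      rcases eq_or_ne (K.n z) 0 with h0 | h0
      · simp [h0]
      · simp only [ne_eq, hξ, h0, or_self, not_false_eq_true, true_and,
          div_eq_mul_inv, mul_eq_zero, inv_eq_zero, K.ord_mul hξ (inv_ne_zero h0), K.ord_inv h0]
        constructor <;> rintro ⟨h1, h2⟩ <;> exact ⟨h1, by omega⟩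
    rw [if_congr hiff rfl rfl]
    split_ifs <;> simp
  have hdet := K.ord_det_eq_zero hk
  rw [whit, hint, hdet, sub_zero, show (LocalVec.spherical K h).e = -K.cond from rfl,
    LocalForm.sphSum, ← sub_eq_add_neg, ← K.sqrtQ_zpow_two, two_mul,
    zpow_add₀ K.sqrtQ_ne, _root_.zpow_neg]
  have := zpow_ne_zero (K.ord ξ - K.cond) K.sqrtQ_ne
  field_simp

/-- The standard value. -/
theorem whit_spherical_one (hψ : K.IsUnramChar ψ) {k : GL (Fin 2) E} (hk : k ∈ K.intGL) {ξ : E}
    (hξ : ξ ≠ 0) (ho : K.ord ξ = K.cond) : (LocalVec.spherical K h).whit ψ k ξ = 1 := by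
  rw [whit_spherical h hk hξ, ho, sub_self, LocalForm.sphSum_zero hψ]
  simp

variable (hψ : K.IsUnramChar ψ) {lam : ℂ}
  (hrec : ∀ n : ℤ, n ≠ 0 → K.sphSum ψ n = lam * K.sphSum ψ (n - 1) - K.sphSum ψ (n - 2))
  (hG : IsGoodVec (LocalVec.spherical K h) ψ)

include hψ hrec hG

omit hψ in
/-- **The Hecke identity** at the identity coset. -/
theorem whit_hecke_one {ι : Type*} [Fintype ι] (r : ι → E) (hr : ∀ i, r i ∈ K.ball 0)
    (hinj : ∀ i j, r i - r j ∈ K.ball 1 → i = j) (hcard : Fintype.card ι = K.q)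
    {π : E} (hπ : π ≠ 0) (hπo : K.ord π = 1) (ξ : E) :
    ∑ i, (LocalVec.spherical K h).whit ψ (bmat π (r i) 1 hπ one_ne_zero) ξ +
        (LocalVec.spherical K h).whit ψ (bmat 1 0 π one_ne_zero hπ) ξ =
      K.sqrtQ * lam * (LocalVec.spherical K h).whit ψ 1 ξ := by
  classical
  set T := LocalVec.spherical K h
  rcases eq_or_ne ξ 0 with rfl | hξ
  · simp [whit_zero]
  have hW : ∀ (a β d : E) (ha : a ≠ 0) (hd : d ≠ 0),
      T.whit ψ (bmat a β d ha hd) ξ = K.χ (ξ * (β / d)) * T.whit ψ 1 (ξ * a / d) :=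
    fun a β d ha hd => by rw [← whit_borel hG ha hd, mul_one]
  simp only [hW, zero_div, mul_zero, AddChar.map_zero_eq_one, one_mul, div_one, ← Finset.sum_mul,
    mul_one]
  rw [whit_spherical h (one_mem _) (mul_ne_zero hξ hπ),
    whit_spherical h (one_mem _) (div_ne_zero hξ hπ), whit_spherical h (one_mem _) hξ,
    K.ord_mul hξ hπ, div_eq_mul_inv, K.ord_mul hξ (inv_ne_zero hπ), K.ord_inv hπ, hπo]
  set N := K.ord ξ - K.cond with hN
  rw [show K.ord ξ + 1 - K.cond = N + 1 by omega, show K.ord ξ + -1 - K.cond = N - 1 by omega]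
  by_cases h0 : 0 ≤ N
  · have hsum : ∀ i, K.χ (ξ * r i) = 1 := fun i =>
      K.χ_triv _ (K.mul_mem_ball' (k := K.ord ξ) (Or.inr le_rfl) (hr i) (by omega))
    rw [Finset.sum_congr rfl fun i _ => hsum i, Finset.sum_const, Finset.card_univ, hcard,
      nsmul_one, hrec (N + 1) (by omega), show N + 1 - 1 = N by ring, show N + 1 - 2 = N - 1 by ring,
      ← K.sqrtQ_mul, show -(N - 1) = -N + 1 by ring, show -(N + 1) = -N - 1 by ring,
      zpow_add₀ K.sqrtQ_ne, zpow_sub₀ K.sqrtQ_ne, zpow_one]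
    have := K.sqrtQ_ne
    field_simp
    ring
  · rw [LocalForm.sphSum_neg (show N - 1 < 0 by omega), LocalForm.sphSum_neg (show N < 0 by omega)]
    rcases eq_or_ne N (-1) with h1 | h1
    · have := K.finite_res
      have := Fintype.ofFinite K.Res
      let e : ι → K.Res := fun i => ((⟨r i, hr i⟩ : K.ball 0) : K.Res)
      have hbij : Function.Bijective e := by
        refine (Fintype.bijective_iff_injective_and_card e).mpr ⟨fun i j hij => hinj i j ?_, by
          rw [hcard, ← Nat.card_eq_fintype_card, K.card_res]⟩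
        have := AddSubgroup.mem_addSubgroupOf.mp (QuotientAddGroup.eq.mp hij)
        simpa [neg_add_eq_sub] using neg_mem this
      have hval : ∀ i, K.χ (ξ * r i) = K.χ (ξ * ((e i).out : E)) := fun i => by
        refine K.chi_congr ?_
        obtain ⟨p, hp⟩ := QuotientAddGroup.mk_out_eq_add ((K.ball 1).addSubgroupOf (K.ball 0))
          (⟨r i, hr i⟩ : K.ball 0)
        show ξ * (r i - ((((⟨r i, hr i⟩ : K.ball 0) : K.Res)).out : E)) ∈ _
        rw [hp, AddSubgroup.coe_add, sub_add_cancel_left]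
        exact K.mul_mem_ball' (k := K.ord ξ) (Or.inr le_rfl)
          (neg_mem (AddSubgroup.mem_addSubgroupOf.mp p.2)) (by omega)
      have hs : ∑ i, K.χ (ξ * r i) = 0 := by
        rw [Fintype.sum_congr _ _ hval, hbij.sum_comp (fun t : K.Res => K.χ (ξ * (t.out : E))),
          K.sum_char (show ξ ∈ K.ball (K.cond - 1) from Or.inr (by omega)),
          if_neg fun hh => by have := hh.resolve_left hξ; omega]
      rw [hs]
      simp
    · rw [LocalForm.sphSum_neg (show N + 1 < 0 by omega)]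
      simp

omit hψ in
/-- **The Hecke identity.** -/
theorem whit_hecke {ι : Type*} [Fintype ι] (s : Option ι → GL (Fin 2) E)
    (r : ι → E) (hr : ∀ i, r i ∈ K.ball 0) (hinj : ∀ i j, r i - r j ∈ K.ball 1 → i = j)
    (hcard : Fintype.card ι = K.q) {π : E} (hπ : π ≠ 0) (hπo : K.ord π = 1)
    (hsome : ∀ i, s (some i) = bmat π (r i) 1 hπ one_ne_zero)
    (hnone : s none = bmat 1 0 π one_ne_zero hπ)
    (hperm : ∀ k ∈ K.intGL, ∃ σ : Option ι ≃ Option ι, ∀ i, (s (σ i))⁻¹ * k * s i ∈ K.intGL)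
    (g : GL (Fin 2) E) (ξ : E) :
    ∑ i, (LocalVec.spherical K h).whit ψ (g * s i) ξ =
      K.sqrtQ * lam * (LocalVec.spherical K h).whit ψ g ξ := by
  set T := LocalVec.spherical K h
  obtain ⟨a, β, d, ha, hd, k, hk, rfl⟩ := K.exists_iwasawa g
  obtain ⟨σ, hσ⟩ := hperm k hk
  have hmove : ∀ i, T.whit ψ (bmat a β d ha hd * k * s i) ξ =
      T.whit ψ (bmat a β d ha hd * s (σ i)) ξ := fun i => by
    rw [show bmat a β d ha hd * k * s i =
      bmat a β d ha hd * s (σ i) * ((s (σ i))⁻¹ * k * s i) by simp [mul_assoc]]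
    exact whit_right _ (hσ i) ξ
  rw [Finset.sum_congr rfl fun i _ => hmove i,
    σ.sum_comp (fun i => T.whit ψ (bmat a β d ha hd * s i) ξ), whit_right _ (show k ∈ T.U from hk) ξ,
    show bmat a β d ha hd = bmat a β d ha hd * 1 from (mul_one _).symm]
  simp only [mul_assoc (bmat a β d ha hd), one_mul, whit_borel hG ha hd]
  rw [← Finset.mul_sum, Fintype.sum_option, hnone, Finset.sum_congr rfl fun i _ => by rw [hsome i],
    add_comm, whit_hecke_one h hrec hG r hr hinj hcard hπ hπo]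
  ring

end LocalVec

end Fermat.Agent.LT.DihedralTheta
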