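import Fermat.Agent.LT.DihedralTheta.PlaceBase
import Fermat.Agent.LT.DihedralTheta.LocalHecke

/-!
# The data of a dihedral theta form, place by place

The quadratic algebra over `F` is given by `θ ^ 2 - s θ + p = 0`. At a place `v` an element is
written in the basis `1, α + β θ`, in which the local vector and the local character live.
-/

set_option autoImplicit false

noncomputable section

open NumberField
open Fermat.Agent.LT.Places

namespace Fermat.Agent.LT.DihedralTheta

variable {F : Type*} [Field F] [NumberField F]

/-- The norm form. -/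
def normForm {R : Type*} [CommRing R] (s p : R) (z : R × R) : R :=
  z.1 ^ 2 + s * z.1 * z.2 + p * z.2 ^ 2

/-- The component of an element of `F`. -/
abbrev cmp (v : FinPlace F) : F →+* v.adicCompletion F := algebraMap F (v.adicCompletion F)

/-- The local data at a place. -/
structure PlaceDatum (s p : F) (v : FinPlace F) where
  /-- The coordinate of `1` in the local generator. -/
  α : F
  /-- The coordinate of `θ` in the local generator. -/
  β : F
  β_ne : β ≠ 0
  trace_le : Valued.v (cmp v (2 * α + s * β)) ≤ 1
  norm_le : Valued.v (cmp v (normForm s p (α, β))) ≤ 1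
  /-- The local vector. -/
  vec : LocalVec (placeForm v (cmp v (2 * α + s * β)) (cmp v (normForm s p (α, β))) trace_le norm_le)
  /-- The local character. -/
  psi : v.adicCompletion F × v.adicCompletion F → ℂ
  good : IsGoodVec vec psi
  eta_norm : ∀ z, (placeForm v _ _ trace_le norm_le).n z ≠ 0 →
    vec.η ((placeForm v _ _ trace_le norm_le).n z) = 1
  equivariant : ∀ k ∈ (placeForm v _ _ trace_le norm_le).intGL,
    ∀ c ∈ (placeForm v _ _ trace_le norm_le).box 0 0,
      (placeForm v _ _ trace_le norm_le).n c ≠ 0 →
      (placeForm v _ _ trace_le norm_le).ord ((placeForm v _ _ trace_le norm_le).n c) = 0 →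
      ∀ z u, psi c * vec.φ k ((placeForm v _ _ trace_le norm_le).qmul c z)
        (u / (placeForm v _ _ trace_le norm_le).n c) = vec.φ k z u

namespace PlaceDatum

variable {s p : F} {v : FinPlace F} (D : PlaceDatum s p v)

/-- The local form. -/
def form : LocalForm (v.adicCompletion F) :=
  placeForm v (cmp v (2 * D.α + s * D.β)) (cmp v (normForm s p (D.α, D.β))) D.trace_le D.norm_le

/-- Local coordinates of a global element. -/
def coord (x : F × F) : v.adicCompletion F × v.adicCompletion F :=
  (cmp v (x.1 - D.α * (x.2 / D.β)), cmp v (x.2 / D.β))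

/-- Spherical data in the standard basis. -/
structure IsStd : Prop where
  alpha_eq : D.α = 0
  beta_eq : D.β = 1
  cond_eq : placeCond v = 0
  spherical : ∃ (η : v.adicCompletion F → ℂ) (ε : ℂ)
    (h : (placeForm v _ _ D.trace_le D.norm_le).IsUnram η ε), D.vec = LocalVec.spherical _ h
  psi_unram : (placeForm v _ _ D.trace_le D.norm_le).IsUnramChar D.psi

end PlaceDatum

/-- The global data. -/
structure ThetaData (F : Type*) [Field F] [NumberField F] where
  /-- The trace of the generator. -/
  s : F
  /-- The norm of the generator. -/
  p : F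
  aniso : ∀ z : F × F, normForm s p z = 0 → z = 0
  /-- The places. -/
  place : ∀ v : FinPlace F, PlaceDatum s p v
  almost_std : {v | ¬ (place v).IsStd}.Finite
  /-- A place at which the lattice functions vanish at zero. -/
  v₀ : FinPlace F
  vanish_zero : ∀ k ∈ (place v₀).form.intGL, ∀ u, (place v₀).vec.φ k 0 u = 0
  /-- The product formula of the character. -/
  psi_global : ∀ x : F × F, x ≠ 0 → ∏ᶠ v, (place v).psi ((place v).coord x) = 1

namespace ThetaData

variable (D : ThetaData F)

/-- The local Whittaker function at `v`. -/
def locWhit (v : FinPlace F) (g : GLFin F) (ξ : F) : ℂ :=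
  (D.place v).vec.whit (D.place v).psi (glPlace v g) (cmp v ξ)

open Classical in
/-- The coefficient function. -/
def coeff (g : GLFin F) (ξ : F) : ℂ := if ξ = 0 then 0 else ∏ᶠ v, D.locWhit v g ξ

/-- The level is compatible with the local groups. -/
def IsLevel (U : Level F) : Prop :=
  ∀ g ∈ U.toSubgroup, ∃ (a : (FinAdele F)ˣ) (k : GLFin F), g = scalarFin F a * k ∧
    ∀ v, glPlace v k ∈ (D.place v).vec.U

end ThetaData

end Fermat.Agent.LT.DihedralTheta

end
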