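import Fermat.Agent.LT.DihedralTheta.Torus
import Fermat.Agent.LT.Whittaker.Defs

/-!
# The archimedean theta function of the quadratic algebra

For a similitude variable `u` and a point `(z, t)` of hyperbolic space at every infinite place,
`gauss` is the Gaussian in `x` whose integral over the log torus is the Bessel function at
`u * n x`; `dualLattice` is the lattice dual to `N O²` for the character of `u * polar`.
-/

set_option autoImplicit false

noncomputable section

open NumberField
open Fermat.Agent.LT.Places

namespace Fermat.Agent.LT.DihedralTheta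

variable {F : Type*} [Field F] [NumberField F]

/-- The bilinear form attached to the norm form. -/
def polar {R : Type*} [CommRing R] (s p : R) (x y : R × R) : R :=
  2 * x.1 * y.1 + s * (x.1 * y.2 + x.2 * y.1) + 2 * p * x.2 * y.2

namespace ThetaData

variable (D : ThetaData F)

/-- The Gaussian at the point `(z, t)` and the torus point `y`. -/
def gauss (z : InfinitePlace F → ℂ) (t y : InfinitePlace F → ℝ) (u : F) (x : F × F) : ℂ :=
  Whittaker.expChar (u * normForm D.s D.p x) z *
    ((∏ w : InfinitePlace F, t w * w u *
      Real.exp (-(2 * Real.pi * (t w * w u) *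
        (‖D.emb w x‖ ^ 2 * Real.exp (y w) + ‖D.emb' w x‖ ^ 2 * Real.exp (-(y w)))))) : ℝ)

/-- An integral vector as a point of `F²`. -/
def intPair (l : 𝓞 F × 𝓞 F) : F × F := ((l.1 : F), (l.2 : F))

/-- The dual of `N O²`. -/
def dualLattice (u : F) (N : ℕ) : Set (F × F) :=
  {m | ∀ l : 𝓞 F × 𝓞 F, ∃ k : ℤ,
    Algebra.trace ℚ F (u * polar D.s D.p ((N : F) • intPair l) m) = k}

end ThetaData

end Fermat.Agent.LT.DihedralTheta

end
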