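import Fermat.Agent.LT.Whittaker.Adele
import Fermat.Agent.LT.H3.Coord
import Fermat.Agent.LT.Setup.Operators

/-!
# Whittaker coefficient functions and the function they define

A coefficient function with the transformation laws of a Whittaker function defines a function on
`Y U` through the expansion at every coset.  Invariance under the Weyl element up to a constant
is the only further input for automorphy.
-/

set_option autoImplicit false

noncomputable section

open scoped NumberField
open NumberField (InfinitePlace)

namespace Fermat.Agent.LT.DihedralTheta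

variable {F : Type*} [Field F] [NumberField F]

/-- The transformation laws, support and growth of a coefficient function. -/
structure IsWhittakerCoeff (U : Level F) (A : GLFin F → F → ℂ) : Prop where
  zero : ∀ g, A g 0 = 0
  right : ∀ g, ∀ u ∈ U.toSubgroup, A (g * u) = A g
  unip_left : ∀ (b : FinAdele F) (g : GLFin F) (ξ : F),
    A (unip b * g) ξ = Whittaker.psiFin F (finIncl F ξ * b) * A g ξ
  dia_left : ∀ (a : Fˣ) (g : GLFin F) (ξ : F), A (glIncl F (dia a) * g) ξ = A g (ξ * a)
  growth : ∀ g, ∃ (C : ℝ) (k : ℕ), ∀ ξ, ‖A g ξ‖ ≤ C * (∏ w : InfinitePlace F, (1 + w ξ)) ^ k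

/-- The function with coefficients `A`. -/
def phiExp (U : Level F) (A : GLFin F → F → ℂ) (y : Y U) : ℂ :=
  ∑' ξ : F, A y.2.out ξ * Whittaker.expChar ξ (fun w => H3.zc (y.1 w)) *
    (Whittaker.bessel ξ (fun w => H3.tc (y.1 w)) : ℂ)

/-- The Weyl element `(0 1; -1 0)` of `GL₂(F)`. -/
def weylElt (F : Type*) [Field F] : GL (Fin 2) F :=
  Matrix.GeneralLinearGroup.mkOfDetNeZero !![0, 1; -1, 0] (by simp)

end Fermat.Agent.LT.DihedralTheta
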