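import Fermat.Agent.LT.DihedralTheta.LocalHecke

/-!
# A uniform bound for the spherical Whittaker function
-/

set_option autoImplicit false

open AddSubgroup

namespace Fermat.Agent.LT.DihedralTheta

variable {E : Type*} [Field E] {K : LocalForm E}

/-- The mass of the units is at least that of a congruence class. -/
lemma LocalForm.norm_unitVol_inv_le : ‖K.unitVol‖⁻¹ ≤ (K.q : ℝ) ^ (2 : ℤ) := by
  classical
  have hper := K.slice_per K.isUnramChar_one (i := 0) (j := 0) le_rfl le_rfl 0 (R := 1)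
    zero_le_one zero_le_one le_rfl
  have hsupp := K.slice_supp (fun _ => (1 : ℂ)) (K.box 0 0) 0
  have hfin := finite_support (K.isLat_box 1 1) (K.isLat_box 0 0) hsupp
  have hval : ∀ c ∈ hfin.toFinset, K.slice (fun _ => (1 : ℂ)) (K.box 0 0) 0 c.out = 1 :=
    fun c hc => by
      have hc' : K.slice (fun _ => (1 : ℂ)) (K.box 0 0) 0 c.out ≠ 0 := by simpa using hc
      simp only [slice] at hc' ⊢
      split_ifs at hc' ⊢ with hh
      · rfl
      · exact absurd rfl hc'
  have hne := K.unitVol_ne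
  have he : K.unitVol = ((K.q : ℂ) ^ ((1 : ℤ) + 1))⁻¹ * (hfin.toFinset.card : ℂ) := by
    rw [K.unitVol_eq, integral_eq (K.isLat_box 1 1) (K.isLat_box 0 0) hper hsupp, K.vol_box, sumOver,
      finsum_eq_sum_of_support_subset _ (s := hfin.toFinset) (fun c hc => by simpa using hc),
      Finset.sum_congr rfl hval, Finset.sum_const, nsmul_one]
  have hcard : 1 ≤ hfin.toFinset.card := Nat.one_le_iff_ne_zero.mpr fun h => hne (by rw [he, h]; simp)
  rw [he, norm_mul, norm_inv, norm_zpow, Complex.norm_natCast, Complex.norm_natCast, mul_inv, inv_inv]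
  exact mul_le_of_le_one_right (zpow_nonneg (Nat.cast_nonneg _) _) (inv_le_one_of_one_le₀ (by exact_mod_cast hcard))

namespace LocalVec

variable {η : E → ℂ} {ε : ℂ} (h : K.IsUnram η ε) {ψ : E × E → ℂ} (hψ : K.IsUnramChar ψ)
  (hnorm : ∀ {z : E × E}, K.n z ≠ 0 → ‖ψ z‖ = 1)

include hψ hnorm

/-- The uniform bound at a good place. -/
theorem norm_whit_spherical_le {k : GL (Fin 2) E} (hk : k ∈ K.intGL) {ξ : E} (hξ : ξ ≠ 0) :
    ‖(LocalVec.spherical K h).whit ψ k ξ‖ ≤ (K.q : ℝ) ^ (3 * (K.ord ξ - K.cond)) := by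
  classical
  set N := K.ord ξ - K.cond
  rw [whit_spherical h hk hξ, show K.ord ξ - K.cond = N from rfl]
  have hq : (1 : ℝ) ≤ K.q := Nat.one_le_cast.mpr K.q_pos
  have hs : 0 < Real.sqrt K.q := Real.sqrt_pos.mpr (by linarith)
  rcases lt_trichotomy N 0 with hN | hN | hN
  · rw [LocalForm.sphSum_neg hN]; simp only [mul_zero, norm_zero]; exact zpow_nonneg (Nat.cast_nonneg _) _
  · rw [hN, LocalForm.sphSum_zero hψ]; simp
  · have hI : ‖integral K.base (K.slice ψ (K.box 0 0) N)‖ ≤ 1 := by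
      refine (LocalForm.norm_integral_le (R := max (N + 1) 0) (k := 0) (le_max_right _ _)
        (K.slice_per hψ le_rfl le_rfl N (le_max_right _ _) (le_max_right _ _) (le_max_left _ _))
        (K.slice_supp ψ _ N) (M := 1) fun z => ?_).trans (by simp)
      simp only [LocalForm.slice]
      split_ifs with hz
      · exact (hnorm hz.2.1).le
      · simp
    rw [LocalForm.sphSum, norm_mul, norm_div, norm_mul, norm_zpow, norm_zpow, Complex.norm_natCast,
      LocalForm.sqrtQ, Complex.norm_real, Real.norm_eq_abs, abs_of_pos hs, div_eq_mul_inv]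
    calc Real.sqrt K.q ^ (-N) * ((K.q : ℝ) ^ N * ‖integral K.base (K.slice ψ (K.box 0 0) N)‖ *
          ‖K.unitVol‖⁻¹)
        ≤ 1 * ((K.q : ℝ) ^ N * 1 * (K.q : ℝ) ^ (2 : ℤ)) := by
          have hqN : 0 ≤ (K.q : ℝ) ^ N := zpow_nonneg (Nat.cast_nonneg _) _
          refine mul_le_mul ?_ ?_ ?_ zero_le_one
          · exact zpow_le_one_of_nonpos₀ (Real.one_le_sqrt.mpr hq) (by omega)
          · exact mul_le_mul (mul_le_mul_of_nonneg_left hI hqN)
              LocalForm.norm_unitVol_inv_le (inv_nonneg.mpr (norm_nonneg _))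
              (mul_nonneg hqN zero_le_one)
          · exact mul_nonneg (mul_nonneg hqN (norm_nonneg _)) (inv_nonneg.mpr (norm_nonneg _))
      _ = (K.q : ℝ) ^ (N + 2) := by rw [one_mul, mul_one, zpow_add₀ (by linarith)]
      _ ≤ _ := zpow_le_zpow_right₀ hq (by omega)

end LocalVec

end Fermat.Agent.LT.DihedralTheta
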