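import Fermat.Agent.LT.DihedralTheta.Data
import Fermat.Agent.LT.DihedralTheta.Coeff
import Fermat.Agent.LT.DihedralTheta.LocalBound
import Fermat.Agent.LT.Places.Components
import Mathlib.NumberTheory.NumberField.ProductFormula

/-!
# The product of the local Whittaker functions is a Whittaker coefficient function

It transforms under unipotent and diagonal rational elements on the left, is invariant under a
compatible level on the right, and grows at most polynomially.
-/

set_option autoImplicit false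

noncomputable section

open IsDedekindDomain NumberField WithZero
open Fermat.Agent.LT.Places

namespace Fermat.Agent.LT.DihedralTheta

variable {F : Type*} [Field F] [NumberField F]

/-- The valuation on the completion extends that of the field. -/
lemma valued_cmp (v : FinPlace F) (x : F) : Valued.v (cmp v x) = v.valuation F x :=
  HeightOneSpectrum.valuedAdicCompletion_eq_valuation' v x

/-- An element of valuation `1` has order zero in the completion. -/
lemma placeOrd_cmp_eq_zero {v : FinPlace F} {x : F} (h : v.valuation F x = 1) :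
    placeOrd v (cmp v x) = 0 := by
  rw [placeOrd, valued_cmp, h, log_one, neg_zero]

/-- Almost all valuations of a nonzero element are one. -/
lemma finite_valuation_ne_one {x : F} (hx : x ≠ 0) :
    {v : FinPlace F | v.valuation F x ≠ 1}.Finite := by
  refine ((finite_placeVal (finIncl F x)).union (finite_placeVal (finIncl F x⁻¹))).subset
    fun v hv => ?_
  by_contra h
  simp only [Set.mem_union, Set.mem_ofPred_eq, not_or, not_lt, placeVal_finIncl, map_inv₀] at h
  refine hv (le_antisymm h.1 ?_)
  rw [← inv_le_one₀ (zero_lt_iff.mpr ((Valuation.ne_zero_iff _).mpr hx))]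
  exact h.2

/-- Almost all components of an adelic matrix are integral. -/
lemma finite_not_intGL (g : GLFin F) :
    {v : FinPlace F | glPlace v g ∉ (placeBase v).intGL}.Finite := by
  refine ((Set.finite_iUnion fun p : Fin 2 × Fin 2 => finite_placeVal (g.val p.1 p.2)).union
    (Set.finite_iUnion fun p : Fin 2 × Fin 2 => finite_placeVal ((g⁻¹).val p.1 p.2))).subset
      fun v hv => ?_
  by_contra hc
  simp only [Set.mem_union, Set.mem_iUnion, Set.mem_ofPred_eq, not_or, not_exists, not_lt] at hc
  refine hv ((intGL_eq_intGroup v).symm ▸ mem_intGroup_of_inv (fun i j => hc.1 (i, j)) fun i j => ?_)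
  rw [← map_inv]
  exact hc.2 (i, j)

/-- The component of a finite adelic unipotent at a place. -/
lemma glPlace_unip (v : FinPlace F) (b : FinAdele F) :
    glPlace v (unip b) = bmat 1 (toPlace v b) 1 one_ne_zero one_ne_zero :=
  Units.ext (Matrix.ext fun i j => by
    rw [glPlace_apply, bmat_val]; fin_cases i <;> fin_cases j <;> simp)

lemma glPlace_glIncl_dia (v : FinPlace F) (a : Fˣ) :
    glPlace v (glIncl F (dia a)) =
      bmat (cmp v a) 0 1 ((map_ne_zero _).mpr a.ne_zero) one_ne_zero :=
  Units.ext (Matrix.ext fun i j => by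
    rw [glPlace_apply, bmat_val]
    fin_cases i <;> fin_cases j <;> simp [glIncl, dia, toPlace_finIncl])

/-- The component of a finite adelic scalar at a place. -/
lemma glPlace_scalarFin (v : FinPlace F) (a : (FinAdele F)ˣ) :
    glPlace v (scalarFin F a) = bmat (toPlace v (a : FinAdele F)) 0 (toPlace v (a : FinAdele F))
      (toPlace_units_ne_zero v a) (toPlace_units_ne_zero v a) :=
  Units.ext (Matrix.ext fun i j => by
    rw [glPlace_scalarFin_apply, bmat_val]; fin_cases i <;> fin_cases j <;> simp)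

namespace PlaceDatum

variable {s p : F} {v : FinPlace F} {P : PlaceDatum s p v}

/-- At a standard place the Whittaker function is `1` on integral elements at units. -/
lemma IsStd.whit_eq_one (h : P.IsStd) {g : GL (Fin 2) (v.adicCompletion F)}
    (hg : g ∈ (placeBase v).intGL) {ξ : v.adicCompletion F} (hξ : ξ ≠ 0) (ho : placeOrd v ξ = 0) :
    P.vec.whit P.psi g ξ = 1 := by
  obtain ⟨η, ε, hu, hv⟩ := h.spherical
  rw [hv]
  exact LocalVec.whit_spherical_one hu h.psi_unram hg hξ (ho.trans h.cond_eq.symm)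

lemma IsStd.norm_whit_le (h : P.IsStd) {g : GL (Fin 2) (v.adicCompletion F)}
    (hg : g ∈ (placeBase v).intGL) {ξ : v.adicCompletion F} (hξ : ξ ≠ 0) :
    ‖P.vec.whit P.psi g ξ‖ ≤ (Nat.card (Residue v) : ℝ) ^ (3 * placeOrd v ξ) := by
  obtain ⟨η, ε, hu, hv⟩ := h.spherical
  rw [hv]
  refine (LocalVec.norm_whit_spherical_le hu h.psi_unram (fun hz => P.good.psi_norm hz) hg hξ).trans
    (le_of_eq ?_)
  show _ ^ (3 * (placeOrd v ξ - placeCond v)) = _
  rw [h.cond_eq, sub_zero]
  rfl

/-- The bound at any place, in the shape of the bound at a good one. -/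
lemma exists_whit_bound (g : GL (Fin 2) (v.adicCompletion F)) :
    ∃ C : ℝ, 0 ≤ C ∧ ∀ ξ, ξ ≠ 0 →
      ‖P.vec.whit P.psi g ξ‖ ≤ C * (Nat.card (Residue v) : ℝ) ^ (3 * placeOrd v ξ) := by
  obtain ⟨C, hC⟩ := LocalVec.whit_bound P.good g
  obtain ⟨B, hB⟩ := LocalVec.whit_supp P.good g
  have hq : (1 : ℝ) ≤ (Nat.card (Residue v) : ℝ) := Nat.one_le_cast.mpr (Nat.card_pos)
  set s := Real.sqrt (Nat.card (Residue v) : ℝ)
  have hs : 1 ≤ s := Real.one_le_sqrt.mpr hq
  have hs2 : ∀ k : ℤ, (Nat.card (Residue v) : ℝ) ^ k = s ^ (2 * k) := fun k => by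
    rw [zpow_mul, zpow_two, Real.mul_self_sqrt (by linarith)]
  refine ⟨|C| * s ^ (-(5 * B)), mul_nonneg (abs_nonneg _) (zpow_nonneg (by linarith) _),
    fun ξ hξ => ?_⟩
  by_cases h0 : P.vec.whit P.psi g ξ = 0
  · rw [h0, norm_zero]
    exact mul_nonneg (mul_nonneg (abs_nonneg _) (zpow_nonneg (by linarith) _))
      (zpow_nonneg (by linarith) _)
  obtain ⟨-, hB'⟩ := hB ξ h0
  calc ‖P.vec.whit P.psi g ξ‖ ≤ C * s ^ placeOrd v ξ := hC ξ
    _ ≤ |C| * s ^ placeOrd v ξ :=
        mul_le_mul_of_nonneg_right (le_abs_self C) (zpow_nonneg (by linarith) _)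
    _ ≤ |C| * (s ^ (-(5 * B)) * s ^ (2 * (3 * placeOrd v ξ))) := by
        refine mul_le_mul_of_nonneg_left ?_ (abs_nonneg _)
        rw [← zpow_add₀ (by linarith)]
        refine zpow_le_zpow_right₀ hs ?_
        have : B ≤ placeOrd v ξ := hB'
        omega
    _ = _ := by rw [hs2, mul_assoc]

end PlaceDatum

namespace ThetaData

variable (D : ThetaData F)

/-- The local functions are one at almost all places. -/
theorem finite_locWhit_ne_one (g : GLFin F) {ξ : F} (hξ : ξ ≠ 0) :
    (Function.mulSupport fun v => D.locWhit v g ξ).Finite := by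
  refine ((D.almost_std.union (finite_not_intGL g)).union (finite_valuation_ne_one hξ)).subset
    fun v hv => ?_
  by_contra hc
  simp only [Set.mem_union, Set.mem_ofPred_eq, not_or, not_not] at hc
  obtain ⟨⟨h1, h2⟩, h3⟩ := hc
  exact hv (h1.whit_eq_one h2 ((map_ne_zero _).mpr hξ) (placeOrd_cmp_eq_zero h3))

/-- Away from `0` the coefficient is the product of the local Whittaker functions. -/
lemma coeff_of_ne {g : GLFin F} {ξ : F} (hξ : ξ ≠ 0) : D.coeff g ξ = ∏ᶠ v, D.locWhit v g ξ :=
  if_neg hξ

/-- The coefficient at `0` vanishes. -/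
@[simp] lemma coeff_zero (g : GLFin F) : D.coeff g 0 = 0 := if_pos rfl

/-- Product formula over the height one spectrum. -/
lemma prod_mul_finprod_eq_one {x : F} (hx : x ≠ 0) :
    (∏ w : InfinitePlace F, w x ^ w.mult) *
      ∏ᶠ v : FinPlace F, (Nat.card (Residue v) : ℝ) ^ (-placeOrd v (cmp v x)) = 1 := by
  have h := NumberField.prod_abs_eq_one (K := F) hx
  rw [← finprod_comp_equiv FinitePlace.equivHeightOneSpectrum.symm] at h
  convert h using 4 with v
  rw [FinitePlace.equivHeightOneSpectrum_symm_apply, FinitePlace.norm_embedding',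
    show v.valuation F x = exp (-placeOrd v (cmp v x)) by
      rw [← valued_cmp]; exact valued_eq_exp ((map_ne_zero _).mpr hx)]
  rw [WithZeroMulInt.toNNReal_neg_apply _ exp_ne_zero, NNReal.coe_zpow, NNReal.coe_natCast,
    Ideal.absNorm_apply, Submodule.cardQuot_apply]
  congr 1

/-- The coefficient function is invariant on the right under a compatible level. -/
theorem coeff_right {U : Level F} (hU : D.IsLevel U) (g : GLFin F) {u : GLFin F}
    (hu : u ∈ U.toSubgroup) : D.coeff (g * u) = D.coeff g := by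
  obtain ⟨a, k, rfl, hk⟩ := hU u hu
  funext ξ
  rcases eq_or_ne ξ 0 with rfl | hξ
  · simp
  rw [D.coeff_of_ne hξ, D.coeff_of_ne hξ]
  refine finprod_congr fun v => ?_
  rw [locWhit, locWhit, ← mul_assoc, ← scalarFin_comm, mul_assoc, map_mul, map_mul,
    glPlace_scalarFin, LocalVec.whit_borel (D.place v).good, LocalVec.whit_right _ (hk v),
    zero_div, mul_zero, AddChar.map_zero_eq_one, one_mul,
    mul_div_cancel_right₀ _ (toPlace_units_ne_zero v a)]

/-- The coefficient function transforms by the additive character under unipotent elements. -/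
theorem coeff_unip_left (b : FinAdele F) (g : GLFin F) (ξ : F) :
    D.coeff (unip b * g) ξ = Whittaker.psiFin F (finIncl F ξ * b) * D.coeff g ξ := by
  rcases eq_or_ne ξ 0 with rfl | hξ
  · simp
  rw [D.coeff_of_ne hξ, D.coeff_of_ne hξ, psiFin_eq_finprod, ← finprod_mul_distrib ?_
    (D.finite_locWhit_ne_one g hξ)]
  · refine finprod_congr fun v => ?_
    rw [locWhit, map_mul, glPlace_unip, LocalVec.whit_borel (D.place v).good, map_mul (toPlace v),
      toPlace_finIncl, locWhit, div_one, mul_one, div_one]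
    rfl
  · refine (finite_placeVal (finIncl F ξ * b)).subset fun v hv => ?_
    by_contra h
    exact hv (placeChar_eq_one (not_lt.mp h))

/-- Rational diagonal elements rescale the argument of the coefficient function. -/
theorem coeff_dia_left (a : Fˣ) (g : GLFin F) (ξ : F) :
    D.coeff (glIncl F (dia a) * g) ξ = D.coeff g (ξ * a) := by
  rcases eq_or_ne ξ 0 with rfl | hξ
  · simp
  rw [D.coeff_of_ne hξ, D.coeff_of_ne (mul_ne_zero hξ a.ne_zero)]
  refine finprod_congr fun v => ?_
  rw [locWhit, map_mul, glPlace_glIncl_dia, LocalVec.whit_borel (D.place v).good, locWhit,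
    zero_div, mul_zero, AddChar.map_zero_eq_one, one_mul, div_one, map_mul]

/-- The coefficient function grows at most polynomially. -/
theorem coeff_growth (g : GLFin F) :
    ∃ (C : ℝ) (k : ℕ), ∀ ξ, ‖D.coeff g ξ‖ ≤ C * (∏ w : InfinitePlace F, (1 + w ξ)) ^ k := by
  classical
  set S := (D.almost_std.union (finite_not_intGL g)).toFinset
  choose Cv hC0 hC using fun v => (D.place v).exists_whit_bound (glPlace v g)
  refine ⟨∏ v ∈ S, Cv v, 6, fun ξ => ?_⟩
  have hprod : 0 ≤ ∏ v ∈ S, Cv v := Finset.prod_nonneg fun v _ => hC0 v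
  have hw : 0 ≤ ∏ w : InfinitePlace F, (1 + w ξ) :=
    Finset.prod_nonneg fun w _ => add_nonneg zero_le_one (apply_nonneg w ξ)
  rcases eq_or_ne ξ 0 with rfl | hξ
  · rw [coeff_zero, norm_zero]; exact mul_nonneg hprod (pow_nonneg hw 6)
  set q : FinPlace F → ℝ := fun v => (Nat.card (Residue v) : ℝ) ^ (-placeOrd v (cmp v ξ))
  have hq : ∀ v, 0 < q v := fun v => zpow_pos (Nat.cast_pos.mpr Nat.card_pos) _
  have hqfin : (Function.mulSupport q).Finite :=
    (finite_valuation_ne_one hξ).subset fun v hv h1 => hv (by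
      simp only [q, placeOrd_cmp_eq_zero h1, neg_zero, zpow_zero])
  set T := S ∪ hqfin.toFinset ∪ (D.finite_locWhit_ne_one g hξ).toFinset
  have e1 : D.coeff g ξ = ∏ v ∈ T, D.locWhit v g ξ := by
    rw [D.coeff_of_ne hξ]
    exact finprod_eq_prod_of_mulSupport_subset _ fun v hv => by simp [T, hv]
  have e2 : ∏ᶠ v, q v = ∏ v ∈ T, q v :=
    finprod_eq_prod_of_mulSupport_subset _ fun v hv => by
      simp [T, Function.mem_mulSupport.mp hv]
  have hpf := prod_mul_finprod_eq_one hξ
  have hbound : ∀ v ∈ T, ‖D.locWhit v g ξ‖ ≤ (if v ∈ S then Cv v else 1) * (q v ^ 3)⁻¹ := by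
    intro v _
    have hr : (q v ^ 3)⁻¹ = (Nat.card (Residue v) : ℝ) ^ (3 * placeOrd v (cmp v ξ)) := by
      simp only [q]
      rw [← zpow_natCast, ← zpow_mul, ← zpow_neg]; congr 1; push_cast; ring
    rw [hr]
    split_ifs with hv
    · exact hC v _ ((map_ne_zero _).mpr hξ)
    · rw [one_mul]
      simp only [S, Set.Finite.mem_toFinset, Set.mem_union, Set.mem_ofPred_eq, not_or, not_not] at hv
      exact hv.1.norm_whit_le hv.2 ((map_ne_zero _).mpr hξ)
  have hpow : ∏ w : InfinitePlace F, w ξ ^ w.mult ≤ (∏ w : InfinitePlace F, (1 + w ξ)) ^ 2 := by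
    rw [← Finset.prod_pow]
    refine Finset.prod_le_prod (fun w _ => pow_nonneg (apply_nonneg w ξ) _) fun w _ => ?_
    refine (pow_le_pow_left₀ (apply_nonneg w ξ) (by linarith : w ξ ≤ 1 + w ξ) _).trans
      (pow_le_pow_right₀ (by have := apply_nonneg w ξ; linarith) ?_)
    rw [InfinitePlace.mult]; split_ifs <;> norm_num
  calc ‖D.coeff g ξ‖ = ∏ v ∈ T, ‖D.locWhit v g ξ‖ := by rw [e1, norm_prod]
    _ ≤ ∏ v ∈ T, (if v ∈ S then Cv v else 1) * (q v ^ 3)⁻¹ :=
        Finset.prod_le_prod (fun v _ => norm_nonneg _) hbound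
    _ = (∏ v ∈ S, Cv v) * ((∏ v ∈ T, q v) ^ 3)⁻¹ := by
        rw [Finset.prod_mul_distrib, Finset.prod_inv_distrib, Finset.prod_pow,
          Finset.prod_ite_mem, Finset.inter_eq_right.mpr (by
            intro v hv; simp [T, hv])]
    _ = (∏ v ∈ S, Cv v) * (∏ w : InfinitePlace F, w ξ ^ w.mult) ^ 3 := by
        rw [e2] at hpf
        rw [eq_inv_of_mul_eq_one_left hpf, inv_pow]
    _ ≤ _ := by
        refine mul_le_mul_of_nonneg_left ?_ hprod
        rw [show 6 = 2 * 3 from rfl, pow_mul]
        exact pow_le_pow_left₀ (Finset.prod_nonneg fun w _ => pow_nonneg (apply_nonneg w ξ) _) hpow 3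

/-- **The coefficient function has the laws of a Whittaker coefficient function.** -/
theorem isWhittakerCoeff {U : Level F} (hU : D.IsLevel U) : IsWhittakerCoeff U D.coeff where
  zero := D.coeff_zero
  right g _ hu := D.coeff_right hU g hu
  unip_left := D.coeff_unip_left
  dia_left := D.coeff_dia_left
  growth := D.coeff_growth

end ThetaData

end Fermat.Agent.LT.DihedralTheta

end
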