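import Fermat.Agent.LT.DihedralTheta.LocalFourier
import Fermat.Agent.LT.DihedralTheta.GlobalCoeff
import Fermat.Agent.LT.DihedralTheta.Arch
import Fermat.Agent.LT.Whittaker.Local

/-!
# Factorisable functions on the finite adelic points of the quadratic algebra

A family of local lattice functions, almost all equal to the indicator of the standard box, gives
a function on `F²` with bounded denominators and a period `N`.
-/

set_option autoImplicit false

noncomputable section

open IsDedekindDomain NumberField WithZero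
open Fermat.Agent.LT.Places

namespace Fermat.Agent.LT.DihedralTheta

variable {F : Type*} [Field F] [NumberField F]

/-- The valuation exponent of a natural number. -/
def natOrd (v : FinPlace F) (N : ℕ) : ℤ := placeOrd v (cmp v (N : F))

/-- A point lies in the ball of radius the order of `N` exactly when its valuation is at most
that of `N`. -/
lemma mem_ball_natOrd {v : FinPlace F} {N : ℕ} (hN : 0 < N) {x : v.adicCompletion F} :
    x ∈ (placeBase v).ball (natOrd v N) ↔ Valued.v x ≤ v.valuation F (N : F) := by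
  rw [mem_placeBall, natOrd, ← valued_eq_exp ((map_ne_zero _).mpr (Nat.cast_ne_zero.mpr hN.ne')),
    valued_cmp]

lemma natOrd_nonneg (v : FinPlace F) {N : ℕ} (hN : 0 < N) : 0 ≤ natOrd v N := by
  have h := valuation_natCast_le_one v N
  rw [← valued_cmp, valued_eq_exp ((map_ne_zero _).mpr (Nat.cast_ne_zero.mpr hN.ne')), ← exp_zero,
    exp_le_exp] at h
  show 0 ≤ placeOrd v (cmp v (N : F))
  omega

/-- A natural number small at finitely many places. -/
lemma exists_natCast_small (S : Finset (FinPlace F)) (k : FinPlace F → ℤ) :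
    ∃ N : ℕ, 0 < N ∧ ∀ v ∈ S, v.valuation F (N : F) ≤ exp (-k v) := by
  classical
  refine ⟨∏ v ∈ S, (resPrime v : ℕ) ^ (k v).toNat,
    Finset.prod_pos fun v _ => pow_pos (resPrime_prime v).pos _, fun v hv => ?_⟩
  rw [Nat.cast_prod, ← Finset.mul_prod_erase S _ hv, map_mul, Nat.cast_pow, map_pow]
  have h1 := valuation_resPrime_lt_one v
  have h0 := valuation_natCast_ne_zero v (resPrime_prime v).pos
  have h2 : v.valuation F ((resPrime v : ℕ) : F) ≤ exp (-1 : ℤ) := by
    rw [← exp_log h0, ← exp_zero, exp_lt_exp] at h1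
    rw [← exp_log h0, exp_le_exp]
    omega
  refine (mul_le_of_le_one_right' ?_).trans ((pow_le_pow_left' h2 _).trans ?_)
  · rw [← Nat.cast_prod]; exact valuation_natCast_le_one v _
  · rw [← exp_nsmul, exp_le_exp, nsmul_eq_mul]
    omega

namespace PlaceDatum

variable {s p : F} {v : FinPlace F} (P : PlaceDatum s p v)

/-- The local coordinates as a linear map. -/
def coordLin : (v.adicCompletion F × v.adicCompletion F) ≃ₗ[v.adicCompletion F]
    v.adicCompletion F × v.adicCompletion F where
  toFun z := (z.1 - cmp v P.α * (z.2 / cmp v P.β), z.2 / cmp v P.β)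
  map_add' z w := by simp only [Prod.fst_add, Prod.snd_add, Prod.mk_add_mk, Prod.mk.injEq]; constructor <;> ring
  map_smul' a z := by
    simp only [Prod.smul_fst, Prod.smul_snd, smul_eq_mul, RingHom.id_apply, Prod.smul_mk,
      Prod.mk.injEq]
    constructor <;> ring
  invFun z := (z.1 + cmp v P.α * z.2, z.2 * cmp v P.β)
  left_inv z := by
    have := (map_ne_zero (cmp v)).mpr P.β_ne
    ext <;> simp [this]
  right_inv z := by
    have := (map_ne_zero (cmp v)).mpr P.β_ne
    ext <;> simp [this]

/-- The local coordinates of a global pair are the image of its completion under `coordLin`. -/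
lemma coord_eq (x : F × F) : P.coord x = P.coordLin (cmp v x.1, cmp v x.2) := by
  show _ = (cmp v x.1 - cmp v P.α * (cmp v x.2 / cmp v P.β), cmp v x.2 / cmp v P.β)
  simp [coord]

/-- In the coordinates `coordLin` the bilinear form of the place is the polar form of `(s, p)`. -/
lemma B_coordLin (z y : v.adicCompletion F × v.adicCompletion F) :
    P.form.B (P.coordLin z) (P.coordLin y) = polar (cmp v s) (cmp v p) z y := by
  show 2 * (P.coordLin z).1 * (P.coordLin y).1 + cmp v (2 * P.α + s * P.β) *
      ((P.coordLin z).1 * (P.coordLin y).2 + (P.coordLin z).2 * (P.coordLin y).1) +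
    2 * cmp v (normForm s p (P.α, P.β)) * (P.coordLin z).2 * (P.coordLin y).2 = _
  have := (map_ne_zero (cmp v)).mpr P.β_ne
  simp only [coordLin, LinearEquiv.coe_mk, LinearMap.coe_mk, AddHom.coe_mk, polar, normForm,
    map_add, map_mul, map_pow, map_ofNat]
  field_simp
  ring

lemma IsStd.coordLin_apply {P : PlaceDatum s p v} (h : P.IsStd)
    (z : v.adicCompletion F × v.adicCompletion F) : P.coordLin z = z := by
  show (z.1 - cmp v P.α * (z.2 / cmp v P.β), z.2 / cmp v P.β) = z
  simp [h.alpha_eq, h.beta_eq]

lemma IsStd.ratio_coordLin {P : PlaceDatum s p v} (h : P.IsStd) : P.form.ratio P.coordLin = 1 := by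
  rw [LocalForm.ratio, show (P.form.box 0 0).comap P.coordLin.toAddEquiv.toAddMonoidHom =
    P.form.box 0 0 from AddSubgroup.ext fun z => by
      show P.coordLin z ∈ P.form.box 0 0 ↔ _
      rw [h.coordLin_apply], vol_self]

/-- The polar form of global elements. -/
lemma cmp_polar (x y : F × F) :
    cmp v (polar s p x y) =
      polar (cmp v s) (cmp v p) (cmp v x.1, cmp v x.2) (cmp v y.1, cmp v y.2) := by
  simp only [polar, map_add, map_mul, map_ofNat]

end PlaceDatum

namespace ThetaData

variable (D : ThetaData F)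

/-- A family of local functions on the quadratic algebra, standard at almost all places. -/
structure IsAdelicSch
    (Φ : ∀ v : FinPlace F, v.adicCompletion F × v.adicCompletion F → ℂ) : Prop where
  box : ∀ v, (D.place v).form.IsBoxSch (Φ v)
  almost : {v | ¬ ∀ z, (z ∈ (placeBase v).box 0 0 → Φ v z = 1) ∧
    (z ∉ (placeBase v).box 0 0 → Φ v z = 0)}.Finite

/-- The function on `F²`. -/
def adFun (Φ : ∀ v : FinPlace F, v.adicCompletion F × v.adicCompletion F → ℂ) (x : F × F) : ℂ :=
  ∏ᶠ v, Φ v ((D.place v).coord x)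

/-- The Fourier transform for the pairing `u B`, at a point of `F²`. -/
def adFourier (u : F) (Φ : ∀ v : FinPlace F, v.adicCompletion F × v.adicCompletion F → ℂ)
    (y : F × F) : ℂ :=
  ∏ᶠ v, integral (D.place v).form.base fun z =>
    Φ v z * placeChar v (cmp v u * (D.place v).form.B z ((D.place v).coord y))

/-- The product of the factors of the coordinate changes. -/
def coordConst : ℂ := ∏ᶠ v, (D.place v).form.ratio (D.place v).coordLin

variable {Φ : ∀ v : FinPlace F, v.adicCompletion F × v.adicCompletion F → ℂ}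

/-- A period and a denominator. -/
structure IsPeriod (Φ : ∀ v : FinPlace F, v.adicCompletion F × v.adicCompletion F → ℂ)
    (N M : ℕ) (S : Finset (FinPlace F)) : Prop where
  N_pos : 0 < N
  M_pos : 0 < M
  outside : ∀ v ∉ S, ∀ z, (z ∈ (placeBase v).box 0 0 → Φ v ((D.place v).coordLin z) = 1) ∧
    (z ∉ (placeBase v).box 0 0 → Φ v ((D.place v).coordLin z) = 0)
  outside_ratio : ∀ v ∉ S, (D.place v).form.ratio (D.place v).coordLin = 1
  outside_N : ∀ v ∉ S, v.valuation F (N : F) = 1
  outside_M : ∀ v ∉ S, v.valuation F (M : F) = 1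
  per : ∀ v, IsPer ((placeBase v).box (natOrd v N) (natOrd v N))
    fun z => Φ v ((D.place v).coordLin z)
  supp : ∀ v, HasSupp ((placeBase v).box (-natOrd v M) (-natOrd v M))
    fun z => Φ v ((D.place v).coordLin z)

/-- An adelic Schwartz function has bounded denominators and a period. -/
theorem IsAdelicSch.exists_period (hΦ : D.IsAdelicSch Φ) :
    ∃ N M S, D.IsPeriod Φ N M S := by
  classical
  set S₀ := (hΦ.almost.union D.almost_std).toFinset
  have hR : ∀ v, ∃ R l : ℤ, IsPer ((placeBase v).box R R)
      (fun z => Φ v ((D.place v).coordLin z)) ∧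
        HasSupp ((placeBase v).box l l) fun z => Φ v ((D.place v).coordLin z) :=
    fun v => (hΦ.box v).comp (D.place v).coordLin
  choose R l hR hl using hR
  obtain ⟨N, hN, hNS⟩ := exists_natCast_small S₀ R
  obtain ⟨M, hM, hMS⟩ := exists_natCast_small S₀ fun v => -l v
  have hord : ∀ (v : FinPlace F) {K : ℕ} (k : ℤ), 0 < K → v.valuation F (K : F) ≤ exp (-k) → k ≤ natOrd v K :=
    fun v K k hK h => by
      rw [← valued_cmp, valued_eq_exp ((map_ne_zero _).mpr (Nat.cast_ne_zero.mpr hK.ne')),
        exp_le_exp] at h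
      show k ≤ placeOrd v (cmp v (K : F))
      omega
  have hout : ∀ v ∉ S₀, ∀ z, (z ∈ (placeBase v).box 0 0 → Φ v ((D.place v).coordLin z) = 1) ∧
      (z ∉ (placeBase v).box 0 0 → Φ v ((D.place v).coordLin z) = 0) := fun v hv z => by
    simp only [S₀, Set.Finite.mem_toFinset, Set.mem_union, Set.mem_ofPred_eq, not_or, not_not] at hv
    rw [hv.2.coordLin_apply]; exact hv.1 z
  set S := S₀ ∪ (finite_natCast (F := F) N hN).toFinset ∪ (finite_natCast (F := F) M hM).toFinset
  refine ⟨N, M, S, hN, hM, fun v hv => hout v fun h => hv (by simp [S, h]), fun v hv => ?_,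
    fun v hv => ?_, fun v hv => ?_, fun v => ?_, fun v => ?_⟩
  · refine PlaceDatum.IsStd.ratio_coordLin ?_
    by_contra h
    exact hv (by simp [S, S₀, h])
  · by_contra h; exact hv (by simp [S, h])
  · by_contra h; exact hv (by simp [S, h])
  · by_cases hv : v ∈ S₀
    · exact (hR v).mono ((placeBase v).box_le (hord v _ hN (hNS v hv)) (hord v _ hN (hNS v hv)))
    · intro z q hq
      have hq0 := (placeBase v).box_le (natOrd_nonneg v hN) (natOrd_nonneg v hN) hq
      show Φ v _ = Φ v _
      by_cases hz : z ∈ (placeBase v).box 0 0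
      · rw [(hout v hv _).1 (add_mem hz hq0), (hout v hv _).1 hz]
      · rw [(hout v hv _).2 fun h => hz (by simpa using sub_mem h hq0), (hout v hv _).2 hz]
  · intro z hz
    by_cases hv : v ∈ S₀
    · have := hord v (-l v) hM (hMS v hv)
      exact (placeBase v).box_le (by omega) (by omega) (hl v z hz)
    · have := natOrd_nonneg v hM
      refine (placeBase v).box_le (i := 0) (j := 0) (by omega) (by omega) ?_
      by_contra h
      exact hz ((hout v hv z).2 h)

variable {D} {N M : ℕ} {S : Finset (FinPlace F)} (hP : D.IsPeriod Φ N M S)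

include hP

/-- Outside the exceptional set the denominator has order zero. -/
lemma IsPeriod.natOrd_N {v : FinPlace F} (hv : v ∉ S) : natOrd v N = 0 :=
  placeOrd_cmp_eq_zero (hP.outside_N v hv)

/-- Outside the exceptional set the period has order zero. -/
lemma IsPeriod.natOrd_M {v : FinPlace F} (hv : v ∉ S) : natOrd v M = 0 :=
  placeOrd_cmp_eq_zero (hP.outside_M v hv)

/-- The support of the function lies in `M⁻¹ O²`. -/
theorem IsPeriod.exists_intPair {x : F × F} (hx : D.adFun Φ x ≠ 0) :
    ∃ l : 𝓞 F × 𝓞 F, (M : F) • x = intPair l := by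
  classical
  have hne : ∀ v, Φ v ((D.place v).coord x) ≠ 0 := fun v h0 => hx (by
    rw [adFun]
    refine finprod_eq_zero _ v h0 (((S : Set (FinPlace F)).toFinite).union
      ((finite_placeVal (finIncl F x.1)).union (finite_placeVal (finIncl F x.2))) |>.subset ?_)
    intro w hw
    by_contra hc
    simp only [Set.mem_union, Finset.mem_coe, Set.mem_ofPred_eq, not_or, not_lt, placeVal_finIncl] at hc
    exact hw (by
      show Φ w _ = 1
      rw [(D.place w).coord_eq]
      exact (hP.outside w hc.1 _).1 (LocalBase.mem_box.mpr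
        ⟨mem_placeBall_zero.mpr (by rw [valued_cmp]; exact hc.2.1),
          mem_placeBall_zero.mpr (by rw [valued_cmp]; exact hc.2.2)⟩)))
  have hmem : ∀ v, (cmp v x.1, cmp v x.2) ∈ (placeBase v).box (-natOrd v M) (-natOrd v M) :=
    fun v => hP.supp v _ (by
      show Φ v _ ≠ 0
      rw [← (D.place v).coord_eq]; exact hne v)
  have key : ∀ a : F, (∀ v, cmp v a ∈ (placeBase v).ball (-natOrd v M)) →
      ∃ o : 𝓞 F, (M : F) * a = (o : F) := fun a ha => by
    obtain ⟨o, ho⟩ := HeightOneSpectrum.mem_integers_of_valuation_le_one F ((M : F) * a) fun v => by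
      have h := (placeBase v).mul_mem_ball' (k := natOrd v M) (m := 0) (Or.inr le_rfl :
        cmp v (M : F) ∈ (placeBase v).ball (natOrd v M)) (ha v) (by omega)
      rw [mem_placeBall_zero, ← map_mul, valued_cmp] at h
      exact h
    exact ⟨o, ho.symm⟩
  obtain ⟨o₁, h₁⟩ := key x.1 fun v => (LocalBase.mem_box.mp (hmem v)).1
  obtain ⟨o₂, h₂⟩ := key x.2 fun v => (LocalBase.mem_box.mp (hmem v)).2
  exact ⟨(o₁, o₂), Prod.ext h₁ h₂⟩

/-- The function is periodic under `N O²`. -/
theorem IsPeriod.adFun_add (x : F × F) (l : 𝓞 F × 𝓞 F) :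
    D.adFun Φ (x + (N : F) • intPair l) = D.adFun Φ x := by
  refine finprod_congr fun v => ?_
  have hsum : (cmp v (x + (N : F) • intPair l).1, cmp v (x + (N : F) • intPair l).2) =
      (cmp v x.1, cmp v x.2) + (cmp v (N : F) * cmp v (l.1 : F), cmp v (N : F) * cmp v (l.2 : F)) := by
    simp [intPair]
  rw [(D.place v).coord_eq, (D.place v).coord_eq, hsum]
  have hint : ∀ o : 𝓞 F, cmp v (N : F) * cmp v (o : F) ∈ (placeBase v).ball (natOrd v N) := fun o =>
    (placeBase v).mul_mem_ball' (l := 0) (Or.inr le_rfl :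
      cmp v (N : F) ∈ (placeBase v).ball (natOrd v N)) (mem_placeBall_zero.mpr (by
        rw [valued_cmp, RingOfIntegers.coe_eq_algebraMap]; exact v.valuation_le_one o)) (by omega)
  exact hP.per v _ _ (LocalBase.mem_box.mpr ⟨hint l.1, hint l.2⟩)

end ThetaData

end Fermat.Agent.LT.DihedralTheta

end
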