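import Fermat.Agent.LT.DihedralTheta.Borel
import Mathlib.GroupTheory.SpecificGroups.Cyclic.Basic
import Mathlib.GroupTheory.OrderOfElement
import Mathlib.Data.ZMod.Basic

/-!
# The residue map at a place of residue cardinality three
-/

set_option autoImplicit false

open AddSubgroup

namespace Fermat.Agent.LT.DihedralTheta

/-- A sum over cosets on a finite set of representatives. -/
lemma sumOver_eq_sum {V ι : Type*} [AddCommGroup V] [Fintype ι] {P : AddSubgroup V} {f : V → ℂ}
    (r : ι → V) (hinj : ∀ i j, r i - r j ∈ P → i = j) (hper : IsPer P f)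
    (hcov : ∀ x, f x ≠ 0 → ∃ i, x - r i ∈ P) :
    sumOver P f = ∑ i, f (r i) := by
  classical
  have hinj' : Function.Injective fun i => (r i : V ⧸ P) := fun i j h => hinj i j (by
    have := QuotientAddGroup.eq.mp h
    rw [show r i - r j = -(-r i + r j) by abel]
    exact neg_mem this)
  rw [sumOver, finsum_eq_sum_of_support_subset
    (s := Finset.univ.map ⟨fun i => (r i : V ⧸ P), hinj'⟩)]
  · rw [Finset.sum_map]
    exact Finset.sum_congr rfl fun i _ => hper.out_eq _
  · intro c hc
    obtain ⟨i, hi⟩ := hcov _ hc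
    simp only [Finset.coe_map, Finset.coe_univ, Set.image_univ, Set.mem_range,
      Function.Embedding.coeFn_mk]
    refine ⟨i, ?_⟩
    conv_rhs => rw [← QuotientAddGroup.out_eq' c]
    exact QuotientAddGroup.eq.mpr (by
      rw [show -r i + c.out = c.out - r i by abel]; exact hi)

namespace LocalBase

variable {E : Type*} [Field E] (K : LocalBase E)

/-- Integers lie in the unit ball. -/
lemma intCast_mem_ball (n : ℤ) : (n : E) ∈ K.ball 0 := by
  induction n using Int.induction_on with
  | zero => simp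
  | succ m ih => push_cast at ih ⊢; exact add_mem ih K.one_mem_ball
  | pred m ih => push_cast at ih ⊢; exact sub_mem ih K.one_mem_ball

lemma one_not_mem : (1 : E) ∉ K.ball 1 := fun h => by
  have := h.resolve_left one_ne_zero; rw [K.ord_one] at this; omega

/-- The residue group. -/
abbrev ResGrp : Type _ := K.ball 0 ⧸ (K.ball 1).addSubgroupOf (K.ball 0)

lemma card_resGrp : Nat.card K.ResGrp = K.q := by
  have h := K.relIndex_ball_succ 0
  rwa [zero_add, relIndex, AddSubgroup.index] at h

variable {K}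

/-- `3` lies in the maximal ball when `q = 3`. -/
lemma three_mem (hq : K.q = 3) : (3 : E) ∈ K.ball 1 := by
  set o : K.ResGrp := ((⟨1, K.one_mem_ball⟩ : K.ball 0) : K.ResGrp)
  have : Finite K.ResGrp := Nat.finite_of_card_ne_zero (by rw [K.card_resGrp, hq]; norm_num)
  have h : (3 : ℕ) • o = 0 := by
    rw [← hq, ← K.card_resGrp]; exact card_nsmul_eq_zero'
  rw [← QuotientAddGroup.mk_nsmul, QuotientAddGroup.eq_zero_iff,
    AddSubgroup.mem_addSubgroupOf] at h
  simpa using h

lemma intCast_mem_iff (hq : K.q = 3) (n : ℤ) : (n : E) ∈ K.ball 1 ↔ (3 : ℤ) ∣ n := by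
  have h3 := three_mem hq
  have h3' : ∀ m : ℤ, ((3 * m : ℤ) : E) ∈ K.ball 1 := fun m => by
    push_cast; exact K.mul_mem_ball' h3 (K.intCast_mem_ball m) (by norm_num)
  constructor
  · intro h
    by_contra hd
    have hc : n % 3 = 1 ∨ n % 3 = 2 := by omega
    have hr : ((n % 3 : ℤ) : E) ∈ K.ball 1 := by
      rw [Int.emod_def]
      push_cast
      exact sub_mem h (by simpa using h3' (n / 3))
    rcases hc with hc | hc <;> rw [hc] at hr
    · exact K.one_not_mem (by simpa using hr)
    · exact K.one_not_mem (by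
        have := sub_mem h3 hr
        push_cast at this
        norm_num at this
        exact this)
  · rintro ⟨m, rfl⟩
    exact h3' m

/-- Every integral element is congruent to a rational integer when `q = 3`. -/
lemma exists_intCast (hq : K.q = 3) {x : E} (hx : x ∈ K.ball 0) :
    ∃ n : ℤ, x - n ∈ K.ball 1 := by
  have : Finite K.ResGrp := Nat.finite_of_card_ne_zero (by rw [K.card_resGrp, hq]; norm_num)
  have : Fact (Nat.Prime 3) := ⟨Nat.prime_three⟩
  set o : K.ResGrp := ((⟨1, K.one_mem_ball⟩ : K.ball 0) : K.ResGrp)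
  have ho : o ≠ 0 := fun e => K.one_not_mem
    (AddSubgroup.mem_addSubgroupOf.mp ((QuotientAddGroup.eq_zero_iff _).mp e))
  obtain ⟨n, hn⟩ := AddSubgroup.mem_zmultiples_iff.mp
    (mem_zmultiples_of_prime_card (g' := ((⟨x, hx⟩ : K.ball 0) : K.ResGrp))
      (K.card_resGrp.trans hq) ho)
  refine ⟨n, ?_⟩
  rw [← QuotientAddGroup.mk_zsmul] at hn
  have := AddSubgroup.mem_addSubgroupOf.mp (QuotientAddGroup.eq.mp hn)
  simp only [AddSubgroup.coe_add, AddSubgroup.coe_neg, AddSubgroup.coe_zsmul, zsmul_eq_mul,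
    mul_one] at this
  rwa [neg_add_eq_sub] at this

variable (K)

open Classical in
/-- The residue modulo three. -/
noncomputable def res (x : E) : ZMod 3 :=
  if h : ∃ n : ℤ, x - n ∈ K.ball 1 then (h.choose : ℤ) else 0

variable {K}

/-- The residue is computed by any congruent integer. -/
lemma res_eq (hq : K.q = 3) {x : E} {n : ℤ} (h : x - n ∈ K.ball 1) : K.res x = (n : ZMod 3) := by
  have he : ∃ n : ℤ, x - n ∈ K.ball 1 := ⟨n, h⟩
  rw [res, dif_pos he, ZMod.intCast_eq_intCast_iff_dvd_sub, Nat.cast_ofNat, ← intCast_mem_iff hq]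
  push_cast
  simpa using sub_mem he.choose_spec h

/-- The residue of an integer. -/
lemma res_intCast (hq : K.q = 3) (n : ℤ) : K.res (n : E) = n := res_eq hq (by simp)

/-- The residue of `0`. -/
lemma res_zero (hq : K.q = 3) : K.res (0 : E) = 0 := by simpa using res_intCast hq (0 : ℤ)

/-- The residue of `1`. -/
lemma res_one (hq : K.q = 3) : K.res (1 : E) = 1 := by simpa using res_intCast hq (1 : ℤ)

/-- An integral element is congruent to its residue. -/
lemma res_spec (hq : K.q = 3) {x : E} (hx : x ∈ K.ball 0) :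
    x - ((K.res x).val : ℕ) ∈ K.ball 1 := by
  obtain ⟨n, hn⟩ := exists_intCast hq hx
  have h2 : ((n - ((K.res x).val : ℤ) : ℤ) : E) ∈ K.ball 1 := by
    rw [intCast_mem_iff hq, ← show ((3 : ℕ) : ℤ) = 3 from rfl, ← ZMod.intCast_zmod_eq_zero_iff_dvd]
    push_cast
    rw [ZMod.natCast_zmod_val, res_eq hq hn, sub_self]
  push_cast at h2
  simpa using add_mem hn h2

/-- The residue depends only on the class modulo the maximal ball. -/
lemma res_congr (hq : K.q = 3) {x y : E} (hy : y ∈ K.ball 0) (h : x - y ∈ K.ball 1) :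
    K.res x = K.res y := by
  obtain ⟨n, hn⟩ := exists_intCast hq hy
  rw [res_eq hq hn, res_eq hq (n := n) (by simpa using add_mem h hn)]

/-- The residue is additive. -/
lemma res_add (hq : K.q = 3) {x y : E} (hx : x ∈ K.ball 0) (hy : y ∈ K.ball 0) :
    K.res (x + y) = K.res x + K.res y := by
  obtain ⟨n, hn⟩ := exists_intCast hq hx
  obtain ⟨m, hm⟩ := exists_intCast hq hy
  rw [res_eq hq hn, res_eq hq hm, ← Int.cast_add]
  exact res_eq hq (by push_cast; rw [add_sub_add_comm]; exact add_mem hn hm)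

/-- The residue is multiplicative. -/
lemma res_mul (hq : K.q = 3) {x y : E} (hx : x ∈ K.ball 0) (hy : y ∈ K.ball 0) :
    K.res (x * y) = K.res x * K.res y := by
  obtain ⟨n, hn⟩ := exists_intCast hq hx
  obtain ⟨m, hm⟩ := exists_intCast hq hy
  rw [res_eq hq hn, res_eq hq hm, ← Int.cast_mul]
  refine res_eq hq ?_
  push_cast
  rw [show x * y - n * m = (x - n) * y + (n : E) * (y - m) by ring]
  exact add_mem (K.mul_mem_ball' hn hy (by norm_num))
    (K.mul_mem_ball' (K.intCast_mem_ball n) hm (by norm_num))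

/-- The residue commutes with negation. -/
lemma res_neg (hq : K.q = 3) {x : E} (hx : x ∈ K.ball 0) : K.res (-x) = -K.res x := by
  rw [eq_neg_iff_add_eq_zero, ← res_add hq (neg_mem hx) hx, neg_add_cancel, res_zero hq]

/-- The residue commutes with subtraction. -/
lemma res_sub (hq : K.q = 3) {x y : E} (hx : x ∈ K.ball 0) (hy : y ∈ K.ball 0) :
    K.res (x - y) = K.res x - K.res y := by
  rw [sub_eq_add_neg, res_add hq hx (neg_mem hy), res_neg hq hy, sub_eq_add_neg]

/-- The residue of `2`. -/
lemma res_two (hq : K.q = 3) : K.res (2 : E) = 2 := by simpa using res_intCast hq (2 : ℤ)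

/-- The residue vanishes exactly on the maximal ball. -/
lemma res_eq_zero_iff (hq : K.q = 3) {x : E} (hx : x ∈ K.ball 0) :
    K.res x = 0 ↔ x ∈ K.ball 1 := by
  constructor
  · intro h; simpa [h] using res_spec hq hx
  · intro h; simpa using res_eq hq (n := 0) (by simpa using h)

/-- The residue is nonzero exactly on the units. -/
lemma res_ne_zero_iff (hq : K.q = 3) {x : E} (hx : x ∈ K.ball 0) :
    K.res x ≠ 0 ↔ x ≠ 0 ∧ K.ord x = 0 := by
  rw [ne_eq, res_eq_zero_iff hq hx]
  rcases eq_or_ne x 0 with rfl | h0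
  · simp
  have := hx.resolve_left h0
  simp only [mem_ball, h0, false_or, ne_eq, not_false_eq_true, true_and]
  omega

/-- A unit has nonzero residue. -/
lemma res_unit (hq : K.q = 3) {x : E} (hx : K.ord x = 0) (h0 : x ≠ 0) : K.res x ≠ 0 :=
  (res_ne_zero_iff hq (Or.inr hx.ge)).mpr ⟨h0, hx⟩

/-- A unit and its inverse have the same residue. -/
lemma res_inv (hq : K.q = 3) {x : E} (hx : K.ord x = 0) (h0 : x ≠ 0) :
    K.res x⁻¹ = K.res x := by
  have h := res_mul hq (x := x) (y := x⁻¹) (Or.inr hx.ge) (Or.inr (by rw [K.ord_inv h0, hx]; norm_num))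
  rw [mul_inv_cancel₀ h0, res_one hq] at h
  generalize K.res x = a, K.res x⁻¹ = b at h ⊢
  revert a b; decide

end LocalBase

namespace LocalForm

variable {E : Type*} [Field E] {K : LocalForm E} (hq : K.q = 3) (hc : K.cond = 1)

variable (K) in
/-- The character on residues, for a character of conductor one. -/
noncomputable def zeta (r : ZMod 3) : ℂ := K.χ ((r.val : ℕ) : E)

include hq hc

/-- On integral elements the character factors through the residue. -/
lemma chi_eq_zeta {x : E} (hx : x ∈ K.ball 0) : K.χ x = K.zeta (K.res x) := by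
  conv_lhs => rw [← sub_add_cancel x (((K.res x).val : ℕ) : E)]
  rw [AddChar.map_add_eq_mul, K.χ_triv _ (K.ball_le hc.le (LocalBase.res_spec hq hx)), one_mul, zeta]

/-- `zeta` is an additive character. -/
lemma zeta_add (r r' : ZMod 3) : K.zeta (r + r') = K.zeta r * K.zeta r' := by
  have h : ∀ s : ZMod 3, (((s.val : ℕ)) : E) ∈ K.ball 0 := fun s => by
    simpa using K.intCast_mem_ball (s.val : ℤ)
  have hr : ∀ s : ZMod 3, K.res (((s.val : ℕ)) : E) = s := fun s => by
    simpa using LocalBase.res_intCast hq (s.val : ℤ)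
  conv_lhs => rw [← hr r, ← hr r', ← LocalBase.res_add hq (h r) (h r'),
    ← chi_eq_zeta hq hc (add_mem (h r) (h r')), AddChar.map_add_eq_mul]
  rfl

omit hq hc in
/-- `zeta` is trivial at `0`. -/
lemma zeta_zero : K.zeta 0 = 1 := by simp [zeta]

lemma zeta_one_ne : K.zeta 1 ≠ 1 := fun h1 => by
  obtain ⟨x, hx, hχ⟩ := K.χ_nontriv
  rw [hc] at hx
  refine hχ ?_
  rw [chi_eq_zeta hq hc (by simpa using hx)]
  have h2 : K.zeta 2 = 1 := by
    rw [show (2 : ZMod 3) = 1 + 1 from rfl, zeta_add hq hc, h1, one_mul]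
  generalize K.res x = r
  match r with
  | 0 => exact zeta_zero
  | 1 => exact h1
  | 2 => exact h2

/-- `zeta 2` is the square of `zeta 1`. -/
lemma zeta_two : K.zeta 2 = K.zeta 1 * K.zeta 1 := by
  rw [show (2 : ZMod 3) = 1 + 1 from rfl, zeta_add hq hc]

/-- The three values of `zeta` sum to zero. -/
lemma zeta_sum : 1 + K.zeta 1 + K.zeta 1 * K.zeta 1 = 0 := by
  have h : (K.zeta 1 - 1) * (1 + K.zeta 1 + K.zeta 1 * K.zeta 1) = 0 := by
    have h3 : K.zeta 1 * K.zeta 1 * K.zeta 1 = 1 := by
      rw [← zeta_two hq hc, ← zeta_add hq hc, show (2 : ZMod 3) + 1 = 0 from rfl, zeta_zero]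
    linear_combination h3
  exact (mul_eq_zero.mp h).resolve_left (sub_ne_zero.mpr (zeta_one_ne hq hc))

end LocalForm

end Fermat.Agent.LT.DihedralTheta
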