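import Fermat.Agent.LT.DihedralTheta.Adelic
import Fermat.Agent.LT.DihedralTheta.Three

/-!
# The finite sum over `M⁻¹ O² / N O²` and the adelic Fourier transform

By the Chinese remainder theorem the sum of a factorisable function times the additive character
over the classes is the product of the local integrals, times `N ^ (2 d)` and a constant of the
coordinates; outside the dual lattice the transform vanishes.
-/

set_option autoImplicit false

noncomputable section

open IsDedekindDomain NumberField WithZero
open Fermat.Agent.LT.Places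

namespace Fermat.Agent.LT.DihedralTheta

variable {F : Type*} [Field F] [NumberField F]

/-- `∏ q_v ^ ord_v N = N ^ d`. -/
lemma finprod_q_natOrd {N : ℕ} (hN : 0 < N) :
    ∏ᶠ v : FinPlace F, (Nat.card (Residue v) : ℝ) ^ natOrd v N = (N : ℝ) ^ Module.finrank ℚ F := by
  have hN0 : (N : F) ≠ 0 := Nat.cast_ne_zero.mpr hN.ne'
  have h := ThetaData.prod_mul_finprod_eq_one hN0
  have hw : ∏ w : InfinitePlace F, w (N : F) ^ w.mult = (N : ℝ) ^ Module.finrank ℚ F := by
    rw [← InfinitePlace.sum_mult_eq (K := F), ← Finset.prod_pow_eq_pow_sum]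
    refine Finset.prod_congr rfl fun w _ => ?_
    rw [← InfinitePlace.norm_embedding_eq, map_natCast, Complex.norm_natCast]
  rw [hw, finprod_congr fun v => zpow_neg (Nat.card (Residue v) : ℝ) (placeOrd v (cmp v (N : F))),
    finprod_inv_distrib] at h
  exact (eq_of_mul_inv_eq_one h).symm

/-- The local characters are trivial on `N O_v` when the global one is on `N O`. -/
lemma placeChar_eq_one_of_trace {a : F} {N : ℕ} (hN : 0 < N)
    (h : ∀ o : 𝓞 F, ∃ k : ℤ, Algebra.trace ℚ F (a * (N : F) * (o : F)) = k) (v : FinPlace F)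
    {x : v.adicCompletion F} (hx : x ∈ (placeBase v).ball (natOrd v N)) :
    placeChar v (cmp v a * x) = 1 := by
  set z := (cmp v (N : F))⁻¹ * x
  have hN0 : cmp v (N : F) ≠ 0 := (map_ne_zero _).mpr (Nat.cast_ne_zero.mpr hN.ne')
  have hz : Valued.v z ≤ 1 := by
    rw [← mem_placeBall_zero, (placeBase v).mul_mem_ball_iff (inv_ne_zero hN0),
      (placeBase v).ord_inv hN0]
    rw [zero_sub, neg_neg]; exact hx
  obtain ⟨K, hK, hKm⟩ := Reduction.exists_natCast_mul_mem (finIncl F (a * (N : F)))
  obtain ⟨o, b, hb, hzb⟩ := Reduction.exists_integer_add K hK (single_mem_integralAdele hz)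
  have hx' : single v (cmp v a * x) = finIncl F (a * (N : F)) * single v z := by
    refine ext_toPlace fun w => ?_
    rw [map_mul (toPlace w)]
    rcases eq_or_ne w v with rfl | hw
    · rw [toPlace_single_same, toPlace_single_same, toPlace_finIncl, map_mul,
        mul_assoc, show cmp w (N : F) * z = x from mul_inv_cancel_left₀ hN0 x]
    · rw [toPlace_single_ne hw, toPlace_single_ne hw, mul_zero]
  rw [placeChar_apply, hx', hzb, mul_add, Whittaker.psiFin_add, ← map_mul, Whittaker.psiFin_finIncl,
    (Whittaker.psiGlobal_eq_one_iff _).mpr (h o), one_mul, ← mul_assoc, mul_comm (finIncl F _)]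
  exact Whittaker.psiFin_of_mem (mul_mem hKm hb)

namespace ThetaData

variable (D : ThetaData F)

/-- The ideal `M N O`. -/
def clearIdeal (N M : ℕ) : Ideal (𝓞 F) := Ideal.span {((M * N : ℕ) : 𝓞 F)}

/-- The classes of `M⁻¹ O² / N O²`. -/
abbrev Classes (F : Type*) [Field F] [NumberField F] (N M : ℕ) : Type _ :=
  (𝓞 F ⧸ clearIdeal (F := F) N M) × (𝓞 F ⧸ clearIdeal (F := F) N M)

/-- There are finitely many classes for given positive denominator and period. -/
lemma finite_classes {N M : ℕ} (hN : 0 < N) (hM : 0 < M) : Finite (Classes F N M) := by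
  have : Finite (𝓞 F ⧸ clearIdeal (F := F) N M) := Ring.HasFiniteQuotients.finiteQuotient (by
    rw [clearIdeal, ne_eq, Ideal.span_singleton_eq_bot]
    exact Nat.cast_ne_zero.mpr (Nat.mul_pos hM hN).ne')
  infer_instance

/-- A representative of a class. -/
def classRep {N M : ℕ} (a : Classes F N M) : F × F :=
  (M : F)⁻¹ • intPair (Quotient.out a.1, Quotient.out a.2)

lemma classRep_add_injective {N M : ℕ} (hN : 0 < N) (hM : 0 < M) :
    Function.Injective fun q : Classes F N M × (𝓞 F × 𝓞 F) =>
      classRep q.1 + (N : F) • intPair q.2 := by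
  rintro ⟨⟨a, a'⟩, l, l'⟩ ⟨⟨b, b'⟩, k, k'⟩ h
  have hM0 : (M : F) ≠ 0 := Nat.cast_ne_zero.mpr hM.ne'
  have hN0 : (N : F) ≠ 0 := Nat.cast_ne_zero.mpr hN.ne'
  have key : ∀ (a b : 𝓞 F ⧸ clearIdeal (F := F) N M) (l k : 𝓞 F),
      (M : F)⁻¹ * ((Quotient.out a : 𝓞 F) : F) + (N : F) * (l : F) =
        (M : F)⁻¹ * ((Quotient.out b : 𝓞 F) : F) + (N : F) * (k : F) → a = b ∧ l = k := by
    intro a b l k h
    have h1 : (Quotient.out a : 𝓞 F) - Quotient.out b = ((M * N : ℕ) : 𝓞 F) * (k - l) := by
      apply RingOfIntegers.coe_injective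
      simp only [RingOfIntegers.coe_eq_algebraMap, map_sub, map_mul, map_natCast] at h ⊢
      field_simp at h
      push_cast
      linear_combination h
    have hab : a = b := by
      have := Ideal.Quotient.eq.mpr (show Quotient.out a - Quotient.out b ∈ clearIdeal (F := F) N M
        from Ideal.mem_span_singleton.mpr ⟨_, h1⟩)
      rwa [Ideal.Quotient.mk_out, Ideal.Quotient.mk_out] at this
    subst hab
    refine ⟨rfl, ?_⟩
    rw [add_right_inj, mul_right_inj' hN0] at h
    exact RingOfIntegers.coe_injective h
  obtain ⟨rfl, rfl⟩ := key a b l k (congrArg Prod.fst h)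
  obtain ⟨rfl, rfl⟩ := key a' b' l' k' (congrArg Prod.snd h)
  rfl

variable {D} {Φ : ∀ v : FinPlace F, v.adicCompletion F × v.adicCompletion F → ℂ}
  {N M : ℕ} {S : Finset (FinPlace F)} (hP : D.IsPeriod Φ N M S)

include hP

/-- The sum over `F²` split into the classes. -/
theorem IsPeriod.tsum_adFun_mul [Fintype (Classes F N M)] {G : F × F → ℂ}
    (hG : ∀ a : Classes F N M, Summable fun l => G (classRep a + (N : F) • intPair l)) :
    (Summable fun x => D.adFun Φ x * G x) ∧ ∑' x, D.adFun Φ x * G x =
      ∑ a : Classes F N M, D.adFun Φ (classRep a) * ∑' l, G (classRep a + (N : F) • intPair l) := by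
  set i := fun q : Classes F N M × (𝓞 F × 𝓞 F) => classRep q.1 + (N : F) • intPair q.2
  have hi := classRep_add_injective (F := F) hP.N_pos hP.M_pos
  have hrange : ∀ x ∉ Set.range i, D.adFun Φ x * G x = 0 := fun x hx => by
    by_contra hne
    obtain ⟨y, hy⟩ := hP.exists_intPair (left_ne_zero_of_mul hne)
    have hM0 : (M : F) ≠ 0 := Nat.cast_ne_zero.mpr hP.M_pos.ne'
    have key : ∀ o : 𝓞 F, ∃ l : 𝓞 F, (o : F) =
        ((Quotient.out (Ideal.Quotient.mk (clearIdeal (F := F) N M) o) : 𝓞 F) : F) +
          (M : F) * ((N : F) * (l : F)) := fun o => by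
      obtain ⟨l, hl⟩ := Ideal.mem_span_singleton.mp
        (Ideal.Quotient.eq.mp ((Ideal.Quotient.mk_out (Ideal.Quotient.mk (clearIdeal (F := F) N M) o))).symm)
      refine ⟨l, ?_⟩
      have := congrArg (fun z : 𝓞 F => (z : F)) hl
      simp only [RingOfIntegers.coe_eq_algebraMap, map_sub, map_mul, map_natCast] at this ⊢
      push_cast at this
      linear_combination this
    obtain ⟨l₁, h1⟩ := key y.1
    obtain ⟨l₂, h2⟩ := key y.2
    refine hx ⟨((Ideal.Quotient.mk _ y.1, Ideal.Quotient.mk _ y.2), (l₁, l₂)), ?_⟩
    have hx1 : (M : F) * x.1 = (y.1 : F) := congrArg Prod.fst hy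
    have hx2 : (M : F) * x.2 = (y.2 : F) := congrArg Prod.snd hy
    rw [h1] at hx1
    rw [h2] at hx2
    refine Prod.ext ?_ ?_ <;>
      simp only [i, classRep, intPair, Prod.fst_add, Prod.snd_add, Prod.smul_fst, Prod.smul_snd,
        smul_eq_mul] <;> field_simp
    · linear_combination -hx1
    · linear_combination -hx2
  have hterm : ∀ q, D.adFun Φ (i q) * G (i q) = D.adFun Φ (classRep q.1) * G (i q) := fun q => by
    rw [show D.adFun Φ (i q) = D.adFun Φ (classRep q.1) from hP.adFun_add _ _]
  have hsum : Summable fun q : Classes F N M × (𝓞 F × 𝓞 F) => D.adFun Φ (i q) * G (i q) := by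
    simp only [hterm]
    have : ∀ a, Summable fun l => ‖D.adFun Φ (classRep a) * G (classRep a + (N : F) • intPair l)‖ :=
      fun a => ((hG a).mul_left _).norm
    exact Summable.of_norm ((summable_prod_of_nonneg fun q => norm_nonneg _).mpr
      ⟨this, (hasSum_fintype _).summable⟩)
  refine ⟨(hi.summable_iff hrange).mp hsum, ?_⟩
  rw [← hi.tsum_eq (f := fun x => D.adFun Φ x * G x) (Function.support_subset_iff'.mpr hrange)]
  show ∑' q, D.adFun Φ (i q) * G (i q) = _
  rw [hsum.tsum_prod, tsum_fintype]
  refine Finset.sum_congr rfl fun a _ => ?_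
  simp only [hterm]
  exact tsum_mul_left

/-- Points of the dual lattice pair trivially with the local period. -/
lemma IsPeriod.placeChar_polar_eq_one {u : F} {m : F × F} (hm : m ∈ D.dualLattice u N)
    (v : FinPlace F) {z : v.adicCompletion F × v.adicCompletion F}
    (hz : z ∈ (placeBase v).box (natOrd v N) (natOrd v N)) :
    placeChar v (cmp v u * polar (cmp v D.s) (cmp v D.p) z (cmp v m.1, cmp v m.2)) = 1 := by
  obtain ⟨z1, z2⟩ := LocalBase.mem_box.mp hz
  have e : cmp v u * polar (cmp v D.s) (cmp v D.p) z (cmp v m.1, cmp v m.2) =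
      cmp v (u * polar D.s D.p (1, 0) m) * z.1 + cmp v (u * polar D.s D.p (0, 1) m) * z.2 := by
    simp only [polar, map_add, map_mul, map_ofNat, map_one, map_zero]
    ring
  rw [e, AddChar.map_add_eq_mul, placeChar_eq_one_of_trace hP.N_pos (fun o => ?_) v z1,
    placeChar_eq_one_of_trace hP.N_pos (fun o => ?_) v z2, one_mul]
  · obtain ⟨k, hk⟩ := hm (0, o)
    refine ⟨k, ?_⟩
    rw [← hk]; congr 1
    simp [polar, intPair]; ring
  · obtain ⟨k, hk⟩ := hm (o, 0)
    refine ⟨k, ?_⟩
    rw [← hk]; congr 1
    simp [polar, intPair]; ring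

/-- The local integral in standard coordinates. -/
lemma IsPeriod.integral_eq_std {u : F} {m : F × F} (hm : m ∈ D.dualLattice u N) (v : FinPlace F) :
    let Ω := fun z => Φ v ((D.place v).coordLin z) *
      placeChar v (cmp v u * polar (cmp v D.s) (cmp v D.p) z (cmp v m.1, cmp v m.2))
    IsPer ((placeBase v).box (natOrd v N) (natOrd v N)) Ω ∧
    (D.place v).form.ratio (D.place v).coordLin * integral (D.place v).form.base (fun z =>
        Φ v z * placeChar v (cmp v u * (D.place v).form.B z ((D.place v).coord m))) =
      ((Nat.card (Residue v) : ℂ) ^ (natOrd v N + natOrd v N))⁻¹ *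
        sumOver ((placeBase v).box (natOrd v N) (natOrd v N)) Ω := by
  intro Ω
  set P := D.place v
  set G := fun z => Φ v z * placeChar v (cmp v u * P.form.B z (P.coord m))
  have hΩ : ∀ z, Ω z = G (P.coordLin z) := fun z => by
    show _ = Φ v _ * _
    rw [P.coord_eq, P.B_coordLin]
  have hper : IsPer ((placeBase v).box (natOrd v N) (natOrd v N)) Ω := fun z q hq => by
    show Φ v _ * _ = Φ v _ * _
    have h1 : Φ v (P.coordLin (z + q)) = Φ v (P.coordLin z) := hP.per v z q hq
    have h2 : polar (cmp v D.s) (cmp v D.p) (z + q) (cmp v m.1, cmp v m.2) =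
        polar (cmp v D.s) (cmp v D.p) z (cmp v m.1, cmp v m.2) +
          polar (cmp v D.s) (cmp v D.p) q (cmp v m.1, cmp v m.2) := by
      simp only [polar, Prod.fst_add, Prod.snd_add]; ring
    rw [h1, h2, mul_add, AddChar.map_add_eq_mul, hP.placeChar_polar_eq_one hm v hq, mul_one]
  have hsupp : HasSupp ((placeBase v).box (-natOrd v M) (-natOrd v M)) Ω := fun z hz =>
    hP.supp v z (left_ne_zero_of_mul hz)
  refine ⟨hper, ?_⟩
  have hΩb : P.form.IsBoxSch Ω := ⟨_, _, hper, hsupp⟩
  have hG : P.form.IsBoxSch G := by
    have e : G = fun z => Ω (P.coordLin.symm z) := by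
      funext z; rw [hΩ, P.coordLin.apply_symm_apply]
    rw [e]; exact hΩb.comp _
  have h := LocalForm.integral_comp_linear hG P.coordLin
  rw [show (fun z => G (P.coordLin z)) = Ω from funext fun z => (hΩ z).symm,
    integral_eq (S := P.form.base) (P.form.isLat_box (natOrd v N) (natOrd v N))
      (P.form.isLat_box (-natOrd v M) (-natOrd v M)) hper hsupp, P.form.vol_box] at h
  exact h.symm

/-- The classes of the support modulo the period at a place. -/
abbrev LocalClasses (N M : ℕ) (v : FinPlace F) : Type _ :=
  ((placeBase v).box (-natOrd v M) (-natOrd v M)) ⧸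
    ((placeBase v).box (natOrd v N) (natOrd v N)).addSubgroupOf
      ((placeBase v).box (-natOrd v M) (-natOrd v M))

/-- The representatives of the classes lie in the support box. -/
lemma IsPeriod.classRep_mem (a : Classes F N M) (v : FinPlace F) :
    (cmp v (classRep a).1, cmp v (classRep a).2) ∈
      (placeBase v).box (-natOrd v M) (-natOrd v M) := by
    have hM0 : (M : F) ≠ 0 := Nat.cast_ne_zero.mpr hP.M_pos.ne'
    have key : ∀ o : 𝓞 F, cmp v ((M : F)⁻¹ * (o : F)) ∈ (placeBase v).ball (-natOrd v M) := fun o => by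
      rw [map_mul, map_inv₀, (placeBase v).mul_mem_ball_iff (inv_ne_zero ((map_ne_zero _).mpr hM0)),
        (placeBase v).ord_inv ((map_ne_zero _).mpr hM0)]
      exact (placeBase v).ball_le (k := 0) (by show _ ≤ (0 : ℤ); simp [natOrd]; rfl) (mem_placeBall_zero.mpr (by
        rw [valued_cmp, RingOfIntegers.coe_eq_algebraMap]; exact v.valuation_le_one o))
    exact LocalBase.mem_box.mpr ⟨key _, key _⟩

/-- The local classes of a class. -/
def IsPeriod.toLocal (a : Classes F N M) (v : S) : LocalClasses (F := F) N M v :=
  ((⟨_, hP.classRep_mem a v⟩ :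
    (placeBase (v : FinPlace F)).box (-natOrd (v : FinPlace F) M) (-natOrd (v : FinPlace F) M)) :
      LocalClasses (F := F) N M v)

/-- **Chinese remainder.** -/
lemma IsPeriod.toLocal_bijective : Function.Bijective hP.toLocal := by
    have hM0 : (M : F) ≠ 0 := Nat.cast_ne_zero.mpr hP.M_pos.ne'
    have hN0 : (N : F) ≠ 0 := Nat.cast_ne_zero.mpr hP.N_pos.ne'
    have hrep := hP.classRep_mem
    constructor
    · intro a b hab
      have hS : ∀ v : FinPlace F, (cmp v (classRep b).1, cmp v (classRep b).2) -
          (cmp v (classRep a).1, cmp v (classRep a).2) ∈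
            (placeBase v).box (natOrd v N) (natOrd v N) := fun v => by
        by_cases hv : v ∈ S
        · have := QuotientAddGroup.eq.mp (congrFun hab ⟨v, hv⟩)
          simpa [neg_add_eq_sub] using AddSubgroup.mem_addSubgroupOf.mp this
        · have h1 := hrep a v
          have h2 := hrep b v
          rw [hP.natOrd_M hv, neg_zero] at h1 h2
          rw [hP.natOrd_N hv]
          exact sub_mem h2 h1
      have key : ∀ c d : F, (∀ v : FinPlace F, cmp v c - cmp v d ∈ (placeBase v).ball (natOrd v N)) →
          ∃ o : 𝓞 F, c - d = (N : F) * (o : F) := fun c d h => by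
        obtain ⟨o, ho⟩ := HeightOneSpectrum.mem_integers_of_valuation_le_one F ((N : F)⁻¹ * (c - d))
          fun v => by
            have h' := h v
            rw [← valued_cmp, ← mem_placeBall_zero, map_mul, map_inv₀, map_sub,
              (placeBase v).mul_mem_ball_iff (inv_ne_zero ((map_ne_zero _).mpr hN0)),
              (placeBase v).ord_inv ((map_ne_zero _).mpr hN0)]
            rw [zero_sub, neg_neg]; exact h'
        exact ⟨o, by rw [RingOfIntegers.coe_eq_algebraMap, ho, mul_inv_cancel_left₀ hN0]⟩
      obtain ⟨o₁, h1⟩ := key (classRep b).1 (classRep a).1 fun v => (LocalBase.mem_box.mp (hS v)).1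
      obtain ⟨o₂, h2⟩ := key (classRep b).2 (classRep a).2 fun v => (LocalBase.mem_box.mp (hS v)).2
      have := classRep_add_injective (F := F) hP.N_pos hP.M_pos (a₁ := (a, (o₁, o₂))) (a₂ := (b, 0))
        (Prod.ext (by simp [intPair]; linear_combination -h1) (by simp [intPair]; linear_combination -h2))
      exact (Prod.ext_iff.mp this).1
    · intro t
      have hT : ∀ v : FinPlace F, ∃ c : v.adicCompletion F × v.adicCompletion F,
          (Valued.v c.1 ≤ 1 ∧ Valued.v c.2 ≤ 1) ∧ ∀ hv : v ∈ S,
            c = (cmp v (M : F) * ((t ⟨v, hv⟩).out : v.adicCompletion F × v.adicCompletion F).1,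
              cmp v (M : F) * ((t ⟨v, hv⟩).out : v.adicCompletion F × v.adicCompletion F).2) := by
        intro v
        by_cases hv : v ∈ S
        · refine ⟨(cmp v (M : F) * ((t ⟨v, hv⟩).out : v.adicCompletion F × v.adicCompletion F).1,
            cmp v (M : F) * ((t ⟨v, hv⟩).out : v.adicCompletion F × v.adicCompletion F).2),
            ⟨?_, ?_⟩, fun _ => rfl⟩ <;> rw [← mem_placeBall_zero]
          · exact (placeBase v).mul_mem_ball' (k := natOrd v M) (Or.inr le_rfl)
              (LocalBase.mem_box.mp ((t ⟨v, hv⟩).out).2).1 (by simp)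
          · exact (placeBase v).mul_mem_ball' (k := natOrd v M) (Or.inr le_rfl)
              (LocalBase.mem_box.mp ((t ⟨v, hv⟩).out).2).2 (by simp)
        · exact ⟨0, by simp, fun h => absurd h hv⟩
      choose c hc hct using hT
      set γ : FinPlace F → ℤᵐ⁰ := fun v => v.valuation F ((M * N : ℕ) : F)
      have hγ : ∀ v, γ v ≠ 0 := fun v => valuation_natCast_ne_zero v (Nat.mul_pos hP.M_pos hP.N_pos)
      obtain ⟨o₁, h1⟩ := exists_integer_near_finset S (fun v => (c v).1) (fun v => (hc v).1) γ hγ
      obtain ⟨o₂, h2⟩ := exists_integer_near_finset S (fun v => (c v).2) (fun v => (hc v).2) γ hγ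
      refine ⟨(Ideal.Quotient.mk _ o₁, Ideal.Quotient.mk _ o₂), funext fun v => ?_⟩
      conv_rhs => rw [← QuotientAddGroup.out_eq' (t v)]
      refine QuotientAddGroup.eq.mpr (AddSubgroup.mem_addSubgroupOf.mpr ?_)
      have key : ∀ (o : 𝓞 F) (x : (v : FinPlace F).adicCompletion F),
          Valued.v (cmp v (o : F) - cmp v (M : F) * x) < γ v →
          -cmp v ((M : F)⁻¹ *
            ((Quotient.out (Ideal.Quotient.mk (clearIdeal (F := F) N M) o) : 𝓞 F) : F)) + x ∈
            (placeBase (v : FinPlace F)).ball (natOrd (v : FinPlace F) N) := fun o x hx => by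
        set o' : 𝓞 F := Quotient.out (Ideal.Quotient.mk (clearIdeal (F := F) N M) o)
        obtain ⟨k, hk⟩ := Ideal.mem_span_singleton.mp
          (Ideal.Quotient.eq.mp (Ideal.Quotient.mk_out (Ideal.Quotient.mk (clearIdeal (F := F) N M) o)))
        have hk' : ((o' : 𝓞 F) : F) = (o : F) + ((M * N : ℕ) : F) * (k : F) := by
          have := congrArg (fun z : 𝓞 F => (z : F)) hk
          simp only [RingOfIntegers.coe_eq_algebraMap, map_sub, map_mul, map_natCast] at this ⊢
          linear_combination this
        have hMc : cmp v (M : F) ≠ 0 := (map_ne_zero _).mpr hM0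
        rw [show -cmp v ((M : F)⁻¹ * (o' : F)) + x =
          -((cmp v (M : F))⁻¹ * ((cmp v (o : F) - cmp v (M : F) * x) +
            cmp v ((M * N : ℕ) : F) * cmp v (k : F))) by
            rw [map_mul, map_inv₀, hk', map_add, map_mul]; field_simp; ring, neg_mem_iff,
          (placeBase (v : FinPlace F)).mul_mem_ball_iff (inv_ne_zero hMc),
          (placeBase (v : FinPlace F)).ord_inv hMc]
        have hMN : natOrd (v : FinPlace F) (M * N) = natOrd (v : FinPlace F) N + natOrd (v : FinPlace F) M := by
          rw [natOrd, Nat.cast_mul, map_mul]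
          exact ((placeBase (v : FinPlace F)).ord_mul hMc ((map_ne_zero _).mpr hN0)).trans (add_comm _ _)
        rw [show natOrd (v : FinPlace F) N - -(placeBase (v : FinPlace F)).ord (cmp v (M : F)) = natOrd (v : FinPlace F) (M * N) by
          rw [hMN, sub_neg_eq_add]; rfl]
        refine add_mem ((mem_ball_natOrd (Nat.mul_pos hP.M_pos hP.N_pos)).mpr hx.le)
          ((placeBase (v : FinPlace F)).mul_mem_ball' (l := 0) (Or.inr le_rfl :
            _ ∈ (placeBase (v : FinPlace F)).ball (natOrd (v : FinPlace F) (M * N))) (mem_placeBall_zero.mpr (by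
              rw [valued_cmp, RingOfIntegers.coe_eq_algebraMap]
              exact (v : FinPlace F).valuation_le_one k)) (by omega))
      have e1 := congrArg Prod.fst (hct v v.2)
      have e2 := congrArg Prod.snd (hct v v.2)
      simp only at e1 e2
      exact LocalBase.mem_box.mpr
        ⟨key o₁ _ (by rw [← e1]; exact h1 v v.2), key o₂ _ (by rw [← e2]; exact h2 v v.2)⟩

/-- The local factor in standard coordinates. -/
def stdFactor (D : ThetaData F) (u : F) (m : F × F)
    (Φ : ∀ v : FinPlace F, v.adicCompletion F × v.adicCompletion F → ℂ) (v : FinPlace F)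
    (z : v.adicCompletion F × v.adicCompletion F) : ℂ :=
  Φ v ((D.place v).coordLin z) *
    placeChar v (cmp v u * polar (cmp v D.s) (cmp v D.p) z (cmp v m.1, cmp v m.2))

lemma IsPeriod.stdFactor_eq_one {u : F} {m : F × F} (hm : m ∈ D.dualLattice u N)
    {v : FinPlace F} (hv : v ∉ S) {z : v.adicCompletion F × v.adicCompletion F}
    (hz : z ∈ (placeBase v).box 0 0) : stdFactor D u m Φ v z = 1 := by
  rw [stdFactor, (hP.outside v hv z).1 hz, hP.placeChar_polar_eq_one hm v (by rwa [hP.natOrd_N hv]),
    one_mul]

/-- A term of the sum, factorised. -/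
lemma IsPeriod.term_eq_prod {u : F} {m : F × F} (hm : m ∈ D.dualLattice u N) (a : Classes F N M) :
    D.adFun Φ (classRep a) * Whittaker.psiGlobal (u * polar D.s D.p (classRep a) m) =
      ∏ v : S, stdFactor D u m Φ v (cmp v (classRep a).1, cmp v (classRep a).2) := by
    classical
    have hrep := hP.classRep_mem
    rw [← Whittaker.psiFin_finIncl, psiFin_eq_finprod, adFun, ← finprod_mul_distrib ?_ ?_]
    · rw [finprod_eq_prod_of_mulSupport_subset _ (s := S)]
      · rw [Finset.univ_eq_attach, Finset.prod_attach S (fun v => stdFactor D u m Φ v (cmp v (classRep a).1, cmp v (classRep a).2))]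
        refine Finset.prod_congr rfl fun v _ => ?_
        rw [(D.place v).coord_eq, toPlace_finIncl, map_mul, PlaceDatum.cmp_polar]
        rfl
      · intro v hv
        by_contra hS
        refine hv ?_
        show Φ v _ * placeChar v _ = 1
        rw [(D.place v).coord_eq, toPlace_finIncl, map_mul, PlaceDatum.cmp_polar]
        exact hP.stdFactor_eq_one hm hS (by simpa [hP.natOrd_M hS] using hrep a v)
    · refine S.finite_toSet.subset fun v hv => ?_
      by_contra hS
      refine hv ?_
      show Φ v _ = 1
      rw [(D.place v).coord_eq]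
      exact (hP.outside v hS _).1 (by simpa [hP.natOrd_M hS] using hrep a v)
    · refine (finite_placeVal (finIncl F (u * polar D.s D.p (classRep a) m))).subset fun v hv => ?_
      by_contra h
      exact hv (placeChar_eq_one (not_lt.mp h))

/-- The sum over the local classes. -/
lemma IsPeriod.sum_localClasses {u : F} {m : F × F} (hm : m ∈ D.dualLattice u N) (v : FinPlace F)
    [Fintype (LocalClasses (F := F) N M v)] :
    ∑ j : LocalClasses (F := F) N M v, stdFactor D u m Φ v (j.out :
        v.adicCompletion F × v.adicCompletion F) =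
      sumOver ((placeBase v).box (natOrd v N) (natOrd v N)) (stdFactor D u m Φ v) := by
  have hper : IsPer ((placeBase v).box (natOrd v N) (natOrd v N)) (stdFactor D u m Φ v) :=
    (hP.integral_eq_std hm v).1
  refine (sumOver_eq_sum (fun j : LocalClasses (F := F) N M v =>
    (j.out : v.adicCompletion F × v.adicCompletion F)) (fun i j hij => ?_) hper fun x hx => ?_).symm
  · rw [← QuotientAddGroup.out_eq' i, ← QuotientAddGroup.out_eq' j, QuotientAddGroup.eq,
      AddSubgroup.mem_addSubgroupOf]
    simpa [neg_add_eq_sub] using neg_mem hij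
  · have hx' := hP.supp v x (left_ne_zero_of_mul hx)
    refine ⟨((⟨x, hx'⟩ : (placeBase v).box _ _) : LocalClasses (F := F) N M v), ?_⟩
    obtain ⟨q, hq⟩ := QuotientAddGroup.mk_out_eq_add
      (((placeBase v).box (natOrd v N) (natOrd v N)).addSubgroupOf
        ((placeBase v).box (-natOrd v M) (-natOrd v M))) ⟨x, hx'⟩
    rw [hq, AddSubgroup.coe_add, sub_add_cancel_left]
    exact neg_mem (AddSubgroup.mem_addSubgroupOf.mp q.2)

/-- The value at a class only depends on the local class. -/
lemma IsPeriod.stdFactor_toLocal {u : F} {m : F × F} (hm : m ∈ D.dualLattice u N)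
    (a : Classes F N M) (v : S) :
    stdFactor D u m Φ v (cmp v (classRep a).1, cmp v (classRep a).2) =
      stdFactor D u m Φ v ((hP.toLocal a v).out :
        (v : FinPlace F).adicCompletion F × (v : FinPlace F).adicCompletion F) := by
  have hper : IsPer ((placeBase (v : FinPlace F)).box (natOrd (v : FinPlace F) N)
      (natOrd (v : FinPlace F) N)) (stdFactor D u m Φ v) := (hP.integral_eq_std hm v).1
  obtain ⟨q, hq⟩ := QuotientAddGroup.mk_out_eq_add
    (((placeBase (v : FinPlace F)).box (natOrd (v : FinPlace F) N) (natOrd (v : FinPlace F) N)).addSubgroupOf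
      ((placeBase (v : FinPlace F)).box (-natOrd (v : FinPlace F) M) (-natOrd (v : FinPlace F) M)))
    ⟨_, hP.classRep_mem a v⟩
  rw [show (hP.toLocal a v).out = _ from hq, AddSubgroup.coe_add]
  exact (hper _ _ (AddSubgroup.mem_addSubgroupOf.mp q.2)).symm

/-- The classes give the product of the local sums. -/
lemma IsPeriod.sum_eq_prod_sumOver [Fintype (Classes F N M)] {u : F} {m : F × F}
    (hm : m ∈ D.dualLattice u N) :
    ∑ a : Classes F N M, D.adFun Φ (classRep a) *
        Whittaker.psiGlobal (u * polar D.s D.p (classRep a) m) =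
      ∏ v ∈ S, sumOver ((placeBase v).box (natOrd v N) (natOrd v N)) (stdFactor D u m Φ v) := by
  classical
  have : ∀ v : S, Finite (LocalClasses (F := F) N M v) := fun v =>
    finite_quotient ((placeBase (v : FinPlace F)).isLat_box _ _)
      ((placeBase (v : FinPlace F)).isLat_box _ _)
  let := fun v : S => Fintype.ofFinite (LocalClasses (F := F) N M v)
  rw [Finset.sum_congr rfl fun a _ => (hP.term_eq_prod hm a).trans
      (Finset.prod_congr rfl fun v _ => hP.stdFactor_toLocal hm a v),
    hP.toLocal_bijective.sum_comp (fun t : ∀ v : S, LocalClasses (F := F) N M v =>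
      ∏ v : S, stdFactor D u m Φ v ((t v).out :
        (v : FinPlace F).adicCompletion F × (v : FinPlace F).adicCompletion F)),
    ← Fintype.prod_sum (f := fun (v : S) (j : LocalClasses (F := F) N M v) =>
      stdFactor D u m Φ v (j.out :
        (v : FinPlace F).adicCompletion F × (v : FinPlace F).adicCompletion F)),
    Finset.prod_congr rfl fun (v : S) _ => hP.sum_localClasses hm (v : FinPlace F)]
  exact Finset.prod_coe_sort S fun v =>
    sumOver ((placeBase v).box (natOrd v N) (natOrd v N)) (stdFactor D u m Φ v)

/-- Outside `S` the local integral is one. -/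
lemma IsPeriod.integral_outside {u : F} {m : F × F} (hm : m ∈ D.dualLattice u N) {v : FinPlace F}
    (hv : v ∉ S) : integral (D.place v).form.base (fun z =>
      Φ v z * placeChar v (cmp v u * (D.place v).form.B z ((D.place v).coord m))) = 1 := by
  have h := (hP.integral_eq_std hm v).2
  rw [hP.outside_ratio v hv, one_mul] at h
  rw [h, hP.natOrd_N hv, add_zero, zpow_zero, inv_one, one_mul]
  have hper : IsPer ((placeBase v).box 0 0) (stdFactor D u m Φ v) := by
    have := (hP.integral_eq_std hm v).1
    rwa [hP.natOrd_N hv] at this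
  refine (sumOver_eq_sum (ι := Unit) (fun _ => (0 : v.adicCompletion F × v.adicCompletion F))
    (fun _ _ _ => rfl) hper fun x hx => ⟨(), ?_⟩).trans ?_
  · have h' := hP.supp v x (left_ne_zero_of_mul hx)
    simpa [hP.natOrd_M hv] using h'
  · simpa using hP.stdFactor_eq_one hm hv (zero_mem _)

/-- **The finite sum is the adelic Fourier transform.** -/
theorem IsPeriod.sum_classes [Fintype (Classes F N M)] {u : F} {m : F × F}
    (hm : m ∈ D.dualLattice u N) :
    ∑ a : Classes F N M, D.adFun Φ (classRep a) *
        Whittaker.psiGlobal (u * polar D.s D.p (classRep a) m) =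
      D.coordConst * (N : ℂ) ^ (2 * Module.finrank ℚ F) * D.adFourier u Φ m := by
  classical
  have hq : ∏ v ∈ S, (Nat.card (Residue v) : ℂ) ^ natOrd v N = (N : ℂ) ^ Module.finrank ℚ F := by
    have h := finprod_q_natOrd (F := F) hP.N_pos
    rw [finprod_eq_prod_of_mulSupport_subset _ (s := S) fun v hv => by
      by_contra hS; exact hv (by show (Nat.card (Residue v) : ℝ) ^ natOrd v N = 1
                                 rw [hP.natOrd_N hS, zpow_zero])] at h
    have h' := congrArg (fun r : ℝ => (r : ℂ)) h
    simpa [Complex.ofReal_prod, Complex.ofReal_zpow] using h'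
  rw [hP.sum_eq_prod_sumOver hm, coordConst, adFourier,
    finprod_eq_prod_of_mulSupport_subset _ (s := S) fun v hv => by
      by_contra hS; exact hv (hP.outside_ratio v hS),
    finprod_eq_prod_of_mulSupport_subset _ (s := S) fun v hv => by
      by_contra hS; exact hv (hP.integral_outside hm hS),
    two_mul, pow_add, ← hq, ← Finset.prod_mul_distrib, ← Finset.prod_mul_distrib,
    ← Finset.prod_mul_distrib]
  refine Finset.prod_congr rfl fun v _ => ?_
  have hq0 : (Nat.card (Residue v) : ℂ) ≠ 0 := Nat.cast_ne_zero.mpr Nat.card_pos.ne'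
  have h := (hP.integral_eq_std hm v).2
  rw [eq_inv_mul_iff_mul_eq₀ (zpow_ne_zero _ hq0), zpow_add₀ hq0] at h
  exact h.symm.trans (by ring)

/-- Outside the dual lattice the transform vanishes. -/
theorem IsPeriod.adFourier_eq_zero {u : F} {m : F × F} (hm : m ∉ D.dualLattice u N) :
    D.adFourier u Φ m = 0 := by
  classical
  simp only [dualLattice, Set.mem_ofPred_eq, not_forall, not_exists] at hm
  obtain ⟨l, hl⟩ := hm
  set a := u * polar D.s D.p ((N : F) • intPair l) m
  have hne : Whittaker.psiFin F (finIncl F a) ≠ 1 := by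
    rw [Whittaker.psiFin_finIncl]
    exact fun h => ((Whittaker.psiGlobal_eq_one_iff _).mp h).elim fun k hk => hl k hk
  obtain ⟨v, hv⟩ : ∃ v, placeChar v (toPlace v (finIncl F a)) ≠ 1 := by
    by_contra h
    push Not at h
    exact hne (by rw [psiFin_eq_finprod, finprod_eq_one_of_forall_eq_one h])
  rw [toPlace_finIncl] at hv
  have hbox : (D.place v).form.IsBoxSch fun z => Φ v ((D.place v).coordLin z) :=
    ⟨_, _, hP.per v, hP.supp v⟩
  obtain ⟨R, k, hper, hsupp⟩ := hbox.comp (D.place v).coordLin.symm
  simp only [LinearEquiv.apply_symm_apply] at hper hsupp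
  set qs := (cmp v (N : F) * cmp v (l.1 : F), cmp v (N : F) * cmp v (l.2 : F))
  have hq : qs ∈ (placeBase v).box (natOrd v N) (natOrd v N) := by
    have hint : ∀ o : 𝓞 F, cmp v (N : F) * cmp v (o : F) ∈ (placeBase v).ball (natOrd v N) :=
      fun o => (placeBase v).mul_mem_ball' (l := 0) (Or.inr le_rfl :
        cmp v (N : F) ∈ (placeBase v).ball (natOrd v N)) (mem_placeBall_zero.mpr (by
          rw [valued_cmp, RingOfIntegers.coe_eq_algebraMap]; exact v.valuation_le_one o)) (by omega)
    exact LocalBase.mem_box.mpr ⟨hint l.1, hint l.2⟩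
  refine finprod_eq_zero _ v ?_ ?_
  · show integral (D.place v).form.base _ = 0
    set G := fun z => Φ v z * placeChar v (cmp v u * (D.place v).form.B z ((D.place v).coord m))
    have hG : (D.place v).form.IsBoxSch G := by
      obtain ⟨ky, hky⟩ := (D.place v).form.exists_box ((D.place v).coord m)
      refine ⟨max R ((D.place v).form.cond - (D.place v).form.ord (cmp v u) - ky), k,
        fun z p hp => ?_, fun z hz => hsupp z (left_ne_zero_of_mul hz)⟩
      have h1 : (D.place v).form.χ (cmp v u * (D.place v).form.B p ((D.place v).coord m)) = 1 :=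
        (D.place v).form.χ_triv _ ((D.place v).form.mul_mem_ball'
          (k := (D.place v).form.ord (cmp v u)) (Or.inr le_rfl)
          ((D.place v).form.B_mem hp (hky _ le_rfl))
          (by have := le_max_right R ((D.place v).form.cond - (D.place v).form.ord (cmp v u) - ky); omega))
      show Φ v (z + p) * _ = Φ v z * _
      rw [show Φ v (z + p) = Φ v z from
          hper z p ((D.place v).form.box_le (le_max_left _ _) (le_max_left _ _) hp),
        (D.place v).form.B_add_left, mul_add, AddChar.map_add_eq_mul,
        show placeChar v (cmp v u * (D.place v).form.B p ((D.place v).coord m)) = 1 from h1, mul_one]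
    set t := (D.place v).coordLin qs
    have ht : ∀ z, G (z + t) = placeChar v (cmp v a) * G z := fun z => by
      have hΦ : Φ v (z + t) = Φ v z := by
        have := hP.per v ((D.place v).coordLin.symm z) qs hq
        simpa [t] using this
      show Φ v (z + t) * _ = _
      have hB : cmp v u * (D.place v).form.B t ((D.place v).coord m) = cmp v a := by
        rw [(D.place v).coord_eq, (D.place v).B_coordLin, map_mul, PlaceDatum.cmp_polar]
        simp [qs, intPair]
      rw [hΦ, (D.place v).form.B_add_left, mul_add, hB, AddChar.map_add_eq_mul]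
      show Φ v z * _ = _ * (Φ v z * _)
      ring
    obtain ⟨R', k', hper', hsupp'⟩ := hG
    obtain ⟨kt, hkt⟩ := (D.place v).form.exists_box t
    have hD : HasSupp ((D.place v).form.box (min k' kt) (min k' kt)) fun z => G (z + t) :=
      fun z hz => by
        have h1 := (D.place v).form.box_le (min_le_left k' kt) (min_le_left k' kt) (hsupp' _ hz)
        simpa using sub_mem h1 (hkt _ (min_le_right k' kt))
    have h := integral_comp_add (S := (D.place v).form.base) ((D.place v).form.isLat_box R' R')
      ((D.place v).form.isLat_box k' k') hper' hsupp' (t := t)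
      ((D.place v).form.isLat_box (min k' kt) (min k' kt)) hD
    rw [funext ht, integral_const_mul ⟨_, _, (D.place v).form.isLat_box R' R',
      (D.place v).form.isLat_box k' k', hper', hsupp'⟩] at h
    have h0 : (placeChar v (cmp v a) - 1) * integral (D.place v).form.base G = 0 := by
      linear_combination h
    exact (mul_eq_zero.mp h0).resolve_left (sub_ne_zero.mpr hv)
  · refine (S.finite_toSet.union ((finite_placeVal (finIncl F u)).union
      ((finite_placeVal (finIncl F D.s)).union ((finite_placeVal (finIncl F D.p)).union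
        ((finite_placeVal (finIncl F m.1)).union (finite_placeVal (finIncl F m.2))))))).subset
          fun w hw => ?_
    by_contra hc
    simp only [Set.mem_union, Finset.mem_coe, Set.mem_ofPred_eq, not_or, not_lt, placeVal_finIncl,
      ← valued_cmp, ← mem_placeBall_zero] at hc
    obtain ⟨hS, hu, hs, hp', hm1, hm2⟩ := hc
    refine hw ?_
    show integral (D.place w).form.base _ = 1
    set P := D.place w
    have hind : ∀ z, Φ w (P.coordLin z) *
        placeChar w (cmp w u * polar (cmp w D.s) (cmp w D.p) z (cmp w m.1, cmp w m.2)) =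
          if z ∈ (placeBase w).box 0 0 then 1 else 0 := fun z => by
      by_cases hz : z ∈ (placeBase w).box 0 0
      · rw [(hP.outside w hS z).1 hz, one_mul, if_pos hz]
        refine placeChar_eq_one (mem_placeBall_zero.mp ?_)
        obtain ⟨z1, z2⟩ := LocalBase.mem_box.mp hz
        have two : (2 : w.adicCompletion F) ∈ (placeBase w).ball 0 := by
          rw [show (2 : w.adicCompletion F) = 1 + 1 by norm_num]
          exact add_mem (placeBase w).one_mem_ball (placeBase w).one_mem_ball
        have hm : ∀ {a b : w.adicCompletion F}, a ∈ (placeBase w).ball 0 →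
            b ∈ (placeBase w).ball 0 → a * b ∈ (placeBase w).ball 0 := fun ha hb =>
          (placeBase w).mul_mem_ball' ha hb le_rfl
        exact hm hu (add_mem (add_mem (hm (hm two z1) hm1) (hm hs (add_mem (hm z1 hm2) (hm z2 hm1))))
          (hm (hm (hm two hp') z2) hm2))
      · rw [(hP.outside w hS z).2 hz, zero_mul, if_neg hz]
    set G := fun z => Φ w z * placeChar w (cmp w u * P.form.B z (P.coord m))
    have hGc : (fun z => G (P.coordLin z)) =
        fun z => if z ∈ (placeBase w).box 0 0 then (1 : ℂ) else 0 := by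
      funext z
      rw [← hind z]
      show Φ w _ * _ = _
      rw [P.coord_eq, P.B_coordLin]
    have hG : P.form.IsBoxSch G := by
      have e : G = fun z => (if P.coordLin.symm z ∈ P.form.box 0 0 then (1 : ℂ) else 0) := by
        funext z
        have := congrFun hGc (P.coordLin.symm z)
        simp only [LinearEquiv.apply_symm_apply] at this
        exact this
      rw [e]; exact (LocalForm.isBoxSch_indicator).comp _
    have h := LocalForm.integral_comp_linear hG P.coordLin
    rw [hGc, hP.outside_ratio w hS, one_mul] at h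
    rw [← h]
    exact (integral_indicator (P.form.isLat_box 0 0)).trans (vol_self _)

end ThetaData

end Fermat.Agent.LT.DihedralTheta

end
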