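import Fermat.Agent.LT.DihedralTheta.Torus
import Mathlib.RingTheory.DedekindDomain.FiniteAdeleRing

/-!
# The order and the units of the torus: local and global algebra
-/

set_option autoImplicit false

noncomputable section

open NumberField (InfinitePlace)
open Fermat.Agent.LT.Places

namespace Fermat.Agent.LT.DihedralTheta

variable {E : Type*} [Field E]

namespace LocalForm

variable (K : LocalForm E)

/-- The norm form is integral on the unit box. -/
lemma torus_n_mem {z : E × E} (hz : z ∈ K.box 0 0) : K.n z ∈ K.ball 0 := by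
  obtain ⟨h1, h2⟩ := LocalBase.mem_box.mp hz
  show z.1 ^ 2 + K.s * z.1 * z.2 + K.p * z.2 ^ 2 ∈ K.ball 0
  rw [sq, sq]
  exact add_mem (add_mem (K.mul_mem_ball' h1 h1 le_rfl)
    (K.mul_mem_ball' (K.mul_mem_ball' (m := 0) K.s_mem h1 le_rfl) h2 le_rfl))
    (K.mul_mem_ball' (m := 0) K.p_mem (K.mul_mem_ball' (m := 0) h2 h2 le_rfl) le_rfl)

/-- The product is commutative. -/
lemma torus_qmul_comm (w z : E × E) : K.qmul w z = K.qmul z w := by
  simp only [qmul]; refine Prod.ext ?_ ?_ <;> simp only <;> ring

/-- `(1, 0)` is the left unit. -/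
lemma torus_one_qmul (z : E × E) : K.qmul (1, 0) z = z := by
  rw [K.torus_qmul_comm, K.qmul_one]

/-- `(1, 0)` lies in the unit box. -/
lemma torus_one_mem : ((1 : E), (0 : E)) ∈ K.box 0 0 :=
  LocalBase.mem_box.mpr ⟨K.one_mem_ball, zero_mem _⟩

/-- Conjugation preserves the norm form. -/
lemma torus_n_qconj (z : E × E) : K.n (K.qconj z) = K.n z := by simp only [n, qconj]; ring

/-- `(1, 0)` has norm `1`. -/
lemma torus_n_one : K.n (1, 0) = 1 := by simp [n]

end LocalForm

variable {F : Type*} [Field F] [NumberField F]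

/-- The norm-compatible conjugate. -/
def gconj {R : Type*} [CommRing R] (s : R) (x : R × R) : R × R := (x.1 + s * x.2, -x.2)

/-- The product of pairs is commutative. -/
lemma gmul_comm {R : Type*} [CommRing R] (s p : R) (x y : R × R) :
    gmul s p x y = gmul s p y x := by
  simp only [gmul]; refine Prod.ext ?_ ?_ <;> simp only <;> ring

/-- The product of pairs is associative. -/
lemma gmul_assoc {R : Type*} [CommRing R] (s p : R) (x y z : R × R) :
    gmul s p (gmul s p x y) z = gmul s p x (gmul s p y z) := by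
  simp only [gmul]; refine Prod.ext ?_ ?_ <;> simp only <;> ring

/-- `(1, 0)` is the unit for pairs. -/
lemma gmul_one {R : Type*} [CommRing R] (s p : R) (x : R × R) : gmul s p x (1, 0) = x := by
  simp [gmul]

/-- The valuation on the completion extends that of the field. -/
lemma torus_valued_cmp (v : FinPlace F) (a : F) : Valued.v (cmp v a) = v.valuation F a :=
  IsDedekindDomain.HeightOneSpectrum.valuedAdicCompletion_eq_valuation' v a

lemma finite_valuation_gt (a : F) : {v : FinPlace F | 1 < v.valuation F a}.Finite :=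
  IsDedekindDomain.HeightOneSpectrum.Support.finite (NumberField.RingOfIntegers F) a

/-- A nonzero element is a unit at almost all places. -/
lemma finite_valuation_ne {a : F} (ha : a ≠ 0) :
    {v : FinPlace F | v.valuation F a ≠ 1}.Finite := by
  refine ((finite_valuation_gt a).union (finite_valuation_gt a⁻¹)).subset fun v hv => ?_
  rcases lt_or_gt_of_ne hv with h | h
  · refine Or.inr ?_
    show 1 < v.valuation F a⁻¹
    rw [map_inv₀]
    exact (one_lt_inv₀ (zero_lt_iff.mpr ((Valuation.ne_zero_iff _).mpr ha))).mpr h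
  · exact Or.inl h

namespace PlaceDatum

variable {s p : F} {v : FinPlace F} (P : PlaceDatum s p v)

/-- The unit ball consists of the elements of valuation at most `1`. -/
lemma mem_ball_zero {x : v.adicCompletion F} : x ∈ P.form.ball 0 ↔ Valued.v x ≤ 1 :=
  mem_placeBall_zero

lemma ord_eq_zero_iff {x : v.adicCompletion F} (hx : x ≠ 0) :
    P.form.ord x = 0 ↔ Valued.v x = 1 := by
  show placeOrd v x = 0 ↔ _
  rw [valued_eq_exp hx, ← WithZero.exp_zero, WithZero.exp_inj]
  omega

/-- A unit pair is an integral pair whose norm has valuation `1`. -/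
lemma isUnitPair_iff {z : v.adicCompletion F × v.adicCompletion F} :
    P.IsUnitPair z ↔ z ∈ P.form.box 0 0 ∧ Valued.v (P.form.n z) = 1 := by
  refine ⟨fun ⟨h1, h2, h3⟩ => ⟨h1, (P.ord_eq_zero_iff h2).mp h3⟩, fun ⟨h1, h2⟩ => ?_⟩
  have hne : P.form.n z ≠ 0 := fun h => by rw [h, map_zero] at h2; exact zero_ne_one h2
  exact ⟨h1, hne, (P.ord_eq_zero_iff hne).mpr h2⟩

/-- `(1, 0)` is a unit pair. -/
lemma isUnitPair_one : P.IsUnitPair (1, 0) :=
  P.isUnitPair_iff.mpr ⟨P.form.torus_one_mem, by rw [P.form.torus_n_one, map_one]⟩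

/-- Unit pairs are closed under multiplication. -/
lemma IsUnitPair.mul {z w : v.adicCompletion F × v.adicCompletion F}
    (hz : P.IsUnitPair z) (hw : P.IsUnitPair w) : P.IsUnitPair (P.form.qmul z w) := by
  rw [isUnitPair_iff] at hz hw ⊢
  exact ⟨by simpa using P.form.qmul_mem hz.1 hw.1, by rw [P.form.n_qmul, map_mul, hz.2, hw.2, one_mul]⟩

/-- A unit pair has an inverse unit pair. -/
lemma IsUnitPair.exists_inv {z : v.adicCompletion F × v.adicCompletion F}
    (hz : P.IsUnitPair z) : ∃ w, P.IsUnitPair w ∧ P.form.qmul w z = (1, 0) := by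
  rw [isUnitPair_iff] at hz
  have hne : P.form.n z ≠ 0 := fun h => by simp [h] at hz
  have hinv : Valued.v (P.form.n z)⁻¹ = 1 := by rw [map_inv₀, hz.2, inv_one]
  refine ⟨(P.form.n z)⁻¹ • P.form.qconj z, P.isUnitPair_iff.mpr ⟨?_, ?_⟩, ?_⟩
  · obtain ⟨h1, h2⟩ := LocalBase.mem_box.mp (P.form.qconj_mem hz.1)
    refine LocalBase.mem_box.mpr ⟨?_, ?_⟩ <;>
      simp only [Prod.smul_fst, Prod.smul_snd, smul_eq_mul, P.mem_ball_zero, map_mul, hinv,
        one_mul] <;> rw [← P.mem_ball_zero] <;> assumption
  · rw [P.form.n_smul, P.form.torus_n_qconj, map_mul, map_pow, hinv, hz.2, one_pow, one_mul]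
  · rw [P.form.torus_qmul_comm, P.form.qmul_smul, P.form.qmul_qconj]
    simp [hne]

/-- The coordinates are additive. -/
lemma coord_add (x y : F × F) : P.coord (x + y) = P.coord x + P.coord y := by
  simp only [coord, Prod.fst_add, Prod.snd_add, ← map_add, Prod.mk_add_mk]
  congr 2 <;> ring

/-- The coordinates respect scalars. -/
lemma coord_smul (a : F) (x : F × F) : P.coord (a • x) = cmp v a • P.coord x := by
  simp only [coord, Prod.smul_fst, Prod.smul_snd, Prod.smul_mk, smul_eq_mul, ← map_mul]
  congr 2 <;> ring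

/-- The coordinates of `(1, 0)`. -/
lemma coord_one : P.coord (1, 0) = (1, 0) := by simp [coord]

/-- The coordinates of `0`. -/
lemma coord_zero : P.coord 0 = 0 := by simp [coord]

lemma coord_gconj (x : F × F) : P.coord (gconj s x) = P.form.qconj (P.coord x) := by
  have hβ := P.β_ne
  show _ = ((P.coord x).1 + cmp v (2 * P.α + s * P.β) * (P.coord x).2, -(P.coord x).2)
  simp only [coord, gconj, ← map_mul, ← map_add, ← map_neg]
  congr 2 <;> field_simp
  ring

end PlaceDatum

namespace ThetaData

variable (D : ThetaData F)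

/-- A nonzero pair has nonzero norm. -/
lemma norm_ne {x : F × F} (hx : x ≠ 0) : normForm D.s D.p x ≠ 0 := fun h => hx (D.aniso x h)

/-- The inverse for `gmul`. -/
def ginv (x : F × F) : F × F := (normForm D.s D.p x)⁻¹ • gconj D.s x

/-- `ginv` is the inverse. -/
lemma gmul_ginv {x : F × F} (hx : x ≠ 0) : gmul D.s D.p x (D.ginv x) = (1, 0) := by
  have h := D.norm_ne hx
  simp only [gmul, ginv, gconj, Prod.smul_mk, smul_eq_mul]
  simp only [normForm] at h ⊢
  refine Prod.ext ?_ ?_ <;> simp only
  · linear_combination mul_inv_cancel₀ h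
  · ring

/-- The norm of an inverse. -/
lemma norm_ginv {x : F × F} (hx : x ≠ 0) :
    normForm D.s D.p (D.ginv x) = (normForm D.s D.p x)⁻¹ := by
  have h := congrArg (normForm D.s D.p) (D.gmul_ginv hx)
  rw [normForm_gmul, show normForm D.s D.p (1, 0) = 1 by simp [normForm]] at h
  exact eq_inv_of_mul_eq_one_right h

/-- An inverse is nonzero. -/
lemma ginv_ne {x : F × F} (hx : x ≠ 0) : D.ginv x ≠ 0 := fun h => by
  have := D.gmul_ginv hx
  simp [h, gmul] at this

/-- A product of nonzero pairs is nonzero. -/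
lemma gmul_ne {x y : F × F} (hx : x ≠ 0) (hy : y ≠ 0) : gmul D.s D.p x y ≠ 0 := fun h => by
  have := normForm_gmul D.s D.p x y
  rw [h, show normForm D.s D.p 0 = 0 by simp [normForm]] at this
  exact mul_ne_zero (D.norm_ne hx) (D.norm_ne hy) this.symm

/-- A nonzero pair has nonzero local norm at every place. -/
lemma n_coord_ne {x : F × F} (hx : x ≠ 0) (v : FinPlace F) :
    (D.place v).form.n ((D.place v).coord x) ≠ 0 := by
  rw [PlaceDatum.n_coord]
  exact (map_ne_zero _).mpr (D.norm_ne hx)

/-- The global order. -/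
def order : AddSubgroup (F × F) where
  carrier := {x | ∀ v, (D.place v).coord x ∈ (D.place v).form.box 0 0}
  zero_mem' v := by rw [PlaceDatum.coord_zero]; exact zero_mem _
  add_mem' ha hb v := by rw [PlaceDatum.coord_add]; exact add_mem (ha v) (hb v)
  neg_mem' {a} ha v := by
    rw [show -a = (-1 : F) • a by simp, PlaceDatum.coord_smul, map_neg, map_one, neg_one_smul]
    exact neg_mem (ha v)

lemma mem_order {x : F × F} :
    x ∈ D.order ↔ ∀ v, (D.place v).coord x ∈ (D.place v).form.box 0 0 := Iff.rfl

/-- `(1, 0)` lies in the order. -/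
lemma one_mem_order : ((1 : F), (0 : F)) ∈ D.order := fun v => by
  rw [PlaceDatum.coord_one]; exact (D.place v).form.torus_one_mem

lemma gmul_mem_order {x y : F × F} (hx : x ∈ D.order) (hy : y ∈ D.order) :
    gmul D.s D.p x y ∈ D.order := fun v => by
  rw [PlaceDatum.coord_gmul]
  simpa using (D.place v).form.qmul_mem (hx v) (hy v)

/-- A natural number bringing an element into the order. -/
theorem exists_nsmul_mem_order (x : F × F) :
    ∃ m : ℕ, 0 < m ∧ (m : F) • x ∈ D.order := by
  classical
  set S := (D.almost_std.union ((finite_valuation_gt x.1).union (finite_valuation_gt x.2))).toFinset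
  choose M hM o ho using fun a : F => Reduction.exists_natCast_mul_eq (F := F) a
  set c : FinPlace F → F := fun v => x.1 - (D.place v).α * (x.2 / (D.place v).β)
  set d : FinPlace F → F := fun v => x.2 / (D.place v).β
  refine ⟨∏ v ∈ S, M (c v) * M (d v), Finset.prod_pos fun v _ => Nat.mul_pos (hM _) (hM _),
    fun v => ?_⟩
  rw [PlaceDatum.coord_smul]
  refine LocalBase.mem_box.mpr ⟨(D.place v).mem_ball_zero.mpr ?_, (D.place v).mem_ball_zero.mpr ?_⟩
  all_goals
    simp only [PlaceDatum.coord, Prod.smul_mk, smul_eq_mul, ← map_mul, torus_valued_cmp]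
  all_goals by_cases hv : v ∈ S
  · rw [← Finset.mul_prod_erase S _ hv]
    push_cast
    rw [show ((M (c v) : F) * (M (d v) : F) * (∏ u ∈ S.erase v, ((M (c u) : F) * (M (d u) : F)))) *
        c v = ((M (c v) : F) * c v) * ((M (d v) * ∏ u ∈ S.erase v, M (c u) * M (d u) : ℕ) : F) by
      push_cast; ring, ho, map_mul, ← map_natCast (algebraMap (NumberField.RingOfIntegers F) F)]
    exact mul_le_one' (v.valuation_le_one _) (v.valuation_le_one _)
  · simp only [S, Set.Finite.mem_toFinset, Set.mem_union, not_or, Set.mem_ofPred_eq, not_not,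
      not_lt] at hv
    rw [map_mul, (hv.1).alpha_eq, zero_mul, sub_zero]
    exact mul_le_one' (valuation_natCast_le_one v _) hv.2.1
  · rw [← Finset.mul_prod_erase S _ hv]
    push_cast
    rw [show ((M (c v) : F) * (M (d v) : F) * (∏ u ∈ S.erase v, ((M (c u) : F) * (M (d u) : F)))) *
        d v = ((M (d v) : F) * d v) * ((M (c v) * ∏ u ∈ S.erase v, M (c u) * M (d u) : ℕ) : F) by
      push_cast; ring, ho, map_mul, ← map_natCast (algebraMap (NumberField.RingOfIntegers F) F)]
    exact mul_le_one' (v.valuation_le_one _) (v.valuation_le_one _)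
  · simp only [S, Set.Finite.mem_toFinset, Set.mem_union, not_or, Set.mem_ofPred_eq, not_not,
      not_lt] at hv
    rw [map_mul, (hv.1).beta_eq, div_one]
    exact mul_le_one' (valuation_natCast_le_one v _) hv.2.2

/-- The order has bounded denominators. -/
theorem exists_order_denominator : ∃ N : ℕ, 0 < N ∧ ∀ x ∈ D.order,
    IsIntegral ℤ ((N : F) * x.1) ∧ IsIntegral ℤ ((N : F) * x.2) := by
  classical
  set S := D.almost_std.toFinset
  choose M hM o ho using fun a : F => Reduction.exists_natCast_mul_eq (F := F) a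
  refine ⟨∏ v ∈ S, M (D.place v).α * M (D.place v).β,
    Finset.prod_pos fun v _ => Nat.mul_pos (hM _) (hM _), fun x hx => ?_⟩
  set N := ∏ v ∈ S, M (D.place v).α * M (D.place v).β with hN
  have key : ∀ v : FinPlace F, v.valuation F ((N : F) * x.1) ≤ 1 ∧
      v.valuation F ((N : F) * x.2) ≤ 1 := by
    intro v
    obtain ⟨h1, h2⟩ := LocalBase.mem_box.mp (hx v)
    rw [(D.place v).mem_ball_zero] at h1 h2
    simp only [PlaceDatum.coord, torus_valued_cmp] at h1 h2
    have hβ := (D.place v).β_ne
    by_cases hv : v ∈ S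
    · have hα1 : v.valuation F ((N : F) * (D.place v).α) ≤ 1 := by
        rw [hN, ← Finset.mul_prod_erase S _ hv]
        push_cast
        rw [show ∀ a b r α : F, a * b * r * α = a * α * (b * r) by intros; ring, ho, map_mul,
          map_mul]
        refine mul_le_one' (v.valuation_le_one _) (mul_le_one' (valuation_natCast_le_one v _) ?_)
        exact_mod_cast valuation_natCast_le_one v (∏ u ∈ S.erase v, M (D.place u).α * M (D.place u).β)
      have hβ1 : v.valuation F ((N : F) * (D.place v).β) ≤ 1 := by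
        rw [hN, ← Finset.mul_prod_erase S _ hv]
        push_cast
        rw [show ∀ a b r β : F, a * b * r * β = b * β * (a * r) by intros; ring, ho, map_mul,
          map_mul]
        refine mul_le_one' (v.valuation_le_one _) (mul_le_one' (valuation_natCast_le_one v _) ?_)
        exact_mod_cast valuation_natCast_le_one v (∏ u ∈ S.erase v, M (D.place u).α * M (D.place u).β)
      constructor
      · rw [show (N : F) * x.1 = (N : F) * (x.1 - (D.place v).α * (x.2 / (D.place v).β)) +
          ((N : F) * (D.place v).α) * (x.2 / (D.place v).β) by ring]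
        refine (Valuation.map_add _ _ _).trans (max_le ?_ ?_) <;> rw [map_mul]
        · exact mul_le_one' (valuation_natCast_le_one v _) h1
        · exact mul_le_one' hα1 h2
      · rw [show (N : F) * x.2 = ((N : F) * (D.place v).β) * (x.2 / (D.place v).β) by field_simp,
          map_mul]
        exact mul_le_one' hβ1 h2
    · simp only [S, Set.Finite.mem_toFinset, Set.mem_ofPred_eq, not_not] at hv
      rw [hv.alpha_eq, zero_mul, sub_zero] at h1
      rw [hv.beta_eq, div_one] at h2
      exact ⟨by rw [map_mul]; exact mul_le_one' (valuation_natCast_le_one v _) h1,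
        by rw [map_mul]; exact mul_le_one' (valuation_natCast_le_one v _) h2⟩
  have int : ∀ a : F, (∀ v : FinPlace F, v.valuation F a ≤ 1) → IsIntegral ℤ a := fun a ha => by
    obtain ⟨r, rfl⟩ := IsDedekindDomain.HeightOneSpectrum.mem_integers_of_valuation_le_one F a ha
    exact NumberField.RingOfIntegers.isIntegral_coe r
  exact ⟨int _ fun v => (key v).1, int _ fun v => (key v).2⟩

/-- A unit is a nonzero element of the order whose norm is a unit at every place. -/
lemma mem_units_iff {x : F × F} :
    x ∈ D.units ↔ x ≠ 0 ∧ x ∈ D.order ∧ ∀ v : FinPlace F,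
      v.valuation F (normForm D.s D.p x) = 1 := by
  simp only [units, Set.mem_ofPred_eq, PlaceDatum.isUnitPair_iff, PlaceDatum.n_coord, torus_valued_cmp,
    mem_order, forall_and]

/-- `(1, 0)` is a unit. -/
lemma one_mem_units : ((1 : F), (0 : F)) ∈ D.units :=
  D.mem_units_iff.mpr ⟨by simp, D.one_mem_order, fun v => by simp [normForm]⟩

/-- Units are closed under multiplication. -/
lemma gmul_mem_units {x y : F × F} (hx : x ∈ D.units) (hy : y ∈ D.units) :
    gmul D.s D.p x y ∈ D.units := by
  rw [mem_units_iff] at hx hy ⊢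
  exact ⟨D.gmul_ne hx.1 hy.1, D.gmul_mem_order hx.2.1 hy.2.1, fun v => by
    rw [normForm_gmul, map_mul, hx.2.2 v, hy.2.2 v, one_mul]⟩

/-- Units are stable under scaling by scalars that are units at every place. -/
lemma smul_mem_units {a : F} (ha : ∀ v : FinPlace F, v.valuation F a = 1) {x : F × F}
    (hx : x ∈ D.units) : a • x ∈ D.units := by
  have ha0 : a ≠ 0 := fun h => by
    have := ha D.v₀
    simp [h] at this
  rw [mem_units_iff] at hx ⊢
  refine ⟨smul_ne_zero ha0 hx.1, fun v => ?_, fun v => ?_⟩
  · rw [PlaceDatum.coord_smul]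
    obtain ⟨h1, h2⟩ := LocalBase.mem_box.mp (hx.2.1 v)
    refine LocalBase.mem_box.mpr ⟨?_, ?_⟩ <;>
      simp only [Prod.smul_fst, Prod.smul_snd, smul_eq_mul, (D.place v).mem_ball_zero, map_mul,
        torus_valued_cmp, ha v, one_mul] <;> rw [← (D.place v).mem_ball_zero] <;> assumption
  · rw [show normForm D.s D.p (a • x) = a ^ 2 * normForm D.s D.p x by
      simp [normForm]; ring, map_mul, map_pow, ha v, hx.2.2 v, one_pow, one_mul]

/-- Units are closed under inversion. -/
lemma ginv_mem_units {x : F × F} (hx : x ∈ D.units) : D.ginv x ∈ D.units := by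
  have h := D.mem_units_iff.mp hx
  refine D.smul_mem_units (fun v => by rw [map_inv₀, h.2.2 v, inv_one])
    (D.mem_units_iff.mpr ⟨fun h0 => ?_, fun v => ?_, fun v => ?_⟩)
  · refine h.1 ?_
    simp only [gconj, Prod.ext_iff, Prod.fst_zero, Prod.snd_zero, neg_eq_zero] at h0
    exact Prod.ext (by simpa [h0.2] using h0.1) h0.2
  · rw [PlaceDatum.coord_gconj]; exact (D.place v).form.qconj_mem (h.2.1 v)
  · rw [show normForm D.s D.p (gconj D.s x) = normForm D.s D.p x by simp [normForm, gconj]; ring]
    exact h.2.2 v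

/-- **(U0)** An element of nonzero norm gives a divisor. -/
def principalDivisor {x : F × F} (hx : x ≠ 0) : D.Divisor where
  cmpt v := (D.place v).coord x
  n_ne v := D.n_coord_ne hx v
  almost_unit := by
    refine (((D.almost_std.union (finite_valuation_gt x.1)).union
      (finite_valuation_gt x.2)).union (finite_valuation_ne (D.norm_ne hx))).subset fun v hv => ?_
    by_contra h
    simp only [Set.mem_union, Set.mem_ofPred_eq, not_or, not_not, not_lt] at h
    obtain ⟨⟨⟨hstd, h1⟩, h2⟩, h3⟩ := h
    refine hv ((D.place v).isUnitPair_iff.mpr ⟨LocalBase.mem_box.mpr ⟨?_, ?_⟩, ?_⟩)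
    · rw [(D.place v).mem_ball_zero]
      simpa [PlaceDatum.coord, torus_valued_cmp, hstd.alpha_eq] using h1
    · rw [(D.place v).mem_ball_zero]
      simpa [PlaceDatum.coord, torus_valued_cmp, hstd.beta_eq] using h2
    · rwa [PlaceDatum.n_coord, torus_valued_cmp]

variable {D}

/-- Equivalent divisors are equivalent by `(1, 0)`. -/
lemma Divisor.Equiv.equivBy {h h' : D.Divisor} (he : h.Equiv h') :
    h.EquivBy h' (1, 0) := fun v => by
  obtain ⟨c, hc, e⟩ := he v
  exact ⟨c, hc, by rw [e, PlaceDatum.coord_one, (D.place v).form.qmul_one]⟩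

/-- A divisor is equivalent to itself by `(1, 0)`. -/
lemma Divisor.EquivBy.refl (h : D.Divisor) : h.EquivBy h (1, 0) := fun v =>
  ⟨(1, 0), (D.place v).isUnitPair_one, by
    rw [PlaceDatum.coord_one, (D.place v).form.qmul_one, (D.place v).form.torus_one_qmul]⟩

/-- Equivalence by `x` reverses to equivalence by the inverse. -/
lemma Divisor.EquivBy.symm {h h' : D.Divisor} {x : F × F} (hx : x ≠ 0)
    (he : h.EquivBy h' x) : h'.EquivBy h (D.ginv x) := fun v => by
  obtain ⟨c, hc, e⟩ := he v
  obtain ⟨w, hw, hwc⟩ := PlaceDatum.IsUnitPair.exists_inv _ hc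
  refine ⟨w, hw, ?_⟩
  rw [e]
  set K := (D.place v).form
  have hx1 : K.qmul ((D.place v).coord x) ((D.place v).coord (D.ginv x)) = (1, 0) := by
    rw [← PlaceDatum.coord_gmul, D.gmul_ginv hx, PlaceDatum.coord_one]
  rw [K.qmul_assoc, K.qmul_assoc, hx1, K.qmul_one, ← K.qmul_assoc, hwc, K.torus_one_qmul]

/-- Equivalences compose by multiplying the pairs. -/
lemma Divisor.EquivBy.trans {h h' h'' : D.Divisor} {x y : F × F}
    (he : h.EquivBy h' x) (he' : h'.EquivBy h'' y) : h.EquivBy h'' (gmul D.s D.p x y) := fun v => by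
  obtain ⟨c, hc, e⟩ := he v
  obtain ⟨c', hc', e'⟩ := he' v
  refine ⟨_, PlaceDatum.IsUnitPair.mul _ hc' hc, ?_⟩
  rw [e', e, PlaceDatum.coord_gmul]
  simp only [LocalForm.qmul_assoc]

end ThetaData

end Fermat.Agent.LT.DihedralTheta

end
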