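import Fermat.Agent.LT.DihedralTheta.AdelicSum
import Fermat.Agent.LT.DihedralTheta.TorusBasic

/-!
# The theta function of a divisor and its transformation under the Weyl element

For fixed finite part `g`, divisor `h` and similitude variable `u`, Poisson summation on `F²`
carries the theta function at `(g, z, t, y)` to a constant times that at the translate by the Weyl
element.
-/

set_option autoImplicit false

noncomputable section

open IsDedekindDomain NumberField WithZero
open Fermat.Agent.LT.Places

namespace Fermat.Agent.LT.DihedralTheta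

variable {F : Type*} [Field F] [NumberField F]

lemma glPlace_weylElt (v : FinPlace F) : glPlace v (glIncl F (weylElt F)) = wmat :=
  Units.ext (Matrix.ext fun i j => by
    rw [glPlace_apply, wmat_val]
    fin_cases i <;> fin_cases j <;>
      simp [glIncl, weylElt, map_zero, map_one, map_neg])

/-- The height after applying the Weyl element. -/
def wHeight (z : InfinitePlace F → ℂ) (t : InfinitePlace F → ℝ) (w : InfinitePlace F) : ℝ :=
  t w / (Complex.normSq (z w) + t w ^ 2)

/-- The horizontal coordinate after applying the Weyl element. -/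
def wHor (z : InfinitePlace F → ℂ) (t : InfinitePlace F → ℝ) (w : InfinitePlace F) : ℂ :=
  -(starRingEnd ℂ) (z w) / ((Complex.normSq (z w) + t w ^ 2 : ℝ) : ℂ)

namespace PlaceDatum

variable {s p : F} {v : FinPlace F} {P : PlaceDatum s p v}

/-- Multiplication by a unit pair preserves the unit box. -/
lemma IsUnitPair.qmul_mem_iff {c z : v.adicCompletion F × v.adicCompletion F}
    (hc : P.IsUnitPair c) : P.form.qmul c z ∈ P.form.box 0 0 ↔ z ∈ P.form.box 0 0 := by
  obtain ⟨d, hd, e⟩ := IsUnitPair.exists_inv P hc
  refine ⟨fun h => ?_, fun h => by simpa using P.form.qmul_mem hc.1 h⟩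
  have := P.form.qmul_mem hd.1 h
  rw [← P.form.qmul_assoc, e, P.form.torus_one_qmul] at this
  simpa using this

/-- At a standard place the constant `lam` of the local vector is `1`. -/
lemma IsStd.lam_eq (h : P.IsStd) : P.vec.lam = 1 := by
  obtain ⟨η, ε, hu, hv⟩ := h.spherical
  rw [hv]
  show ε ^ placeCond v * (Nat.card (Residue v) : ℂ) ^ (-placeCond v) = 1
  simp [h.cond_eq]

lemma IsStd.eta_eq_one (h : P.IsStd) {a : v.adicCompletion F} (ha : a ≠ 0)
    (ho : placeOrd v a = 0) : P.vec.η a = 1 := by
  obtain ⟨η, ε, hu, hv⟩ := h.spherical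
  rw [hv]
  show η a = 1
  rw [hu.eta a ha, show (placeForm v _ _ P.trace_le P.norm_le).ord a = 0 from ho, zpow_zero]

/-- The extended spherical vector at an integral matrix. -/
lemma IsStd.fl_eq (h : P.IsStd) {g : GL (Fin 2) (v.adicCompletion F)}
    (hg : g ∈ (placeBase v).intGL) (z : v.adicCompletion F × v.adicCompletion F)
    (a : v.adicCompletion F) : P.vec.fl g z a = P.form.sphFun z a := by
  obtain ⟨η, ε, hu, hv⟩ := h.spherical
  rw [hv]
  set K := placeForm v _ _ P.trace_le P.norm_le
  have hη : η 1 = 1 := by rw [hu.eta 1 one_ne_zero, K.ord_one, zpow_zero]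
  have e := (LocalVec.spherical K hu).fl_eq hg (g := g) (a := 1) (β := 0) (d := 1)
    (ha := one_ne_zero) (hd := one_ne_zero)
    (by rw [show bmat (1 : v.adicCompletion F) 0 1 one_ne_zero one_ne_zero = 1 by
      ext i j; fin_cases i <;> fin_cases j <;> simp, one_mul])
  rw [e]
  simp [LocalForm.bact, LocalVec.spherical, hη, K.absv_unit K.ord_one]
  rfl

end PlaceDatum

namespace ThetaData

variable (D : ThetaData F)

/-- The local factor of the theta function. -/
def thetaLoc (g : GLFin F) (h : D.Divisor) (u : F) (v : FinPlace F)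
    (z : v.adicCompletion F × v.adicCompletion F) : ℂ :=
  (D.place v).vec.fl (glPlace v g) ((D.place v).form.qmul (h.cmpt v) z)
    (cmp v u / (D.place v).form.n (h.cmpt v))

/-- The finite part of the theta function. -/
def thetaFin (g : GLFin F) (h : D.Divisor) (u : F) (x : F × F) : ℂ := D.adFun (D.thetaLoc g h u) x

/-- The local functions of the theta function form an adelic Schwartz function. -/
theorem isAdelicSch_thetaLoc (g : GLFin F) (h : D.Divisor) {u : F} (hu : u ≠ 0) :
    D.IsAdelicSch (D.thetaLoc g h u) where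
  box v := (D.place v).vec.isBoxSch_fl_translate (glPlace v g) (h.n_ne v) _
  almost := by
    refine (((D.almost_std.union (finite_not_intGL g)).union (finite_valuation_ne_one hu)).union
      h.almost_unit).subset fun v hv => ?_
    by_contra hc
    simp only [Set.mem_union, Set.mem_ofPred_eq, not_or, not_not] at hc
    obtain ⟨⟨⟨h1, h2⟩, h3⟩, h4⟩ := hc
    refine hv fun z => ?_
    have hn : cmp v u / (D.place v).form.n (h.cmpt v) ≠ 0 :=
      div_ne_zero ((map_ne_zero _).mpr hu) (h.n_ne v)
    have hord : (D.place v).form.ord (cmp v u / (D.place v).form.n (h.cmpt v)) =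
        (D.place v).form.cond := by
      rw [div_eq_mul_inv, (D.place v).form.ord_mul ((map_ne_zero _).mpr hu) (inv_ne_zero (h.n_ne v)),
        (D.place v).form.ord_inv (h.n_ne v), h4.2.2]
      show placeOrd v (cmp v u) + -0 = placeCond v
      rw [placeOrd_cmp_eq_zero h3, h1.cond_eq, neg_zero, add_zero]
    have key : D.thetaLoc g h u v z =
        (D.place v).form.sphFun ((D.place v).form.qmul (h.cmpt v) z)
          (cmp v u / (D.place v).form.n (h.cmpt v)) := h1.fl_eq h2 _ _
    rw [key]
    constructor <;> intro hz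
    · exact if_pos ⟨(PlaceDatum.IsUnitPair.qmul_mem_iff h4).mpr hz, hn, hord⟩
    · exact if_neg fun hh => hz ((PlaceDatum.IsUnitPair.qmul_mem_iff h4).mp hh.1)

/-- The finite part of the theta summand vanishes at the origin. -/
lemma thetaFin_zero (g : GLFin F) (h : D.Divisor) {u : F} (hu : u ≠ 0) : D.thetaFin g h u 0 = 0 := by
  obtain ⟨N, M, S, hP⟩ := IsAdelicSch.exists_period D (D.isAdelicSch_thetaLoc g h hu)
  refine finprod_eq_zero _ D.v₀ ?_ ?_
  · obtain ⟨a, β, d, ha, hd, k, hk, hg⟩ := (D.place D.v₀).form.exists_iwasawa (glPlace D.v₀ g)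
    show (D.place D.v₀).vec.fl _ _ _ = 0
    rw [(D.place D.v₀).vec.fl_eq hk hg, PlaceDatum.coord_zero,
      show (D.place D.v₀).form.qmul (h.cmpt D.v₀) 0 = 0 by simp [LocalForm.qmul]]
    simp only [LocalForm.bact, smul_zero]
    rw [show (D.place D.v₀).vec.φ k 0 _ = 0 from D.vanish_zero k hk _, mul_zero]
  · refine S.finite_toSet.subset fun v hv => ?_
    by_contra hc
    refine hv ?_
    show D.thetaLoc g h u v ((D.place v).coord 0) = 1
    rw [PlaceDatum.coord_eq]
    exact (hP.outside v hc _).1 (LocalBase.mem_box.mpr ⟨by simp, by simp⟩)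

/-- The product of the Weyl constants. -/
def lamConst : ℂ := ∏ᶠ v, (D.place v).vec.lam

lemma finprod_eta {u : F} (hu : u ≠ 0) : ∏ᶠ v, (D.place v).vec.η (cmp v u) = 1 := by
  rw [← D.psi_global (u, 0) (by simp [hu])]
  refine finprod_congr fun v => ?_
  rw [show (D.place v).coord (u, 0) = (cmp v u, 0) by simp [PlaceDatum.coord]]
  exact ((D.place v).good.psi_scal ((map_ne_zero _).mpr hu)).symm

lemma finite_eta {u : F} (hu : u ≠ 0) :
    (Function.mulSupport fun v => (D.place v).vec.η (cmp v u)).Finite := by
  refine (D.almost_std.union (finite_valuation_ne_one hu)).subset fun v hv => ?_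
  by_contra hc
  simp only [Set.mem_union, Set.mem_ofPred_eq, not_or, not_not] at hc
  exact hv (hc.1.eta_eq_one ((map_ne_zero _).mpr hu) (placeOrd_cmp_eq_zero hc.2))

lemma finite_lam : (Function.mulSupport fun v => (D.place v).vec.lam).Finite :=
  D.almost_std.subset fun _ hv hs => hv hs.lam_eq

lemma finprod_absv_inv {u : F} (hu : u ≠ 0) :
    ∏ᶠ v, ((D.place v).form.absv (cmp v u))⁻¹ = ((∏ w : InfinitePlace F, w u ^ w.mult : ℝ) : ℂ) := by
  have hfin : (Function.mulSupport fun v : FinPlace F =>
      (Nat.card (Residue v) : ℝ) ^ (-placeOrd v (cmp v u))).Finite :=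
    (finite_valuation_ne_one hu).subset fun v hv h1 => hv (by
      show (Nat.card (Residue v) : ℝ) ^ (-placeOrd v (cmp v u)) = 1
      rw [placeOrd_cmp_eq_zero h1, neg_zero, zpow_zero])
  rw [eq_inv_of_mul_eq_one_left (prod_mul_finprod_eq_one hu), Complex.ofReal_inv,
    finprod_inv_distrib]
  congr 1
  rw [finprod_eq_prod _ hfin, Complex.ofReal_prod,
    finprod_eq_prod_of_mulSupport_subset _ (s := hfin.toFinset) fun v hv => ?_]
  · refine Finset.prod_congr rfl fun v _ => ?_
    rw [Complex.ofReal_zpow, Complex.ofReal_natCast]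
    rfl
  · rw [Finset.mem_coe, Set.Finite.mem_toFinset, Function.mem_mulSupport]
    intro h1
    refine hv ?_
    show (Nat.card (Residue v) : ℂ) ^ (-placeOrd v (cmp v u)) = 1
    have := congrArg (fun r : ℝ => (r : ℂ)) h1
    simpa using this

/-- The transform of the local factors is the factor of the translate. -/
theorem adFourier_thetaLoc (g : GLFin F) (h : D.Divisor) {u : F} (hu : u ≠ 0) (m : F × F) :
    D.adFourier u (D.thetaLoc g h u) m =
      D.lamConst * ((∏ w : InfinitePlace F, w u ^ w.mult : ℝ) : ℂ) *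
        D.thetaFin (glIncl F (weylElt F) * g) h u m := by
  obtain ⟨N, M, S, hP⟩ := IsAdelicSch.exists_period D
    (D.isAdelicSch_thetaLoc (glIncl F (weylElt F) * g) h hu)
  have hloc : ∀ v, integral (D.place v).form.base (fun z => D.thetaLoc g h u v z *
      placeChar v (cmp v u * (D.place v).form.B z ((D.place v).coord m))) =
      (D.place v).vec.lam * (D.place v).vec.η (cmp v u) * ((D.place v).form.absv (cmp v u))⁻¹ *
        D.thetaLoc (glIncl F (weylElt F) * g) h u v ((D.place v).coord m) := fun v => by
    refine ((D.place v).vec.fourier_fl (glPlace v g) (h.n_ne v) ((D.place v).eta_norm _ (h.n_ne v))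
      ((map_ne_zero _).mpr hu) _).trans ?_
    rw [thetaLoc, map_mul, glPlace_weylElt]
    rfl
  have ha : (Function.mulSupport fun v => ((D.place v).form.absv (cmp v u))⁻¹).Finite :=
    (finite_valuation_ne_one hu).subset fun v hv h1 => hv (by
      show ((D.place v).form.absv (cmp v u))⁻¹ = 1
      rw [LocalForm.absv_unit _ (show (D.place v).form.ord (cmp v u) = 0 from
        placeOrd_cmp_eq_zero h1), inv_one])
  have hle : (Function.mulSupport fun v =>
      (D.place v).vec.lam * (D.place v).vec.η (cmp v u)).Finite :=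
    (D.finite_lam.union (D.finite_eta hu)).subset (Function.mulSupport_mul _ _)
  have hle2 : (Function.mulSupport fun v => (D.place v).vec.lam * (D.place v).vec.η (cmp v u) *
      ((D.place v).form.absv (cmp v u))⁻¹).Finite :=
    (hle.union ha).subset (Function.mulSupport_mul _ _)
  have ht : (Function.mulSupport fun v =>
      D.thetaLoc (glIncl F (weylElt F) * g) h u v ((D.place v).coord m)).Finite := by
    refine (S.finite_toSet.union ((finite_placeVal (finIncl F m.1)).union
      (finite_placeVal (finIncl F m.2)))).subset fun v hv => ?_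
    by_contra hc
    simp only [Set.mem_union, Finset.mem_coe, Set.mem_ofPred_eq, not_or, not_lt, placeVal_finIncl] at hc
    refine hv ?_
    show D.thetaLoc _ h u v _ = 1
    rw [PlaceDatum.coord_eq]
    exact (hP.outside v hc.1 _).1 (LocalBase.mem_box.mpr
      ⟨mem_placeBall_zero.mpr (by rw [valued_cmp]; exact hc.2.1),
        mem_placeBall_zero.mpr (by rw [valued_cmp]; exact hc.2.2)⟩)
  rw [adFourier, finprod_congr hloc, finprod_mul_distrib hle2 ht, finprod_mul_distrib hle ha,
    finprod_mul_distrib D.finite_lam (D.finite_eta hu), D.finprod_eta hu, D.finprod_absv_inv hu,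
    mul_one]
  rfl

/-- The archimedean Poisson formula, as used below. -/
def IsArchConst (C : ℂ) : Prop :=
  ∀ (z : InfinitePlace F → ℂ) (t y : InfinitePlace F → ℝ) (u : F), u ≠ 0 → (∀ w, 0 < t w) →
    ∀ N : ℕ, 0 < N → ∀ c : F × F,
      Summable (fun l : 𝓞 F × 𝓞 F => D.gauss z t y u (c + (N : F) • intPair l)) ∧
      Summable (fun m : D.dualLattice u N => D.gauss (wHor z t) (wHeight z t) y u m) ∧
      ∑' l : 𝓞 F × 𝓞 F, D.gauss z t y u (c + (N : F) • intPair l) =
        C / (N : ℂ) ^ (2 * Module.finrank ℚ F) *
          ((∏ w : InfinitePlace F, w u ^ w.mult : ℝ) : ℂ)⁻¹ *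
          ∑' m : D.dualLattice u N, Whittaker.psiGlobal (u * polar D.s D.p c m) *
            D.gauss (wHor z t) (wHeight z t) y u m

/-- **The transformation of the theta function.** -/
theorem tsum_thetaFin_weyl {C : ℂ} (hC : D.IsArchConst C) (g : GLFin F) (h : D.Divisor)
    (z : InfinitePlace F → ℂ) (t y : InfinitePlace F → ℝ) (ht : ∀ w, 0 < t w) {u : F} (hu : u ≠ 0) :
    ∑' x, D.thetaFin g h u x * D.gauss z t y u x = C * D.coordConst * D.lamConst *
      ∑' x, D.thetaFin (glIncl F (weylElt F) * g) h u x *
        D.gauss (wHor z t) (wHeight z t) y u x := by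
  classical
  obtain ⟨N, M, S, hP⟩ := IsAdelicSch.exists_period D (D.isAdelicSch_thetaLoc g h hu)
  have := finite_classes (F := F) hP.N_pos hP.M_pos
  let := Fintype.ofFinite (Classes F N M)
  have hG := fun a : Classes F N M => hC z t y u hu ht N hP.N_pos (classRep a)
  have hN0 : (N : ℂ) ^ (2 * Module.finrank ℚ F) ≠ 0 :=
    pow_ne_zero _ (Nat.cast_ne_zero.mpr hP.N_pos.ne')
  set P : ℂ := ((∏ w : InfinitePlace F, w u ^ w.mult : ℝ) : ℂ)
  have hP0 : P ≠ 0 := Complex.ofReal_ne_zero.mpr (Finset.prod_pos fun w _ =>
    pow_pos ((InfinitePlace.pos_iff (w := w)).mpr hu) _).ne'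
  set G' := fun m : F × F => D.gauss (wHor z t) (wHeight z t) y u m
  have hsum : ∀ a : Classes F N M, Summable fun m : D.dualLattice u N =>
      D.adFun (D.thetaLoc g h u) (classRep a) *
        (Whittaker.psiGlobal (u * polar D.s D.p (classRep a) m) * G' m) := fun a => by
    refine Summable.mul_left _ (Summable.of_norm ?_)
    refine ((hG a).2.1.norm).congr fun m => ?_
    rw [norm_mul, ← Whittaker.psiFin_finIncl, Whittaker.norm_psiFin, one_mul]
  have hvan : ∀ m ∉ D.dualLattice u N,
      D.thetaFin (glIncl F (weylElt F) * g) h u m = 0 ∨ D.lamConst = 0 := fun m hm => by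
    have h0 := hP.adFourier_eq_zero hm
    rw [D.adFourier_thetaLoc g h hu, show ((∏ w : InfinitePlace F, w u ^ w.mult : ℝ) : ℂ) = P
      from rfl] at h0
    simpa [hP0, or_comm] using h0
  show ∑' x, D.adFun (D.thetaLoc g h u) x * _ = _
  rw [(hP.tsum_adFun_mul fun a => (hG a).1).2, Finset.sum_congr rfl fun a _ => by rw [(hG a).2.2]]
  calc ∑ a : Classes F N M, D.adFun (D.thetaLoc g h u) (classRep a) *
        (C / (N : ℂ) ^ (2 * Module.finrank ℚ F) * P⁻¹ *
          ∑' m : D.dualLattice u N, Whittaker.psiGlobal (u * polar D.s D.p (classRep a) m) * G' m)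
      = C / (N : ℂ) ^ (2 * Module.finrank ℚ F) * P⁻¹ * ∑ a : Classes F N M,
          ∑' m : D.dualLattice u N, D.adFun (D.thetaLoc g h u) (classRep a) *
            (Whittaker.psiGlobal (u * polar D.s D.p (classRep a) m) * G' m) := by
        rw [Finset.mul_sum]
        exact Finset.sum_congr rfl fun a _ => by rw [tsum_mul_left]; ring
    _ = C / (N : ℂ) ^ (2 * Module.finrank ℚ F) * P⁻¹ * ∑' m : D.dualLattice u N,
          ∑ a : Classes F N M, D.adFun (D.thetaLoc g h u) (classRep a) *
            (Whittaker.psiGlobal (u * polar D.s D.p (classRep a) m) * G' m) := by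
        rw [Summable.tsum_finsetSum fun a _ => hsum a]
    _ = C / (N : ℂ) ^ (2 * Module.finrank ℚ F) * P⁻¹ * ∑' m : D.dualLattice u N,
          D.coordConst * (N : ℂ) ^ (2 * Module.finrank ℚ F) * P *
            (D.lamConst * (D.thetaFin (glIncl F (weylElt F) * g) h u m * G' m)) := by
        congr 1
        refine tsum_congr fun m => ?_
        rw [Finset.sum_congr rfl fun a _ => (mul_assoc _ _ _).symm, ← Finset.sum_mul,
          hP.sum_classes m.2, D.adFourier_thetaLoc g h hu]
        ring
    _ = C * D.coordConst * D.lamConst * ∑' m : D.dualLattice u N,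
          D.thetaFin (glIncl F (weylElt F) * g) h u m * G' m := by
        rw [tsum_mul_left, tsum_mul_left]
        field_simp
    _ = _ := by
        rcases eq_or_ne D.lamConst 0 with hl | hl
        · simp [hl]
        congr 1
        rw [tsum_subtype (D.dualLattice u N) fun m =>
          D.thetaFin (glIncl F (weylElt F) * g) h u m * G' m]
        refine tsum_congr fun m => ?_
        by_cases hm : m ∈ D.dualLattice u N
        · rw [Set.indicator_of_mem hm]
        · rw [Set.indicator_of_notMem hm, (hvan m hm).resolve_right hl, zero_mul]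

end ThetaData

end Fermat.Agent.LT.DihedralTheta

end
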