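import Fermat.Agent.LT.DihedralTheta.ArchPoisson
import Fermat.Agent.LT.DihedralTheta.Theta

/-!
# The archimedean constant in the form used by the theta function

`archConst` is the constant in Poisson summation for the Gaussian at the infinite places.
-/

set_option autoImplicit false

noncomputable section

open NumberField
open Fermat.Agent.LT.Places

namespace Fermat.Agent.LT.DihedralTheta.ThetaData

variable {F : Type*} [Field F] [NumberField F] [IsTotallyComplex F] (D : ThetaData F)

/-- `archConst` is the constant of Poisson summation for the archimedean Gaussian. -/
theorem isArchConst_archConst : D.IsArchConst D.archConst := fun z t y u hu ht N hN c => by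
  obtain ⟨h1, h2, h3⟩ := D.gauss_poisson z t y u N hu ht hN c
  refine ⟨h1, h2, ?_⟩
  rw [h3, Complex.ofReal_inv]
  simp only [IsTotallyComplex.mult_eq]
  · rfl

end Fermat.Agent.LT.DihedralTheta.ThetaData

end
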