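import Mathlib.LinearAlgebra.Matrix.Determinant.Basic
import Mathlib.Analysis.SpecialFunctions.Complex.Arg
import Mathlib.Analysis.SpecialFunctions.Pow.Real
import Fermat.Agent.LT.LatticeTheta.Gaussian

/-!
# Diagonalising the Gaussian of the archimedean theta function at one place

In the coordinates `rot ε φ`, the sum `|ε X|² + |X'/ε|²` is the sum of squares and `2 Re (φ X X')`
has signature `(+, -, -, +)`.
-/

set_option autoImplicit false

noncomputable section

open Matrix Fermat.Agent.LT.LatticeTheta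
open scoped ComplexConjugate Real

namespace Fermat.Agent.LT.DihedralTheta

namespace ArchPoisson

section Local

variable (ε au t r : ℝ) (φ α β X X' : ℂ)

/-- The matrix of the coordinates diagonalising `|ε X|² + |X'/ε|²` and `Re (φ X X')`. -/
def rot : Matrix (Fin 4) (Fin 4) ℝ :=
  (√2)⁻¹ • !![ε, 0, φ.re / ε, -(φ.im / ε); ε, 0, -(φ.re / ε), φ.im / ε;
    0, ε, φ.im / ε, φ.re / ε; 0, ε, -(φ.im / ε), -(φ.re / ε)]

/-- The four real coordinates of a pair. -/
def reCoords : Fin 4 → ℝ := ![X.re, X.im, X'.re, X'.im]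

/-- The coefficients of the Gaussian. -/
def coefA : Fin 4 → ℂ :=
  ![2 * au * (t - r * Complex.I), 2 * au * (t + r * Complex.I),
    2 * au * (t + r * Complex.I), 2 * au * (t - r * Complex.I)]

/-- The dual coordinates. -/
def dualVec : Fin 4 → ℝ :=
  ![√2 * au * (α.re + β.re), √2 * au * (α.re - β.re),
    -(√2 * au * (α.im + β.im)), -(√2 * au * (α.im - β.im))]

/-- The determinant of the change of real coordinates `rot ε φ`. -/
lemma det_rot (hε : ε ≠ 0) : (rot ε φ).det = -(φ.re ^ 2 + φ.im ^ 2) := by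
  have h4 : ((√2)⁻¹ : ℝ) ^ 4 = 1 / 4 := by
    rw [inv_pow, show (4 : ℕ) = 2 * 2 from rfl, pow_mul, Real.sq_sqrt two_pos.le]; norm_num
  rw [rot, Matrix.det_smul, Fintype.card_fin, h4]
  simp [Matrix.det_succ_row_zero, Fin.sum_univ_succ, Fin.succAbove]
  field_simp
  ring

lemma quad_coefA (v : Fin 4 → ℝ) :
    ∑ k, coefA au t r k * (v k : ℂ) ^ 2 = ((2 * au * t * ∑ k, v k ^ 2 : ℝ) : ℂ) -
      ((2 * au * r * (v 0 ^ 2 - v 1 ^ 2 - v 2 ^ 2 + v 3 ^ 2) : ℝ) : ℂ) * Complex.I := by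
  simp [coefA, Fin.sum_univ_four]
  ring

/-- The diagonal quadratic form with coefficients `coefA` in rotated real coordinates. -/
lemma quad_rot (hε : ε ≠ 0) (hφ : φ.re ^ 2 + φ.im ^ 2 = 1) :
    ∑ k, coefA au t r k * (((rot ε φ *ᵥ reCoords X X') k : ℝ) : ℂ) ^ 2 =
      ((2 * au * t * (ε ^ 2 * Complex.normSq X + Complex.normSq X' / ε ^ 2) : ℝ) : ℂ) -
        ((4 * au * r * (φ * X * X').re : ℝ) : ℂ) * Complex.I := by
  have h2 : √2 ^ 2 = (2 : ℝ) := Real.sq_sqrt two_pos.le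
  set v := rot ε φ *ᵥ reCoords X X'
  have h1 : ∑ k, v k ^ 2 = ε ^ 2 * Complex.normSq X + Complex.normSq X' / ε ^ 2 := by
    simp [v, rot, reCoords, Fin.sum_univ_four, Complex.normSq_apply]
    field_simp
    rw [h2]
    linear_combination (2 * (X'.re ^ 2 + X'.im ^ 2)) * hφ
  have h3 : v 0 ^ 2 - v 1 ^ 2 - v 2 ^ 2 + v 3 ^ 2 = 2 * (φ * X * X').re := by
    simp [v, rot, reCoords]
    field_simp
    rw [h2]
    ring
  rw [quad_coefA, h1, h3]
  push_cast
  ring

/-- The pairing with the dual vector in rotated real coordinates. -/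
lemma pair_rot (hε : ε ≠ 0) :
    ∑ k, dualVec au α β k * (rot ε φ *ᵥ reCoords X X') k =
      2 * au * ((ε : ℂ) * X * α + φ * X' / (ε : ℂ) * β).re := by
  have h2 : √2 * √2 = (2 : ℝ) := Real.mul_self_sqrt two_pos.le
  simp [rot, reCoords, dualVec, Matrix.mulVec, dotProduct, Fin.sum_univ_four,
    Complex.div_ofReal_re, Complex.div_ofReal_im]
  field_simp
  ring

lemma inv_coefA (hau : au ≠ 0) (hD : t ^ 2 + r ^ 2 ≠ 0) (k : Fin 4) :
    (coefA au t r k)⁻¹ = coefA (4 * au * (t ^ 2 + r ^ 2))⁻¹ t (-r) k := by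
  have hc : ((au : ℂ)) ≠ 0 := Complex.ofReal_ne_zero.mpr hau
  have hDc : (t : ℂ) ^ 2 + (r : ℂ) ^ 2 ≠ 0 := by exact_mod_cast hD
  refine inv_eq_of_mul_eq_one_right ?_
  fin_cases k <;> simp [coefA] <;> field_simp <;> ring_nf <;> simp [Complex.I_sq]

/-- The dual quadratic form evaluated at the dual vector. -/
lemma quad_dual (hau : au ≠ 0) (hD : t ^ 2 + r ^ 2 ≠ 0) :
    ∑ k, (coefA au t r k)⁻¹ * ((dualVec au α β k : ℝ) : ℂ) ^ 2 =
      ((2 * au * t / (t ^ 2 + r ^ 2) * (Complex.normSq α + Complex.normSq β) : ℝ) : ℂ) +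
        ((4 * au * r / (t ^ 2 + r ^ 2) * (α * β).re : ℝ) : ℂ) * Complex.I := by
  have h2 : √2 ^ 2 = (2 : ℝ) := Real.sq_sqrt two_pos.le
  set w := dualVec au α β
  have h1 : ∑ k, w k ^ 2 = 4 * au ^ 2 * (Complex.normSq α + Complex.normSq β) := by
    simp [w, dualVec, Fin.sum_univ_four, Complex.normSq_apply]
    linear_combination
      (2 * au ^ 2 * (α.re ^ 2 + β.re ^ 2 + α.im ^ 2 + β.im ^ 2)) * h2
  have h3 : w 0 ^ 2 - w 1 ^ 2 - w 2 ^ 2 + w 3 ^ 2 = 8 * au ^ 2 * (α * β).re := by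
    simp [w, dualVec]
    linear_combination (4 * au ^ 2 * (α.re * β.re - α.im * β.im)) * h2
  simp only [inv_coefA au t r hau hD]
  rw [quad_coefA, h1, h3]
  push_cast
  field_simp
  ring

/-- The coefficients `coefA` have positive real part. -/
lemma re_coefA_pos (hau : 0 < au) (ht : 0 < t) (k : Fin 4) : 0 < (coefA au t r k).re := by
  fin_cases k <;> simp [coefA] <;> positivity

lemma sqrt_conj_mul (w : ℂ) (hw : 0 < w.re) :
    (1 / w) ^ (1 / 2 : ℂ) * (1 / conj w) ^ (1 / 2 : ℂ) = ((‖w‖⁻¹ : ℝ) : ℂ) := by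
  set z := 1 / w with hzdef
  have hz : 0 < z.re := by
    simp only [z, one_div]; exact LatticeTheta.re_inv_pos hw
  have harg : z.arg ≠ π := fun h => absurd (Complex.arg_eq_pi_iff.mp h).1 (not_lt.mpr hz.le)
  have hne : z ≠ 0 := fun h => by simp [h] at hz
  rw [show 1 / conj w = conj z by simp [z], Complex.conj_cpow z _ harg,
    show conj (1 / 2 : ℂ) = 1 / 2 by simp [map_ofNat], Complex.mul_conj', ← Complex.ofReal_pow]
  congr 1
  rw [show (1 / 2 : ℂ) = ((1 / 2 : ℝ) : ℂ) by push_cast; rfl, Complex.norm_cpow_real,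
    ← Real.rpow_natCast, ← Real.rpow_mul (norm_nonneg _)]
  simp [hzdef]

/-- The product of the square roots of the inverse coefficients. -/
lemma prod_sqrt_coefA (hau : 0 < au) (ht : 0 < t) :
    ∏ k, (1 / coefA au t r k) ^ (1 / 2 : ℂ) = (((4 * au ^ 2 * (t ^ 2 + r ^ 2))⁻¹ : ℝ) : ℂ) := by
  set a : ℂ := 2 * au * (t - r * Complex.I) with ha
  have hb : conj a = 2 * au * (t + r * Complex.I) := by
    simp [ha, map_mul, map_sub, map_ofNat]
  have hre : 0 < a.re := by simp [ha]; positivity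
  rw [Fin.prod_univ_four, show coefA au t r = ![a, conj a, conj a, a] by rw [hb]; rfl]
  simp only [Matrix.cons_val_zero, Matrix.cons_val_one, Matrix.cons_val]
  rw [sqrt_conj_mul a hre, mul_assoc, mul_comm ((1 / conj a) ^ (1 / 2 : ℂ)), sqrt_conj_mul a hre,
    ← Complex.ofReal_mul, ← mul_inv, ← sq, Complex.sq_norm]
  congr 2
  simp [ha, Complex.normSq_apply]
  ring

end Local

end ArchPoisson

end Fermat.Agent.LT.DihedralTheta
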