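import Fermat.Agent.LT.DihedralTheta.Arch
import Fermat.Agent.LT.DihedralTheta.ArchQuad
import Fermat.Agent.LT.LatticeTheta.Gaussian
import Mathlib.LinearAlgebra.Matrix.BilinearForm
import Mathlib.LinearAlgebra.Matrix.Block
import Mathlib.RingTheory.Trace.Basic

/-!
# Poisson summation for the archimedean theta function

The sum of `gauss z t y u` over a coset `c + N O²` is a constant times the sum of
`gauss z' t' y u` over the dual lattice, with the phase `e (-Tr (u · polar c m))`; here
`z' = -z̄ / (|z|² + t²)` and `t' = t / (|z|² + t²)`.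
-/

set_option autoImplicit false

noncomputable section

open NumberField Matrix Fermat.Agent.LT.LatticeTheta
open scoped ComplexConjugate Real
open scoped Classical

namespace Fermat.Agent.LT.DihedralTheta

open ArchPoisson Module

namespace ThetaData

variable {F : Type*} [Field F] [NumberField F] (D : ThetaData F)

/-- `Tr (polar · ·)`, twisted by `u`, as a bilinear form over `ℚ`. -/
def traceForm (u : F) : LinearMap.BilinForm ℚ (F × F) :=
  LinearMap.mk₂ ℚ (fun x y => Algebra.trace ℚ F (u * polar D.s D.p x y))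
    (fun x x' y => by rw [← map_add]; congr 1; simp [polar]; ring)
    (fun a x y => by rw [← map_smul]; congr 1; simp [polar, Algebra.smul_def]; ring)
    (fun x y y' => by rw [← map_add]; congr 1; simp [polar]; ring)
    (fun a x y => by rw [← map_smul]; congr 1; simp [polar, Algebra.smul_def]; ring)

/-- The trace form is the trace of `u` times the polar form. -/
lemma traceForm_apply (u : F) (x y : F × F) :
    D.traceForm u x y = Algebra.trace ℚ F (u * polar D.s D.p x y) := rfl

lemma polar_comm (x y : F × F) : polar D.s D.p x y = polar D.s D.p y x := by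
  simp only [polar]; ring

lemma polar_nondegenerate {y : F × F} (h : ∀ x, polar D.s D.p x y = 0) : y = 0 := by
  have h1 := h (1, 0)
  have h2 := h (0, 1)
  simp [polar] at h1 h2
  have hn : normForm D.s D.p y = 0 := by
    simp only [normForm]; linear_combination (y.1 / 2) * h1 + (y.2 / 2) * h2
  exact D.aniso y hn

lemma traceForm_nondeg {u : F} (hu : u ≠ 0) : (D.traceForm u).Nondegenerate := by
  have key : ∀ y : F × F, (∀ x, D.traceForm u x y = 0) → y = 0 := by
    intro y hy
    refine D.polar_nondegenerate fun x => ?_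
    have h : ∀ a : F, Algebra.traceForm ℚ F (u * polar D.s D.p x y) a = 0 := fun a => by
      rw [Algebra.traceForm_apply, ← hy (a * x.1, a * x.2), traceForm_apply]
      congr 1
      simp [polar]; ring
    exact (mul_eq_zero.mp ((_root_.traceForm_nondegenerate ℚ F).1 _ h)).resolve_left hu
  refine ⟨fun x hx => key x fun y => ?_, key⟩
  rw [← hx y, traceForm_apply, traceForm_apply, polar_comm]

variable [IsTotallyComplex F]

/-- The index of the real coordinates. -/
abbrev RealIdx (F : Type*) [Field F] [NumberField F] : Type _ := Fin 4 × InfinitePlace F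

lemma card_idx :
    Fintype.card (RealIdx F) =
      Fintype.card (Free.ChooseBasisIndex ℤ (𝓞 F) ⊕ Free.ChooseBasisIndex ℤ (𝓞 F)) := by
  rw [Fintype.card_sum, ← finrank_eq_card_chooseBasisIndex, RingOfIntegers.rank,
    IsTotallyComplex.finrank, Fintype.card_prod, Fintype.card_fin,
    InfinitePlace.card_eq_nrRealPlaces_add_nrComplexPlaces, IsTotallyComplex.nrRealPlaces_eq_zero]
  ring

/-- The enumeration of the integral coordinates by the real ones. -/
def idxEquiv : Free.ChooseBasisIndex ℤ (𝓞 F) ⊕ Free.ChooseBasisIndex ℤ (𝓞 F) ≃ RealIdx F :=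
  Fintype.equivOfCardEq card_idx.symm

/-- The integral basis of `O²`. -/
def intBasis : Basis (RealIdx F) ℤ (𝓞 F × 𝓞 F) :=
  ((RingOfIntegers.basis F).prod (RingOfIntegers.basis F)).reindex idxEquiv

/-- The same basis over `ℚ`. -/
def ratBasis : Basis (RealIdx F) ℚ (F × F) :=
  ((integralBasis F).prod (integralBasis F)).reindex idxEquiv

lemma intPair_intBasis (j : RealIdx F) : intPair (intBasis j) = ratBasis j := by
  simp only [intPair, intBasis, ratBasis, Basis.reindex_apply]
  rcases (idxEquiv (F := F)).symm j with i | i <;>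
    simp [Basis.prod_apply, integralBasis_apply]

/-- The real coordinates of the images of the basis. -/
def embMatrix : Matrix (RealIdx F) (RealIdx F) ℝ :=
  Matrix.of fun i j => reCoords (D.emb i.2 (ratBasis j)) (D.emb' i.2 (ratBasis j)) i.1

lemma trace_eq_sum (ξ : F) :
    ((Algebra.trace ℚ F ξ : ℚ) : ℝ) = ∑ w : InfinitePlace F, 2 * (w.embedding ξ).re := by
  classical
  have h := trace_eq_sum_embeddings (K := ℚ) (L := F) ℂ (x := ξ)
  have h' : ∑ σ : F →ₐ[ℚ] ℂ, σ ξ = ∑ φ : F →+* ℂ, φ ξ :=
    Fintype.sum_equiv (RingHom.equivRatAlgHom (R := F) (S := ℂ)).symm _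
      (fun φ : F →+* ℂ => φ ξ) fun σ => rfl
  rw [eq_ratCast, h', ← Finset.sum_fiberwise Finset.univ InfinitePlace.mk] at h
  have h2 := congrArg Complex.re h
  rw [Complex.ratCast_re, Complex.re_sum] at h2
  rw [h2]
  refine Finset.sum_congr rfl fun w _ => ?_
  rw [Complex.re_sum]
  have hre : ∀ φ ∈ (Finset.univ.filter fun φ : F →+* ℂ => InfinitePlace.mk φ = w),
      (φ ξ).re = (w.embedding ξ).re := fun φ hφ => by
    rw [← (Finset.mem_filter.mp hφ).2]
    rcases InfinitePlace.embedding_mk_eq φ with h | h <;> rw [h]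
    rw [ComplexEmbedding.conjugate_coe_eq, Complex.conj_re]
  rw [Finset.sum_congr rfl hre, Finset.sum_const, InfinitePlace.card_filter_mk_eq,
    IsTotallyComplex.mult_eq, nsmul_eq_mul]
  norm_num

omit [IsTotallyComplex F] in
lemma emb_polar (w : InfinitePlace F) (x y : F × F) :
    w.embedding (polar D.s D.p x y) = D.emb w x * D.emb' w y + D.emb' w x * D.emb w y := by
  simp only [emb, emb', root', polar, map_add, map_mul, map_ofNat]
  linear_combination 2 * (w.embedding x.2 * w.embedding y.2) * D.root_eq w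

/-- `Tr (u polar)` in the real coordinates. -/
lemma traceForm_real (u : F) (x y : F × F) :
    ((D.traceForm u x y : ℚ) : ℝ) = ∑ w : InfinitePlace F,
      2 * (w.embedding u * (D.emb w x * D.emb' w y + D.emb' w x * D.emb w y)).re := by
  rw [traceForm_apply, trace_eq_sum]
  refine Finset.sum_congr rfl fun w _ => ?_
  rw [map_mul, emb_polar]

lemma det_embMatrix_ne_zero : D.embMatrix.det ≠ 0 := by
  classical
  set J : Matrix (RealIdx F) (RealIdx F) ℝ := Matrix.blockDiagonal fun _ =>
    !![0, 0, 2, 0; 0, 0, 0, -2; 2, 0, 0, 0; 0, -2, 0, 0]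
  have hG : (LinearMap.BilinForm.toMatrix ratBasis (D.traceForm 1)).map (Rat.cast : ℚ → ℝ) =
      D.embMatrixᵀ * J * D.embMatrix := by
    ext i j
    rw [Matrix.map_apply, LinearMap.BilinForm.toMatrix_apply, traceForm_real, Matrix.mul_assoc,
      Matrix.mul_apply, Fintype.sum_prod_type, Finset.sum_comm]
    refine Finset.sum_congr rfl fun w _ => ?_
    simp only [J, Matrix.mul_apply, Matrix.blockDiagonal_apply, Fintype.sum_prod_type, ite_mul,
      zero_mul, Finset.sum_ite_eq, Finset.mem_univ, if_true, Matrix.transpose_apply, embMatrix,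
      Matrix.of_apply, map_one, one_mul]
    simp [reCoords, Fin.sum_univ_four]
    ring
  intro h
  have h' := congrArg Matrix.det hG
  rw [Matrix.det_mul, h, mul_zero] at h'
  have hne := (LinearMap.BilinForm.nondegenerate_iff_det_ne_zero ratBasis).mp
    (D.traceForm_nondeg (u := 1) one_ne_zero)
  refine hne ?_
  have := (Rat.castHom ℝ).map_det (LinearMap.BilinForm.toMatrix ratBasis (D.traceForm 1))
  rw [RingHom.mapMatrix_apply, show ((Rat.castHom ℝ : ℚ → ℝ)) = Rat.cast from rfl, h'] at this
  simpa using this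

/-- The constant. -/
def archConst : ℂ :=
  (((|D.embMatrix.det| * 4 ^ Fintype.card (InfinitePlace F))⁻¹ : ℝ) : ℂ)

variable (z : InfinitePlace F → ℂ) (t y : InfinitePlace F → ℝ) (u : F) (N : ℕ)

/-- The phase of `z`. -/
def zPhase (w : InfinitePlace F) : ℂ := if z w = 0 then 1 else z w / (‖z w‖ : ℂ)

/-- The phase of `u`. -/
def uPhase (w : InfinitePlace F) : ℂ := w.embedding u / (w u : ℂ)

omit [NumberField F] [IsTotallyComplex F] in
lemma zPhase_mul (w : InfinitePlace F) : (‖z w‖ : ℂ) * zPhase z w = z w := by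
  unfold zPhase
  split_ifs with h
  · simp [h]
  · exact mul_div_cancel₀ _ (Complex.ofReal_ne_zero.mpr (norm_ne_zero_iff.mpr h))

omit [NumberField F] [IsTotallyComplex F] in
lemma normSq_zPhase (w : InfinitePlace F) : Complex.normSq (zPhase z w) = 1 := by
  unfold zPhase
  split_ifs with h
  · simp
  · rw [map_div₀, Complex.normSq_ofReal, Complex.normSq_eq_norm_sq, sq, div_self]
    simp [h]


omit [NumberField F] [IsTotallyComplex F] in
lemma uPhase_mul {u : F} (hu : u ≠ 0) (w : InfinitePlace F) :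
    (w u : ℂ) * uPhase u w = w.embedding u := by
  have : (w u : ℂ) ≠ 0 := Complex.ofReal_ne_zero.mpr ((map_ne_zero w).mpr hu)
  unfold uPhase; field_simp

omit [NumberField F] [IsTotallyComplex F] in
lemma normSq_uPhase {u : F} (hu : u ≠ 0) (w : InfinitePlace F) :
    Complex.normSq (uPhase u w) = 1 := by
  rw [uPhase, map_div₀, Complex.normSq_ofReal, Complex.normSq_eq_norm_sq,
    InfinitePlace.norm_embedding_eq, sq, div_self]
  exact mul_ne_zero ((map_ne_zero w).mpr hu) ((map_ne_zero w).mpr hu)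

/-- The matrix of the Gaussian. -/
def gaussMatrix : Matrix (RealIdx F) (RealIdx F) ℝ :=
  Matrix.blockDiagonal (fun w => rot (Real.exp (y w / 2)) (zPhase z w * uPhase u w)) *
    ((N : ℝ) • D.embMatrix)

/-- The coefficients. -/
def gaussCoef (i : RealIdx F) : ℂ := coefA (i.2 u) (t i.2) ‖z i.2‖ i.1

/-- The rational point with given coordinates. -/
def ofCoords (q : RealIdx F → ℚ) : F × F := ∑ j, q j • ratBasis j

omit [IsTotallyComplex F] in
lemma emb_sum_smul (w : InfinitePlace F) {κ : Type*} (s : Finset κ) (q : κ → ℚ) (x : κ → F × F) :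
    D.emb w (∑ j ∈ s, q j • x j) = ∑ j ∈ s, (q j : ℂ) * D.emb w (x j) ∧
      D.emb' w (∑ j ∈ s, q j • x j) = ∑ j ∈ s, (q j : ℂ) * D.emb' w (x j) := by
  constructor <;>
  · simp only [emb, emb', Prod.fst_sum, Prod.snd_sum, map_sum, Finset.sum_mul,
      ← Finset.sum_add_distrib, Prod.smul_fst, Prod.smul_snd, Rat.smul_def, map_mul, map_ratCast]
    exact Finset.sum_congr rfl fun j _ => by ring

omit [IsTotallyComplex F] in
lemma blockDiagonal_mulVec (M : InfinitePlace F → Matrix (Fin 4) (Fin 4) ℝ) (v : RealIdx F → ℝ)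
    (k : Fin 4) (w : InfinitePlace F) :
    (Matrix.blockDiagonal M *ᵥ v) (k, w) = (M w *ᵥ fun l => v (l, w)) k := by
  classical
  simp [Matrix.mulVec, dotProduct, Matrix.blockDiagonal_apply, Fintype.sum_prod_type, ite_mul]

/-- The coordinates of a rational point. -/
lemma gaussMatrix_mulVec (q : RealIdx F → ℚ) (k : Fin 4) (w : InfinitePlace F) :
    (D.gaussMatrix z y u N *ᵥ fun j => (q j : ℝ)) (k, w) =
      (rot (Real.exp (y w / 2)) (zPhase z w * uPhase u w) *ᵥ
        reCoords (D.emb w ((N : ℚ) • ofCoords q)) (D.emb' w ((N : ℚ) • ofCoords q))) k := by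
  rw [gaussMatrix, ← Matrix.mulVec_mulVec, blockDiagonal_mulVec]
  congr 1
  funext l
  rw [ofCoords, Finset.smul_sum]
  simp only [smul_smul, (D.emb_sum_smul w Finset.univ _ _).1, (D.emb_sum_smul w Finset.univ _ _).2,
    Matrix.mulVec, dotProduct, embMatrix, Matrix.smul_apply, Matrix.of_apply]
  fin_cases l <;> simp [reCoords, Complex.mul_re, Complex.mul_im] <;>
    exact Finset.sum_congr rfl fun j _ => by ring

lemma det_gaussMatrix (hu : u ≠ 0) :
    |(D.gaussMatrix z y u N).det| =
      (N : ℝ) ^ (2 * finrank ℚ F) * |D.embMatrix.det| := by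
  classical
  rw [gaussMatrix, Matrix.det_mul, Matrix.det_blockDiagonal, Matrix.det_smul, abs_mul, abs_mul,
    abs_pow, Nat.abs_cast, Finset.abs_prod, Finset.prod_eq_one fun w _ => ?_, one_mul,
    Fintype.card_prod, Fintype.card_fin, IsTotallyComplex.finrank,
    InfinitePlace.card_eq_nrRealPlaces_add_nrComplexPlaces, IsTotallyComplex.nrRealPlaces_eq_zero]
  · congr 2; ring
  · rw [det_rot _ _ (Real.exp_ne_zero _), abs_neg]
    have : Complex.normSq (zPhase z w * uPhase u w) = 1 := by
      rw [map_mul, normSq_zPhase, normSq_uPhase hu, one_mul]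
    rw [Complex.normSq_apply] at this
    rw [show (zPhase z w * uPhase u w).re ^ 2 + (zPhase z w * uPhase u w).im ^ 2 = 1 by
      rw [← this]; ring, abs_one]

omit [IsTotallyComplex F] in
lemma exp_half_sq (a : ℝ) : Real.exp (a / 2) ^ 2 = Real.exp a := by
  rw [sq, ← Real.exp_add]; congr 1; ring

/-- The term of the left side. -/
lemma gauss_eq_gaussTerm (hu : u ≠ 0) (q : RealIdx F → ℚ) :
    D.gauss z t y u ((N : ℚ) • ofCoords q) =
      ((∏ w : InfinitePlace F, t w * w u : ℝ) : ℂ) *
        gaussTerm (D.gaussMatrix z y u N) (gaussCoef z t u) (fun j => (q j : ℝ)) := by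
  set x := (N : ℚ) • ofCoords q
  have hsum : ∀ w : InfinitePlace F,
      ∑ k, gaussCoef z t u (k, w) * (((D.gaussMatrix z y u N *ᵥ fun j => (q j : ℝ)) (k, w) : ℝ) : ℂ) ^ 2 =
      ((2 * (t w * w u) * (‖D.emb w x‖ ^ 2 * Real.exp (y w) + ‖D.emb' w x‖ ^ 2 * Real.exp (-(y w))) : ℝ) : ℂ) -
        ((4 * (w.embedding (u * normForm D.s D.p x) * z w).re : ℝ) : ℂ) * Complex.I := by
    intro w
    simp only [gaussCoef, gaussMatrix_mulVec]
    have hφ : Complex.normSq (zPhase z w * uPhase u w) = 1 := by
      rw [map_mul, normSq_zPhase, normSq_uPhase hu, one_mul]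
    rw [Complex.normSq_apply] at hφ
    rw [quad_rot _ _ _ _ _ _ _ (Real.exp_ne_zero _) (by rw [← hφ]; ring)]
    have hz : w.embedding (u * normForm D.s D.p x) * z w =
        ((w u * ‖z w‖ : ℝ) : ℂ) * (zPhase z w * uPhase u w * D.emb w x * D.emb' w x) := by
      rw [map_mul, ← D.emb_mul_emb' w x, ← uPhase_mul hu w]
      conv_lhs => rw [← zPhase_mul z w]
      push_cast; ring
    rw [hz, Complex.re_ofReal_mul, exp_half_sq, Complex.normSq_eq_norm_sq,
      Complex.normSq_eq_norm_sq, Real.exp_neg]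
    push_cast
    ring
  rw [gauss, gaussTerm, Fintype.sum_prod_type, Finset.sum_comm, Finset.sum_congr rfl fun w _ => hsum w,
    Finset.prod_mul_distrib, ← Real.exp_sum, Whittaker.expChar]
  simp only [Complex.ofReal_mul, Complex.ofReal_exp]
  rw [mul_left_comm, ← Complex.exp_add]
  congr 1
  congr 1
  simp only [Whittaker.pairing, Finset.mul_sum, Complex.ofReal_sum, Finset.sum_mul,
    ← Finset.sum_add_distrib]
  refine Finset.sum_congr rfl fun w _ => ?_
  push_cast
  ring

/-- The dual coordinates of a point. -/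
def dualCoords (μ : F × F) (i : RealIdx F) : ℝ :=
  dualVec (i.2 u) (uPhase u i.2 * D.emb' i.2 μ / (Real.exp (y i.2 / 2) : ℂ))
    (conj (zPhase z i.2) * (Real.exp (y i.2 / 2) : ℂ) * D.emb i.2 μ) i.1

lemma smul_ratBasis_eq (q : RealIdx F → ℚ) (j : RealIdx F) (h : q = Pi.single j 1) :
    ofCoords q = ratBasis j := by
  subst h
  simp [ofCoords, Pi.single_apply]

lemma transpose_mulVec_dualCoords (hu : u ≠ 0) (μ : F × F) (j : RealIdx F) :
    ((D.gaussMatrix z y u N)ᵀ *ᵥ D.dualCoords z y u μ) j =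
      ((D.traceForm u ((N : ℚ) • ratBasis j) μ : ℚ) : ℝ) := by
  classical
  have hcol : ∀ i : RealIdx F, D.gaussMatrix z y u N i j =
      (D.gaussMatrix z y u N *ᵥ fun l => (((Pi.single j 1 : RealIdx F → ℚ) l : ℚ) : ℝ)) i := by
    intro i
    simp [Matrix.mulVec, dotProduct, Pi.single_apply, apply_ite (Rat.cast : ℚ → ℝ)]
  simp only [Matrix.mulVec, dotProduct, Matrix.transpose_apply]
  rw [Fintype.sum_prod_type, Finset.sum_comm, traceForm_real]
  refine Finset.sum_congr rfl fun w _ => ?_
  simp only [hcol, gaussMatrix_mulVec, dualCoords, smul_ratBasis_eq _ j rfl]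
  conv_lhs => arg 2; ext k; rw [mul_comm]
  rw [pair_rot _ _ _ _ _ _ _ (Real.exp_ne_zero _)]
  set X := D.emb w ((N : ℚ) • ratBasis j)
  set X' := D.emb' w ((N : ℚ) • ratBasis j)
  set E : ℂ := (Real.exp (y w / 2) : ℂ)
  have hE : E ≠ 0 := Complex.ofReal_ne_zero.mpr (Real.exp_ne_zero _)
  have h1 : zPhase z w * conj (zPhase z w) = 1 := by
    rw [Complex.mul_conj, normSq_zPhase, Complex.ofReal_one]
  rw [show E * X * (uPhase u w * D.emb' w μ / E) +
      zPhase z w * uPhase u w * X' / E * (conj (zPhase z w) * E * D.emb w μ) =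
        uPhase u w * (X * D.emb' w μ + X' * D.emb w μ) by
    field_simp
    linear_combination (uPhase u w * X' * D.emb w μ) * h1, ← uPhase_mul hu w, mul_assoc (_ : ℂ),
    Complex.re_ofReal_mul]
  ring

lemma dualGauss_eq {μ : F × F} (hu : u ≠ 0) (hN : N ≠ 0) :
    LatticeTheta.dualGauss (D.gaussMatrix z y u N) (gaussCoef z t u)
        (fun j => ((D.traceForm u ((N : ℚ) • ratBasis j) μ : ℚ) : ℝ)) =
      Complex.exp (-π * ∑ i, (gaussCoef z t u i)⁻¹ * ((D.dualCoords z y u μ i : ℝ) : ℂ) ^ 2) := by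
  classical
  have hdet : (D.gaussMatrix z y u N).det ≠ 0 := by
    intro h
    have h2 := D.det_gaussMatrix z y u N hu
    rw [h, abs_zero] at h2
    have := D.det_embMatrix_ne_zero
    have : 0 < (N : ℝ) ^ (2 * finrank ℚ F) * |D.embMatrix.det| :=
      mul_pos (pow_pos (Nat.cast_pos.mpr (Nat.pos_of_ne_zero hN)) _) (abs_pos.mpr this)
    linarith
  have hw : (fun j => ((D.traceForm u ((N : ℚ) • ratBasis j) μ : ℚ) : ℝ)) =
      (D.gaussMatrix z y u N)ᵀ *ᵥ D.dualCoords z y u μ :=
    funext fun j => (D.transpose_mulVec_dualCoords z y u N hu μ j).symm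
  rw [LatticeTheta.dualGauss, gaussTerm, hw, Matrix.mulVec_mulVec, ← Matrix.transpose_mul,
    Matrix.mul_nonsing_inv _ (isUnit_iff_ne_zero.mpr hdet), Matrix.transpose_one, Matrix.one_mulVec]

/-- The inverted height. -/
def invT (w : InfinitePlace F) : ℝ := t w / (Complex.normSq (z w) + t w ^ 2)

/-- The inverted horizontal coordinate. -/
def invZ (w : InfinitePlace F) : ℂ := -conj (z w) / ((Complex.normSq (z w) + t w ^ 2 : ℝ) : ℂ)

omit [IsTotallyComplex F] in
/-- The term of the right side. -/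
lemma gauss_eq_dual (hu : u ≠ 0) (ht : ∀ w, 0 < t w) (μ : F × F) :
    D.gauss (invZ z t) (invT z t) y u μ =
      ((∏ w : InfinitePlace F, invT z t w * w u : ℝ) : ℂ) *
        Complex.exp (-π * ∑ i, (gaussCoef z t u i)⁻¹ * ((D.dualCoords z y u μ i : ℝ) : ℂ) ^ 2) := by
  have hsum : ∀ w : InfinitePlace F,
      ∑ k, (gaussCoef z t u (k, w))⁻¹ * ((D.dualCoords z y u μ (k, w) : ℝ) : ℂ) ^ 2 =
      ((2 * (invT z t w * w u) * (‖D.emb w μ‖ ^ 2 * Real.exp (y w) + ‖D.emb' w μ‖ ^ 2 * Real.exp (-(y w))) : ℝ) : ℂ) -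
        ((4 * (w.embedding (u * normForm D.s D.p μ) * invZ z t w).re : ℝ) : ℂ) * Complex.I := by
    intro w
    have hD : t w ^ 2 + ‖z w‖ ^ 2 ≠ 0 :=
      (add_pos_of_pos_of_nonneg (pow_pos (ht w) 2) (sq_nonneg _)).ne'
    simp only [gaussCoef, dualCoords]
    rw [quad_dual _ _ _ _ _ ((map_ne_zero w).mpr hu) hD]
    have hz : w.embedding (u * normForm D.s D.p μ) * invZ z t w =
        ((-(w u * ‖z w‖ / (t w ^ 2 + ‖z w‖ ^ 2)) : ℝ) : ℂ) *
          (uPhase u w * D.emb' w μ / (Real.exp (y w / 2) : ℂ) *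
            (conj (zPhase z w) * (Real.exp (y w / 2) : ℂ) * D.emb w μ)) := by
      have hE : (Real.exp (y w / 2) : ℂ) ≠ 0 := Complex.ofReal_ne_zero.mpr (Real.exp_ne_zero _)
      rw [invZ, map_mul, ← D.emb_mul_emb' w μ, ← uPhase_mul hu w,
        Complex.normSq_eq_norm_sq, add_comm (‖z w‖ ^ 2)]
      conv_lhs => rw [← zPhase_mul z w]
      simp only [map_mul, Complex.conj_ofReal, norm_mul, Complex.norm_real]
      have hn : ‖zPhase z w‖ = 1 := by
        rw [← pow_eq_one_iff_of_nonneg (norm_nonneg _) two_ne_zero, Complex.sq_norm, normSq_zPhase]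
      rw [hn, Real.norm_eq_abs, abs_norm, mul_one]
      have hDc : (t w : ℂ) ^ 2 + (‖z w‖ : ℂ) ^ 2 ≠ 0 := by exact_mod_cast hD
      push_cast
      field_simp
    rw [hz, Complex.re_ofReal_mul, map_mul, map_mul, map_div₀, map_mul, Complex.normSq_conj,
      normSq_zPhase, normSq_uPhase hu, Complex.normSq_ofReal, ← sq, exp_half_sq,
      Complex.normSq_eq_norm_sq, Complex.normSq_eq_norm_sq, invT, Complex.normSq_eq_norm_sq,
      Real.exp_neg]
    push_cast
    ring
  rw [gauss, Fintype.sum_prod_type, Finset.sum_comm, Finset.sum_congr rfl fun w _ => hsum w,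
    Finset.prod_mul_distrib, ← Real.exp_sum, Whittaker.expChar]
  simp only [Complex.ofReal_mul, Complex.ofReal_exp]
  rw [mul_left_comm, ← Complex.exp_add]
  congr 1
  congr 1
  simp only [Whittaker.pairing, Finset.mul_sum, Complex.ofReal_sum, Finset.sum_mul,
    ← Finset.sum_add_distrib]
  refine Finset.sum_congr rfl fun w _ => ?_
  push_cast
  ring

lemma gaussConst_eq (hu : u ≠ 0) (ht : ∀ w, 0 < t w) :
    ((∏ w : InfinitePlace F, t w * w u : ℝ) : ℂ) *
        LatticeTheta.gaussConst (D.gaussMatrix z y u N) (gaussCoef z t u) =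
      D.archConst / (N : ℂ) ^ (2 * finrank ℚ F) * (((∏ w : InfinitePlace F, w u ^ 2)⁻¹ : ℝ) : ℂ) *
        ((∏ w : InfinitePlace F, invT z t w * w u : ℝ) : ℂ) := by
  classical
  have hprod : ∏ i, (1 / gaussCoef z t u i) ^ (1 / 2 : ℂ) = ((∏ w : InfinitePlace F,
      (4 * w u ^ 2 * (t w ^ 2 + ‖z w‖ ^ 2))⁻¹ : ℝ) : ℂ) := by
    rw [Fintype.prod_prod_type_right, Complex.ofReal_prod]
    refine Finset.prod_congr rfl fun w _ => ?_
    simp only [gaussCoef]
    exact prod_sqrt_coefA (w u) (t w) ‖z w‖ (InfinitePlace.pos_iff.mpr hu) (ht w)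
  have key : (∏ w : InfinitePlace F, t w * w u) *
      (((N : ℝ) ^ (2 * finrank ℚ F) * |D.embMatrix.det|)⁻¹ *
        ∏ w : InfinitePlace F, (4 * w u ^ 2 * (t w ^ 2 + ‖z w‖ ^ 2))⁻¹) =
      (|D.embMatrix.det| * 4 ^ Fintype.card (InfinitePlace F))⁻¹ / (N : ℝ) ^ (2 * finrank ℚ F) *
        (∏ w : InfinitePlace F, w u ^ 2)⁻¹ * ∏ w : InfinitePlace F, invT z t w * w u := by
    have hDe : ∀ w, t w ^ 2 + ‖z w‖ ^ 2 = Complex.normSq (z w) + t w ^ 2 := fun w => by
      rw [Complex.normSq_eq_norm_sq, add_comm]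
    simp only [hDe, invT, div_eq_mul_inv, mul_inv, Finset.prod_mul_distrib, Finset.prod_const,
      Finset.card_univ, Finset.prod_inv_distrib, inv_pow]
    ring
  rw [LatticeTheta.gaussConst, hprod, D.det_gaussMatrix z y u N hu, archConst]
  have h := congrArg (fun r : ℝ => (r : ℂ)) key
  push_cast at h ⊢
  linear_combination h

/-- The character `ξ ↦ e (-Tr (u polar c m))`. -/
def polarPhase (c m : F × F) : ℂ :=
  Complex.exp ((-(2 * π) * (Algebra.trace ℚ F (u * polar D.s D.p c m) : ℝ) : ℝ) * Complex.I)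

/-- The dual lattice in coordinates. -/
def dualEquiv (hu : u ≠ 0) (hN : N ≠ 0) : (RealIdx F → ℤ) ≃ D.dualLattice u N :=
  haveI : DecidableEq (RealIdx F) := Classical.decEq _
  let L : (F × F) ≃ₗ[ℚ] (RealIdx F → ℚ) :=
    LinearEquiv.ofBijective (LinearMap.pi fun j => D.traceForm u ((N : ℚ) • ratBasis j)) (by
      have hinj : Function.Injective
          (LinearMap.pi fun j => D.traceForm u ((N : ℚ) • ratBasis j)) := by
        refine (injective_iff_map_eq_zero _).mpr fun m hm => ?_
        refine (D.traceForm_nondeg hu).2 m fun x => ?_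
        rw [← ratBasis.sum_repr x, map_sum, LinearMap.sum_apply]
        refine Finset.sum_eq_zero fun j _ => ?_
        have hj : D.traceForm u ((N : ℚ) • ratBasis j) m = 0 := congrFun hm j
        rw [map_smul, LinearMap.smul_apply, smul_eq_mul,
          mul_eq_zero_iff_left (Nat.cast_ne_zero.mpr hN)] at hj
        rw [map_smul, LinearMap.smul_apply, hj, smul_zero]
      refine ⟨hinj, (LinearMap.injective_iff_surjective_of_finrank_eq_finrank ?_).mp hinj⟩
      rw [finrank_eq_card_basis ratBasis, finrank_pi])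
  { toFun := fun k => ⟨L.symm fun j => (k j : ℚ), fun l => ⟨∑ j, intBasis.repr l j * k j, by
      have hk : ∀ j, D.traceForm u ((N : ℚ) • ratBasis j) (L.symm fun j => (k j : ℚ)) = k j :=
        fun j => congrFun (L.apply_symm_apply fun j => (k j : ℚ)) j
      rw [← traceForm_apply]
      conv_lhs => rw [show (N : F) • intPair l =
        ∑ j, (intBasis.repr l j : ℚ) • ((N : ℚ) • ratBasis j) by
          conv_lhs => rw [← intBasis.sum_repr l]
          simp only [← intPair_intBasis]
          ext <;> simp [intPair, Prod.fst_sum, Prod.snd_sum, Finset.mul_sum, Algebra.smul_def] <;>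
            exact Finset.sum_congr rfl fun j _ => by ring]
      rw [map_sum, LinearMap.sum_apply]
      simp only [map_smul, LinearMap.smul_apply, smul_eq_mul] at hk ⊢
      simp only [hk]
      push_cast
      rfl⟩⟩
    invFun := fun m j => (m.2 (intBasis j)).choose
    left_inv := fun k => funext fun j => by
      set m := L.symm fun j => (k j : ℚ)
      have h : ∀ (p : ∃ i : ℤ,
          Algebra.trace ℚ F (u * polar D.s D.p ((N : F) • intPair (intBasis j)) m) = i),
          p.choose = k j := fun p => by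
        have h1 := p.choose_spec
        generalize p.choose = i at h1 ⊢
        rw [intPair_intBasis, show (N : F) • ratBasis j = (N : ℚ) • ratBasis j by
          simp [Nat.cast_smul_eq_nsmul]] at h1
        have h2 : D.traceForm u ((N : ℚ) • ratBasis j) m = k j :=
          congrFun (L.apply_symm_apply fun j => (k j : ℚ)) j
        rw [traceForm_apply, h1] at h2
        exact_mod_cast h2
      exact h _
    right_inv := fun m => Subtype.ext (L.injective (funext fun j => by
      rw [L.apply_symm_apply]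
      show ((m.2 (intBasis j)).choose : ℚ) = D.traceForm u ((N : ℚ) • ratBasis j) m.1
      rw [traceForm_apply, ← (m.2 (intBasis j)).choose_spec, intPair_intBasis]
      simp [Nat.cast_smul_eq_nsmul])) }

lemma traceForm_dualEquiv (hu : u ≠ 0) (hN : N ≠ 0) (k : RealIdx F → ℤ) (j : RealIdx F) :
    D.traceForm u ((N : ℚ) • ratBasis j) (D.dualEquiv u N hu hN k : F × F) = k j := by
  have h := congrFun ((D.dualEquiv u N hu hN).symm_apply_apply k) j
  change ((D.dualEquiv u N hu hN k).2 (intBasis j)).choose = k j at h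
  rw [← h, traceForm_apply, ← ((D.dualEquiv u N hu hN k).2 (intBasis j)).choose_spec,
    intPair_intBasis]
  simp [Nat.cast_smul_eq_nsmul]

/-- **Poisson summation for the archimedean theta function.** -/
theorem gauss_poisson (hu : u ≠ 0) (ht : ∀ w, 0 < t w) (hN : 0 < N) (c : F × F) :
    Summable (fun l : 𝓞 F × 𝓞 F => D.gauss z t y u (c + (N : F) • intPair l)) ∧
    Summable (fun m : D.dualLattice u N => D.gauss (invZ z t) (invT z t) y u m) ∧
    ∑' l : 𝓞 F × 𝓞 F, D.gauss z t y u (c + (N : F) • intPair l) =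
      D.archConst / (N : ℂ) ^ (2 * finrank ℚ F) * (((∏ w : InfinitePlace F, w u ^ 2)⁻¹ : ℝ) : ℂ) *
        ∑' m : D.dualLattice u N,
          D.polarPhase u c m * D.gauss (invZ z t) (invT z t) y u m := by
  classical
  have hN' : (N : ℚ) ≠ 0 := Nat.cast_ne_zero.mpr hN.ne'
  set A := D.gaussMatrix z y u N with hAdef
  set a := gaussCoef z t u with hadef
  have hA : A.det ≠ 0 := fun h => by
    have h2 := D.det_gaussMatrix z y u N hu
    rw [← hAdef, h, abs_zero] at h2
    have := abs_pos.mpr D.det_embMatrix_ne_zero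
    have hp : (0 : ℝ) < (N : ℝ) ^ (2 * finrank ℚ F) * |D.embMatrix.det| := by
      have : (0 : ℝ) < N := Nat.cast_pos.mpr hN
      positivity
    linarith
  have ha : ∀ i, 0 < (a i).re := fun i =>
    re_coefA_pos _ _ _ (InfinitePlace.pos_iff.mpr hu) (ht _) _
  set q : RealIdx F → ℚ := fun j => (ratBasis.repr c) j / N
  set h : RealIdx F → ℝ := fun j => (q j : ℝ)
  have hc : (N : ℚ) • ofCoords q = c := by
    rw [ofCoords, Finset.smul_sum]
    simp only [q, smul_smul, mul_div_cancel₀ _ hN']
    exact ratBasis.sum_repr c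
  set P1 : ℂ := ((∏ w : InfinitePlace F, t w * w u : ℝ) : ℂ)
  set P2 : ℂ := ((∏ w : InfinitePlace F, invT z t w * w u : ℝ) : ℂ)
  have hleft : ∀ n : RealIdx F → ℤ, D.gauss z t y u (c + (N : F) • intPair (intBasis.equivFun.symm n)) =
      P1 * gaussTerm A a (h + intVec n) := by
    intro n
    have e : c + (N : F) • intPair (intBasis.equivFun.symm n) =
        (N : ℚ) • ofCoords (fun j => q j + n j) := by
      conv_lhs => rw [← hc]
      simp only [ofCoords, add_smul, Finset.sum_add_distrib, smul_add, Basis.equivFun_symm_apply,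
        ← intPair_intBasis]
      congr 1
      rw [Finset.smul_sum]
      ext <;> simp [intPair, Prod.fst_sum, Prod.snd_sum, Finset.mul_sum, Algebra.smul_def]
    rw [e, D.gauss_eq_gaussTerm z t y u N hu]
    congr 2
    funext j
    simp [h]
  have hright : ∀ k : RealIdx F → ℤ,
      D.gauss (invZ z t) (invT z t) y u (D.dualEquiv u N hu hN.ne' k : F × F) =
        P2 * dualGauss A a (intVec k) := by
    intro k
    have e : intVec k = fun j => ((D.traceForm u ((N : ℚ) • ratBasis j)
        (D.dualEquiv u N hu hN.ne' k : F × F) : ℚ) : ℝ) := funext fun j => by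
      rw [D.traceForm_dualEquiv u N hu hN.ne' k j]; simp
    rw [e, D.dualGauss_eq z t y u N hu hN.ne', ← D.gauss_eq_dual z t y u hu ht]
  have hphase : ∀ k : RealIdx F → ℤ,
      D.polarPhase u c (D.dualEquiv u N hu hN.ne' k : F × F) = expi (-∑ j, (k j : ℝ) * h j) := by
    intro k
    have e : Algebra.trace ℚ F (u * polar D.s D.p c (D.dualEquiv u N hu hN.ne' k : F × F)) =
        ∑ j, (k j : ℚ) * q j := by
      rw [← traceForm_apply]
      conv_lhs => rw [← hc, ofCoords, Finset.smul_sum]
      rw [map_sum, LinearMap.sum_apply]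
      refine Finset.sum_congr rfl fun j _ => ?_
      rw [smul_comm, map_smul, LinearMap.smul_apply, D.traceForm_dualEquiv u N hu hN.ne' k j,
        smul_eq_mul, mul_comm]
    rw [polarPhase, e, expi]
    congr 1
    push_cast
    simp only [h, Complex.ofReal_ratCast]
    ring
  have hsl : Summable fun n : RealIdx F → ℤ => gaussTerm A a (h + intVec n) :=
    (locallyDominated_gauss hA ha).summable h
  have hsr : Summable fun k : RealIdx F → ℤ => dualGauss A a (intVec k) := by
    simpa using summable_dualGauss hA ha 0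
  refine ⟨?_, ?_, ?_⟩
  · rw [← intBasis.equivFun.symm.toEquiv.summable_iff]
    exact (hsl.mul_left P1).congr fun n => (hleft n).symm
  · rw [← (D.dualEquiv u N hu hN.ne').summable_iff]
    exact (hsr.mul_left P2).congr fun k => (hright k).symm
  have hpois := tsum_gauss_mul_expi hA ha h 0
  simp only [Pi.zero_apply, zero_mul, Finset.sum_const_zero, expi_zero, mul_one, sub_zero] at hpois
  rw [← intBasis.equivFun.symm.toEquiv.tsum_eq, ← (D.dualEquiv u N hu hN.ne').tsum_eq]
  simp only [LinearEquiv.coe_toEquiv, hleft, hright, hphase]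
  rw [tsum_mul_left, hpois, ← mul_assoc, D.gaussConst_eq z t y u N hu ht, mul_assoc _ P2,
    ← tsum_mul_left, ← (Equiv.neg (RealIdx F → ℤ)).tsum_eq]
  congr 1
  refine tsum_congr fun k => ?_
  have hneg : intVec ((Equiv.neg (RealIdx F → ℤ)) k) = -intVec k := by
    funext j; simp [intVec]
  rw [hneg, dualGauss, gaussTerm_neg]
  simp only [Equiv.neg_apply, Pi.neg_apply, Int.cast_neg, neg_mul, Finset.sum_neg_distrib]
  rw [← dualGauss]
  ring

end ThetaData

end Fermat.Agent.LT.DihedralTheta

end
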