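import Fermat.Agent.LT.DihedralTheta.LocalInt

/-!
# A discretely valued field and boxes in its plane

`LocalBase E` is a discrete valuation on `E` with finite residue field.  The boxes
`ϖ ^ i O × ϖ ^ j O` are lattices of mass `q ^ (-(i + j))`.
-/

set_option autoImplicit false

open AddSubgroup

namespace Fermat.Agent.LT.DihedralTheta

/-- A discrete valuation, written additively, with finite residue field. -/
structure LocalBase (E : Type*) [Field E] where
  /-- The valuation, with junk value at `0`. -/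
  ord : E → ℤ
  /-- A uniformiser. -/
  unif : E
  unif_ne_zero : unif ≠ 0
  ord_unif : ord unif = 1
  ord_mul : ∀ {a b : E}, a ≠ 0 → b ≠ 0 → ord (a * b) = ord a + ord b
  ord_add : ∀ {a b : E}, a ≠ 0 → b ≠ 0 → a + b ≠ 0 → min (ord a) (ord b) ≤ ord (a + b)
  /-- The residue cardinality. -/
  q : ℕ
  q_pos : 0 < q
  residue_card : ∀ (H : AddSubgroup E) (H' : AddSubgroup E),
    (∀ x, x ∈ H ↔ x = 0 ∨ 1 ≤ ord x) → (∀ x, x ∈ H' ↔ x = 0 ∨ 0 ≤ ord x) → H.relIndex H' = q

namespace LocalBase

variable {E : Type*} [Field E] (K : LocalBase E)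

/-- `1` has order zero. -/
lemma ord_one : K.ord 1 = 0 := by
  have := K.ord_mul (one_ne_zero (α := E)) one_ne_zero
  rw [mul_one] at this
  omega

/-- `-1` has order zero. -/
lemma ord_neg_one : K.ord (-1) = 0 := by
  have := K.ord_mul (neg_ne_zero.mpr (one_ne_zero (α := E))) (neg_ne_zero.mpr one_ne_zero)
  rw [neg_mul_neg, one_mul, K.ord_one] at this
  omega

/-- The order is unchanged by negation. -/
lemma ord_neg (a : E) : K.ord (-a) = K.ord a := by
  rcases eq_or_ne a 0 with rfl | ha
  · simp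
  · rw [← neg_one_mul a, K.ord_mul (by simp) ha, K.ord_neg_one, zero_add]

/-- The order of an inverse is the negative of the order. -/
lemma ord_inv {a : E} (ha : a ≠ 0) : K.ord a⁻¹ = -K.ord a := by
  have := K.ord_mul ha (inv_ne_zero ha)
  rw [mul_inv_cancel₀ ha, K.ord_one] at this
  omega

/-- The order of a power. -/
lemma ord_pow {a : E} (ha : a ≠ 0) (n : ℕ) : K.ord (a ^ n) = n * K.ord a := by
  induction n with
  | zero => simp [K.ord_one]
  | succ n ih => rw [pow_succ, K.ord_mul (pow_ne_zero n ha) ha, ih]; push_cast; ring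

lemma ord_zpow {a : E} (ha : a ≠ 0) (n : ℤ) : K.ord (a ^ n) = n * K.ord a := by
  rcases Int.eq_nat_or_neg n with ⟨m, rfl | rfl⟩
  · rw [zpow_natCast, K.ord_pow ha]
  · rw [zpow_neg, zpow_natCast, K.ord_inv (pow_ne_zero m ha), K.ord_pow ha]; ring

/-- The order of a power of the uniformiser. -/
lemma ord_unif_zpow (k : ℤ) : K.ord (K.unif ^ k) = k := by
  rw [K.ord_zpow K.unif_ne_zero, K.ord_unif, mul_one]

/-- The ball `ϖ ^ k O`. -/
def ball (k : ℤ) : AddSubgroup E where
  carrier := {x | x = 0 ∨ k ≤ K.ord x}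
  zero_mem' := Or.inl rfl
  add_mem' {a b} ha hb := by
    rcases eq_or_ne a 0 with rfl | ha0
    · simpa using hb
    rcases eq_or_ne b 0 with rfl | hb0
    · simpa using ha
    rcases eq_or_ne (a + b) 0 with h | h
    · exact Or.inl h
    · exact Or.inr ((le_min (ha.resolve_left ha0) (hb.resolve_left hb0)).trans (K.ord_add ha0 hb0 h))
  neg_mem' {a} ha := by
    rcases ha with ha | ha
    · exact Or.inl (by simp [ha])
    · exact Or.inr (by rwa [K.ord_neg])

variable {K}

/-- Membership in a ball in terms of the order. -/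
lemma mem_ball {k : ℤ} {x : E} : x ∈ K.ball k ↔ x = 0 ∨ k ≤ K.ord x := Iff.rfl

variable (K)

/-- The balls decrease in the radius. -/
lemma ball_le {k l : ℤ} (h : l ≤ k) : K.ball k ≤ K.ball l := fun _ hx => hx.imp_right h.trans

/-- `1` lies in the unit ball. -/
lemma one_mem_ball : (1 : E) ∈ K.ball 0 := Or.inr K.ord_one.ge

/-- A product lies in the ball of the sum of the radii. -/
lemma mul_mem_ball {k l : ℤ} {x y : E} (hx : x ∈ K.ball k) (hy : y ∈ K.ball l) :
    x * y ∈ K.ball (k + l) := by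
  rcases eq_or_ne x 0 with rfl | hx0
  · simp
  rcases eq_or_ne y 0 with rfl | hy0
  · simp
  exact Or.inr (by
    rw [K.ord_mul hx0 hy0]; exact add_le_add (hx.resolve_left hx0) (hy.resolve_left hy0))

/-- A product lies in any ball of radius at most the sum of the radii. -/
lemma mul_mem_ball' {k l m : ℤ} {x y : E} (hx : x ∈ K.ball k) (hy : y ∈ K.ball l) (h : m ≤ k + l) :
    x * y ∈ K.ball m := K.ball_le h (K.mul_mem_ball hx hy)

/-- Multiplication by a nonzero element shifts balls. -/
lemma mul_mem_ball_iff {c : E} (hc : c ≠ 0) {x : E} {k : ℤ} :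
    c * x ∈ K.ball k ↔ x ∈ K.ball (k - K.ord c) := by
  rcases eq_or_ne x 0 with rfl | hx
  · simp
  simp only [mem_ball, mul_eq_zero, hc, hx, false_or, K.ord_mul hc hx]
  constructor <;> intro h <;> omega

/-- A ball has index `q` in the next larger one. -/
lemma relIndex_ball_succ (k : ℤ) : (K.ball (k + 1)).relIndex (K.ball k) = K.q := by
  have hc : K.unif ^ (-k) ≠ 0 := zpow_ne_zero _ K.unif_ne_zero
  let e : E →+ E := AddMonoidHom.mulLeft (K.unif ^ (-k))
  have hinj : Function.Injective e := mul_right_injective₀ hc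
  have hmap : ∀ l, (K.ball (k + l)).map e = K.ball l := by
    intro l
    ext y
    constructor
    · rintro ⟨x, hx, rfl⟩
      show K.unif ^ (-k) * x ∈ _
      rw [K.mul_mem_ball_iff hc, K.ord_unif_zpow]
      exact K.ball_le (by omega) hx
    · intro hy
      refine ⟨(K.unif ^ (-k))⁻¹ * y, ?_, mul_inv_cancel_left₀ hc y⟩
      show _ ∈ K.ball (k + l)
      rw [K.mul_mem_ball_iff (inv_ne_zero hc), K.ord_inv hc, K.ord_unif_zpow]
      exact K.ball_le (by omega) hy
  have h := AddSubgroup.relIndex_map_map_of_injective (f := e) (K.ball (k + 1)) (K.ball (k + 0)) hinj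
  rw [hmap, hmap, add_zero] at h
  rw [← h]
  exact K.residue_card _ _ (fun _ => Iff.rfl) (fun _ => Iff.rfl)

lemma relIndex_ball_natAdd (k : ℤ) (n : ℕ) : (K.ball (k + n)).relIndex (K.ball k) = K.q ^ n := by
  induction n with
  | zero => simp
  | succ n ih =>
    rw [← AddSubgroup.relIndex_mul_relIndex (K.ball (k + (n + 1 : ℕ))) (K.ball (k + n)) (K.ball k)
      (K.ball_le (by omega)) (K.ball_le (by omega)), ih,
      show k + ((n + 1 : ℕ) : ℤ) = k + n + 1 by push_cast; ring, K.relIndex_ball_succ, pow_succ']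

/-- The box `ϖ ^ i O × ϖ ^ j O`. -/
def box (i j : ℤ) : AddSubgroup (E × E) := (K.ball i).prod (K.ball j)

variable {K}

/-- Membership in a box is coordinatewise. -/
lemma mem_box {i j : ℤ} {z : E × E} : z ∈ K.box i j ↔ z.1 ∈ K.ball i ∧ z.2 ∈ K.ball j :=
  AddSubgroup.mem_prod

variable (K)

/-- The boxes decrease in both radii. -/
lemma box_le {i j i' j' : ℤ} (hi : i' ≤ i) (hj : j' ≤ j) : K.box i j ≤ K.box i' j' :=
  AddSubgroup.prod_mono (K.ball_le hi) (K.ball_le hj)

lemma relIndex_box_fst (i i' j : ℤ) :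
    (K.box i j).relIndex (K.box i' j) = (K.ball i).relIndex (K.ball i') := by
  have h1 : (K.box i j).relIndex (K.box i' j) =
      ((K.ball i).comap (AddMonoidHom.fst E E)).relIndex (K.box i' j) := by
    conv_lhs => rw [← AddSubgroup.inf_relIndex_right]
    conv_rhs => rw [← AddSubgroup.inf_relIndex_right]
    congr 1
    ext z
    simp only [AddSubgroup.mem_inf, mem_box, AddSubgroup.mem_comap, AddMonoidHom.coe_fst]
    tauto
  rw [h1, AddSubgroup.relIndex_comap]
  congr 1
  ext x
  constructor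
  · rintro ⟨z, hz, rfl⟩; exact (mem_box.mp hz).1
  · exact fun hx => ⟨(x, 0), mem_box.mpr ⟨hx, zero_mem _⟩, rfl⟩

lemma relIndex_box_snd (i j j' : ℤ) :
    (K.box i j).relIndex (K.box i j') = (K.ball j).relIndex (K.ball j') := by
  have h1 : (K.box i j).relIndex (K.box i j') =
      ((K.ball j).comap (AddMonoidHom.snd E E)).relIndex (K.box i j') := by
    conv_lhs => rw [← AddSubgroup.inf_relIndex_right]
    conv_rhs => rw [← AddSubgroup.inf_relIndex_right]
    congr 1
    ext z
    simp only [AddSubgroup.mem_inf, mem_box, AddSubgroup.mem_comap, AddMonoidHom.coe_snd]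
    tauto
  rw [h1, AddSubgroup.relIndex_comap]
  congr 1
  ext x
  constructor
  · rintro ⟨z, hz, rfl⟩; exact (mem_box.mp hz).2
  · exact fun hx => ⟨(0, x), mem_box.mpr ⟨zero_mem _, hx⟩, rfl⟩

/-- The index of a box in a larger one is a power of `q`. -/
lemma relIndex_box {i j i' j' : ℤ} (hi : i' ≤ i) (hj : j' ≤ j) :
    (K.box i j).relIndex (K.box i' j') = K.q ^ ((i - i') + (j - j')).toNat := by
  obtain ⟨a, rfl⟩ := Int.le.dest hi
  obtain ⟨b, rfl⟩ := Int.le.dest hj
  rw [← AddSubgroup.relIndex_mul_relIndex _ (K.box i' (j' + b)) _ (K.box_le hi le_rfl)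
    (K.box_le le_rfl hj), K.relIndex_box_fst, K.relIndex_box_snd, K.relIndex_ball_natAdd,
    K.relIndex_ball_natAdd, ← pow_add]
  congr 1
  omega

/-- The base lattice. -/
abbrev base : AddSubgroup (E × E) := K.box 0 0

/-- Any two boxes have nonzero relative index. -/
lemma relIndex_box_ne_zero (i j i' j' : ℤ) : (K.box i j).relIndex (K.box i' j') ≠ 0 := by
  have h := K.relIndex_box (le_max_right i i') (le_max_right j j')
  refine fun h0 => ?_
  have := AddSubgroup.relIndex_eq_zero_of_le_left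
    (K.box_le (le_max_left i i') (le_max_left j j')) h0
  rw [h] at this
  exact pow_ne_zero _ K.q_pos.ne' this

/-- A box is a lattice commensurable with the base. -/
lemma isLat_box (i j : ℤ) : IsLat K.base (K.box i j) :=
  ⟨K.relIndex_box_ne_zero _ _ _ _, K.relIndex_box_ne_zero _ _ _ _⟩

/-- The volume of a box. -/
lemma vol_box (i j : ℤ) : vol K.base (K.box i j) = ((K.q : ℂ) ^ (i + j))⁻¹ := by
  have hq : (K.q : ℂ) ≠ 0 := Nat.cast_ne_zero.mpr K.q_pos.ne'
  have key : ∀ i' j' : ℤ, i' ≤ i → j' ≤ j →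
      vol K.base (K.box i' j') = (K.q : ℂ) ^ ((i - i') + (j - j')) * vol K.base (K.box i j) := by
    intro i' j' hi hj
    rw [vol_eq_mul (K.box_le hi hj) (K.isLat_box i j) (K.isLat_box i' j'), K.relIndex_box hi hj,
      Nat.cast_pow, ← zpow_natCast, Int.toNat_of_nonneg (by omega)]
  have h1 := key (min i 0) (min j 0) (min_le_left _ _) (min_le_left _ _)
  have h2 : vol K.base (K.box (min i 0) (min j 0)) =
      (K.q : ℂ) ^ ((0 - min i 0) + (0 - min j 0)) := by
    rw [vol_eq_mul (K.box_le (min_le_right i 0) (min_le_right j 0)) (K.isLat_box 0 0) (K.isLat_box _ _),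
      vol_self, mul_one, K.relIndex_box (min_le_right _ _) (min_le_right _ _), Nat.cast_pow,
      ← zpow_natCast, Int.toNat_of_nonneg (by omega)]
  rw [h2] at h1
  rw [← zpow_neg]
  have hne : (K.q : ℂ) ^ ((i - min i 0) + (j - min j 0)) ≠ 0 := zpow_ne_zero _ hq
  apply mul_left_cancel₀ hne
  rw [← h1, ← zpow_add₀ hq]
  congr 1
  ring

end LocalBase

end Fermat.Agent.LT.DihedralTheta
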