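import Fermat.Agent.LT.DihedralTheta.Inversion
import Mathlib.LinearAlgebra.Matrix.GeneralLinearGroup.Defs
import Mathlib.LinearAlgebra.Matrix.Notation

/-!
# Iwasawa decomposition and the action of the Borel group on lattice functions
-/

set_option autoImplicit false

open Matrix

namespace Fermat.Agent.LT.DihedralTheta

variable {E : Type*} [Field E]

/-- The upper triangular matrix `(a β; 0 d)`. -/
def bmat (a β d : E) (ha : a ≠ 0) (hd : d ≠ 0) : GL (Fin 2) E :=
  Matrix.GeneralLinearGroup.mkOfDetNeZero !![a, β; 0, d] (by simp [Matrix.det_fin_two, ha, hd])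

/-- The matrix of `bmat a β d`. -/
@[simp] lemma bmat_val (a β d : E) (ha : a ≠ 0) (hd : d ≠ 0) :
    (bmat a β d ha hd : Matrix (Fin 2) (Fin 2) E) = !![a, β; 0, d] := rfl

/-- The product of two upper triangular elements. -/
lemma bmat_mul (a β d a' β' d' : E) (ha : a ≠ 0) (hd : d ≠ 0) (ha' : a' ≠ 0) (hd' : d' ≠ 0) :
    bmat a β d ha hd * bmat a' β' d' ha' hd' =
      bmat (a * a') (a * β' + β * d') (d * d') (mul_ne_zero ha ha') (mul_ne_zero hd hd') := by
  ext i j
  fin_cases i <;> fin_cases j <;> simp [Matrix.mul_apply, Fin.sum_univ_two]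

/-- The lower unipotent matrix. -/
def lmat (t : E) : GL (Fin 2) E :=
  Matrix.GeneralLinearGroup.mkOfDetNeZero !![1, 0; t, 1] (by simp [Matrix.det_fin_two])

@[simp] lemma lmat_val (t : E) : (lmat t : Matrix (Fin 2) (Fin 2) E) = !![1, 0; t, 1] := rfl

/-- The Weyl element. -/
def wmat : GL (Fin 2) E :=
  Matrix.GeneralLinearGroup.mkOfDetNeZero !![0, 1; -1, 0] (by simp [Matrix.det_fin_two])

/-- The matrix of the Weyl element. -/
@[simp] lemma wmat_val : ((wmat : GL (Fin 2) E) : Matrix (Fin 2) (Fin 2) E) = !![0, 1; -1, 0] := rfl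

/-- The scalar `-1`. -/
def negOne : GL (Fin 2) E := bmat (-1) 0 (-1) (by simp) (by simp)

/-- The Weyl element exchanges the entries of a diagonal element. -/
lemma wmat_mul_diag (a d : E) (ha : a ≠ 0) (hd : d ≠ 0) :
    wmat * bmat a 0 d ha hd = bmat d 0 a hd ha * wmat := by
  ext i j
  fin_cases i <;> fin_cases j <;> simp [Matrix.mul_apply, Fin.sum_univ_two]

/-- The Bruhat decomposition of the Weyl element times a nontrivial unipotent. -/
lemma wmat_mul_unip {x : E} (hx : x ≠ 0) :
    wmat * bmat 1 x 1 one_ne_zero one_ne_zero =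
      bmat x⁻¹ (-1) x (inv_ne_zero hx) hx * (negOne * lmat x⁻¹) := by
  ext i j
  fin_cases i <;> fin_cases j <;> simp [negOne, Matrix.mul_apply, Fin.sum_univ_two, hx]

namespace LocalBase

variable (K : LocalBase E)

/-- `GL₂` of the valuation ring. -/
def intGL : Subgroup (GL (Fin 2) E) where
  carrier := {g | (∀ i j, g.val i j ∈ K.ball 0) ∧ ∀ i j, (g⁻¹).val i j ∈ K.ball 0}
  one_mem' := by
    constructor <;> intro i j <;> rcases eq_or_ne i j with rfl | h <;>
      simp [*, K.one_mem_ball, Matrix.one_apply_ne]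
  mul_mem' := by
    rintro g h ⟨hg, hg'⟩ ⟨hh, hh'⟩
    constructor <;> intro i j
    · simp only [Units.val_mul, Matrix.mul_apply, Fin.sum_univ_two]
      exact add_mem (K.mul_mem_ball' (hg _ _) (hh _ _) le_rfl) (K.mul_mem_ball' (hg _ _) (hh _ _) le_rfl)
    · simp only [_root_.mul_inv_rev, Units.val_mul, Matrix.mul_apply, Fin.sum_univ_two]
      exact add_mem (K.mul_mem_ball' (hh' _ _) (hg' _ _) le_rfl)
        (K.mul_mem_ball' (hh' _ _) (hg' _ _) le_rfl)
  inv_mem' := by
    rintro g ⟨hg, hg'⟩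
    exact ⟨hg', by simpa using hg⟩

/-- An integral matrix with unit determinant lies in `intGL`. -/
lemma mem_intGL {g : GL (Fin 2) E} (h : ∀ i j, g.val i j ∈ K.ball 0)
    (hd : K.ord g.val.det = 0) : g ∈ K.intGL := by
  refine ⟨h, fun i j => ?_⟩
  have hdet : g.val.det ≠ 0 := ((Matrix.isUnit_iff_isUnit_det _).mp g.isUnit).ne_zero
  have hadj : ∀ i j, g.val.adjugate i j ∈ K.ball 0 := by
    intro i j
    rw [Matrix.adjugate_fin_two]
    fin_cases i <;> fin_cases j <;>
      first | exact h _ _ | exact neg_mem (h _ _)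
  rw [Matrix.coe_units_inv, Matrix.inv_def, Ring.inverse_eq_inv', Matrix.smul_apply, smul_eq_mul,
    K.mul_mem_ball_iff (inv_ne_zero hdet), K.ord_inv hdet, hd]
  simpa using hadj i j

/-- An element of `intGL` has unit determinant. -/
lemma ord_det_eq_zero {k : GL (Fin 2) E} (hk : k ∈ K.intGL) : K.ord k.val.det = 0 := by
  obtain ⟨h1, h2⟩ := hk
  have hne : k.val.det ≠ 0 := ((Matrix.isUnit_iff_isUnit_det _).mp k.isUnit).ne_zero
  have hb : ∀ m : Matrix (Fin 2) (Fin 2) E, (∀ i j, m i j ∈ K.ball 0) → m.det ∈ K.ball 0 :=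
    fun m hm => by
      rw [Matrix.det_fin_two]
      exact sub_mem (K.mul_mem_ball' (hm _ _) (hm _ _) le_rfl)
        (K.mul_mem_ball' (hm _ _) (hm _ _) le_rfl)
  have e2 := hb _ h2
  rw [Matrix.coe_units_inv, Matrix.det_nonsing_inv, Ring.inverse_eq_inv'] at e2
  have := (hb _ h1).resolve_left hne
  have := e2.resolve_left (inv_ne_zero hne)
  rw [K.ord_inv hne] at this
  omega

/-- `-1` lies in `intGL`. -/
lemma negOne_mem : (negOne : GL (Fin 2) E) ∈ K.intGL := K.mem_intGL
  (fun i j => by fin_cases i <;> fin_cases j <;> simp [negOne, K.one_mem_ball])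
  (by simp [negOne, Matrix.det_fin_two, K.ord_one])

/-- The Weyl element lies in `intGL`. -/
lemma wmat_mem : (wmat : GL (Fin 2) E) ∈ K.intGL := K.mem_intGL
  (fun i j => by fin_cases i <;> fin_cases j <;> simp [K.one_mem_ball])
  (by simp [Matrix.det_fin_two, K.ord_one])

/-- A lower unipotent with integral entry lies in `intGL`. -/
lemma lmat_mem {t : E} (ht : t ∈ K.ball 0) : lmat t ∈ K.intGL := K.mem_intGL
  (fun i j => by fin_cases i <;> fin_cases j <;> simp [K.one_mem_ball, ht])
  (by simp [Matrix.det_fin_two, K.ord_one])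

/-- An upper triangular element is in `intGL` iff its diagonal entries are units and the third
is integral. -/
lemma bmat_mem_intGL_iff {a β d : E} (ha : a ≠ 0) (hd : d ≠ 0) :
    bmat a β d ha hd ∈ K.intGL ↔ K.ord a = 0 ∧ K.ord d = 0 ∧ β ∈ K.ball 0 := by
  constructor
  · rintro ⟨h, h'⟩
    have hinv : (bmat a β d ha hd)⁻¹ = bmat a⁻¹ (-(β / (a * d))) d⁻¹ (inv_ne_zero ha) (inv_ne_zero hd) :=
      inv_eq_of_mul_eq_one_right (by
        rw [bmat_mul]
        ext i j
        fin_cases i <;> fin_cases j <;> simp [ha, hd]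
        field_simp
        ring)
    rw [hinv] at h'
    have a1 := (h 0 0).resolve_left (by simpa using ha)
    have a2 := (h' 0 0).resolve_left (by simpa using ha)
    have d1 := (h 1 1).resolve_left (by simpa using hd)
    have d2 := (h' 1 1).resolve_left (by simpa using hd)
    simp only [bmat_val, Matrix.cons_val_zero, Matrix.cons_val_one, Matrix.of_apply, Matrix.cons_val',
      Matrix.cons_val_fin_one] at a1 a2 d1 d2
    rw [K.ord_inv ha] at a2
    rw [K.ord_inv hd] at d2
    exact ⟨by omega, by omega, by simpa using h 0 1⟩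
  · rintro ⟨h1, h2, h3⟩
    refine K.mem_intGL (fun i j => ?_) (by simp [Matrix.det_fin_two, K.ord_mul ha hd, h1, h2])
    fin_cases i <;> fin_cases j
    · exact Or.inr (by simp [h1])
    · simpa using h3
    · exact Or.inl (by simp)
    · exact Or.inr (by simp [h2])

/-- Iwasawa decomposition. -/
theorem exists_iwasawa (g : GL (Fin 2) E) :
    ∃ a β d, ∃ (ha : a ≠ 0) (hd : d ≠ 0), ∃ k ∈ K.intGL, g = bmat a β d ha hd * k := by
  suffices hkey : ∃ k ∈ K.intGL, (g * k).val 1 0 = 0 by
    obtain ⟨k, hk, h0⟩ := hkey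
    have hdet : (g * k).val.det ≠ 0 := ((Matrix.isUnit_iff_isUnit_det _).mp (g * k).isUnit).ne_zero
    rw [Matrix.det_fin_two, h0, mul_zero, sub_zero] at hdet
    refine ⟨(g * k).val 0 0, (g * k).val 0 1, (g * k).val 1 1, left_ne_zero_of_mul hdet,
      right_ne_zero_of_mul hdet, k⁻¹, inv_mem hk, ?_⟩
    rw [eq_mul_inv_iff_mul_eq]
    ext i j
    fin_cases i <;> fin_cases j <;> first | rfl | simpa using h0
  set c := g.val 1 0
  set d := g.val 1 1
  by_cases hc : c = 0
  · exact ⟨1, one_mem _, by simpa using hc⟩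
  by_cases hcase : d ≠ 0 ∧ K.ord d ≤ K.ord c
  · refine ⟨lmat (-(c / d)), K.lmat_mem (neg_mem (Or.inr ?_)), ?_⟩
    · rw [div_eq_mul_inv, K.ord_mul hc (inv_ne_zero hcase.1), K.ord_inv hcase.1]; omega
    · show (g.val * (lmat (-(c / d))).val) 1 0 = 0
      simp only [lmat_val, Matrix.mul_apply, Fin.sum_univ_two, Matrix.of_apply, Matrix.cons_val',
        Matrix.cons_val_zero, Matrix.cons_val_one, Matrix.cons_val_fin_one]
      rw [mul_one, mul_neg, mul_div_cancel₀ _ hcase.1]
      exact add_neg_cancel c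
  · refine ⟨lmat 0 * bmat 1 (-(d / c)) 1 one_ne_zero one_ne_zero * wmat,
      mul_mem (mul_mem (K.lmat_mem (zero_mem _)) ((K.bmat_mem_intGL_iff _ _).mpr
        ⟨K.ord_one, K.ord_one, ?_⟩)) K.wmat_mem, ?_⟩
    · rcases eq_or_ne d 0 with hd | hd
      · simp [hd]
      · refine neg_mem (Or.inr ?_)
        rw [div_eq_mul_inv, K.ord_mul hd (inv_ne_zero hc), K.ord_inv hc]
        have : ¬ K.ord d ≤ K.ord c := fun h => hcase ⟨hd, h⟩
        omega
    · simp only [Units.val_mul]
      simp only [lmat_val, bmat_val, wmat_val, Matrix.mul_apply, Fin.sum_univ_two, Matrix.of_apply,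
        Matrix.cons_val', Matrix.cons_val_zero, Matrix.cons_val_one, Matrix.cons_val_fin_one]
      have : c * (d / c) = d := mul_div_cancel₀ _ hc
      linear_combination this

end LocalBase

namespace LocalForm

variable (K : LocalForm E)

/-- The absolute value. -/
noncomputable def absv (x : E) : ℂ := (K.q : ℂ) ^ (-K.ord x)

/-- The absolute value is multiplicative. -/
lemma absv_mul {x y : E} (hx : x ≠ 0) (hy : y ≠ 0) : K.absv (x * y) = K.absv x * K.absv y := by
  rw [absv, K.ord_mul hx hy, neg_add, zpow_add₀ K.q_ne_zero]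
  rfl

/-- The absolute value of an inverse. -/
lemma absv_inv {x : E} (hx : x ≠ 0) : K.absv x⁻¹ = (K.absv x)⁻¹ := by
  rw [absv, K.ord_inv hx, absv, ← zpow_neg]

/-- The absolute value is nonzero, also at `0` by convention. -/
lemma absv_ne_zero (x : E) : K.absv x ≠ 0 := zpow_ne_zero _ K.q_ne_zero

/-- A unit has absolute value `1`. -/
lemma absv_unit {x : E} (hx : K.ord x = 0) : K.absv x = 1 := by simp [absv, hx]

/-- The form with `χ (u ·)` as character. -/
noncomputable def shift (u : E) (hu : u ≠ 0) : LocalForm E where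
  toLocalBase := K.toLocalBase
  s := K.s
  p := K.p
  χ := K.χ.mulShift u
  cond := K.cond - K.ord u
  s_mem := K.s_mem
  p_mem := K.p_mem
  χ_triv x hx := K.χ_triv _ ((K.mul_mem_ball_iff hu).mpr hx)
  χ_nontriv := by
    obtain ⟨x, hx, hχ⟩ := K.χ_nontriv
    refine ⟨u⁻¹ * x, ?_, by rwa [AddChar.mulShift_apply, mul_inv_cancel_left₀ hu]⟩
    rw [K.mul_mem_ball_iff (inv_ne_zero hu), K.ord_inv hu]
    exact K.ball_le (by omega) hx

/-- A shift of the character keeps the underlying local base. -/
@[simp] lemma shift_toLocalBase (u : E) (hu : u ≠ 0) :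
    (K.shift u hu).toLocalBase = K.toLocalBase := rfl

/-- A shift of the character keeps the norm form. -/
@[simp] lemma shift_n (u : E) (hu : u ≠ 0) : (K.shift u hu).n = K.n := rfl

/-- A shift of the character keeps the bilinear form. -/
@[simp] lemma shift_B (u : E) (hu : u ≠ 0) : (K.shift u hu).B = K.B := rfl

/-- The character of a shift is `x ↦ χ (u x)`. -/
@[simp] lemma shift_chi (u : E) (hu : u ≠ 0) (x : E) : (K.shift u hu).χ x = K.χ (u * x) := rfl

/-- The operator of `(a β; 0 d)` on functions of `(x, u)`. -/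
noncomputable def bact (η : E → ℂ) (a β d : E) (F : E × E → E → ℂ) (z : E × E) (u : E) : ℂ :=
  η a * K.absv a * K.χ (u * (β / d) * K.n z) * F (a • z) (u / (a * d))

/-- The Borel action respects products of upper triangular elements. -/
lemma bact_bact {η : E → ℂ} (hη : ∀ {a b : E}, a ≠ 0 → b ≠ 0 → η (a * b) = η a * η b)
    {a β d a' β' d' : E} (ha : a ≠ 0) (hd : d ≠ 0) (ha' : a' ≠ 0) (hd' : d' ≠ 0)
    (F : E × E → E → ℂ) :
    K.bact η a β d (K.bact η a' β' d' F) =
      K.bact η (a * a') (a * β' + β * d') (d * d') F := by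
  funext z u
  have e : u * ((a * β' + β * d') / (d * d')) * K.n z =
      u * (β / d) * K.n z + u / (a * d) * (β' / d') * (a ^ 2 * K.n z) := by field_simp; ring
  simp only [bact, K.n_smul, e, AddChar.map_add_eq_mul, hη ha ha', K.absv_mul ha ha', smul_smul,
    mul_comm a' a, div_div]
  rw [show a * d * (a' * d') = a * a' * (d * d') by ring]
  ring

/-- The Weyl operator. -/
noncomputable def wact (η : E → ℂ) (F : E × E → E → ℂ) (z : E × E) (u : E) : ℂ :=
  η u * K.absv u * integral K.base fun y => F y u * K.χ (u * K.B y z)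

/-- The Weyl action is a Fourier transform for the shifted character. -/
lemma wact_eq_fourier {η : E → ℂ} (F : E × E → E → ℂ) (z : E × E) {u : E} (hu : u ≠ 0) :
    K.wact η F z u = η u * K.absv u * (K.shift u hu).fourier (fun y => F y u) (-z) := by
  simp only [wact, fourier, shift_chi, shift_B, shift_toLocalBase]
  congr 2
  funext y
  simp only [B, Prod.fst_neg, Prod.snd_neg]
  ring_nf

end LocalForm

end Fermat.Agent.LT.DihedralTheta
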