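import Fermat.Agent.LT.DihedralTheta.Gauss

/-!
# The Gauss integrals of the unramified form

Changes of variables, the dual lattices of boxes, and the value `(ε / q) ^ m` of the Gauss
integral of the unit box of an unramified form at `x` of valuation `-m`.
-/

set_option autoImplicit false

open AddSubgroup

namespace Fermat.Agent.LT.DihedralTheta

namespace LocalForm

variable {E : Type*} [Field E] (K : LocalForm E)

/-- The cast of `q` is nonzero. -/
lemma q_ne_zero : (K.q : ℂ) ≠ 0 := Nat.cast_ne_zero.mpr K.q_pos.ne'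

/-- Multiplication by a nonzero scalar. -/
def smulEquiv (c : E) (hc : c ≠ 0) : E × E ≃+ E × E where
  toFun z := c • z
  invFun z := c⁻¹ • z
  left_inv z := by simp [hc]
  right_inv z := by simp [hc]
  map_add' z w := smul_add c z w

/-- Scaling by `c` pulls a box back to the box with radii lowered by the order of `c`. -/
lemma comap_smulEquiv (c : E) (hc : c ≠ 0) (i j : ℤ) :
    (K.box i j).comap (smulEquiv c hc).toAddMonoidHom =
      K.box (i - K.ord c) (j - K.ord c) := by
  ext z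
  simp [smulEquiv, LocalBase.mem_box, K.mul_mem_ball_iff hc]

open Classical in
/-- Periods of the integrand of a Gauss integral. -/
lemma gauss_per (x : E) (a b lo : ℤ) :
    ∃ r k : ℤ, lo ≤ r ∧ a ≤ r ∧ b ≤ r ∧
      IsPer (K.box r r) (fun t => if t ∈ K.box a b then K.χ (x * K.n t) else 0) ∧
      HasSupp (K.box k k) (fun t => if t ∈ K.box a b then K.χ (x * K.n t) else 0) := by
  have hsupp : HasSupp (K.box (min a b) (min a b))
      (fun z : E × E => if z - 0 ∈ K.box a b then (1 : ℂ) else 0) := fun z hz => by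
    have h : z - 0 ∈ K.box a b := by by_contra h; exact hz (if_neg h)
    rw [sub_zero] at h
    exact K.box_le (min_le_left _ _) (min_le_right _ _) h
  obtain ⟨r, k, ha, hb, hlo, -, -, hper, hs⟩ :=
    K.phase_per (i := lo) (j := lo) (x := x) (c := (0 : E × E)) (K.indicator_per a b) hsupp
  have hg : (fun t => if t ∈ K.box a b then K.χ (x * K.n t) else 0) =
      K.phase x 0 (fun z => if z - 0 ∈ K.box a b then (1 : ℂ) else 0) := by
    funext t
    simp only [phase, sub_zero]
    split_ifs <;> simp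
  exact ⟨r, k, hlo, ha, hb, hg ▸ hper, hg ▸ hs⟩

/-- Change of variables in a Gauss integral. -/
lemma gauss_comap (x x' : E) (e : E × E ≃+ E × E) (hn : ∀ z, x * K.n (e z) = x' * K.n z)
    (a b a' b' : ℤ) (hab : (K.box a b).comap e.toAddMonoidHom = K.box a' b')
    (f g : ℤ) (hbox : ∀ r, (K.box r r).comap e.toAddMonoidHom = K.box (r - f) (r - g)) :
    K.gauss x' (K.box a' b') = (K.q : ℂ) ^ (f + g) * K.gauss x (K.box a b) := by
  classical
  obtain ⟨r, k, -, -, -, hper, hs⟩ := K.gauss_per x a b 0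
  have h := integral_comp_equiv e (K.isLat_box r r) (K.isLat_box k k) hper hs
    (hbox r ▸ K.isLat_box _ _) (hbox k ▸ K.isLat_box _ _)
  have hfun : (fun z => if e z ∈ K.box a b then K.χ (x * K.n (e z)) else 0) =
      fun t => if t ∈ K.box a' b' then K.χ (x' * K.n t) else 0 := by
    funext z
    have : e z ∈ K.box a b ↔ z ∈ K.box a' b' := by rw [← hab]; rfl
    simp only [this, hn]
  rw [hfun] at h
  rw [gauss, gauss, h, hbox, K.vol_box, K.vol_box]
  congr 1
  have hq := K.q_ne_zero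
  rw [← zpow_neg, ← zpow_neg, ← zpow_sub₀ hq]
  congr 1
  ring

/-- Scaling by the uniformiser. -/
lemma gauss_scale (x : E) (a b : ℤ) :
    K.gauss x (K.box (a + 1) (b + 1)) =
      ((K.q : ℂ) ^ (2 : ℤ))⁻¹ * K.gauss (x * K.unif ^ 2) (K.box a b) := by
  have h := K.gauss_comap x (x * K.unif ^ 2) (smulEquiv K.unif K.unif_ne_zero)
    (fun z => by
      show x * K.n (K.unif • z) = _
      rw [K.n_smul]; ring)
    (a + 1) (b + 1) a b (by rw [comap_smulEquiv, K.ord_unif]; congr 1 <;> ring) 1 1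
    (fun r => by rw [comap_smulEquiv, K.ord_unif])
  rw [h, ← mul_assoc, show (1 : ℤ) + 1 = 2 from rfl,
    inv_mul_cancel₀ (zpow_ne_zero _ K.q_ne_zero), one_mul]

/-- The discriminant. -/
def disc : E := K.s ^ 2 - 4 * K.p

/-- The unramified dual lattice. -/
lemma perp_unram (hD : K.disc ≠ 0) (hD0 : K.ord K.disc = 0) {x : E} (hx : x ≠ 0) {j : ℤ}
    {z : E × E} (h : ∀ q ∈ K.box j j, K.χ (x * K.B z q) = 1) :
    z ∈ K.box (K.cond - j - K.ord x) (K.cond - j - K.ord x) := by
  have hL : ∀ L : E, (∀ c ∈ K.ball j, K.χ (x * L * c) = 1) →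
      L ∈ K.ball (K.cond - j - K.ord x) := fun L hL =>
    (K.mul_mem_ball_iff hx).mp (K.mem_ball_of_char hL)
  have h1 : 2 * z.1 + K.s * z.2 ∈ K.ball (K.cond - j - K.ord x) := hL _ fun c hc => by
    have := h (c, 0) (LocalBase.mem_box.mpr ⟨hc, zero_mem _⟩)
    simp only [B] at this
    convert this using 2; ring
  have h2 : K.s * z.1 + 2 * K.p * z.2 ∈ K.ball (K.cond - j - K.ord x) := hL _ fun c hc => by
    have := h (0, c) (LocalBase.mem_box.mpr ⟨zero_mem _, hc⟩)
    simp only [B] at this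
    convert this using 2; ring
  set k := K.cond - j - K.ord x
  have hdiv : ∀ w, K.disc * w ∈ K.ball k → w ∈ K.ball k := fun w hw => by
    rw [K.mul_mem_ball_iff hD, hD0, sub_zero] at hw; exact hw
  refine LocalBase.mem_box.mpr ⟨hdiv _ ?_, hdiv _ ?_⟩
  · rw [show K.disc * z.1 = K.s * (K.s * z.1 + 2 * K.p * z.2) - 2 * K.p * (2 * z.1 + K.s * z.2) by
      simp only [disc]; ring]
    exact sub_mem (K.mul_mem_ball' K.s_mem h2 (by omega))
      (K.mul_mem_ball' (K.mul_mem_ball K.two_mem K.p_mem) h1 (by omega))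
  · rw [show K.disc * z.2 = K.s * (2 * z.1 + K.s * z.2) - 2 * (K.s * z.1 + 2 * K.p * z.2) by
      simp only [disc]; ring]
    exact sub_mem (K.mul_mem_ball' K.s_mem h1 (by omega)) (K.mul_mem_ball' K.two_mem h2 (by omega))

lemma chi_n_eq_one {x : E} {i : ℤ} (hi : K.cond ≤ K.ord x + 2 * i) :
    ∀ q ∈ K.box i i, K.χ (x * K.n q) = 1 := fun _ hq =>
  K.χ_triv _ (K.mul_mem_ball' (Or.inr le_rfl) (K.n_mem hq) hi)

/-- **The unramified identity.** -/
theorem fourier_unram (hD : K.disc ≠ 0) (hD0 : K.ord K.disc = 0) {e : ℤ} (hc : K.cond = e)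
    {φ : E × E → ℂ} {k : ℤ} (hper : IsPer (K.box e e) φ) (hsupp : HasSupp (K.box k k) φ)
    {x : E} (hx : x ≠ 0) (hm : K.ord x < 0) (he : 0 ≤ e) (he1 : e ≤ 1) (y : E × E) :
    K.fourier (fun z => K.χ (x * K.n z) * φ z) y =
      K.χ (-(K.n y / x)) * φ (x⁻¹ • y) * K.gauss x (K.box e e) := by
  set m := -K.ord x
  refine K.fourier_phase hper hsupp hx (i := max e ((m + e + 1) / 2)) (j := max e ((m + e + 1) / 2))
    (K.box_le (by omega) (by omega)) (K.chi_n_eq_one (by omega)) (fun z hz => ?_) y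
  exact K.box_le (by omega) (by omega) (K.perp_unram hD hD0 hx hz)

/-- The value of the unit Gauss integral. -/
theorem gauss_unram (hD : K.disc ≠ 0) (hD0 : K.ord K.disc = 0) (hc : K.cond = 0) {ε : ℂ}
    (hε : ε ^ 2 = 1)
    (hbase : ∀ x : E, x ≠ 0 → K.ord x = -1 → K.gauss x (K.box 0 0) = ε / K.q) (m : ℕ) :
    ∀ x : E, x ≠ 0 → K.ord x = -(m : ℤ) → K.gauss x (K.box 0 0) = (ε / K.q) ^ m := by
  induction m using Nat.strong_induction_on with
  | _ m ih =>
    intro x hx hord
    match m with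
    | 0 =>
      rw [K.gauss_eq_vol (K.chi_n_eq_one (by rw [hord, hc]; norm_num)), K.vol_box]
      simp
    | 1 => rw [pow_one]; exact hbase x hx (by simpa using hord)
    | m + 2 =>
      push_cast at hord
      rw [K.gauss_eq_of_perp (i := ((m : ℤ) + 3) / 2) (j := ((m : ℤ) + 3) / 2) (a' := 0 + 1)
        (b' := 0 + 1) (K.box_le (by omega) (by omega)) (K.box_le (by omega) (by omega))
        (K.chi_n_eq_one (by omega))
        fun z _ hz => K.box_le (by omega) (by omega) (K.perp_unram hD hD0 hx hz),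
        K.gauss_scale, ih m (by omega) _ (mul_ne_zero hx (pow_ne_zero _ K.unif_ne_zero))]
      · rw [pow_add, div_pow ε (K.q : ℂ) 2, hε, one_div, zpow_two, sq]
        ring
      · rw [K.ord_mul hx (pow_ne_zero _ K.unif_ne_zero), K.ord_pow K.unif_ne_zero, K.ord_unif]
        push_cast
        omega

/-- The split base value. -/
theorem gauss_base_split (hc : K.cond = 0) (hs : K.s ≠ 0) (hs0 : K.ord K.s = 0)
    (hp : K.p ∈ K.ball 1) {x : E} (hx : x ≠ 0) (hord : K.ord x = -1) :
    K.gauss x (K.box 0 0) = 1 / K.q := by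
  have hn : ∀ q ∈ K.box 1 0, K.χ (x * K.n q) = 1 := fun q hq => by
    obtain ⟨h1, h2⟩ := LocalBase.mem_box.mp hq
    refine K.χ_triv _ (K.mul_mem_ball' (k := -1) (l := 1) (Or.inr hord.ge) ?_ (by omega))
    refine add_mem (add_mem ?_ ?_) ?_
    · rw [sq]; exact K.mul_mem_ball' h1 h1 (by omega)
    · exact K.mul_mem_ball' (K.mul_mem_ball K.s_mem h1) h2 (by omega)
    · rw [sq]; exact K.mul_mem_ball' hp (K.mul_mem_ball h2 h2) (by omega)
  rw [K.gauss_eq_of_perp (i := 1) (j := 0) (a' := 1) (b' := 0) (K.box_le (by omega) le_rfl)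
    le_rfl hn (fun z hz0 hz => ?_), K.gauss_eq_vol hn, K.vol_box]
  · simp
  · obtain ⟨-, h2'⟩ := LocalBase.mem_box.mp hz0
    have hL : x * (K.s * z.1 + 2 * K.p * z.2) ∈ K.ball (K.cond - 0) := K.mem_ball_of_char fun c hc => by
      have := hz (0, c) (LocalBase.mem_box.mpr ⟨zero_mem _, hc⟩)
      simp only [B] at this
      convert this using 2; ring
    rw [K.mul_mem_ball_iff hx, hord, hc] at hL
    have hsa : K.s * z.1 ∈ K.ball 1 := by
      rw [show K.s * z.1 = (K.s * z.1 + 2 * K.p * z.2) - 2 * K.p * z.2 by ring]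
      exact sub_mem (K.ball_le (by omega) hL)
        (K.mul_mem_ball' (K.mul_mem_ball K.two_mem hp) h2' (by omega))
    rw [K.mul_mem_ball_iff hs, hs0, sub_zero] at hsa
    exact LocalBase.mem_box.mpr ⟨hsa, h2'⟩

end LocalForm

end Fermat.Agent.LT.DihedralTheta
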