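import Fermat.Agent.LT.DihedralTheta.Coeff
import Fermat.Agent.LT.Whittaker.Law
import Fermat.Agent.LT.Whittaker.Local
import Fermat.Agent.LT.Decay.Coef
import Fermat.Agent.LT.H3.RadialEigen
import Fermat.Agent.LT.H3.ExpKernel

/-!
# The series of a coefficient function: support, convergence, the terms as Whittaker functions
-/

set_option autoImplicit false

noncomputable section

open MeasureTheory
open NumberField (InfinitePlace)

namespace Fermat.Agent.LT.DihedralTheta

open Whittaker

theorem mul_besselK_le {A : ℝ} (hA : 0 < A) : A * besselK A ≤ 1 := by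
  have h : besselK A ≤ ∫ r in Set.Ioi (0 : ℝ), Real.exp (-(A * r)) := by
    refine setIntegral_mono_on (integrableOn_besselK hA)
      (by simpa [neg_mul] using exp_neg_integrableOn_Ioi 0 hA) measurableSet_Ioi fun r _ => ?_
    rw [Real.exp_le_exp, neg_le_neg_iff]
    exact mul_le_mul_of_nonneg_left (self_le_cosh r) hA.le
  rw [show (fun r : ℝ => Real.exp (-(A * r))) = fun r => Real.exp ((-A) * r) by
    funext r; rw [neg_mul], integral_exp_mul_Ioi (neg_lt_zero.mpr hA)] at h
  simp at h
  rw [← le_div_iff₀' hA, one_div]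
  exact h

theorem mul_besselK_le_exp {A : ℝ} (hA : 0 < A) : A * besselK A ≤ 2 * Real.exp (-(A / 2)) := by
  have h1 := mul_le_mul_of_nonneg_left (besselK_le hA) hA.le
  have h2 := mul_le_mul_of_nonneg_left (mul_besselK_le (half_pos hA))
    (mul_nonneg two_pos.le (Real.exp_pos (-(A / 2))).le)
  calc A * besselK A ≤ A * (Real.exp (-(A / 2)) * besselK (A / 2)) := h1
    _ = 2 * Real.exp (-(A / 2)) * (A / 2 * besselK (A / 2)) := by ring
    _ ≤ _ := by simpa using h2

variable {F : Type*} [Field F] [NumberField F]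

theorem abs_bessel_le {t : InfinitePlace F → ℝ} (ht : ∀ w, 0 < t w) {ξ : F} (hξ : ξ ≠ 0) :
    bessel ξ t ≤ Real.exp (-(2 * Real.pi * ∑ w : InfinitePlace F, w ξ * t w)) := by
  rw [Finset.mul_sum, ← Finset.sum_neg_distrib, Real.exp_sum]
  refine Finset.prod_le_prod (fun w _ => ?_) fun w _ => ?_
  · have := (InfinitePlace.pos_iff (w := w)).mpr hξ
    have := ht w
    exact mul_nonneg (by positivity) (besselK_pos (by positivity)).le
  · have hw := (InfinitePlace.pos_iff (w := w)).mpr hξ
    have := ht w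
    have hx : 0 < w ξ * t w := by positivity
    have h := mul_besselK_le_exp (A := 4 * Real.pi * (w ξ * t w)) (by positivity)
    rw [show 4 * Real.pi * (w ξ * t w) / 2 = 2 * Real.pi * (w ξ * t w) by ring] at h
    have hk := (besselK_pos (A := 4 * Real.pi * (w ξ * t w)) (by positivity)).le
    have hxk : 0 ≤ w ξ * t w * besselK (4 * Real.pi * (w ξ * t w)) := mul_nonneg hx.le hk
    nlinarith [Real.pi_gt_three, Real.exp_pos (-(2 * Real.pi * (w ξ * t w)))]

theorem bessel_zero (t : InfinitePlace F → ℝ) : bessel (0 : F) t = 0 :=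
  Finset.prod_eq_zero (Finset.mem_univ (Classical.arbitrary _)) (by simp)

theorem one_add_pow_mul_exp_le (k : ℕ) {a : ℝ} (ha : 0 < a) {x : ℝ} (hx : 0 ≤ x) :
    (1 + x) ^ k * Real.exp (-(a * x)) ≤ (Nat.factorial k : ℝ) / a ^ k * Real.exp a := by
  have h := Real.pow_div_factorial_le_exp (a * (1 + x)) (by positivity) k
  rw [div_le_iff₀ (by positivity), mul_pow, mul_add, mul_one, Real.exp_add] at h
  rw [div_mul_eq_mul_div, le_div_iff₀ (pow_pos ha k)]
  calc (1 + x) ^ k * Real.exp (-(a * x)) * a ^ k
      = a ^ k * (1 + x) ^ k * Real.exp (-(a * x)) := by ring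
    _ ≤ Real.exp a * Real.exp (a * x) * (Nat.factorial k : ℝ) * Real.exp (-(a * x)) :=
        mul_le_mul_of_nonneg_right h (Real.exp_pos _).le
    _ = _ := by
        rw [show Real.exp a * Real.exp (a * x) * (Nat.factorial k : ℝ) * Real.exp (-(a * x))
          = (Nat.factorial k : ℝ) * Real.exp a * (Real.exp (a * x) * Real.exp (-(a * x))) by ring,
          ← Real.exp_add, add_neg_cancel, Real.exp_zero, mul_one]

/-- One term of the series. -/
def phiTerm (a : F → ℂ) (ξ : F) (P : InfinitePlace F → H3) : ℂ :=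
  a ξ * expChar ξ (fun w => H3.zc (P w)) * (bessel ξ (fun w => H3.tc (P w)) : ℂ)

/-- A term of the series is the coefficient times the product of the archimedean Whittaker
functions. -/
theorem phiTerm_eq_whit {a : F → ℂ} (h0 : a 0 = 0) (ξ : F) (P : InfinitePlace F → H3) :
    phiTerm a ξ P = a ξ * ((∏ w : InfinitePlace F, w ξ : ℝ) : ℂ) *
      ∏ w : InfinitePlace F, H3.whit (2 * w.embedding ξ) (P w) := by
  rcases eq_or_ne ξ 0 with rfl | hξ
  · simp [phiTerm, h0]
  have e : ∀ w : InfinitePlace F, H3.whit (2 * w.embedding ξ) (P w) =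
      ((H3.tc (P w) * besselK (4 * Real.pi * (w ξ * H3.tc (P w))) : ℝ) : ℂ) *
        Complex.exp ((2 * Real.pi * (2 * (w.embedding ξ * H3.zc (P w)).re) : ℝ) * Complex.I) := by
    intro w
    have hw := (InfinitePlace.pos_iff (w := w)).mpr hξ
    have := H3.tc_pos (P w)
    rw [H3.whit, norm_mul, norm_embedding, Complex.norm_two,
      show 2 * Real.pi * (2 * w ξ) * H3.tc (P w) = 4 * Real.pi * (w ξ * H3.tc (P w)) by ring,
      besselK_eq_K0 (by positivity), H3.echar, mul_assoc (2 : ℂ),
      show ((2 : ℂ) * (w.embedding ξ * H3.zc (P w))).re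
        = 2 * (w.embedding ξ * H3.zc (P w)).re by simp]
  rw [Finset.prod_congr rfl fun w _ => e w, Finset.prod_mul_distrib, phiTerm, expChar, pairing,
    bessel]
  push_cast
  rw [Finset.mul_sum, Finset.sum_mul, Complex.exp_sum, mul_assoc, mul_assoc]
  congr 1
  simp only [← Finset.prod_mul_distrib]
  exact Finset.prod_congr rfl fun w _ => by ring

/-- Each term of the series is continuous. -/
theorem continuous_phiTerm {a : F → ℂ} (h0 : a 0 = 0) (ξ : F) : Continuous (phiTerm a ξ) := by
  rw [funext (phiTerm_eq_whit h0 ξ)]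
  rcases eq_or_ne ξ 0 with rfl | hξ
  · simp only [h0, zero_mul]; exact continuous_const
  refine continuous_const.mul (continuous_finsetProd _ fun w _ =>
    (H3.continuous_whit ?_).comp (continuous_apply w))
  exact mul_ne_zero two_ne_zero ((map_ne_zero w.embedding).mpr hξ)

/-- The terms decay exponentially in the height. -/
theorem norm_phiTerm_le (a : F → ℂ) (ξ : F) (P : InfinitePlace F → H3) :
    ‖phiTerm a ξ P‖ ≤ ‖a ξ‖ *
      Real.exp (-(2 * Real.pi * ∑ w : InfinitePlace F, w ξ * H3.tc (P w))) := by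
  rw [phiTerm, norm_mul, norm_mul, norm_expChar, mul_one, Complex.norm_real, Real.norm_eq_abs]
  refine mul_le_mul_of_nonneg_left ?_ (norm_nonneg _)
  rcases eq_or_ne ξ 0 with rfl | hξ
  · rw [bessel_zero, abs_zero]; exact (Real.exp_pos _).le
  rw [abs_of_nonneg (bessel_pos hξ fun w => H3.tc_pos _).le]
  exact abs_bessel_le (fun w => H3.tc_pos _) hξ

variable {U : Level F} {A : GLFin F → F → ℂ}

/-- A coset representative differs from the element by a member of the level. -/
theorem out_inv_mul_mem (g : GLFin F) :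
    g⁻¹ * Quotient.out (g : GLFin F ⧸ U.toSubgroup) ∈ U.toSubgroup :=
  QuotientGroup.eq.mp (QuotientGroup.out_eq' (g : GLFin F ⧸ U.toSubgroup)).symm

/-- The coefficients depend only on the coset. -/
theorem IsWhittakerCoeff.out_eq (hA : IsWhittakerCoeff U A) (g : GLFin F) :
    A (Quotient.out (g : GLFin F ⧸ U.toSubgroup)) = A g := by
  conv_rhs => rw [← hA.right g _ (out_inv_mul_mem (U := U) g), mul_inv_cancel_left]

/-- A nonzero coefficient at `ξ` makes the character trivial on the stabilising translations. -/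
theorem IsWhittakerCoeff.psiGlobal_eq_one (hA : IsWhittakerCoeff U A)
    (c : GLFin F ⧸ U.toSubgroup) {β : F} (hβ : glIncl F (unip β) • c = c) {ξ : F}
    (hξ : A c.out ξ ≠ 0) : psiGlobal (ξ * β) = 1 := by
  have h := hA.unip_left (finIncl F β) c.out ξ
  rw [← map_mul, psiFin_finIncl, ← glIncl_unip] at h
  have e : A (glIncl F (unip β) * c.out) = A c.out := by
    rw [← hA.out_eq (glIncl F (unip β) * c.out)]
    show A (Quotient.out (glIncl F (unip β) • (c.out : GLFin F ⧸ U.toSubgroup))) = _
    rw [QuotientGroup.out_eq', hβ]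
  rw [e] at h
  exact mul_right_cancel₀ hξ (h.symm.trans (one_mul _).symm)

/-- An element with integral traces against a basis is a frequency of that basis. -/
theorem eq_freq_of_trace (b : Module.Basis (Fin (Module.finrank ℚ F)) ℚ F) {ξ : F}
    {n : Fin (Module.finrank ℚ F) → ℤ} (h : ∀ i, Algebra.trace ℚ F (ξ * b i) = n i) :
    ξ = freq b n := by
  refine b.traceDual.repr.injective (Finsupp.ext fun i => ?_)
  rw [Module.Basis.traceDual_repr_apply, Module.Basis.traceDual_repr_apply]
  simp only [Algebra.traceForm_apply]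
  rw [h, trace_freq_mul]

/-- The support at a coset lies in the lattice dual to any stabilising basis. -/
theorem IsWhittakerCoeff.support (hA : IsWhittakerCoeff U A) {c : GLFin F ⧸ U.toSubgroup}
    {b : Module.Basis (Fin (Module.finrank ℚ F)) ℚ F} (hb : ∀ i, glIncl F (unip (b i)) • c = c)
    {ξ : F} (hξ : A c.out ξ ≠ 0) : ξ ∈ Set.range (freq b) := by
  choose n hn using fun i =>
    (psiGlobal_eq_one_iff (ξ * b i)).mp (hA.psiGlobal_eq_one c (hb i) hξ)
  exact ⟨n, (eq_freq_of_trace b hn).symm⟩

variable [NumberField.IsTotallyComplex F]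

/-- Bounds for the terms on a region where every height is at least `m`. -/
theorem IsWhittakerCoeff.exists_majorant (hA : IsWhittakerCoeff U A)
    (c : GLFin F ⧸ U.toSubgroup) {m : ℝ} (hm : 0 < m) :
    ∃ M : F → ℝ, Summable M ∧ ∀ (ξ : F) (P : InfinitePlace F → H3),
      (∀ w, m ≤ H3.tc (P w)) → ‖phiTerm (A c.out) ξ P‖ ≤ M ξ := by
  classical
  obtain ⟨b, hb⟩ := exists_stab_basis c
  obtain ⟨C, k, hC⟩ := hA.growth c.out
  set a : ℝ := Real.pi * m with ha
  have ha0 : 0 < a := by positivity
  set D : ℝ := max C 0 * ((Nat.factorial k : ℝ) / a ^ k * Real.exp a) ^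
    Fintype.card (InfinitePlace F) with hD
  refine ⟨fun ξ => if ξ ∈ Set.range (freq b) then
    D * Real.exp (-(a * ∑ w : InfinitePlace F, w ξ)) else 0, ?_, fun ξ P hP => ?_⟩
  · refine ((freq_injective b).summable_iff fun ξ hξ => by simp [hξ]).mp ?_
    simpa [Function.comp_def] using (summable_exp_freq b ha0).mul_left D
  show ‖phiTerm (A c.out) ξ P‖ ≤ if ξ ∈ Set.range (freq b) then _ else 0
  split_ifs with hmem
  · refine (norm_phiTerm_le _ _ _).trans ?_
    have h1 : ∑ w : InfinitePlace F, (w ξ * m) ≤ ∑ w : InfinitePlace F, w ξ * H3.tc (P w) :=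
      Finset.sum_le_sum fun w _ => mul_le_mul_of_nonneg_left (hP w) (apply_nonneg w ξ)
    calc ‖A c.out ξ‖ * Real.exp (-(2 * Real.pi * ∑ w : InfinitePlace F, w ξ * H3.tc (P w)))
        ≤ (max C 0 * (∏ w : InfinitePlace F, (1 + w ξ)) ^ k) *
          Real.exp (-(2 * Real.pi * ∑ w : InfinitePlace F, w ξ * m)) := by
          refine mul_le_mul ((hC ξ).trans (mul_le_mul_of_nonneg_right (le_max_left _ _)
            (pow_nonneg (Finset.prod_nonneg fun w _ => by positivity) _))) ?_ (Real.exp_pos _).le
            (mul_nonneg (le_max_right _ _)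
              (pow_nonneg (Finset.prod_nonneg fun w _ => by positivity) _))
          gcongr
      _ = max C 0 * (∏ w : InfinitePlace F, ((1 + w ξ) ^ k * Real.exp (-(a * w ξ)))) *
            Real.exp (-(a * ∑ w : InfinitePlace F, w ξ)) := by
          rw [Finset.prod_mul_distrib, ← Real.exp_sum, ← Finset.prod_pow]
          simp only [mul_assoc]
          rw [← Real.exp_add, Finset.sum_neg_distrib, ← Finset.mul_sum, ← Finset.sum_mul, ha]
          congr 2
          ring_nf
      _ ≤ D * Real.exp (-(a * ∑ w : InfinitePlace F, w ξ)) := by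
          refine mul_le_mul_of_nonneg_right (mul_le_mul_of_nonneg_left ?_ (le_max_right _ _))
            (Real.exp_pos _).le
          rw [← Finset.card_univ, ← Finset.prod_const]
          exact Finset.prod_le_prod (fun w _ => by positivity)
            fun w _ => one_add_pow_mul_exp_le k ha0 (apply_nonneg w ξ)
  · have : A c.out ξ = 0 := by_contra fun h => hmem (hA.support hb h)
    simp [phiTerm, this]

/-- The series of a Whittaker coefficient function converges absolutely. -/
theorem IsWhittakerCoeff.summable (hA : IsWhittakerCoeff U A) (c : GLFin F ⧸ U.toSubgroup)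
    (P : InfinitePlace F → H3) : Summable fun ξ => phiTerm (A c.out) ξ P := by
  obtain ⟨w₀, -, hw₀⟩ := Finset.exists_min_image Finset.univ (fun w => H3.tc (P w))
    Finset.univ_nonempty
  obtain ⟨M, hM, h⟩ := hA.exists_majorant c (H3.tc_pos (P w₀))
  exact Summable.of_norm_bounded hM fun ξ => h ξ P fun w => hw₀ w (Finset.mem_univ w)

omit [NumberField.IsTotallyComplex F] in
/-- The expansion on a coset is the series of its terms. -/
theorem phiExp_eq (U : Level F) (A : GLFin F → F → ℂ) (P : InfinitePlace F → H3)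
    (c : GLFin F ⧸ U.toSubgroup) : phiExp U A (P, c) = ∑' ξ, phiTerm (A c.out) ξ P := rfl

/-- The expansion is the sum of its series. -/
theorem IsWhittakerCoeff.hasSum_phiExp (hA : IsWhittakerCoeff U A) (P : InfinitePlace F → H3)
    (c : GLFin F ⧸ U.toSubgroup) :
    HasSum (fun ξ => phiTerm (A c.out) ξ P) (phiExp U A (P, c)) :=
  (hA.summable c P).hasSum

/-- The series at an arbitrary representative. -/
theorem IsWhittakerCoeff.hasSum_phiExp_mk (hA : IsWhittakerCoeff U A)
    (P : InfinitePlace F → H3) (g : GLFin F) :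
    HasSum (fun ξ => phiTerm (A g) ξ P) (phiExp U A (P, (g : GLFin F ⧸ U.toSubgroup))) := by
  simpa only [hA.out_eq] using hA.hasSum_phiExp P (g : GLFin F ⧸ U.toSubgroup)

/-- **(2)** The series is the expansion at every coset. -/
theorem IsWhittakerCoeff.isExpansion (hA : IsWhittakerCoeff U A)
    (c : GLFin F ⧸ U.toSubgroup) : Whittaker.IsExpansion (phiExp U A) c (A c.out) := by
  refine ⟨hA.zero _, fun z t ht => ?_⟩
  refine (hA.hasSum_phiExp (ptAt z t) c).congr_fun fun ξ => ?_
  simp only [phiTerm, ptAt, H3.zc_pt _ (ht _), H3.tc_pt _ (ht _)]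

/-- **(3)** A nonzero coefficient makes the function nonzero. -/
theorem IsWhittakerCoeff.exists_ne_zero (hA : IsWhittakerCoeff U A)
    (h : ∃ g ξ, A g ξ ≠ 0) : ∃ y, phiExp U A y ≠ 0 := by
  obtain ⟨g, ξ, hgξ⟩ := h
  by_contra hc
  push Not at hc
  have h0 : Whittaker.IsExpansion (phiExp U A) (g : GLFin F ⧸ U.toSubgroup) 0 :=
    ⟨rfl, fun z t _ => by simp [hc, hasSum_zero]⟩
  have := congrFun ((hA.isExpansion (g : GLFin F ⧸ U.toSubgroup)).unique h0) ξ
  rw [hA.out_eq] at this
  exact hgξ this

end Fermat.Agent.LT.DihedralTheta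

end
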