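import Fermat.Agent.LT.DihedralTheta.LocalWhit

/-!
# Linear changes of variable and the Fourier transform of a translated local vector

A linear automorphism multiplies integrals by a constant, which for multiplication by `h` is
`q ^ ord (n h)`. Hence the transform of `z ↦ fl g (h z, u / n h)` for the pairing `u B` is the
same function of `wmat g`, up to `λ η u / |u|`.
-/

set_option autoImplicit false

open AddSubgroup

namespace Fermat.Agent.LT.DihedralTheta

variable {E : Type*} [Field E]

namespace LocalForm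

variable (K : LocalForm E)

/-- Periodic under some square box and supported in one. -/
def IsBoxSch (f : E × E → ℂ) : Prop :=
  ∃ R k : ℤ, IsPer (K.box R R) f ∧ HasSupp (K.box k k) f

variable {K}

variable (K)

/-- Linear maps are bounded. -/
lemma exists_linear_bound (e : (E × E) →ₗ[E] E × E) :
    ∃ c : ℤ, ∀ i : ℤ, ∀ z ∈ K.box i i, e z ∈ K.box (i + c) (i + c) := by
  obtain ⟨a, ha⟩ := K.exists_box (e (1, 0))
  obtain ⟨b, hb⟩ := K.exists_box (e (0, 1))
  refine ⟨min a b, fun i z hz => ?_⟩
  obtain ⟨z1, z2⟩ := LocalBase.mem_box.mp hz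
  have he : e z = z.1 • e (1, 0) + z.2 • e (0, 1) := by
    rw [← map_smul, ← map_smul, ← map_add]; congr 1; ext <;> simp
  rw [he]
  exact add_mem (K.smul_mem_box z1 (ha _ (min_le_left _ _)))
    (K.smul_mem_box z2 (hb _ (min_le_right _ _)))

lemma isLat_comap_linear (e : (E × E) ≃ₗ[E] E × E) (i : ℤ) :
    IsLat K.base ((K.box i i).comap e.toAddEquiv.toAddMonoidHom) := by
  obtain ⟨c, hc⟩ := K.exists_linear_bound e.toLinearMap
  obtain ⟨c', hc'⟩ := K.exists_linear_bound e.symm.toLinearMap
  set P := (K.box i i).comap e.toAddEquiv.toAddMonoidHom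
  have hin : K.box (i - c) (i - c) ≤ P := fun z hz => by
    have := hc _ z hz
    rwa [sub_add_cancel] at this
  have hout : P ≤ K.box (i + c') (i + c') := fun z hz => by
    simpa using hc' i (e z) hz
  exact ⟨fun h => K.relIndex_box_ne_zero 0 0 (i + c') (i + c')
      (relIndex_eq_zero_of_le_right hout h),
    fun h => K.relIndex_box_ne_zero (i - c) (i - c) 0 0 (relIndex_eq_zero_of_le_left hin h)⟩

/-- The factor of a linear change of variable. -/
noncomputable def ratio (e : (E × E) ≃ₗ[E] E × E) : ℂ :=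
  vol K.base ((K.box 0 0).comap e.toAddEquiv.toAddMonoidHom)

lemma exists_ratio_eq_real (e : (E × E) ≃ₗ[E] E × E) :
    ∃ r : ℝ, 0 ≤ r ∧ K.ratio e = (r : ℂ) :=
  ⟨(K.base.relIndex ((K.box 0 0).comap e.toAddEquiv.toAddMonoidHom) : ℝ) /
      (((K.box 0 0).comap e.toAddEquiv.toAddMonoidHom).relIndex K.base : ℝ),
    div_nonneg (Nat.cast_nonneg _) (Nat.cast_nonneg _), by
    rw [ratio, vol, Complex.ofReal_div, Complex.ofReal_natCast, Complex.ofReal_natCast]⟩

lemma vol_comap_aux (e : (E × E) ≃ₗ[E] E × E) {k R : ℤ} (h : k ≤ R) :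
    vol K.base ((K.box k k).comap e.toAddEquiv.toAddMonoidHom) =
      vol K.base ((K.box R R).comap e.toAddEquiv.toAddMonoidHom) / vol K.base (K.box R R) *
        vol K.base (K.box k k) := by
  classical
  have := integral_comp_equiv (S := K.base) (f := fun z => if z ∈ K.box k k then (1 : ℂ) else 0)
    e.toAddEquiv (K.isLat_box R R) (K.isLat_box k k)
    (fun z p hp => by simp only [AddSubgroup.add_mem_cancel_right _ (K.box_le h h hp)])
    (fun z hz => by by_contra hh; exact hz (if_neg hh))
    (K.isLat_comap_linear e R) (K.isLat_comap_linear e k)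
  rw [integral_indicator (K.isLat_box k k)] at this
  rw [← this, ← integral_indicator (K.isLat_comap_linear e k)]
  rfl

lemma vol_comap (e : (E × E) ≃ₗ[E] E × E) (k : ℤ) :
    vol K.base ((K.box k k).comap e.toAddEquiv.toAddMonoidHom) =
      K.ratio e * vol K.base (K.box k k) := by
  have h1 := K.vol_comap_aux e (le_max_left k 0)
  have h2 := K.vol_comap_aux e (le_max_right k 0)
  rw [show K.ratio e = _ from h2, vol_self, mul_one]
  exact h1

variable {K}

/-- Box Schwartz functions are stable under linear changes of variable. -/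
lemma IsBoxSch.comp {f : E × E → ℂ} (hf : K.IsBoxSch f) (e : (E × E) ≃ₗ[E] E × E) :
    K.IsBoxSch fun z => f (e z) := by
  obtain ⟨R, k, hper, hsupp⟩ := hf
  obtain ⟨c, hc⟩ := K.exists_linear_bound e.toLinearMap
  obtain ⟨c', hc'⟩ := K.exists_linear_bound e.symm.toLinearMap
  refine ⟨R - c, k + c', fun z p hp => ?_, fun z hz => by simpa using hc' k (e z) (hsupp _ hz)⟩
  show f (e (z + p)) = f (e z)
  rw [map_add]
  have := hc _ p hp
  rw [sub_add_cancel] at this
  exact hper _ _ this

/-- Linear change of variable. -/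
theorem integral_comp_linear {f : E × E → ℂ} (hf : K.IsBoxSch f) (e : (E × E) ≃ₗ[E] E × E) :
    integral K.base (fun z => f (e z)) = K.ratio e * integral K.base f := by
  obtain ⟨R, k, hper, hsupp⟩ := hf
  have h := integral_comp_equiv (S := K.base) e.toAddEquiv (K.isLat_box R R) (K.isLat_box k k) hper
    hsupp (K.isLat_comap_linear e R) (K.isLat_comap_linear e k)
  refine h.trans ?_
  rw [K.vol_comap, mul_div_assoc, div_self (vol_ne_zero (K.isLat_box R R)), mul_one]

/-- The indicator of the unit box is a box Schwartz function. -/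
lemma isBoxSch_indicator [DecidablePred (· ∈ K.box 0 0)] :
    K.IsBoxSch fun z => if z ∈ K.box 0 0 then (1 : ℂ) else 0 :=
  ⟨0, 0, fun z p hp => by simp only [AddSubgroup.add_mem_cancel_right _ hp],
    fun z hz => by by_contra hh; exact hz (if_neg hh)⟩

lemma ratio_trans (e e' : (E × E) ≃ₗ[E] E × E) :
    K.ratio (e.trans e') = K.ratio e * K.ratio e' := by
  classical
  have h1 := integral_comp_linear (isBoxSch_indicator (K := K)) (e.trans e')
  have h2 := integral_comp_linear ((isBoxSch_indicator (K := K)).comp e') e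
  rw [integral_comp_linear (isBoxSch_indicator (K := K)) e', integral_indicator (K.isLat_box 0 0),
    vol_self] at h2
  rw [integral_indicator (K.isLat_box 0 0), vol_self, mul_one] at h1
  rw [← h1, ← mul_one (K.ratio e'), ← h2]
  rfl

variable (K)

/-- Multiplication by an element of nonzero norm. -/
def qmulEquiv (h : E × E) (hn : K.n h ≠ 0) : (E × E) ≃ₗ[E] E × E where
  toFun := K.qmul h
  map_add' := K.qmul_add h
  map_smul' a z := K.qmul_smul a h z
  invFun z := (K.n h)⁻¹ • K.qmul (K.qconj h) z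
  left_inv z := by
    show (K.n h)⁻¹ • K.qmul (K.qconj h) (K.qmul h z) = z
    rw [← K.qmul_assoc, show K.qmul (K.qconj h) h = (K.n h, 0) by
      rw [← K.qmul_qconj h]; simp only [qmul, qconj]; refine Prod.ext ?_ ?_ <;> simp only <;> ring,
      K.qmul_scalar, smul_smul, inv_mul_cancel₀ hn, one_smul]
  right_inv z := by
    show K.qmul h ((K.n h)⁻¹ • K.qmul (K.qconj h) z) = z
    rw [K.qmul_smul, ← K.qmul_assoc, K.qmul_qconj, K.qmul_scalar, smul_smul, inv_mul_cancel₀ hn,
      one_smul]

/-- The conjugation as a linear map. -/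
def qconjLin : (E × E) ≃ₗ[E] E × E where
  toFun := K.qconj
  map_add' z w := by simp [qconj]; constructor <;> ring
  map_smul' a z := by simp [qconj]; ring
  invFun := K.qconj
  left_inv z := by simp [qconj]
  right_inv z := by simp [qconj]

/-- Multiplication by a scalar as a linear map. -/
def smulLin (c : E) (hc : c ≠ 0) : (E × E) ≃ₗ[E] E × E where
  toFun z := c • z
  map_add' := smul_add c
  map_smul' a z := smul_comm c a z
  invFun z := c⁻¹ • z
  left_inv z := inv_smul_smul₀ hc z
  right_inv z := smul_inv_smul₀ hc z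

lemma ratio_smulLin (c : E) (hc : c ≠ 0) : K.ratio (smulLin c hc) = (K.q : ℂ) ^ (2 * K.ord c) := by
  rw [ratio, show (smulLin c hc).toAddEquiv.toAddMonoidHom =
    (smulEquiv c hc).toAddMonoidHom from rfl, K.comap_smulEquiv, K.vol_box, ← zpow_neg]
  congr 1; ring

lemma ratio_qconjLin : K.ratio K.qconjLin = 1 := by
  rw [ratio, show ((K.box 0 0).comap K.qconjLin.toAddEquiv.toAddMonoidHom) = K.box 0 0 from ?_,
    vol_self]
  ext z
  refine ⟨fun h => ?_, fun h => K.qconj_mem h⟩
  have := K.qconj_mem (show K.qconj z ∈ K.box 0 0 from h)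
  rwa [show K.qconj (K.qconj z) = z from K.qconjLin.left_inv z] at this

/-- The factor of multiplication by `h`. -/
theorem ratio_qmulEquiv {h : E × E} (hn : K.n h ≠ 0) :
    K.ratio (K.qmulEquiv h hn) = (K.q : ℂ) ^ K.ord (K.n h) := by
  have hnc : K.n (K.qconj h) = K.n h := by simp [n, qconj]; ring
  have hconj : K.qmulEquiv (K.qconj h) (hnc.symm ▸ hn) =
      (K.qconjLin.trans (K.qmulEquiv h hn)).trans K.qconjLin := by
    refine LinearEquiv.ext fun z => ?_
    show K.qmul (K.qconj h) z = K.qconj (K.qmul h (K.qconj z))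
    simp only [qmul, qconj]
    refine Prod.ext ?_ ?_ <;> simp only <;> ring
  have hprod : (K.qmulEquiv h hn).trans (K.qmulEquiv (K.qconj h) (hnc.symm ▸ hn)) =
      smulLin (K.n h) hn := by
    refine LinearEquiv.ext fun z => ?_
    show K.qmul (K.qconj h) (K.qmul h z) = K.n h • z
    rw [← K.qmul_assoc, show K.qmul (K.qconj h) h = (K.n h, 0) by
      rw [← K.qmul_qconj h]; simp only [qmul, qconj]; refine Prod.ext ?_ ?_ <;> simp only <;> ring,
      K.qmul_scalar]
  have h2 := congrArg K.ratio hprod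
  rw [ratio_trans, hconj, ratio_trans, ratio_trans, ratio_qconjLin, one_mul, mul_one,
    ratio_smulLin] at h2
  obtain ⟨r, hr, hre⟩ := K.exists_ratio_eq_real (K.qmulEquiv h hn)
  have h3 : ((K.q : ℝ) ^ K.ord (K.n h)) = r := by
    have hs : r * r = (K.q : ℝ) ^ K.ord (K.n h) * (K.q : ℝ) ^ K.ord (K.n h) := by
      have hq : (K.q : ℝ) ≠ 0 := Nat.cast_ne_zero.mpr K.q_pos.ne'
      rw [← zpow_add₀ hq, ← two_mul]
      rw [hre] at h2
      apply Complex.ofReal_injective
      rw [Complex.ofReal_mul, h2, Complex.ofReal_zpow, Complex.ofReal_natCast]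
    exact ((mul_self_inj hr (zpow_nonneg (Nat.cast_nonneg _) _)).mp hs).symm
  rw [hre, ← h3]
  push_cast
  rfl

variable {K}

end LocalForm

namespace LocalVec

variable {K : LocalForm E} (T : LocalVec K)

/-- The extended vector is periodic and bounded in support. -/
theorem isBoxSch_fl (g : GL (Fin 2) E) (v : E) : K.IsBoxSch fun z => T.fl g z v := by
  obtain ⟨a, β, d, ha, hd, k, hk, hg⟩ := K.exists_iwasawa g
  set c := v * (β / d)
  set k' := T.k0 - K.ord a
  obtain ⟨R, h1, h2, h3, h4⟩ : ∃ R, T.la - K.ord a ≤ R ∧ T.lb - K.ord a ≤ R ∧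
      K.cond - K.ord c - k' ≤ R ∧ k' ≤ R :=
    ⟨max (max (T.la - K.ord a) (T.lb - K.ord a)) (max (K.cond - K.ord c - k') k'),
      le_max_of_le_left (le_max_left _ _), le_max_of_le_left (le_max_right _ _),
      le_max_of_le_right (le_max_left _ _), le_max_of_le_right (le_max_right _ _)⟩
  have hsupp : HasSupp (K.box k' k') fun z => T.fl g z v := fun z hz => by
    rw [T.fl_eq hk hg] at hz
    rw [← K.comap_smulEquiv a ha]
    exact T.supp k hk _ (a • z) (right_ne_zero_of_mul hz)
  refine ⟨R, k', ?_, hsupp⟩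
  have main : ∀ z, ∀ ρ ∈ K.box R R, T.fl g z v ≠ 0 → T.fl g (z + ρ) v = T.fl g z v := by
    intro z ρ hρ hne
    have hz := hsupp z hne
    obtain ⟨r1, r2⟩ := LocalBase.mem_box.mp hρ
    have hper : T.φ k (a • (z + ρ)) (v / (a * d)) = T.φ k (a • z) (v / (a * d)) := by
      rw [smul_add]
      exact T.per k hk _ (a • z) _ (LocalBase.mem_box.mpr
        ⟨K.mul_mem_ball' (k := K.ord a) (Or.inr le_rfl) r1 (by omega),
          K.mul_mem_ball' (k := K.ord a) (Or.inr le_rfl) r2 (by omega)⟩)
    have hchi : K.χ (c * K.n (z + ρ)) = K.χ (c * K.n z) := by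
      rw [K.n_add, mul_add, mul_add, AddChar.map_add_eq_mul, AddChar.map_add_eq_mul,
        K.χ_triv _ (K.mul_mem_ball' (k := K.ord c) (Or.inr le_rfl) (K.n_mem hρ) (by omega)),
        K.χ_triv _ (K.mul_mem_ball' (k := K.ord c) (Or.inr le_rfl) (K.B_mem hz hρ) (by omega)),
        mul_one, mul_one]
    simp only [T.fl_eq hk hg, LocalForm.bact, hper]
    simp only [c] at hchi
    rw [hchi]
  intro z ρ hρ
  show T.fl g (z + ρ) v = T.fl g z v
  by_cases h0 : T.fl g z v = 0
  · by_contra hne
    rw [h0] at hne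
    have := main (z + ρ) (-ρ) (neg_mem hρ) hne
    rw [add_neg_cancel_right, h0] at this
    exact hne this.symm
  · exact main z ρ hρ h0

/-- A torus translate of a slice of the extended vector is a box Schwartz function. -/
lemma isBoxSch_fl_translate (g : GL (Fin 2) E) {h : E × E} (hn : K.n h ≠ 0) (v : E) :
    K.IsBoxSch fun z => T.fl g (K.qmul h z) v :=
  (T.isBoxSch_fl g v).comp (K.qmulEquiv h hn)

/-- **The Fourier transform of a translated vector.** -/
theorem fourier_fl (g : GL (Fin 2) E) {h : E × E} (hn : K.n h ≠ 0) (hη : T.η (K.n h) = 1) {u : E}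
    (hu : u ≠ 0) (y : E × E) :
    integral K.base (fun z => T.fl g (K.qmul h z) (u / K.n h) * K.χ (u * K.B z y)) =
      T.lam * T.η u * (K.absv u)⁻¹ * T.fl (wmat * g) (K.qmul h y) (u / K.n h) := by
  set v := u / K.n h
  have hv : v ≠ 0 := div_ne_zero hu hn
  set F := fun z => T.fl g z v * K.χ (v * K.B z (K.qmul h y))
  have hF : K.IsBoxSch F := by
    obtain ⟨R, k, hper, hsupp⟩ := T.isBoxSch_fl g v
    obtain ⟨ky, hky⟩ := K.exists_box (K.qmul h y)
    refine ⟨max R (K.cond - K.ord v - ky), k, fun z p hp => ?_,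
      fun z hz => hsupp z (left_ne_zero_of_mul hz)⟩
    have h1 : K.χ (v * K.B p (K.qmul h y)) = 1 := K.χ_triv _ (K.mul_mem_ball' (k := K.ord v)
      (Or.inr le_rfl) (K.B_mem hp (hky _ le_rfl))
      (by have := le_max_right R (K.cond - K.ord v - ky); omega))
    show T.fl g (z + p) v * _ = T.fl g z v * _
    have h2 : T.fl g (z + p) v = T.fl g z v :=
      hper z p (K.box_le (le_max_left _ _) (le_max_left _ _) hp)
    rw [h2, K.B_add_left, mul_add, AddChar.map_add_eq_mul, h1, mul_one]
  have hB : ∀ z, v * K.B (K.qmul h z) (K.qmul h y) = u * K.B z y := fun z => by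
    have : K.B (K.qmul h z) (K.qmul h y) = K.n h * K.B z y := by
      simp only [LocalForm.B, LocalForm.qmul, LocalForm.n]; ring
    rw [this, ← mul_assoc, div_mul_cancel₀ _ hn]
  have hfun : (fun z => T.fl g (K.qmul h z) v * K.χ (u * K.B z y)) =
      fun z => F (K.qmulEquiv h hn z) := funext fun z => by
    show _ = T.fl g (K.qmul h z) v * _
    rw [← hB z]; rfl
  rw [hfun, LocalForm.integral_comp_linear hF, K.ratio_qmulEquiv hn]
  have hw := T.fl_w g (K.qmul h y) v
  rw [LocalForm.wact] at hw
  have hηv : T.η v = T.η u := by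
    rw [show v = u * (K.n h)⁻¹ from div_eq_mul_inv u (K.n h), T.η_mul hu (inv_ne_zero hn),
      T.eta_inv hn, hη, mul_one]
  have hav : K.absv v = K.absv u * (K.q : ℂ) ^ K.ord (K.n h) := by
    rw [show v = u * (K.n h)⁻¹ from div_eq_mul_inv u (K.n h), K.absv_mul hu (inv_ne_zero hn),
      K.absv_inv hn, LocalForm.absv, LocalForm.absv, ← zpow_neg (K.q : ℂ) (-K.ord (K.n h)), neg_neg]
  rw [hηv, hav] at hw
  have h1 := K.absv_ne_zero u
  have h2 := T.η_sq hu
  field_simp
  linear_combination T.η u * hw -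
    (K.absv u * (K.q : ℂ) ^ K.ord (K.n h) * integral K.base F) * h2

end LocalVec

end Fermat.Agent.LT.DihedralTheta
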