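import Fermat.Agent.LT.DihedralTheta.TorusBasic
import Fermat.Agent.LT.Places.CosetList
import Mathlib.NumberTheory.NumberField.ProductFormula
import Mathlib.NumberTheory.NumberField.InfinitePlace.TotallyRealComplex

/-!
# Finiteness of the classes of divisors

Minkowski's pigeonhole: every class contains an integral divisor of bounded norm.
-/

set_option autoImplicit false

noncomputable section

open NumberField (InfinitePlace)
open Fermat.Agent.LT.Places

namespace Fermat.Agent.LT.DihedralTheta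

namespace LocalForm

variable {E : Type*} [Field E] (K : LocalForm E)

/-- Multiplication by `w`. -/
def qmulHom (w : E × E) : E × E →+ E × E :=
  AddMonoidHom.mk' (K.qmul w) (K.qmul_add w)

@[simp] lemma qmulHom_apply (w z : E × E) : K.qmulHom w z = K.qmul w z := rfl

/-- Conjugation. -/
def qconjHom : E × E →+ E × E :=
  AddMonoidHom.mk' K.qconj fun a b => by
    simp only [qconj, Prod.fst_add, Prod.snd_add, Prod.mk_add_mk]
    refine Prod.ext ?_ ?_ <;> simp only <;> ring

lemma qconj_qconj (z : E × E) : K.qconj (K.qconj z) = z := by simp [qconj]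

/-- Multiplication by a point of nonzero norm is injective. -/
lemma qmulHom_injective {w : E × E} (hw : K.n w ≠ 0) : Function.Injective (K.qmulHom w) := by
  intro a b h
  have h' := congrArg (K.qmul (K.qconj w)) (h : K.qmul w a = K.qmul w b)
  simp only [qmulHom_apply] at h'
  rwa [← K.qmul_assoc, ← K.qmul_assoc, K.torus_qmul_comm (K.qconj w) w, K.qmul_qconj,
    K.qmul_scalar, K.qmul_scalar, (IsUnit.mk0 _ hw).smul_left_cancel] at h'

lemma map_qconjHom_box : (K.box 0 0).map K.qconjHom = K.box 0 0 := by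
  ext z
  exact ⟨by rintro ⟨y, hy, rfl⟩; exact K.qconj_mem hy,
    fun hz => ⟨K.qconj z, K.qconj_mem hz, K.qconj_qconj z⟩⟩

/-- **The index of a principal ideal** of the local order. -/
theorem relIndex_qmul_box {h : E × E} (hh : h ∈ K.box 0 0) (hn : K.n h ≠ 0) :
    ((K.box 0 0).map (K.qmulHom h)).relIndex (K.box 0 0) = K.q ^ (K.ord (K.n h)).toNat := by
  set A := K.box 0 0 with hA
  set B := A.map (K.qmulHom h) with hB
  set B' := A.map (K.qmulHom (K.qconj h)) with hB'
  set C := B'.map (K.qmulHom h) with hC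
  set e := K.ord (K.n h)
  have he : 0 ≤ e := (K.torus_n_mem hh).resolve_left hn
  have hle : ∀ w : E × E, w ∈ A → A.map (K.qmulHom w) ≤ A := by
    rintro w hw _ ⟨y, hy, rfl⟩
    simpa [hA] using K.qmul_mem hw hy
  have h1 : C.relIndex B = B'.relIndex A :=
    AddSubgroup.relIndex_map_map_of_injective _ _ (K.qmulHom_injective hn)
  have h2 : B'.relIndex A = B.relIndex A := by
    have hσA : A.map K.qconjHom = A := K.map_qconjHom_box
    have hσ : Function.Injective K.qconjHom := fun a b hab => by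
      simpa [qconjHom, K.qconj_qconj] using congrArg K.qconj hab
    have e1 : B' = B.map K.qconjHom := by
      conv_lhs => rw [hB', ← hσA, AddSubgroup.map_map]
      rw [hB, AddSubgroup.map_map]
      congr 1
      exact AddMonoidHom.ext fun z => (K.qconj_qmul h z).symm
    conv_lhs => rw [e1, ← hσA]
    exact AddSubgroup.relIndex_map_map_of_injective _ _ hσ
  have h3 : C = K.box e e := by
    rw [hC, hB', AddSubgroup.map_map]
    ext z
    constructor
    · rintro ⟨y, hy, rfl⟩
      show K.qmul h (K.qmul (K.qconj h) y) ∈ _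
      rw [← K.qmul_assoc, K.qmul_qconj, K.qmul_scalar]
      simpa using K.smul_mem_box (Or.inr le_rfl : K.n h ∈ K.ball e) hy
    · intro hz
      refine ⟨(K.n h)⁻¹ • z, ?_, ?_⟩
      · simpa using K.smul_mem_box
          (Or.inr (K.ord_inv hn).ge : (K.n h)⁻¹ ∈ K.ball (-e)) hz
      · show K.qmul h (K.qmul (K.qconj h) _) = z
        rw [← K.qmul_assoc, K.qmul_qconj, K.qmul_scalar, smul_smul, mul_inv_cancel₀ hn, one_smul]
  have h4 : C.relIndex B * B.relIndex A = C.relIndex A :=
    AddSubgroup.relIndex_mul_relIndex _ _ _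
      (AddSubgroup.map_mono (hle _ (K.qconj_mem hh))) (hle _ hh)
  rw [h1, h2] at h4
  have h5 : C.relIndex A = (K.q ^ e.toNat) * (K.q ^ e.toNat) := by
    rw [h3, hA, K.relIndex_box he he, ← pow_add]
    congr 1
    omega
  rw [h5] at h4
  exact Nat.mul_self_inj.mp h4

/-- A small perturbation changes a vector by a unit. -/
theorem exists_unit_of_sub_mem {h h' : E × E} (hh : h ∈ K.box 0 0) (hn : K.n h ≠ 0) {r : ℤ}
    (hr : K.ord (K.n h) + 1 ≤ r) (hρ : h' - h ∈ K.box r r) :
    ∃ c, c ∈ K.box 0 0 ∧ K.n c ≠ 0 ∧ K.ord (K.n c) = 0 ∧ h' = K.qmul c h := by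
  set σ : E × E := (K.n h)⁻¹ • K.qmul (K.qconj h) (h' - h) with hσ
  have hσ1 : σ ∈ K.box 1 1 := by
    refine K.box_le ?_ ?_ (K.smul_mem_box
      (Or.inr (K.ord_inv hn).ge : (K.n h)⁻¹ ∈ K.ball (-K.ord (K.n h)))
      (K.qmul_mem (K.qconj_mem hh) hρ)) <;> omega
  obtain ⟨s1, s2⟩ := LocalBase.mem_box.mp hσ1
  have he : K.n ((1, 0) + σ) - 1 ∈ K.ball 1 := by
    rw [show K.n ((1, 0) + σ) - 1 = σ.1 + σ.1 + K.s * σ.2 + σ.1 * σ.1
      + (K.s * σ.1) * σ.2 + K.p * (σ.2 * σ.2) by simp [n]; ring]
    exact add_mem (add_mem (add_mem (add_mem (add_mem s1 s1)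
      (K.mul_mem_ball' K.s_mem s2 (by omega))) (K.mul_mem_ball' s1 s1 (by omega)))
      (K.mul_mem_ball' (K.mul_mem_ball' (m := 1) K.s_mem s1 (by omega)) s2 (by omega)))
      (K.mul_mem_ball' K.p_mem (K.mul_mem_ball' (m := 2) s2 s2 le_rfl) (by omega))
  have hne : K.n ((1, 0) + σ) ≠ 0 := fun h0 => by
    rw [h0, zero_sub, neg_mem_iff] at he
    have := he.resolve_left one_ne_zero
    rw [K.ord_one] at this
    omega
  refine ⟨(1, 0) + σ, add_mem K.torus_one_mem (K.box_le zero_le_one zero_le_one hσ1), hne, ?_, ?_⟩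
  · have h0 : K.n ((1, 0) + σ) ∈ K.ball 0 :=
      K.torus_n_mem (add_mem K.torus_one_mem (K.box_le zero_le_one zero_le_one hσ1))
    have h1 := h0.resolve_left hne
    rcases he with he | he
    · rw [sub_eq_zero] at he; rw [he, K.ord_one]
    · by_contra h2
      have h3 : K.n ((1, 0) + σ) ∈ K.ball 1 := Or.inr (by omega)
      have h4 := sub_mem h3 (Or.inr he : K.n ((1, 0) + σ) - 1 ∈ K.ball 1)
      rw [sub_sub_cancel] at h4
      have := h4.resolve_left one_ne_zero
      rw [K.ord_one] at this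
      omega
  · rw [K.torus_qmul_comm, K.qmul_add, K.qmul_one, hσ, K.qmul_smul, ← K.qmul_assoc,
      K.qmul_qconj, K.qmul_scalar, smul_smul, inv_mul_cancel₀ hn, one_smul, add_sub_cancel]

end LocalForm

variable {F : Type*} [Field F] [NumberField F]

/-- The residue cardinality at `v`. -/
def qPlace (v : FinPlace F) : ℕ := Nat.card (Residue v)

lemma qPlace_eq (v : FinPlace F) : qPlace v = Ideal.absNorm v.asIdeal := card_residue v

lemma one_lt_qPlace (v : FinPlace F) : (1 : ℝ) < qPlace v := by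
  rw [qPlace_eq]
  exact_mod_cast NumberField.HeightOneSpectrum.one_lt_absNorm v

/-- A natural number making a local element integral. -/
lemma exists_natCast_mul_le_one (v : FinPlace F) (x : v.adicCompletion F) :
    ∃ M : ℕ, 0 < M ∧ Valued.v ((M : v.adicCompletion F) * x) ≤ 1 := by
  rcases eq_or_ne x 0 with rfl | hx
  · exact ⟨1, one_pos, by simp⟩
  have hq : 0 < qPlace v := by exact_mod_cast zero_lt_one.trans (one_lt_qPlace v)
  have hq0 : (qPlace v : v.adicCompletion F) ≠ 0 := by
    rw [← map_natCast (cmp v)]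
    exact (map_ne_zero _).mpr (Nat.cast_ne_zero.mpr hq.ne')
  have hmem : ((qPlace v : ℕ) : NumberField.RingOfIntegers F) ∈ v.asIdeal := by
    rw [qPlace_eq]; exact Ideal.absNorm_mem _
  have h1 : 1 ≤ placeOrd v (qPlace v : v.adicCompletion F) := by
    have this : v.valuation F (qPlace v : F) < 1 := by
      simpa using (v.valuation_lt_one_iff_mem (K := F) _).mpr hmem
    rw [← torus_valued_cmp, map_natCast, valued_eq_exp hq0, ← WithZero.exp_zero,
      WithZero.exp_lt_exp] at this
    omega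
  refine ⟨qPlace v ^ (-placeOrd v x).toNat, pow_pos hq _, ?_⟩
  rw [Nat.cast_pow, map_mul, map_pow, valued_eq_exp hx, valued_eq_exp hq0, ← WithZero.exp_nsmul,
    ← WithZero.exp_add, ← WithZero.exp_zero, WithZero.exp_le_exp, nsmul_eq_mul]
  have h2 := mul_le_mul_of_nonneg_left h1 (Int.natCast_nonneg (-placeOrd v x).toNat)
  rw [mul_one] at h2
  have := Int.self_le_toNat (-placeOrd v x)
  rw [mul_neg]
  omega

/-- The product formula, written with orders. -/
lemma prod_qPlace_zpow {a : F} (ha : a ≠ 0) {S : Finset (FinPlace F)}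
    (hS : ∀ v ∉ S, v.valuation F a = 1) :
    ∏ v ∈ S, (qPlace v : ℝ) ^ placeOrd v (cmp v a) = ∏ w : InfinitePlace F, w a ^ w.mult := by
  have hne : ∀ v : FinPlace F, cmp v a ≠ 0 := fun v => (map_ne_zero _).mpr ha
  have key : ∀ v : FinPlace F,
      NumberField.FinitePlace.mk v a = ((qPlace v : ℝ) ^ placeOrd v (cmp v a))⁻¹ := fun v => by
    rw [NumberField.FinitePlace.mk_apply, NumberField.FinitePlace.norm_embedding,
      NumberField.HeightOneSpectrum.adicAbv_def, ← torus_valued_cmp, valued_eq_exp (hne v),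
      WithZeroMulInt.toNNReal_neg_apply _ WithZero.exp_ne_zero, ← zpow_neg]
    simp only [WithZero.exp, WithZero.unzero_coe, toAdd_ofAdd, qPlace_eq]
    push_cast
    rfl
  have h := NumberField.prod_abs_eq_one ha
  rw [← finprod_comp_equiv NumberField.FinitePlace.equivHeightOneSpectrum.symm,
    finprod_eq_prod_of_mulSupport_subset _ (s := S)] at h
  · rw [Finset.prod_congr rfl fun v _ => show NumberField.FinitePlace.equivHeightOneSpectrum.symm v a
      = _ from key v, Finset.prod_inv_distrib] at h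
    exact (eq_of_div_eq_one (div_eq_mul_inv (G := ℝ) _ _ ▸ h)).symm
  · intro v hv
    by_contra hvS
    refine hv ?_
    have h1 := hS v hvS
    show NumberField.FinitePlace.mk v a = 1
    rw [key v, show placeOrd v (cmp v a) = 0 by
      rw [placeOrd, torus_valued_cmp, h1, WithZero.log_one, neg_zero], zpow_zero, inv_one]

lemma PlaceDatum.coord_sub {s p : F} {v : FinPlace F} (P : PlaceDatum s p v) (x y : F × F) :
    P.coord (x - y) = P.coord x - P.coord y :=
  eq_sub_of_add_eq (by rw [← P.coord_add, sub_add_cancel])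

namespace ThetaData

variable (D : ThetaData F)

/-- The exponent of a divisor at `v`. -/
def Divisor.expAt {D : ThetaData F} (h : D.Divisor) (v : FinPlace F) : ℤ :=
  (D.place v).form.ord ((D.place v).form.n (h.cmpt v))

/-- A divisor times a global element. -/
def Divisor.shift {D : ThetaData F} (h : D.Divisor) {x : F × F} (hx : x ≠ 0) : D.Divisor where
  cmpt v := (D.place v).form.qmul (h.cmpt v) ((D.place v).coord x)
  n_ne v := by
    rw [(D.place v).form.n_qmul]
    exact mul_ne_zero (h.n_ne v) (D.n_coord_ne hx v)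
  almost_unit := (h.almost_unit.union (D.principalDivisor hx).almost_unit).subset fun v hv => by
    by_contra h0
    simp only [Set.mem_union, Set.mem_ofPred_eq, not_or, not_not] at h0
    exact hv (h0.1.mul _ h0.2)

/-- A divisor is equivalent to its shift by `x`. -/
lemma Divisor.equivBy_shift {D : ThetaData F} (h : D.Divisor) {x : F × F} (hx : x ≠ 0) :
    h.EquivBy (h.shift hx) x := fun v =>
  ⟨(1, 0), (D.place v).isUnitPair_one, ((D.place v).form.torus_one_qmul _).symm⟩

lemma exists_lattice : ∃ ω : Fin (Module.finrank ℚ (F × F)) → F × F,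
    LinearIndependent ℚ ω ∧ ∀ i, ω i ∈ D.order := by
  set b := Module.finBasis ℚ (F × F)
  choose m hm hmem using fun i => D.exists_nsmul_mem_order (b i)
  refine ⟨fun i => (m i : F) • b i, ?_, hmem⟩
  have := b.linearIndependent.units_smul fun i =>
    Units.mk0 (m i : ℚ) (Nat.cast_ne_zero.mpr (hm i).ne')
  convert this using 2 with i
  show _ = (m i : ℚ) • b i
  rw [Nat.cast_smul_eq_nsmul ℚ, Nat.cast_smul_eq_nsmul F]

/-- **Pigeonhole** in the lattice of integral multiples of local elements. -/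
theorem exists_small : ∃ C : ℝ, ∀ g : ∀ v : FinPlace F, v.adicCompletion F × v.adicCompletion F,
    (∀ v, g v ∈ (D.place v).form.box 0 0) → (∀ v, (D.place v).form.n (g v) ≠ 0) →
    ∀ S₀ : Finset (FinPlace F), (∀ v ∉ S₀, (D.place v).IsUnitPair (g v)) →
    ∃ X : F × F, X ≠ 0 ∧ (∀ v, (D.place v).coord X ∈
        ((D.place v).form.box 0 0).map ((D.place v).form.qmulHom (g v))) ∧
      ∏ w : InfinitePlace F, w (normForm D.s D.p X) ^ w.mult ≤
        C * ∏ v ∈ S₀, (qPlace v : ℝ) ^ (D.place v).form.ord ((D.place v).form.n (g v)) := by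
  classical
  obtain ⟨ω, hω, hωm⟩ := D.exists_lattice
  set d := Module.finrank ℚ F with hd
  set K : InfinitePlace F → ℝ := fun w => (1 + ‖w.embedding D.s‖ + ‖w.embedding D.p‖) *
    (∑ i, (‖w.embedding (ω i).1‖ + ‖w.embedding (ω i).2‖)) ^ 2
  refine ⟨∏ w, K w ^ w.mult, fun g hg hgn S₀ hS₀ => ?_⟩
  have he : ∀ v, 0 ≤ (D.place v).form.ord ((D.place v).form.n (g v)) := fun v =>
    ((D.place v).form.torus_n_mem (hg v)).resolve_left (hgn v)
  set N : ℕ := ∏ v ∈ S₀, qPlace v ^ ((D.place v).form.ord ((D.place v).form.n (g v))).toNat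
    with hN
  have hN1 : 0 < N := Finset.prod_pos fun v _ => pow_pos
    (by exact_mod_cast zero_lt_one.trans (one_lt_qPlace v)) _
  have hm0 : Module.finrank ℚ (F × F) ≠ 0 := (Module.finrank_pos).ne'
  have hex : ∃ r, N < (r + 1) ^ Module.finrank ℚ (F × F) :=
    ⟨N, lt_of_lt_of_le (Nat.lt_succ_self N) (Nat.le_self_pow hm0 _)⟩
  set r := Nat.find hex
  have hr : (r : ℝ) ^ Module.finrank ℚ (F × F) ≤ N := by
    rcases Nat.eq_zero_or_pos r with h0 | h0
    · rw [h0, Nat.cast_zero, zero_pow hm0]; exact Nat.cast_nonneg _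
    · have := not_lt.mp (Nat.find_min hex (Nat.sub_one_lt_of_lt h0))
      rw [Nat.sub_add_cancel h0] at this
      exact_mod_cast this
  set L := fun v => ((D.place v).form.box 0 0).map ((D.place v).form.qmulHom (g v))
  set Q := fun v : S₀ => ((D.place v.1).form.box 0 0) ⧸
    (L v.1).addSubgroupOf ((D.place v.1).form.box 0 0)
  have hQ : ∀ v, Nat.card (Q v) =
      qPlace v.1 ^ ((D.place v.1).form.ord ((D.place v.1).form.n (g v.1))).toNat := fun v =>
    (D.place v.1).form.relIndex_qmul_box (hg v.1) (hgn v.1)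
  have : ∀ v, Finite (Q v) := fun v => Nat.finite_of_card_ne_zero (by
    rw [hQ]; exact pow_ne_zero _ (by exact_mod_cast (zero_lt_one.trans (one_lt_qPlace v.1)).ne'))
  have : Fintype (∀ v, Q v) := Fintype.ofFinite _
  have hcard : Fintype.card (∀ v, Q v) = N := by
    rw [Fintype.card_eq_nat_card, Nat.card_pi, hN, ← Finset.prod_coe_sort S₀]
    exact Finset.prod_congr rfl fun v _ => hQ v
  set X : (Fin (Module.finrank ℚ (F × F)) → ℤ) → F × F := fun a => ∑ i, a i • ω i
  have hXm : ∀ a, X a ∈ D.order := fun a => sum_mem fun i _ => zsmul_mem (hωm i) _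
  obtain ⟨a, a', hne, heq⟩ := Fintype.exists_ne_map_eq_of_card_lt
    (fun (a : Fin (Module.finrank ℚ (F × F)) → Fin (r + 1)) (v : S₀) =>
      (⟨_, hXm (fun i => (a i : ℤ)) v.1⟩ : (D.place v.1).form.box 0 0) : _ → ∀ v, Q v)
    (by rw [hcard, Fintype.card_fun, Fintype.card_fin, Fintype.card_fin]; exact Nat.find_spec hex)
  set b : Fin (Module.finrank ℚ (F × F)) → ℤ := fun i => (a i : ℤ) - (a' i : ℤ)
  have hb : X b = X (fun i => (a i : ℤ)) - X (fun i => (a' i : ℤ)) := by
    simp only [X, b, sub_smul, Finset.sum_sub_distrib]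
  refine ⟨X b, fun h0 => hne (funext fun i => ?_), fun v => ?_, ?_⟩
  · have := Fintype.linearIndependent_iff.mp hω (fun j => (b j : ℚ))
      (by simpa only [Int.cast_smul_eq_zsmul] using h0) i
    exact Fin.ext (by simpa [b, sub_eq_zero] using this)
  · by_cases hv : v ∈ S₀
    · have h1 := QuotientAddGroup.eq.mp (congrFun heq ⟨v, hv⟩)
      rw [AddSubgroup.mem_addSubgroupOf] at h1
      rw [hb, PlaceDatum.coord_sub, ← neg_mem_iff, neg_sub, sub_eq_neg_add]
      exact h1
    · obtain ⟨w, hw, hwg⟩ := PlaceDatum.IsUnitPair.exists_inv _ (hS₀ v hv)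
      refine ⟨(D.place v).form.qmul w ((D.place v).coord (X b)), ?_, ?_⟩
      · simpa using (D.place v).form.qmul_mem ((D.place v).isUnitPair_iff.mp hw).1 (hXm b v)
      · show (D.place v).form.qmul _ _ = _
        rw [← (D.place v).form.qmul_assoc, (D.place v).form.torus_qmul_comm (g v) w, hwg,
          (D.place v).form.torus_one_qmul]
  · have hbd : ∀ w : InfinitePlace F, w (normForm D.s D.p (X b)) ≤ K w * (r : ℝ) ^ 2 := by
      intro w
      set A := ∑ i, (‖w.embedding (ω i).1‖ + ‖w.embedding (ω i).2‖)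
      have hbr : ∀ i, |(b i : ℝ)| ≤ r := fun i => by
        have h1 := (a i).isLt
        have h2 := (a' i).isLt
        have : |b i| ≤ (r : ℤ) := abs_le.mpr ⟨by simp only [b]; omega, by simp only [b]; omega⟩
        exact_mod_cast this
      have hA : ∀ pr : F × F →+ F, (∀ i, ‖w.embedding (pr (ω i))‖ ≤
          ‖w.embedding (ω i).1‖ + ‖w.embedding (ω i).2‖) → ‖w.embedding (pr (X b))‖ ≤ A * r := by
        intro pr hpr
        rw [map_sum, map_sum, Finset.sum_mul]
        refine (norm_sum_le _ _).trans (Finset.sum_le_sum fun i _ => ?_)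
        rw [map_zsmul, map_zsmul, zsmul_eq_mul, norm_mul, Complex.norm_intCast, mul_comm]
        exact mul_le_mul (hpr i) (hbr i) (abs_nonneg _)
          (add_nonneg (norm_nonneg _) (norm_nonneg _))
      have h1 := hA (AddMonoidHom.fst F F) fun i => le_add_of_nonneg_right (norm_nonneg _)
      have h2 := hA (AddMonoidHom.snd F F) fun i => le_add_of_nonneg_left (norm_nonneg _)
      simp only [AddMonoidHom.coe_fst, AddMonoidHom.coe_snd] at h1 h2
      rw [← InfinitePlace.norm_embedding_eq, normForm, map_add, map_add, map_mul, map_mul, map_mul,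
        map_pow, map_pow]
      refine (norm_add₃_le).trans ?_
      simp only [norm_mul, norm_pow]
      have hA0 : 0 ≤ A * r := (norm_nonneg _).trans h1
      calc _ ≤ (A * r) ^ 2 + ‖w.embedding D.s‖ * (A * r) * (A * r) +
            ‖w.embedding D.p‖ * (A * r) ^ 2 := by
              gcongr
        _ = _ := by simp only [K, A]; ring
    calc _ ≤ ∏ w : InfinitePlace F, (K w * (r : ℝ) ^ 2) ^ w.mult :=
          Finset.prod_le_prod (fun w _ => pow_nonneg (apply_nonneg w _) _) fun w _ =>
            pow_le_pow_left₀ (apply_nonneg w _) (hbd w) _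
      _ = (∏ w, K w ^ w.mult) * (r : ℝ) ^ Module.finrank ℚ (F × F) := by
          simp only [mul_pow, Finset.prod_mul_distrib, ← pow_mul]
          rw [Finset.prod_pow_eq_pow_sum, ← Finset.mul_sum, InfinitePlace.sum_mult_eq,
            Module.finrank_prod, two_mul]
      _ ≤ _ := by
          refine mul_le_mul_of_nonneg_left (hr.trans_eq ?_) (Finset.prod_nonneg fun w _ =>
            pow_nonneg (mul_nonneg (by positivity) (sq_nonneg _)) _)
          rw [hN, Nat.cast_prod]
          exact Finset.prod_congr rfl fun v _ => by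
            rw [Nat.cast_pow, ← zpow_natCast, Int.toNat_of_nonneg (he v)]

/-- Every class contains an integral divisor with bounded exponents. -/
theorem exists_equivBy_bounded : ∃ C : ℝ, ∀ h : D.Divisor, ∃ c : D.Divisor,
    (∀ v, c.cmpt v ∈ (D.place v).form.box 0 0 ∧ (qPlace v : ℝ) ^ c.expAt v ≤ C) ∧
      ∃ x : F × F, x ≠ 0 ∧ h.EquivBy c x := by
  classical
  obtain ⟨C, hC⟩ := D.exists_small
  refine ⟨max C 1, fun h => ?_⟩
  set B := h.almost_unit.toFinset
  set a : ∀ v : FinPlace F, v.adicCompletion F × v.adicCompletion F := fun v =>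
    ((D.place v).form.n (h.cmpt v))⁻¹ • (D.place v).form.qconj (h.cmpt v)
  choose M₁ hM₁ hM₁' using fun v => exists_natCast_mul_le_one v (a v).1
  choose M₂ hM₂ hM₂' using fun v => exists_natCast_mul_le_one v (a v).2
  set m : ℕ := ∏ v ∈ B, M₁ v * M₂ v
  have hm : 0 < m := Finset.prod_pos fun v _ => Nat.mul_pos (hM₁ v) (hM₂ v)
  have hmF : (m : F) ≠ 0 := Nat.cast_ne_zero.mpr hm.ne'
  set g : ∀ v : FinPlace F, v.adicCompletion F × v.adicCompletion F := fun v => cmp v (m : F) • a v with hg
  have hint : ∀ (v : FinPlace F) (k : ℕ), Valued.v (k : v.adicCompletion F) ≤ 1 := fun v k => by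
    rw [← map_natCast (cmp v), torus_valued_cmp]; exact valuation_natCast_le_one v k
  have hgi : ∀ v, g v ∈ (D.place v).form.box 0 0 := fun v => by
    refine LocalBase.mem_box.mpr ⟨(D.place v).mem_ball_zero.mpr ?_,
      (D.place v).mem_ball_zero.mpr ?_⟩
    all_goals
      simp only [g, Prod.smul_fst, Prod.smul_snd, smul_eq_mul, map_natCast]
      by_cases hv : v ∈ B
    · rw [show m = M₁ v * (M₂ v * ∏ u ∈ B.erase v, M₁ u * M₂ u) by
        rw [← mul_assoc]; exact (Finset.mul_prod_erase B (fun u => M₁ u * M₂ u) hv).symm,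
        Nat.cast_mul, mul_right_comm, map_mul]
      exact mul_le_one' (hM₁' v) (hint v _)
    · have hu : (D.place v).IsUnitPair (h.cmpt v) := by simpa [B] using hv
      obtain ⟨h1, h2⟩ := (D.place v).isUnitPair_iff.mp hu
      simp only [a, Prod.smul_fst, smul_eq_mul, map_mul, map_inv₀, h2, inv_one, one_mul]
      exact mul_le_one' (hint v m) ((D.place v).mem_ball_zero.mp
        (LocalBase.mem_box.mp ((D.place v).form.qconj_mem h1)).1)
    · rw [show m = M₂ v * (M₁ v * ∏ u ∈ B.erase v, M₁ u * M₂ u) by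
        rw [← mul_assoc, mul_comm (M₂ v)]
        exact (Finset.mul_prod_erase B (fun u => M₁ u * M₂ u) hv).symm,
        Nat.cast_mul, mul_right_comm, map_mul]
      exact mul_le_one' (hM₂' v) (hint v _)
    · have hu : (D.place v).IsUnitPair (h.cmpt v) := by simpa [B] using hv
      obtain ⟨h1, h2⟩ := (D.place v).isUnitPair_iff.mp hu
      simp only [a, Prod.smul_snd, smul_eq_mul, map_mul, map_inv₀, h2, inv_one, one_mul]
      exact mul_le_one' (hint v m) ((D.place v).mem_ball_zero.mp
        (LocalBase.mem_box.mp ((D.place v).form.qconj_mem h1)).2)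
  have hhg : ∀ v, (D.place v).form.qmul (h.cmpt v) (g v) = (cmp v (m : F), 0) := fun v => by
    simp only [g, a, (D.place v).form.qmul_smul, (D.place v).form.qmul_qconj]
    simp [h.n_ne v]
  have hgn : ∀ v, (D.place v).form.n (g v) =
      cmp v (m : F) ^ 2 * ((D.place v).form.n (h.cmpt v))⁻¹ := fun v => by
    simp only [g, a, (D.place v).form.n_smul, (D.place v).form.torus_n_qconj]
    field_simp [h.n_ne v]
  have hgn0 : ∀ v, (D.place v).form.n (g v) ≠ 0 := fun v => by
    rw [hgn]
    exact mul_ne_zero (pow_ne_zero _ ((map_ne_zero _).mpr hmF)) (inv_ne_zero (h.n_ne v))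
  set S₀ := (h.almost_unit.union (finite_natCast (F := F) m hm)).toFinset
  have hS₀ : ∀ v ∉ S₀, (D.place v).IsUnitPair (g v) := fun v hv => by
    simp only [S₀, Set.Finite.mem_toFinset, Set.mem_union, Set.mem_ofPred_eq, not_or, not_not]
      at hv
    refine (D.place v).isUnitPair_iff.mpr ⟨hgi v, ?_⟩
    rw [hgn, map_mul, map_pow, map_inv₀, torus_valued_cmp, hv.2,
      ((D.place v).isUnitPair_iff.mp hv.1).2, inv_one, one_pow, one_mul]
  obtain ⟨X, hX, hXg, hXC⟩ := hC g hgi hgn0 S₀ hS₀
  have hx : (m : F)⁻¹ • X ≠ 0 := smul_ne_zero (inv_ne_zero hmF) hX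
  choose y hy hyX using hXg
  have hc : ∀ v, (h.shift hx).cmpt v = y v := fun v => by
    have e : (D.place v).form.qmul (g v) (y v) = (D.place v).coord X := hyX v
    show (D.place v).form.qmul (h.cmpt v) ((D.place v).coord ((m : F)⁻¹ • X)) = _
    rw [PlaceDatum.coord_smul, (D.place v).form.qmul_smul, ← e, ← (D.place v).form.qmul_assoc,
      hhg, (D.place v).form.qmul_scalar, smul_smul, ← map_mul, inv_mul_cancel₀ hmF, map_one,
      one_smul]
  refine ⟨h.shift hx, fun v => ⟨hc v ▸ hy v, ?_⟩, _, hx, h.equivBy_shift hx⟩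
  have hN : ∀ u, placeOrd u (cmp u (normForm D.s D.p X)) =
      (D.place u).form.ord ((D.place u).form.n (g u)) + (h.shift hx).expAt u := fun u => by
    have e : (D.place u).form.qmul (g u) (y u) = (D.place u).coord X := hyX u
    have hy0 : (D.place u).form.n (y u) ≠ 0 := hc u ▸ (h.shift hx).n_ne u
    rw [Divisor.expAt, hc, ← (D.place u).form.ord_mul (hgn0 u) hy0, ← (D.place u).form.n_qmul, e,
      PlaceDatum.n_coord]
    rfl
  have hexp : ∀ u, 0 ≤ (h.shift hx).expAt u := fun u =>
    ((D.place u).form.torus_n_mem (hc u ▸ hy u)).resolve_left ((h.shift hx).n_ne u)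
  set S := insert v (S₀ ∪ (finite_valuation_ne (D.norm_ne hX)).toFinset)
  have hpf := prod_qPlace_zpow (D.norm_ne hX) (S := S) fun u hu => by
    simp only [S, Finset.mem_insert, Finset.mem_union, Set.Finite.mem_toFinset,
      Set.mem_ofPred_eq, not_or, not_not] at hu
    exact hu.2.2
  have hsub : ∏ u ∈ S₀, (qPlace u : ℝ) ^ (D.place u).form.ord ((D.place u).form.n (g u)) =
      ∏ u ∈ S, (qPlace u : ℝ) ^ (D.place u).form.ord ((D.place u).form.n (g u)) := by
    refine Finset.prod_subset (fun u hu => Finset.mem_insert_of_mem (Finset.mem_union_left _ hu))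
      fun u _ hu => ?_
    rw [(hS₀ u hu).2.2, zpow_zero]
  rw [← hpf, hsub] at hXC
  simp only [hN] at hXC
  rw [Finset.prod_congr rfl fun u _ => zpow_add₀ (zero_lt_one.trans (one_lt_qPlace u)).ne' _ _,
    Finset.prod_mul_distrib, mul_comm C] at hXC
  have h1 := le_of_mul_le_mul_left hXC
    (Finset.prod_pos fun u _ => zpow_pos (zero_lt_one.trans (one_lt_qPlace u)) _)
  refine le_trans ?_ (h1.trans (le_max_left _ _))
  rw [← Finset.mul_prod_erase S _ (Finset.mem_insert_self v _)]
  refine le_mul_of_one_le_right (zpow_pos (zero_lt_one.trans (one_lt_qPlace v)) _).le ?_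
  exact Finset.prod_const_one.symm.trans_le (Finset.prod_le_prod (fun _ _ => zero_le_one)
    fun u _ => one_le_zpow₀ (one_lt_qPlace u).le (hexp u))

/-- **(U1)** Finitely many classes. -/
theorem exists_classReps : ∃ S : Finset D.Divisor,
    (∀ h : D.Divisor, ∃ h₀ ∈ S, ∃ x : F × F, x ≠ 0 ∧ h₀.EquivBy h x) ∧
    ∀ h₀ ∈ S, ∀ h₁ ∈ S, ∀ x : F × F, x ≠ 0 → h₀.EquivBy h₁ x → h₀ = h₁ := by
  classical
  obtain ⟨C, hC⟩ := D.exists_equivBy_bounded
  set P : Set (FinPlace F) := {v | (qPlace v : ℝ) ≤ C}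
  have hP : P.Finite := by
    refine ((Ideal.finite_setOfPred_absNorm_le (S := NumberField.RingOfIntegers F) ⌊C⌋₊).preimage
      (fun v _ u _ e => IsDedekindDomain.HeightOneSpectrum.ext e :
        Set.InjOn (fun v : FinPlace F => v.asIdeal) _)).subset fun v hv => ?_
    show Ideal.absNorm v.asIdeal ≤ ⌊C⌋₊
    rw [← qPlace_eq]
    exact Nat.le_floor hv
  have := hP.to_subtype
  set E : ℤ := (⌈C⌉₊ : ℤ)
  set Q := fun v : P => ((D.place v.1).form.box 0 0) ⧸
    ((D.place v.1).form.box (E + 1) (E + 1)).addSubgroupOf ((D.place v.1).form.box 0 0)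
  have : ∀ v, Finite (Q v) := fun v =>
    Nat.finite_of_card_ne_zero ((D.place v.1).form.relIndex_box_ne_zero _ _ _ _)
  set Small := {c : D.Divisor // ∀ v, c.cmpt v ∈ (D.place v).form.box 0 0 ∧
    (qPlace v : ℝ) ^ c.expAt v ≤ C}
  set code : Small → ∀ v, Q v := fun c v => (⟨_, (c.2 v.1).1⟩ : (D.place v.1).form.box 0 0)
  have hcode : ∀ c c' : Small, code c = code c' → c.1.EquivBy c'.1 (1, 0) := by
    intro c c' he
    refine Divisor.Equiv.equivBy fun v => ?_
    have hbnd : ∀ e : Small, 0 ≤ e.1.expAt v ∧ (qPlace v : ℝ) ^ e.1.expAt v ≤ C := fun e =>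
      ⟨((D.place v).form.torus_n_mem (e.2 v).1).resolve_left (e.1.n_ne v), (e.2 v).2⟩
    by_cases hv : v ∈ P
    · have h1 := QuotientAddGroup.eq.mp (congrFun he ⟨v, hv⟩)
      rw [AddSubgroup.mem_addSubgroupOf] at h1
      obtain ⟨k, hk⟩ := Int.eq_ofNat_of_zero_le (hbnd c).1
      have h2 := (hbnd c).2
      rw [hk, zpow_natCast] at h2
      have h3 : (k : ℝ) ≤ C := le_trans
        (by exact_mod_cast (Nat.lt_two_pow_self (n := k)).le)
        ((pow_le_pow_left₀ zero_le_two (by
          exact_mod_cast (show 2 ≤ qPlace v by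
            have := one_lt_qPlace v
            exact_mod_cast this)) k).trans h2)
      have h4 : k ≤ ⌈C⌉₊ := by exact_mod_cast h3.trans (Nat.le_ceil C)
      obtain ⟨u, hu1, hu2, hu3, hu4⟩ := (D.place v).form.exists_unit_of_sub_mem (c.2 v).1
        (c.1.n_ne v) (r := E + 1) (h' := c'.1.cmpt v)
        (by have : (D.place v).form.ord ((D.place v).form.n (c.1.cmpt v)) = k := hk
            simp only [E]; omega)
        (by simpa [neg_add_eq_sub] using h1)
      exact ⟨u, ⟨hu1, hu2, hu3⟩, hu4⟩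
    · have hz : ∀ e : Small, (D.place v).IsUnitPair (e.1.cmpt v) := fun e => by
        refine ⟨(e.2 v).1, e.1.n_ne v, ?_⟩
        by_contra hne
        refine hv (le_trans ?_ (hbnd e).2)
        conv_lhs => rw [← zpow_one (qPlace v : ℝ)]
        exact zpow_le_zpow_right₀ (one_lt_qPlace v).le
          (lt_of_le_of_ne (hbnd e).1 (Ne.symm hne))
      obtain ⟨w, hw, hwc⟩ := PlaceDatum.IsUnitPair.exists_inv _ (hz c)
      refine ⟨_, PlaceDatum.IsUnitPair.mul _ (hz c') hw, ?_⟩
      rw [(D.place v).form.qmul_assoc, hwc, (D.place v).form.qmul_one]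
  let st : Setoid D.Divisor :=
    { r := fun h h' => ∃ x : F × F, x ≠ 0 ∧ h.EquivBy h' x
      iseqv :=
        { refl := fun h => ⟨(1, 0), by simp, Divisor.EquivBy.refl h⟩
          symm := fun ⟨x, hx, e⟩ => ⟨_, D.ginv_ne hx, e.symm hx⟩
          trans := fun ⟨x, hx, e⟩ ⟨y, hy, e'⟩ => ⟨_, D.gmul_ne hx hy, e.trans e'⟩ } }
  have : Finite (Quotient st) := by
    have : Finite (Set.range code) := Finite.of_injective _ Subtype.val_injective
    refine Finite.of_surjective
      (fun k : Set.range code => Quotient.mk st k.2.choose.1) fun q => ?_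
    induction q using Quotient.ind with
    | _ h =>
      obtain ⟨c, hc, x, hx, e⟩ := hC h
      refine ⟨⟨code ⟨c, hc⟩, ⟨c, hc⟩, rfl⟩, ?_⟩
      have h1 := (⟨code ⟨c, hc⟩, ⟨c, hc⟩, rfl⟩ : Set.range code).2.choose_spec
      exact (Quotient.sound (s := st) (show ∃ y : F × F, y ≠ 0 ∧ _ from
        ⟨_, by simp, hcode _ _ h1⟩)).trans (Quotient.sound (s := st) ⟨_, D.ginv_ne hx, e.symm hx⟩)
  have := Fintype.ofFinite (Quotient st)
  refine ⟨Finset.univ.image fun q : Quotient st => q.out, fun h => ⟨_, Finset.mem_image.mpr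
    ⟨Quotient.mk st h, Finset.mem_univ _, rfl⟩, Quotient.mk_out (s := st) h⟩, ?_⟩
  intro h₀ h0 h₁ h1 x hx e
  obtain ⟨q₀, -, rfl⟩ := Finset.mem_image.mp h0
  obtain ⟨q₁, -, rfl⟩ := Finset.mem_image.mp h1
  rw [show q₀ = q₁ by rw [← Quotient.out_eq q₀, ← Quotient.out_eq q₁]; exact Quotient.sound ⟨x, hx, e⟩]

end ThetaData

end Fermat.Agent.LT.DihedralTheta

end
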