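import Fermat.Agent.LT.DihedralTheta.Theta
import Fermat.Agent.LT.DihedralTheta.TorusClass
import Fermat.Agent.LT.DihedralTheta.LocalFourier

/-!
# The coefficient as a sum over classes of divisors

The integrand of a local Whittaker function only depends on the class of the variable modulo
units, and a class of norm valuation `N` has mass `q ^ (-N)` times that of the units. Hence the
product of the local functions is a sum over the divisors modulo units, with finite support.
-/

set_option autoImplicit false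

noncomputable section

open IsDedekindDomain NumberField
open Fermat.Agent.LT.Places

namespace Fermat.Agent.LT.DihedralTheta

variable {F : Type*} [Field F] [NumberField F]

namespace PlaceDatum

variable {s p : F} {v : FinPlace F} (P : PlaceDatum s p v)

lemma isUnitPair_one_add {σ : v.adicCompletion F × v.adicCompletion F}
    (hσ : σ ∈ P.form.box 1 1) : P.IsUnitPair ((1, 0) + σ) := by
  obtain ⟨c, h1, h2, h3, h4⟩ := P.form.exists_unit_of_sub_mem (h := (1, 0))
    (h' := (1, 0) + σ) P.form.torus_one_mem (by rw [P.form.torus_n_one]; exact one_ne_zero) (r := 1)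
    (by rw [P.form.torus_n_one, P.form.ord_one]; norm_num) (by rwa [add_sub_cancel_left])
  rw [h4, P.form.qmul_one]
  exact ⟨h1, h2, h3⟩

/-- The integrand is invariant under units. -/
theorem whitInt_qmul_unit (g : GL (Fin 2) (v.adicCompletion F)) (ξ : v.adicCompletion F)
    {c : v.adicCompletion F × v.adicCompletion F} (hc : P.IsUnitPair c)
    (z : v.adicCompletion F × v.adicCompletion F) :
    P.vec.whitInt P.psi g ξ (P.form.qmul c z) = P.vec.whitInt P.psi g ξ z := by
  obtain ⟨a, β, d, ha, hd, k, hk, hg⟩ := P.form.exists_iwasawa g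
  refine (LocalVec.whitInt_eq (T := P.vec) (ψ := P.psi) ha hd hk hg ξ _).trans
    (Eq.trans ?_ (LocalVec.whitInt_eq (T := P.vec) (ψ := P.psi) ha hd hk hg ξ z).symm)
  congr 1
  by_cases hz : P.form.n z = 0
  · have h0 : ∀ w, P.form.n w = 0 → P.vec.φ k (a • w) (ξ / P.form.n w / (a * d)) = 0 :=
      fun w hw => by
        by_contra h
        exact (P.vec.supp_u k hk _ _ h).1 (by simp [hw])
    have h1 : P.form.n (P.form.qmul c z) = 0 := by rw [P.form.n_qmul, hz, mul_zero]
    show P.psi _ * P.vec.φ k _ (ξ / P.form.n _ / _) = P.psi _ * P.vec.φ k _ (ξ / P.form.n z / _)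
    rw [h0 _ h1, h0 _ hz, mul_zero, mul_zero]
  · have he := P.equivariant k hk c hc.1 hc.2.1 hc.2.2 (a • z) (ξ / P.form.n z / (a * d))
    show P.psi _ * P.vec.φ k _ (ξ / P.form.n (P.form.qmul c z) / _) =
      P.psi _ * P.vec.φ k _ (ξ / P.form.n z / _)
    rw [show P.psi (P.form.qmul c z) = P.psi c * P.psi z from P.good.psi_mul hc.2.1 hz,
      show P.vec.φ k (a • z) (ξ / P.form.n z / (a * d)) = _ from he.symm,
      show (placeForm v _ _ P.trace_le P.norm_le).qmul c (a • z) = a • P.form.qmul c z from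
        P.form.qmul_smul a c z]
    rw [show ξ / P.form.n z / (a * d) / (placeForm v _ _ P.trace_le P.norm_le).n c =
      ξ / P.form.n (P.form.qmul c z) / (a * d) by
        show _ / P.form.n c = _
        rw [P.form.n_qmul]; field_simp]
    ring

/-- Equality up to units. -/
def locSetoid : Setoid {z // P.form.n z ≠ 0} where
  r h h' := ∃ c, P.IsUnitPair c ∧ h'.1 = P.form.qmul c h.1
  iseqv :=
    { refl := fun h => ⟨(1, 0), P.isUnitPair_one, (P.form.torus_one_qmul _).symm⟩
      symm := by
        rintro h h' ⟨c, hc, e⟩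
        obtain ⟨d, hd, hdc⟩ := PlaceDatum.IsUnitPair.exists_inv P hc
        exact ⟨d, hd, by rw [e, ← P.form.qmul_assoc, hdc, P.form.torus_one_qmul]⟩
      trans := by
        rintro h h' h'' ⟨c, hc, e⟩ ⟨c', hc', e'⟩
        exact ⟨_, PlaceDatum.IsUnitPair.mul P hc' hc, by rw [e', e, P.form.qmul_assoc]⟩ }

/-- The classes modulo units. -/
abbrev LocClass : Type _ := Quotient P.locSetoid

/-- The class of an element. -/
def locClass (z : v.adicCompletion F × v.adicCompletion F) (hz : P.form.n z ≠ 0) : P.LocClass :=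
  Quotient.mk P.locSetoid ⟨z, hz⟩

lemma locClass_eq_iff {z w : v.adicCompletion F × v.adicCompletion F} {hz : P.form.n z ≠ 0}
    {hw : P.form.n w ≠ 0} :
    P.locClass z hz = P.locClass w hw ↔ ∃ c, P.IsUnitPair c ∧ w = P.form.qmul c z :=
  Quotient.eq (r := P.locSetoid)

/-- One term. -/
def whitVal (g : GL (Fin 2) (v.adicCompletion F)) (ξ : v.adicCompletion F)
    (z : v.adicCompletion F × v.adicCompletion F) : ℂ :=
  P.form.sqrtQ ^ (-P.form.ord (P.form.n z)) * P.vec.whitInt P.psi g ξ z

lemma whitVal_qmul_unit (g : GL (Fin 2) (v.adicCompletion F)) (ξ : v.adicCompletion F)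
    {c : v.adicCompletion F × v.adicCompletion F} (hc : P.IsUnitPair c)
    {z : v.adicCompletion F × v.adicCompletion F} (hz : P.form.n z ≠ 0) :
    P.whitVal g ξ (P.form.qmul c z) = P.whitVal g ξ z := by
  rw [whitVal, whitVal, P.whitInt_qmul_unit g ξ hc, P.form.n_qmul, P.form.ord_mul hc.2.1 hz,
    hc.2.2, zero_add]

/-- The term of a class. -/
def locTerm (g : GL (Fin 2) (v.adicCompletion F)) (ξ : v.adicCompletion F) : P.LocClass → ℂ :=
  Quotient.lift (s := P.locSetoid) (fun h => P.whitVal g ξ h.1) fun h h' ⟨c, hc, e⟩ => by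
    show P.whitVal g ξ h.1 = P.whitVal g ξ h'.1
    rw [e, P.whitVal_qmul_unit g ξ hc h.2]

@[simp] lemma locTerm_locClass (g : GL (Fin 2) (v.adicCompletion F)) (ξ : v.adicCompletion F)
    {z : v.adicCompletion F × v.adicCompletion F} (hz : P.form.n z ≠ 0) :
    P.locTerm g ξ (P.locClass z hz) = P.whitVal g ξ z := rfl

open Classical in
/-- The indicator of a class. -/
def classInd (o : P.LocClass) (z : v.adicCompletion F × v.adicCompletion F) : ℂ :=
  if h : P.form.n z ≠ 0 then if P.locClass z h = o then 1 else 0 else 0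

lemma classInd_ne_zero {o : P.LocClass} {z : v.adicCompletion F × v.adicCompletion F}
    (h : P.classInd o z ≠ 0) : ∃ hz, P.locClass z hz = o := by
  unfold classInd at h
  split_ifs at h with h1 h2
  · exact ⟨h1, h2⟩
  all_goals exact absurd rfl h

open Classical in
/-- A class is a translate of the units, of mass `q ^ (-N)` times theirs. -/
lemma classInd_props {t : v.adicCompletion F × v.adicCompletion F} (ht : P.form.n t ≠ 0) :
    ∃ k : ℤ, (∀ i ≤ k, HasSupp (P.form.box i i) (P.classInd (P.locClass t ht))) ∧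
      (∀ R, P.form.ord (P.form.n t) + 1 - k ≤ R →
        IsPer (P.form.box R R) (P.classInd (P.locClass t ht))) ∧
      integral P.form.base (P.classInd (P.locClass t ht)) =
        ((P.form.q : ℂ) ^ P.form.ord (P.form.n t))⁻¹ * P.form.unitVol := by
  set K := P.form
  obtain ⟨k, hk⟩ := K.exists_box t
  have hrep : ∀ z hz, P.locClass z hz = P.locClass t ht →
      z ∈ K.box k k ∧ K.ord (K.n z) = K.ord (K.n t) := fun z hz h => by
    obtain ⟨c, hc, e⟩ := P.locClass_eq_iff.mp h.symm
    refine ⟨?_, by rw [e, K.n_qmul, K.ord_mul hc.2.1 ht, hc.2.2, zero_add]⟩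
    rw [e]
    simpa using K.qmul_mem hc.1 (hk k le_rfl)
  have hsupp : ∀ i ≤ k, HasSupp (K.box i i) (P.classInd (P.locClass t ht)) := fun i hi z hz => by
    obtain ⟨hn, he⟩ := P.classInd_ne_zero hz
    exact K.box_le hi hi (hrep z hn he).1
  have hper : ∀ R, K.ord (K.n t) + 1 - k ≤ R →
      IsPer (K.box R R) (P.classInd (P.locClass t ht)) := by
    intro R hR
    have main : ∀ z, ∀ ρ ∈ K.box R R, P.classInd (P.locClass t ht) z ≠ 0 →
        P.classInd (P.locClass t ht) (z + ρ) = P.classInd (P.locClass t ht) z := by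
      intro z ρ hρ hne
      obtain ⟨hn, he⟩ := P.classInd_ne_zero hne
      obtain ⟨hzk, hord⟩ := hrep z hn he
      obtain ⟨σ, hσ, e⟩ := K.exists_qmul_one_add hn hzk hρ
      have hu := P.isUnitPair_one_add (K.box_le (by omega) (by omega) hσ : σ ∈ K.box 1 1)
      have hn' : K.n (z + ρ) ≠ 0 := by rw [e, K.n_qmul]; exact mul_ne_zero hn hu.2.1
      have he' : P.locClass (z + ρ) hn' = P.locClass t ht := by
        rw [← he]
        exact (P.locClass_eq_iff.mpr ⟨_, hu, by rw [e, K.torus_qmul_comm]⟩).symm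
      simp only [classInd]
      rw [dif_pos hn', dif_pos hn, if_pos he', if_pos he]
    intro z ρ hρ
    by_cases h0 : P.classInd (P.locClass t ht) z = 0
    · by_contra hne
      rw [h0] at hne
      have := main (z + ρ) (-ρ) (neg_mem hρ) hne
      rw [add_neg_cancel_right, h0] at this
      exact hne this.symm
    · exact main z ρ hρ h0
  refine ⟨k, hsupp, hper, ?_⟩
  have hF : K.IsBoxSch (P.classInd (P.locClass t ht)) :=
    ⟨_, _, hper _ le_rfl, hsupp k le_rfl⟩
  have h := LocalForm.integral_comp_linear hF (K.qmulEquiv t ht)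
  rw [K.ratio_qmulEquiv ht] at h
  rw [eq_inv_mul_iff_mul_eq₀ (zpow_ne_zero _ K.q_ne_zero), ← h, K.unitVol_eq]
  congr 1
  funext z
  show P.classInd _ (K.qmul t z) = if z ∈ K.box 0 0 ∧ K.n z ≠ 0 ∧ K.ord (K.n z) = 0 then 1 else 0
  simp only [classInd]
  by_cases hz : P.IsUnitPair z
  · have hn : K.n (K.qmul t z) ≠ 0 := by rw [K.n_qmul]; exact mul_ne_zero ht hz.2.1
    rw [dif_pos hn, if_pos, if_pos (show z ∈ K.box 0 0 ∧ _ from hz)]
    exact (P.locClass_eq_iff.mpr ⟨z, hz, K.torus_qmul_comm t z⟩).symm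
  · rw [if_neg (show ¬(z ∈ K.box 0 0 ∧ _) from hz)]
    split_ifs with h1 h2
    · obtain ⟨c, hc, e⟩ := P.locClass_eq_iff.mp h2.symm
      rw [K.torus_qmul_comm c t] at e
      exact absurd ((K.qmulEquiv t ht).injective (e : K.qmul t z = K.qmul t c) ▸ hc) hz
    all_goals rfl

/-- The classes meeting the support are finite in number. -/
theorem finite_locTerm (g : GL (Fin 2) (v.adicCompletion F)) (ξ : v.adicCompletion F) :
    ∃ T : Finset P.LocClass, (∀ o, P.locTerm g ξ o ≠ 0 → o ∈ T) ∧
      P.vec.whit P.psi g ξ = ∑ o ∈ T, P.locTerm g ξ o := by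
  classical
  set K := P.form
  set f := P.vec.whitInt P.psi g ξ with hf
  set N := K.ord ξ + P.vec.e - K.ord g.val.det with hN
  obtain ⟨k0, hk0⟩ := LocalVec.exists_sch P.good g
  obtain ⟨hsupp, R₁, hper₁⟩ := hk0 ξ
  set R₂ := max R₁ (max k0 (N + 1 - k0))
  have hper₂ : IsPer (K.box R₂ R₂) f := hper₁.mono (K.box_le (le_max_left _ _) (le_max_left _ _))
  have hne : ∀ z, f z ≠ 0 → ∃ _ : K.n z ≠ 0, K.ord (K.n z) = N := fun z hz =>
    ⟨(LocalVec.whitInt_ne_zero hz).1, (LocalVec.whitInt_ne_zero hz).2.2⟩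
  have hC := finite_support (K.isLat_box R₂ R₂) (K.isLat_box k0 k0) hsupp
  have T3 : ∀ c, c ∈ hC.toFinset → f c.out ≠ 0 := fun c hc => (Set.Finite.mem_toFinset hC).mp hc
  let F1 : hC.toFinset → P.LocClass := fun c => P.locClass c.1.out (hne _ (T3 c.1 c.2)).1
  let T : Finset P.LocClass := Finset.image F1 Finset.univ
  have hmem : ∀ z (hn : K.n z ≠ 0), f z ≠ 0 → P.locClass z hn ∈ T := by
    intro z hn hz
    set c : _ ⧸ K.box R₂ R₂ := (z : _ ⧸ K.box R₂ R₂)
    have hco : f c.out ≠ 0 := by rwa [show c = _ from rfl, hper₂.out_eq]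
    obtain ⟨ρ, hρ⟩ := QuotientAddGroup.mk_out_eq_add (K.box R₂ R₂) z
    obtain ⟨σ, hσ, e⟩ := K.exists_qmul_one_add hn (hsupp z hz) ρ.2
    have hN' := (hne z hz).2
    have hu := P.isUnitPair_one_add (K.box_le
      (by have := le_max_of_le_right (b := R₁) (le_max_right k0 (N + 1 - k0)); omega)
      (by have := le_max_of_le_right (b := R₁) (le_max_right k0 (N + 1 - k0)); omega) hσ :
        σ ∈ K.box 1 1)
    refine Finset.mem_image.mpr ⟨⟨c, (Set.Finite.mem_toFinset hC).mpr hco⟩, Finset.mem_univ _, ?_⟩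
    refine (P.locClass_eq_iff.mpr ⟨_, hu, ?_⟩).symm
    rw [show c.out = z + (ρ : _) from hρ, e, K.torus_qmul_comm]
  have hTN : ∀ o ∈ T, ∃ z, ∃ hn : K.n z ≠ 0, o = P.locClass z hn ∧ K.ord (K.n z) = N := by
    intro o ho
    obtain ⟨c, -, rfl⟩ := Finset.mem_image.mp ho
    exact ⟨_, _, rfl, (hne c.1.out (T3 c.1 c.2)).2⟩
  refine ⟨T, fun o => ?_, ?_⟩
  · refine Quotient.inductionOn (s := P.locSetoid) o fun h => ?_
    exact fun ho => hmem h.1 h.2 (right_ne_zero_of_mul ho)
  choose rep hrep hrepo hrepN using hTN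
  choose kt hkt1 hkt2 hkt3 using fun o : T => P.classInd_props (hrep o.1 o.2)
  obtain ⟨k, hk⟩ := (Finset.univ.image kt ∪ {k0}).bddBelow
  have hkt : ∀ o : T, k ≤ kt o := fun o =>
    hk (Finset.mem_coe.mpr (Finset.mem_union_left _ (Finset.mem_image_of_mem _ (Finset.mem_univ o))))
  have hk0' : k ≤ k0 := hk (Finset.mem_coe.mpr (Finset.mem_union_right _ (Finset.mem_singleton_self _)))
  set R := max R₂ (max k (N + 1 - k))
  have hper : IsPer (K.box R R) f := hper₂.mono (K.box_le (le_max_left _ _) (le_max_left _ _))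
  have hsplit : f = fun z => ∑ o : T, f (rep o.1 o.2) * P.classInd o.1 z := by
    funext z
    by_cases hz : ∃ hn : K.n z ≠ 0, P.locClass z hn ∈ T
    · obtain ⟨hn, hz⟩ := hz
      rw [Finset.sum_eq_single (⟨_, hz⟩ : T)]
      · obtain ⟨c, hc, e⟩ := P.locClass_eq_iff.mp (hrepo _ hz)
        rw [show P.classInd _ z = 1 by
          simp only [PlaceDatum.classInd]; rw [dif_pos hn]; simp, mul_one]
        show P.vec.whitInt P.psi g ξ z = P.vec.whitInt P.psi g ξ (rep _ hz)
        rw [e, P.whitInt_qmul_unit g ξ hc]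
      · intro o _ ho
        rw [show P.classInd o.1 z = 0 from ?_, mul_zero]
        by_contra h
        obtain ⟨hn', e⟩ := P.classInd_ne_zero h
        exact ho (Subtype.ext e.symm)
      · exact fun h => absurd (Finset.mem_univ _) h
    · rw [Finset.sum_eq_zero fun o _ => ?_]
      · by_contra hfz
        exact hz ⟨(hne z hfz).1, hmem z _ hfz⟩
      · rw [show P.classInd o.1 z = 0 from ?_, mul_zero]
        by_contra h
        obtain ⟨hn', e⟩ := P.classInd_ne_zero h
        exact hz ⟨hn', e ▸ o.2⟩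
  have hP : ∀ o : T, IsPer (K.box R R) (P.classInd o.1) := fun o => by
    rw [hrepo o.1 o.2]
    refine hkt2 o R ?_
    rw [show K.ord (K.n (rep o.1 o.2)) = N from hrepN o.1 o.2]
    have := le_max_of_le_right (b := R₂) (le_max_right k (N + 1 - k))
    have := hkt o
    omega
  have hS : ∀ o : T, HasSupp (K.box k k) (P.classInd o.1) := fun o => by
    rw [hrepo o.1 o.2]; exact hkt1 o k (hkt o)
  have hint : integral K.base f =
      ∑ o : T, f (rep o.1 o.2) * (((K.q : ℂ) ^ N)⁻¹ * K.unitVol) := by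
    conv_lhs => rw [hsplit]
    rw [integral_finset_sum Finset.univ (fun (o : T) z => f (rep o.1 o.2) * P.classInd o.1 z)
      (K.isLat_box R R) (K.isLat_box k k)
      (fun o _ z ρ hρ => by simp only [hP o z ρ hρ])
      fun o _ z hz => hS o z (right_ne_zero_of_mul hz)]
    refine Finset.sum_congr rfl fun o _ => ?_
    rw [integral_const_mul ⟨_, _, K.isLat_box R R, K.isLat_box k k, hP o, hS o⟩]
    congr 1
    conv_lhs => rw [hrepo o.1 o.2]
    rw [hkt3 o, hrepN o.1 o.2]
  show K.sqrtQ ^ N / K.unitVol * integral K.base f = _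
  rw [hint, Finset.mul_sum, ← T.sum_coe_sort]
  refine Finset.sum_congr rfl fun o _ => ?_
  conv_rhs => rw [hrepo o.1 o.2, P.locTerm_locClass, PlaceDatum.whitVal, hrepN o.1 o.2]
  show _ = K.sqrtQ ^ (-N) * f (rep o.1 o.2)
  rw [← K.sqrtQ_zpow_two N, zpow_neg, two_mul, zpow_add₀ K.sqrtQ_ne]
  have := zpow_ne_zero N K.sqrtQ_ne
  have := K.unitVol_ne
  field_simp

open Classical in
/-- At a good place only the units contribute. -/
lemma IsStd.whitVal_eq (h : P.IsStd) {g : GL (Fin 2) (v.adicCompletion F)}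
    (hg : g ∈ (placeBase v).intGL) {ξ : v.adicCompletion F} (hξ : ξ ≠ 0) (ho : placeOrd v ξ = 0)
    (z : v.adicCompletion F × v.adicCompletion F) :
    P.whitVal g ξ z = if P.IsUnitPair z then 1 else 0 := by
  have e : P.vec.whitInt P.psi g ξ z = P.psi z * P.form.sphFun z (ξ / P.form.n z) := by
    rw [← h.fl_eq hg]; rfl
  rw [whitVal, e]
  have key : ∀ hz : P.form.n z ≠ 0, P.form.ord (ξ / P.form.n z) = -P.form.ord (P.form.n z) := by
    intro hz
    rw [div_eq_mul_inv, P.form.ord_mul hξ (inv_ne_zero hz), P.form.ord_inv hz,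
      show P.form.ord ξ = 0 from ho, zero_add]
  have hc : P.form.cond = 0 := h.cond_eq
  by_cases hu : P.IsUnitPair z
  · rw [if_pos hu, show P.psi z = 1 from h.psi_unram.unit z hu.1 hu.2.1 hu.2.2, hu.2.2, neg_zero,
      zpow_zero, one_mul, one_mul]
    exact if_pos ⟨hu.1, div_ne_zero hξ hu.2.1, by rw [key hu.2.1, hu.2.2, neg_zero, hc]⟩
  · rw [if_neg hu, show P.form.sphFun z (ξ / P.form.n z) = 0 from if_neg fun hh => hu ?_,
      mul_zero, mul_zero]
    obtain ⟨h1, h2, h3⟩ := hh
    have hz := (div_ne_zero_iff.mp h2).2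
    rw [key hz, hc, neg_eq_zero] at h3
    exact ⟨h1, hz, h3⟩

end PlaceDatum

namespace ThetaData

variable (D : ThetaData F)

/-- The divisors modulo units. -/
def divSetoid : Setoid D.Divisor where
  r h h' := ∀ v, (D.place v).locClass (h.cmpt v) (h.n_ne v) =
    (D.place v).locClass (h'.cmpt v) (h'.n_ne v)
  iseqv := ⟨fun _ _ => rfl, fun h v => (h v).symm, fun h h' v => (h v).trans (h' v)⟩

/-- The classes of divisors. -/
abbrev DivClass : Type _ := Quotient D.divSetoid

/-- The class of a divisor. -/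
def Divisor.cls {D : ThetaData F} (h : D.Divisor) : D.DivClass := Quotient.mk D.divSetoid h

variable {D} in
/-- Two divisors have the same class iff they are equivalent. -/
lemma Divisor.cls_eq_iff {h h' : D.Divisor} : h.cls = h'.cls ↔ h.Equiv h' := by
  refine (Quotient.eq (r := D.divSetoid)).trans ?_
  exact forall_congr' fun v => (D.place v).locClass_eq_iff

/-- The term of a divisor. -/
def divVal (g : GLFin F) (ξ : F) (h : D.Divisor) : ℂ :=
  ∏ᶠ v, (D.place v).whitVal (glPlace v g) (cmp v ξ) (h.cmpt v)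

/-- The term of a class. -/
def divTerm (g : GLFin F) (ξ : F) : D.DivClass → ℂ :=
  Quotient.lift (s := D.divSetoid) (D.divVal g ξ) fun h h' he => finprod_congr fun v => by
    rw [← PlaceDatum.locTerm_locClass _ _ _ (h.n_ne v), he v, PlaceDatum.locTerm_locClass]

/-- The term of a class is the value at any representative. -/
@[simp] lemma divTerm_cls (g : GLFin F) (ξ : F) (h : D.Divisor) :
    D.divTerm g ξ h.cls = D.divVal g ξ h := rfl

/-- The local Whittaker values of a divisor are `1` at almost all places. -/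
lemma finite_divVal (g : GLFin F) {ξ : F} (hξ : ξ ≠ 0) (h : D.Divisor) :
    (Function.mulSupport fun v => (D.place v).whitVal (glPlace v g) (cmp v ξ) (h.cmpt v)).Finite := by
  refine (((D.almost_std.union (finite_not_intGL g)).union (finite_valuation_ne_one hξ)).union
    h.almost_unit).subset fun v hv => ?_
  by_contra hc
  simp only [Set.mem_union, Set.mem_ofPred_eq, not_or, not_not] at hc
  obtain ⟨⟨⟨h1, h2⟩, h3⟩, h4⟩ := hc
  refine hv ?_
  show (D.place v).whitVal _ _ _ = 1
  rw [h1.whitVal_eq _ h2 ((map_ne_zero _).mpr hξ) (placeOrd_cmp_eq_zero h3), if_pos h4]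

/-- **The coefficient is the sum over classes of divisors.** -/
theorem hasSum_divTerm (g : GLFin F) {ξ : F} (hξ : ξ ≠ 0) :
    HasSum (D.divTerm g ξ) (D.coeff g ξ) := by
  classical
  set S := ((D.almost_std.union (finite_not_intGL g)).union (finite_valuation_ne_one hξ)).toFinset
    with hS
  have hout : ∀ v ∉ S, ∀ z, (D.place v).whitVal (glPlace v g) (cmp v ξ) z =
      if (D.place v).IsUnitPair z then 1 else 0 := fun v hv z => by
    simp only [hS, Set.Finite.mem_toFinset, Set.mem_union, Set.mem_ofPred_eq, not_or, not_not] at hv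
    exact hv.1.1.whitVal_eq _ hv.1.2 ((map_ne_zero _).mpr hξ) (placeOrd_cmp_eq_zero hv.2) z
  choose T hT hTsum using fun v => (D.place v).finite_locTerm (glPlace v g) (cmp v ξ)
  let mk : (∀ v ∈ S, (D.place v).LocClass) → D.Divisor := fun q =>
    { cmpt := fun v => if hv : v ∈ S then (Quotient.out (q v hv)).1 else (1, 0)
      n_ne := fun v => by
        by_cases hv : v ∈ S
        · rw [dif_pos hv]; exact (Quotient.out (q v hv)).2
        · rw [dif_neg hv]; exact (D.place v).isUnitPair_one.2.1
      almost_unit := S.finite_toSet.subset fun v hv => by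
        by_contra h
        rw [Finset.mem_coe] at h
        exact hv (by rw [dif_neg h]; exact (D.place v).isUnitPair_one) }
  have hmkS : ∀ q v (hv : v ∈ S),
      (D.place v).locClass ((mk q).cmpt v) ((mk q).n_ne v) = q v hv := fun q v hv => by
    conv_rhs => rw [← Quotient.out_eq (q v hv)]
    simp only [PlaceDatum.locClass, mk, dif_pos hv]
  have hinj : ∀ q q', (mk q).cls = (mk q').cls → q = q' := fun q q' h => by
    funext v hv
    rw [← hmkS q v hv, ← hmkS q' v hv]
    exact Quotient.exact h v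
  have hval : ∀ q, D.divTerm g ξ (mk q).cls =
      ∏ x ∈ S.attach, (D.place x.1).locTerm (glPlace x.1 g) (cmp x.1 ξ) (q x.1 x.2) := fun q => by
    rw [divTerm_cls, divVal, finprod_eq_prod_of_mulSupport_subset _ (s := S) fun v hv => ?_,
      ← Finset.prod_attach]
    · refine Finset.prod_congr rfl fun x _ => ?_
      rw [← hmkS q x.1 x.2, PlaceDatum.locTerm_locClass]
    · by_contra h
      refine hv ?_
      show (D.place v).whitVal _ _ _ = 1
      rw [hout v h, if_pos]
      show (D.place v).IsUnitPair (if hv : v ∈ S then _ else (1, 0))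
      rw [dif_neg (fun hh => h (Finset.mem_coe.mpr hh))]
      exact (D.place v).isUnitPair_one
  set Z : Finset D.DivClass := (S.pi T).image fun q => (mk q).cls
  have hz : ∀ d ∉ Z, D.divTerm g ξ d = 0 := fun d => Quotient.inductionOn (s := D.divSetoid) d
    fun h hd => by
      show D.divVal g ξ h = 0
      by_contra hne
      have hne' : ∀ v, (D.place v).whitVal (glPlace v g) (cmp v ξ) (h.cmpt v) ≠ 0 := fun v h0 =>
        hne (finprod_eq_zero _ v h0 (D.finite_divVal g hξ h))
      refine hd (Finset.mem_image.mpr ⟨fun v _ => (D.place v).locClass (h.cmpt v) (h.n_ne v),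
        Finset.mem_pi.mpr fun v hv => hT v _ (by rw [PlaceDatum.locTerm_locClass]; exact hne' v), ?_⟩)
      refine Quotient.sound (s := D.divSetoid) fun v => ?_
      by_cases hv : v ∈ S
      · exact hmkS _ v hv
      · have hu : (D.place v).IsUnitPair (h.cmpt v) := by
          by_contra hu
          exact hne' v (by rw [hout v hv, if_neg hu])
        refine (D.place v).locClass_eq_iff.mpr ⟨h.cmpt v, hu, ?_⟩
        simp only [mk, dif_neg hv, LocalForm.qmul_one]
  have hsum : ∑ d ∈ Z, D.divTerm g ξ d = D.coeff g ξ := by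
    rw [Finset.sum_image fun q _ q' _ h => hinj q q' h, Finset.sum_congr rfl fun q _ => hval q,
      ← Finset.prod_sum S T fun v o => (D.place v).locTerm (glPlace v g) (cmp v ξ) o,
      D.coeff_of_ne hξ, finprod_eq_prod_of_mulSupport_subset _ (s := S)
        fun v hv => ?_]
    · exact Finset.prod_congr rfl fun v _ => (hTsum v).symm
    · simp only [hS, Set.Finite.coe_toFinset, Set.mem_union, Set.mem_ofPred_eq]
      by_contra hc
      simp only [not_or, not_not] at hc
      exact hv (hc.1.1.whit_eq_one hc.1.2 ((map_ne_zero _).mpr hξ) (placeOrd_cmp_eq_zero hc.2))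
  rw [← hsum]
  exact hasSum_sum_of_ne_finset_zero hz

end ThetaData

end Fermat.Agent.LT.DihedralTheta

end
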