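import Fermat.Agent.LT.DihedralTheta.Ball

/-!
# Quadratic phases on the plane of a local field

For the binary form `n (a, b) = a ^ 2 + s a b + p b ^ 2` and an additive character `χ`, the Fourier
transform of a quadratic phase times a locally constant function is again a quadratic phase times
that function, with a Gauss integral as constant.
-/

set_option autoImplicit false

open AddSubgroup

namespace Fermat.Agent.LT.DihedralTheta

section equiv

variable {V : Type*} [AddCommGroup V] {S P D : AddSubgroup V} {f : V → ℂ}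

/-- Change of variables along an automorphism. -/
lemma integral_comp_equiv (e : V ≃+ V) (hP : IsLat S P) (hD : IsLat S D) (hper : IsPer P f)
    (hsupp : HasSupp D f) (hP' : IsLat S (P.comap e.toAddMonoidHom))
    (hD' : IsLat S (D.comap e.toAddMonoidHom)) :
    integral S (fun x => f (e x)) = vol S (P.comap e.toAddMonoidHom) / vol S P * integral S f := by
  have hper' : IsPer (P.comap e.toAddMonoidHom) fun x => f (e x) := fun x p hp => by
    show f (e (x + p)) = f (e x)
    rw [map_add]; exact hper _ _ hp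
  rw [integral_eq hP' hD' hper' fun x hx => hsupp _ hx, integral_eq hP hD hper hsupp,
    div_mul_eq_mul_div, mul_comm (vol S P), ← mul_assoc, mul_div_assoc, div_self (vol_ne_zero hP),
    mul_one]
  congr 1
  rw [sumOver, sumOver]
  let q : (V ⧸ P.comap e.toAddMonoidHom) ≃+ V ⧸ P :=
    QuotientAddGroup.congr _ P e (AddSubgroup.map_comap_eq_self_of_surjective e.surjective P)
  refine Eq.trans (finsum_congr fun c => ?_)
    (finsum_comp_equiv (f := fun c : V ⧸ P => f c.out) q.toEquiv)
  show f (e c.out) = f (q c).out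
  conv_rhs => rw [← QuotientAddGroup.out_eq' c]
  exact (hper.out_eq _).symm

/-- A Schwartz function may be replaced by a pointwise equal one. -/
lemma IsSch.congr {g : V → ℂ} (h : IsSch S f) (hfg : ∀ x, f x = g x) : IsSch S g := by
  rwa [show g = f from (funext hfg).symm]

end equiv

variable {E : Type*} [Field E]

/-- The binary form `a ^ 2 + s a b + p b ^ 2` and a character of conductor `cond`. -/
structure LocalForm (E : Type*) [Field E] extends LocalBase E where
  /-- The middle coefficient. -/
  s : E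
  /-- The last coefficient. -/
  p : E
  /-- The additive character. -/
  χ : AddChar E ℂ
  /-- The conductor exponent of `χ`. -/
  cond : ℤ
  s_mem : s ∈ toLocalBase.ball 0
  p_mem : p ∈ toLocalBase.ball 0
  χ_triv : ∀ x ∈ toLocalBase.ball cond, χ x = 1
  χ_nontriv : ∃ x ∈ toLocalBase.ball (cond - 1), χ x ≠ 1

namespace LocalForm

variable (K : LocalForm E)

/-- The quadratic form. -/
def n (z : E × E) : E := z.1 ^ 2 + K.s * z.1 * z.2 + K.p * z.2 ^ 2

/-- Its polar form. -/
def B (z w : E × E) : E :=
  2 * z.1 * w.1 + K.s * (z.1 * w.2 + z.2 * w.1) + 2 * K.p * z.2 * w.2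

/-- The norm form of a sum. -/
lemma n_add (z w : E × E) : K.n (z + w) = K.n z + K.n w + K.B z w := by
  simp only [n, B, Prod.fst_add, Prod.snd_add]; ring

/-- The bilinear form is additive in the left variable. -/
lemma B_add_left (z z' w : E × E) : K.B (z + z') w = K.B z w + K.B z' w := by
  simp only [B, Prod.fst_add, Prod.snd_add]; ring

lemma B_add_right (z w w' : E × E) : K.B z (w + w') = K.B z w + K.B z w' := by
  simp only [B, Prod.fst_add, Prod.snd_add]; ring

/-- The norm form is quadratic. -/
lemma n_smul (a : E) (z : E × E) : K.n (a • z) = a ^ 2 * K.n z := by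
  simp only [n, Prod.smul_fst, Prod.smul_snd, smul_eq_mul]; ring

/-- `2` is integral. -/
lemma two_mem : (2 : E) ∈ K.ball 0 := by
  rw [← one_add_one_eq_two]; exact add_mem K.one_mem_ball K.one_mem_ball

/-- The norm form on a square box. -/
lemma n_mem {i : ℤ} {z : E × E} (hz : z ∈ K.box i i) : K.n z ∈ K.ball (2 * i) := by
  obtain ⟨h1, h2⟩ := LocalBase.mem_box.mp hz
  refine add_mem (add_mem ?_ ?_) ?_
  · rw [sq]; exact K.mul_mem_ball' h1 h1 (by omega)
  · exact K.mul_mem_ball' (K.mul_mem_ball K.s_mem h1) h2 (by omega)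
  · rw [sq]; exact K.mul_mem_ball' K.p_mem (K.mul_mem_ball h2 h2) (by omega)

/-- The bilinear form on two square boxes. -/
lemma B_mem {i j : ℤ} {z w : E × E} (hz : z ∈ K.box i i) (hw : w ∈ K.box j j) :
    K.B z w ∈ K.ball (i + j) := by
  obtain ⟨z1, z2⟩ := LocalBase.mem_box.mp hz
  obtain ⟨w1, w2⟩ := LocalBase.mem_box.mp hw
  refine add_mem (add_mem ?_ ?_) ?_
  · exact K.mul_mem_ball' (K.mul_mem_ball K.two_mem z1) w1 (by omega)
  · exact K.mul_mem_ball' K.s_mem
      (add_mem (K.mul_mem_ball z1 w2) (K.mul_mem_ball z2 w1)) (by omega)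
  · exact K.mul_mem_ball' (K.mul_mem_ball (K.mul_mem_ball K.two_mem K.p_mem) z2) w2 (by omega)

/-- An element killed by the character after multiplication by a ball is small. -/
lemma mem_ball_of_char {i : ℤ} {L : E} (h : ∀ c ∈ K.ball i, K.χ (L * c) = 1) :
    L ∈ K.ball (K.cond - i) := by
  by_contra hL
  have hL0 : L ≠ 0 := fun h0 => hL (h0 ▸ zero_mem _)
  obtain ⟨w, hw, hχ⟩ := K.χ_nontriv
  have hlt : ¬ K.cond - i ≤ K.ord L := fun h' => hL (Or.inr h')
  refine hχ ?_
  rw [show w = L * (L⁻¹ * w) by rw [mul_inv_cancel_left₀ hL0]]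
  refine h _ ?_
  rw [K.mul_mem_ball_iff (inv_ne_zero hL0), K.ord_inv hL0]
  exact K.ball_le (by omega) hw

/-- Every point lies in a square box. -/
lemma exists_box (z : E × E) : ∃ k : ℤ, ∀ k' ≤ k, z ∈ K.box k' k' :=
  ⟨min (K.ord z.1) (K.ord z.2), fun _k' hk => LocalBase.mem_box.mpr
    ⟨Or.inr (hk.trans (min_le_left _ _)), Or.inr (hk.trans (min_le_right _ _))⟩⟩

open Classical in
/-- The Gauss integral of a box. -/
noncomputable def gauss (x : E) (P : AddSubgroup (E × E)) : ℂ :=
  integral K.base fun t => if t ∈ P then K.χ (x * K.n t) else 0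

/-- The phase times `φ`. -/
noncomputable def phase (x : E) (c : E × E) (φ : E × E → ℂ) (z : E × E) : ℂ :=
  K.χ (x * K.n (z - c)) * φ z

/-- The character `q ↦ χ (x B (z, q))`. -/
def pairing (x : E) (z : E × E) (Q : AddSubgroup (E × E)) : AddChar Q ℂ :=
  K.χ.compAddMonoidHom (AddMonoidHom.mk' (fun q : Q => x * K.B z q) fun q q' => by
    simp only [AddSubgroup.coe_add, K.B_add_right, mul_add])

lemma pairing_eq_one_iff {x : E} {z : E × E} {Q : AddSubgroup (E × E)} :
    K.pairing x z Q = 1 ↔ ∀ q ∈ Q, K.χ (x * K.B z q) = 1 := by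
  constructor
  · intro h q hq
    exact DFunLike.congr_fun h (⟨q, hq⟩ : Q)
  · exact fun h => DFunLike.ext _ _ fun q => h q.1 q.2

open Classical in
/-- The part of a phase where the pairing with `Q` is trivial. -/
noncomputable def stationaryPart (x : E) (c : E × E) (Q : AddSubgroup (E × E)) (φ : E × E → ℂ)
    (z : E × E) : ℂ :=
  if K.pairing x (z - c) Q = 1 then K.phase x c φ z else 0

variable {x : E} {c : E × E} {a b i j : ℤ} {φ : E × E → ℂ}

/-- Periods and supports of a phase. -/
lemma phase_per {k : ℤ} (hper : IsPer (K.box a b) φ) (hsupp : HasSupp (K.box k k) φ) :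
    ∃ r : ℤ, ∃ k' : ℤ, a ≤ r ∧ b ≤ r ∧ i ≤ r ∧ j ≤ r ∧ c ∈ K.box k' k' ∧
      IsPer (K.box r r) (K.phase x c φ) ∧ HasSupp (K.box k' k') (K.phase x c φ) := by
  obtain ⟨kc, hkc⟩ := K.exists_box c
  set k' := min kc (min k (min a b))
  refine ⟨max (max a b) (max (max i j) (max (K.cond - K.ord x - k') (K.cond - K.ord x + |K.cond - K.ord x|))),
    k', le_max_of_le_left (le_max_left _ _), le_max_of_le_left (le_max_right _ _),
    le_max_of_le_right (le_max_of_le_left (le_max_left _ _)),
    le_max_of_le_right (le_max_of_le_left (le_max_right _ _)), hkc _ (min_le_left _ _), ?_,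
    fun z hz => K.box_le (by omega) (by omega) (hsupp z (right_ne_zero_of_mul hz))⟩
  intro z ρ hρ
  set r := max (max a b) (max (max i j) (max (K.cond - K.ord x - k') (K.cond - K.ord x + |K.cond - K.ord x|)))
  have hρ' : ρ ∈ K.box a b := K.box_le (by omega) (by omega) hρ
  simp only [phase, hper z ρ hρ']
  by_cases hz : φ z = 0
  · simp [hz]
  congr 1
  have hzc : z - c ∈ K.box k' k' :=
    sub_mem (K.box_le (by omega) (by omega) (hsupp z hz)) (hkc _ (min_le_left _ _))
  have e1 : K.χ (x * K.n ρ) = 1 := K.χ_triv _ (K.mul_mem_ball' (Or.inr le_rfl) (K.n_mem hρ) (by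
    rcases abs_choice (K.cond - K.ord x) with h | h <;> omega))
  have e2 : K.χ (x * K.B (z - c) ρ) = 1 :=
    K.χ_triv _ (K.mul_mem_ball' (Or.inr le_rfl) (K.B_mem hzc hρ) (by omega))
  rw [add_sub_right_comm, K.n_add, mul_add, mul_add, AddChar.map_add_eq_mul, AddChar.map_add_eq_mul,
    e1, e2, mul_one, mul_one]

/-- Averaging over `Q` leaves only the stationary part. -/
lemma integral_phase {k : ℤ} (hper : IsPer (K.box a b) φ) (hsupp : HasSupp (K.box k k) φ)
    (hQ : K.box i j ≤ K.box a b) (hn : ∀ q ∈ K.box i j, K.χ (x * K.n q) = 1) :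
    integral K.base (K.phase x c φ) = integral K.base (K.stationaryPart x c (K.box i j) φ) ∧
      IsSch K.base (K.stationaryPart x c (K.box i j) φ) := by
  classical
  obtain ⟨r, k', -, -, hir, hjr, -, hgper, hgsupp⟩ :=
    K.phase_per (i := i) (j := j) (x := x) (c := c) hper hsupp
  have hω : ∀ z, ∀ q : K.box i j,
      K.pairing x (z + q - c) (K.box i j) = K.pairing x (z - c) (K.box i j) := by
    intro z q
    refine DFunLike.ext _ _ fun q' => ?_
    have hB : x * K.B q.1 q'.1 = x * K.n (q.1 + q'.1) - x * K.n q.1 - x * K.n q'.1 := by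
      rw [K.n_add]; ring
    have h1 : K.χ (x * K.B q.1 q'.1) = 1 := by
      rw [hB, AddChar.map_sub_eq_div, AddChar.map_sub_eq_div, hn _ (add_mem q.2 q'.2), hn _ q.2,
        hn _ q'.2]
      simp
    show K.χ (x * K.B _ _) = K.χ (x * K.B _ _)
    rw [add_sub_right_comm, K.B_add_left, mul_add, AddChar.map_add_eq_mul, h1, mul_one]
  have hR : K.box r r ≤ K.box i j := K.box_le hir hjr
  have hhper : IsPer (K.box r r) (K.stationaryPart x c (K.box i j) φ) := fun z ρ hρ => by
    simp only [stationaryPart, hω z ⟨ρ, hR hρ⟩, hgper z ρ hρ]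
  refine ⟨integral_stationary (K.isLat_box i j) (K.isLat_box r r) hR (K.isLat_box k' k') hgper
    hgsupp (fun z => K.pairing x (z - c) (K.box i j)) (fun z q => ?_) hω
    (fun z hz => by simp only [stationaryPart, if_pos hz])
    (fun z hz => by simp only [stationaryPart, if_neg hz]) hhper,
    ⟨K.box r r, K.box k' k', K.isLat_box r r, K.isLat_box k' k', hhper, fun z hz => hgsupp z ?_⟩⟩
  · show K.χ (x * K.n (z + q - c)) * φ (z + q) = _
    rw [hper z q (hQ q.2), add_sub_right_comm, K.n_add, mul_add, mul_add, AddChar.map_add_eq_mul,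
      AddChar.map_add_eq_mul, hn _ q.2, mul_one]
    show _ = K.phase x c φ z * K.χ (x * K.B (z - c) q)
    simp only [phase]; ring
  · intro h0; exact hz (by simp only [stationaryPart, h0, ite_self])

open Classical in
/-- The indicator of a translate of a box is periodic under the box. -/
lemma indicator_per (a b : ℤ) :
    IsPer (K.box a b) (fun z => if z - c ∈ K.box a b then (1 : ℂ) else 0) := fun z p hp => by
  simp only [add_sub_right_comm, AddSubgroup.add_mem_cancel_right _ hp]

open Classical in
/-- **Stationary phase**: only the value of `φ` at the critical point contributes. -/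
lemma integral_phase_eq {k : ℤ} (hper : IsPer (K.box a b) φ) (hsupp : HasSupp (K.box k k) φ)
    (hQ : K.box i j ≤ K.box a b) (hn : ∀ q ∈ K.box i j, K.χ (x * K.n q) = 1)
    (hperp : ∀ z, (∀ q ∈ K.box i j, K.χ (x * K.B z q) = 1) → z ∈ K.box a b) :
    integral K.base (K.phase x c φ) = φ c * K.gauss x (K.box a b) := by
  set ψ := fun z => if z - c ∈ K.box a b then (1 : ℂ) else 0 with hψ
  obtain ⟨kc, hkc⟩ := K.exists_box c
  have hψsupp : HasSupp (K.box (min kc (min a b)) (min kc (min a b))) ψ := by
    intro z hz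
    have h : z - c ∈ K.box a b := by by_contra h; exact hz (if_neg h)
    rw [← sub_add_cancel z c]
    exact add_mem (K.box_le (by omega) (by omega) h) (hkc _ (min_le_left _ _))
  obtain ⟨h1, -⟩ := K.integral_phase (c := c) hper hsupp hQ hn
  obtain ⟨h2, h2'⟩ := K.integral_phase (c := c) (K.indicator_per a b) hψsupp hQ hn
  have hpt : ∀ z, K.stationaryPart x c (K.box i j) φ z =
      φ c * K.stationaryPart x c (K.box i j) ψ z := by
    intro z
    simp only [stationaryPart]
    split_ifs with h
    · have hz := hperp _ (K.pairing_eq_one_iff.mp h)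
      have : φ z = φ c := by
        conv_lhs => rw [← add_sub_cancel c z]
        exact hper c _ hz
      simp only [phase, hψ, if_pos hz, this]
      ring
    · simp
  rw [h1, funext hpt, integral_const_mul h2', ← h2]
  congr 1
  have hF : K.phase x c ψ =
      fun z => (fun t => if t ∈ K.box a b then K.χ (x * K.n t) else 0) (z + -c) := by
    funext z
    simp only [phase, hψ, ← sub_eq_add_neg]
    split_ifs with h <;> simp
  obtain ⟨r, k', -, -, -, -, -, hgper, hgsupp⟩ :=
    K.phase_per (i := i) (j := j) (x := x) (c := (0 : E × E))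
      (K.indicator_per (c := (0 : E × E)) a b)
      (show HasSupp (K.box (min a b) (min a b)) _ from fun z hz => by
        have h : z - 0 ∈ K.box a b := by by_contra h; exact hz (if_neg h)
        rw [sub_zero] at h
        exact K.box_le (min_le_left _ _) (min_le_right _ _) h)
  have hg : (fun t => if t ∈ K.box a b then K.χ (x * K.n t) else 0) =
      K.phase x 0 (fun z => if z - 0 ∈ K.box a b then (1 : ℂ) else 0) := by
    funext t
    simp only [phase, sub_zero]
    split_ifs <;> simp
  obtain ⟨r₂, k₂, -, -, -, -, -, -, hs₂⟩ :=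
    K.phase_per (i := i) (j := j) (x := x) (c := c) (K.indicator_per a b) hψsupp
  rw [hF, gauss]
  refine integral_comp_add (K.isLat_box r r) (K.isLat_box k' k') (hg ▸ hgper) (hg ▸ hgsupp)
    (K.isLat_box k₂ k₂) ?_
  rw [← hF]; exact hs₂

/-- The Fourier transform of a lattice function. -/
noncomputable def fourier (φ : E × E → ℂ) (y : E × E) : ℂ :=
  integral K.base fun z => φ z * K.χ (-K.B z y)

/-- **Fourier transform of a quadratic phase.** -/
theorem fourier_phase {k : ℤ} (hper : IsPer (K.box a b) φ) (hsupp : HasSupp (K.box k k) φ)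
    (hx : x ≠ 0) (hQ : K.box i j ≤ K.box a b) (hn : ∀ q ∈ K.box i j, K.χ (x * K.n q) = 1)
    (hperp : ∀ z, (∀ q ∈ K.box i j, K.χ (x * K.B z q) = 1) → z ∈ K.box a b) (y : E × E) :
    K.fourier (fun z => K.χ (x * K.n z) * φ z) y =
      K.χ (-(K.n y / x)) * φ (x⁻¹ • y) * K.gauss x (K.box a b) := by
  have key : (fun z => K.χ (x * K.n z) * φ z * K.χ (-K.B z y)) =
      fun z => K.χ (-(K.n y / x)) * K.phase x (x⁻¹ • y) φ z := by
    funext z
    have e : x * K.n z + -K.B z y = -(K.n y / x) + x * K.n (z - x⁻¹ • y) := by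
      simp only [n, B, Prod.fst_sub, Prod.snd_sub, Prod.smul_fst, Prod.smul_snd, smul_eq_mul]
      field_simp
      ring
    rw [mul_right_comm, ← AddChar.map_add_eq_mul, e, AddChar.map_add_eq_mul, phase]
    ring
  obtain ⟨r, k', -, -, -, -, -, hgper, hgsupp⟩ :=
    K.phase_per (i := i) (j := j) (x := x) (c := x⁻¹ • y) hper hsupp
  rw [fourier, key,
    integral_const_mul ⟨_, _, K.isLat_box r r, K.isLat_box k' k', hgper, hgsupp⟩,
    K.integral_phase_eq hper hsupp hQ hn hperp, mul_assoc]

/-- A Gauss integral reduces to a smaller box containing all stationary points. -/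
lemma gauss_eq_of_perp {a' b' : ℤ} (hbox : K.box a' b' ≤ K.box a b) (hQ : K.box i j ≤ K.box a' b')
    (hn : ∀ q ∈ K.box i j, K.χ (x * K.n q) = 1)
    (hperp : ∀ z ∈ K.box a b, (∀ q ∈ K.box i j, K.χ (x * K.B z q) = 1) → z ∈ K.box a' b') :
    K.gauss x (K.box a b) = K.gauss x (K.box a' b') := by
  classical
  have hfun : ∀ u v : ℤ, (fun t => if t ∈ K.box u v then K.χ (x * K.n t) else 0) =
      K.phase x 0 (fun z => if z - 0 ∈ K.box u v then (1 : ℂ) else 0) := fun u v => by
    funext t
    simp only [phase, sub_zero]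
    split_ifs <;> simp
  have hs : ∀ u v : ℤ, HasSupp (K.box (min u v) (min u v))
      (fun z : E × E => if z - 0 ∈ K.box u v then (1 : ℂ) else 0) := fun u v z hz => by
    have h : z - 0 ∈ K.box u v := by by_contra h; exact hz (if_neg h)
    rw [sub_zero] at h
    exact K.box_le (min_le_left _ _) (min_le_right _ _) h
  obtain ⟨h1, -⟩ := K.integral_phase (x := x) (c := (0 : E × E)) (K.indicator_per a b) (hs a b)
    (hQ.trans hbox) hn
  obtain ⟨h2, -⟩ := K.integral_phase (x := x) (c := (0 : E × E)) (K.indicator_per a' b') (hs a' b')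
    hQ hn
  rw [gauss, gauss, hfun, hfun, h1, h2]
  congr 1
  funext z
  simp only [stationaryPart, sub_zero]
  split_ifs with h
  · simp only [phase, sub_zero]
    by_cases hz : z ∈ K.box a b
    · rw [if_pos hz, if_pos (hperp z hz (K.pairing_eq_one_iff.mp h))]
    · rw [if_neg hz, if_neg fun h' => hz (hbox h')]
  · rfl

/-- The Gauss integral of a box on which the phase is trivial is its mass. -/
lemma gauss_eq_vol (h : ∀ z ∈ K.box a b, K.χ (x * K.n z) = 1) :
    K.gauss x (K.box a b) = vol K.base (K.box a b) := by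
  classical
  rw [gauss, ← integral_indicator (S := K.base) (K.isLat_box a b)]
  congr 1
  funext t
  split_ifs with ht
  · exact h t ht
  · rfl

end LocalForm

end Fermat.Agent.LT.DihedralTheta
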