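import Fermat.Agent.LT.DihedralTheta.Torus
import Fermat.Agent.LT.Places.Galois

/-!
# Local characters of the quadratic algebra from a character of the ideles of the quadratic field

For `f : F →+* M` and `θ : M` a root of `θ ^ 2 - f s θ + f p`, a pair `z` over `F_v` gives the
adele of `M` equal to `z.1 + z.2 θ` above `v` and to `1` elsewhere. The local character is the
value of an idele character there; the product formula comes from triviality on `M` and on the
units of a congruence subgroup.
-/

set_option autoImplicit false

noncomputable section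

open IsDedekindDomain NumberField WithZero
open Fermat.Agent.LT.Places

namespace Fermat.Agent.LT.DihedralTheta

variable {F M : Type*} [Field F] [NumberField F] [Field M] [NumberField M] (f : F →+* M)

/-- The inverse in the quadratic algebra. -/
theorem gmul_inv_conj {R : Type*} [Field R] {s p : R} {z : R × R} (hz : normForm s p z ≠ 0) :
    gmul s p z ((normForm s p z)⁻¹ • (z.1 + s * z.2, -z.2)) = (1, 0) := by
  have h : gmul s p z ((normForm s p z)⁻¹ • (z.1 + s * z.2, -z.2)) =
      ((normForm s p z)⁻¹ * normForm s p z, 0) := by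
    simp only [gmul, normForm, Prod.smul_fst, Prod.smul_snd, smul_eq_mul]
    exact Prod.ext (by ring) (by ring)
  rw [h, inv_mul_cancel₀ hz]

/-- The idempotent of the places of `M` above `v`. -/
def aboveIdem (v : FinPlace F) : FinAdele M := finExtend f (idem v)

/-- The idempotent above `v` is `1` at the places over `v`. -/
theorem toPlace_aboveIdem_same {v : FinPlace F} {w : FinPlace M} (h : comapPlace f w = v) :
    toPlace w (aboveIdem f v) = 1 := by
  obtain ⟨e, he, hval⟩ := exists_pow_valuation f w
  have hv : placeVal w (aboveIdem f v) = 1 := by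
    rw [aboveIdem, placeVal_finExtend he hval, h, placeVal, toPlace_idem_same, map_one, one_pow]
  have hsq : toPlace w (aboveIdem f v) * toPlace w (aboveIdem f v) = toPlace w (aboveIdem f v) := by
    rw [← map_mul, aboveIdem, ← map_mul, idem_mul_idem]
  exact (mul_eq_left₀ ((Valuation.ne_zero_iff _).1 (show Valued.v (toPlace w (aboveIdem f v)) ≠ 0 by
    rw [show Valued.v (toPlace w (aboveIdem f v)) = 1 from hv]; exact one_ne_zero))).1 hsq

/-- The idempotent above `v` is `0` at the places not over `v`. -/
theorem toPlace_aboveIdem_ne {v : FinPlace F} {w : FinPlace M} (h : comapPlace f w ≠ v) :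
    toPlace w (aboveIdem f v) = 0 := by
  obtain ⟨e, he, hval⟩ := exists_pow_valuation f w
  have hv : placeVal w (aboveIdem f v) = 0 := by
    rw [aboveIdem, placeVal_finExtend he hval, placeVal, toPlace_idem_ne h, map_zero, zero_pow he]
  exact (Valuation.zero_iff _).1 hv

omit [NumberField M] in
theorem aboveIdem_sq (v : FinPlace F) : aboveIdem f v * aboveIdem f v = aboveIdem f v := by
  rw [aboveIdem, ← map_mul, idem_mul_idem]

omit [NumberField M] in
theorem aboveIdem_mul_ne {v v' : FinPlace F} (h : v ≠ v') :
    aboveIdem f v * aboveIdem f v' = 0 := by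
  rw [aboveIdem, aboveIdem, ← map_mul, idem_mul_of_ne h, map_zero]

omit [NumberField M] in
theorem idem_mul_single (v : FinPlace F) (a : v.adicCompletion F) :
    idem v * single v a = single v a := by
  rw [idem, ← single_mul, one_mul]

/-- A global factor may be taken out of an adele supported at one place. -/
theorem single_cmp_mul (v : FinPlace F) (a : F) (b : v.adicCompletion F) :
    single v (cmp v a * b) = finIncl F a * single v b := by
  rw [single_mul, ← toPlace_finIncl, single_toPlace, mul_assoc,
    mul_left_comm, idem_mul_single]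

variable (θ : M)

/-- The adele `z.1 + z.2 θ` at the places above `v`, and `0` elsewhere. -/
def aboveElt (v : FinPlace F) (z : v.adicCompletion F × v.adicCompletion F) : FinAdele M :=
  finExtend f (single v z.1) + finExtend f (single v z.2) * finIncl M θ

/-- The adele `z.1 + z.2 θ` at the places above `v`, and `1` elsewhere. -/
def aboveAdele (v : FinPlace F) (z : v.adicCompletion F × v.adicCompletion F) : FinAdele M :=
  1 - aboveIdem f v + aboveElt f θ v z

variable {f θ} {s p : F}

omit [NumberField M] in
/-- The element above `v` is supported at the places over `v`. -/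
theorem aboveIdem_mul_elt (v : FinPlace F) (z : v.adicCompletion F × v.adicCompletion F) :
    aboveIdem f v * aboveElt f θ v z = aboveElt f θ v z := by
  rw [aboveElt, mul_add, ← mul_assoc, aboveIdem, ← map_mul, ← map_mul, idem_mul_single,
    idem_mul_single]

omit [NumberField M] in
/-- The pair `(1, 0)` gives the adele `1`. -/
theorem aboveAdele_one (v : FinPlace F) : aboveAdele f θ v (1, 0) = 1 := by
  simp [aboveAdele, aboveElt, aboveIdem, idem]

omit [NumberField M] in
/-- On scalars the element above `v` is the extension of the adele supported at `v`. -/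
theorem aboveElt_scalar (v : FinPlace F) (a : v.adicCompletion F) :
    aboveElt f θ v (a, 0) = finExtend f (single v a) := by
  simp [aboveElt]

omit [NumberField M] in
theorem aboveAdele_scalar (v : FinPlace F) (a : (v.adicCompletion F)ˣ) :
    aboveAdele f θ v ((a : v.adicCompletion F), 0) = finExtend f (localUnit v a : FinAdele F) := by
  show _ = finExtend f (1 - idem v + single v (a : v.adicCompletion F))
  rw [aboveAdele, aboveElt_scalar, map_add, map_sub, map_one]
  rfl

variable (hθ : θ ^ 2 = f s * θ - f p)
include hθ

omit [NumberField M] in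
theorem aboveElt_gmul (v : FinPlace F) (w z : v.adicCompletion F × v.adicCompletion F) :
    aboveElt f θ v (gmul (cmp v s) (cmp v p) w z) = aboveElt f θ v w * aboveElt f θ v z := by
  have h : finIncl M θ * finIncl M θ = finExtend f (finIncl F s) * finIncl M θ -
      finExtend f (finIncl F p) := by
    rw [finExtend_finIncl, finExtend_finIncl, ← map_mul, ← map_mul, ← map_sub, ← sq, hθ]
  simp only [aboveElt, gmul, map_sub, map_add, mul_assoc, single_cmp_mul]
  simp only [single_mul, map_mul]
  linear_combination -(finExtend f (single v w.2) * finExtend f (single v z.2)) * h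

omit [NumberField M] in
/-- The adele of a product of pairs is the product of the adeles. -/
theorem aboveAdele_gmul (v : FinPlace F) (w z : v.adicCompletion F × v.adicCompletion F) :
    aboveAdele f θ v (gmul (cmp v s) (cmp v p) w z) =
      aboveAdele f θ v w * aboveAdele f θ v z := by
  simp only [aboveAdele, aboveElt_gmul hθ]
  linear_combination (-1) * aboveIdem_sq f v + aboveIdem_mul_elt (f := f) (θ := θ) v w +
    aboveIdem_mul_elt (f := f) (θ := θ) v z

omit [NumberField M] in
/-- The adele of a pair of nonzero norm is an idele. -/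
theorem isUnit_aboveAdele {v : FinPlace F} {z : v.adicCompletion F × v.adicCompletion F}
    (hz : normForm (cmp v s) (cmp v p) z ≠ 0) : IsUnit (aboveAdele f θ v z) := by
  refine IsUnit.of_mul_eq_one (aboveAdele f θ v ((normForm (cmp v s) (cmp v p) z)⁻¹ •
    (z.1 + cmp v s * z.2, -z.2))) ?_
  rw [← aboveAdele_gmul hθ, gmul_inv_conj hz, aboveAdele_one]

omit hθ

section character

open Classical in
/-- A character of the units, extended by zero. -/
def extendChar {R : Type*} [Monoid R] (ξ : Rˣ →* ℂˣ) (x : R) : ℂ :=
  if h : IsUnit x then (ξ h.unit : ℂ) else 0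

/-- The extension of a character of units agrees with it on units. -/
theorem extendChar_coe {R : Type*} [Monoid R] (ξ : Rˣ →* ℂˣ) (u : Rˣ) :
    extendChar ξ (u : R) = (ξ u : ℂ) := by
  rw [extendChar, dif_pos u.isUnit]
  congr 2
  exact Units.ext rfl

theorem extendChar_mul {R : Type*} [Monoid R] (ξ : Rˣ →* ℂˣ) {x y : R} (hx : IsUnit x)
    (hy : IsUnit y) : extendChar ξ (x * y) = extendChar ξ x * extendChar ξ y := by
  obtain ⟨u, rfl⟩ := hx
  obtain ⟨w, rfl⟩ := hy
  rw [← Units.val_mul, extendChar_coe, extendChar_coe, extendChar_coe, map_mul, Units.val_mul]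

theorem extendChar_one {R : Type*} [Monoid R] (ξ : Rˣ →* ℂˣ) : extendChar ξ (1 : R) = 1 := by
  rw [← Units.val_one, extendChar_coe, map_one, Units.val_one]

theorem norm_extendChar {R : Type*} [Monoid R] {ξ : Rˣ →* ℂˣ} {n : ℕ} (hn : n ≠ 0)
    (h : ∀ u, ξ u ^ n = 1) {x : R} (hx : IsUnit x) : ‖extendChar ξ x‖ = 1 := by
  obtain ⟨u, rfl⟩ := hx
  rw [extendChar_coe]
  refine (pow_eq_one_iff_of_nonneg (norm_nonneg _) hn).mp ?_
  rw [← norm_pow, ← Units.val_pow_eq_pow_val, h u, Units.val_one, norm_one]

variable (f θ) (ξ : (FinAdele M)ˣ →* ℂˣ)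

/-- The local character at `v`. -/
def idelePsi (v : FinPlace F) (z : v.adicCompletion F × v.adicCompletion F) : ℂ :=
  extendChar ξ (aboveAdele f θ v z)

variable {f θ ξ}

omit [NumberField M] in
/-- On scalars the local character is the idele character of the extension. -/
theorem idelePsi_scalar (v : FinPlace F) (a : (v.adicCompletion F)ˣ) :
    idelePsi f θ ξ v ((a : v.adicCompletion F), 0) =
      (ξ (Units.map (finExtend f).toRingHom.toMonoidHom (localUnit v a)) : ℂ) := by
  rw [idelePsi, aboveAdele_scalar, ← extendChar_coe]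
  rfl

include hθ

omit [NumberField M] in
/-- The local character is multiplicative on pairs of nonzero norm. -/
theorem idelePsi_gmul (v : FinPlace F) {w z : v.adicCompletion F × v.adicCompletion F}
    (hw : normForm (cmp v s) (cmp v p) w ≠ 0) (hz : normForm (cmp v s) (cmp v p) z ≠ 0) :
    idelePsi f θ ξ v (gmul (cmp v s) (cmp v p) w z) =
      idelePsi f θ ξ v w * idelePsi f θ ξ v z := by
  rw [idelePsi, aboveAdele_gmul hθ, extendChar_mul ξ (isUnit_aboveAdele hθ hw)
    (isUnit_aboveAdele hθ hz)]
  rfl

omit [NumberField M] in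
/-- For an idele character of finite order the local character has absolute value one. -/
theorem norm_idelePsi {n : ℕ} (hn : n ≠ 0) (h : ∀ u, ξ u ^ n = 1) {v : FinPlace F}
    {z : v.adicCompletion F × v.adicCompletion F}
    (hz : normForm (cmp v s) (cmp v p) z ≠ 0) : ‖idelePsi f θ ξ v z‖ = 1 :=
  norm_extendChar hn h (isUnit_aboveAdele hθ hz)

omit hθ

end character

section product

variable (f θ)

/-- The local components in a basis `1, α + β θ` of an element of the quadratic field. -/
theorem aboveElt_coord (v : FinPlace F) {α β : F} (hβ : β ≠ 0) (x : F × F) :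
    aboveElt f (f α + f β * θ) v (cmp v (x.1 - α * (x.2 / β)), cmp v (x.2 / β)) =
      aboveIdem f v * finIncl M (f x.1 + f x.2 * θ) := by
  have h : ∀ a : F, finExtend f (single v (cmp v a)) = aboveIdem f v * finIncl M (f a) := fun a => by
    have h1 : single v (cmp v a) = idem v * finIncl F a := by
      rw [← single_toPlace, toPlace_finIncl]
    rw [h1, map_mul, finExtend_finIncl]
    rfl
  rw [aboveElt, h, h, mul_assoc, ← mul_add, ← map_mul, ← map_add]
  congr 2
  rw [mul_add, ← mul_assoc, ← map_mul f (x.2 / β) β, div_mul_cancel₀ _ hβ, map_sub,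
    map_mul]
  ring

theorem aboveAdele_coord (v : FinPlace F) {α β : F} (hβ : β ≠ 0) (x : F × F) :
    aboveAdele f (f α + f β * θ) v (cmp v (x.1 - α * (x.2 / β)), cmp v (x.2 / β)) =
      1 - aboveIdem f v + aboveIdem f v * finIncl M (f x.1 + f x.2 * θ) := by
  rw [aboveAdele, aboveElt_coord f θ v hβ]

/-- The product formula of the local characters. -/
theorem finprod_idelePsi {ξ : (FinAdele M)ˣ →* ℂˣ}
    (hglob : ∀ a : Mˣ, ξ (Units.map (finIncl M).toMonoidHom a) = 1) {N : ℕ} (hN : 0 < N)
    (hcong : ∀ u : (FinAdele M)ˣ, (∀ w : FinPlace M, placeVal w (u : FinAdele M) = 1) →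
      (∀ w : FinPlace M, placeVal w ((u : FinAdele M) - 1) ≤ w.valuation M (N : M)) → ξ u = 1)
    (α β : FinPlace F → F) (hβ : ∀ v, β v ≠ 0) {x : F × F} (hx : f x.1 + f x.2 * θ ≠ 0) :
    ∏ᶠ v, idelePsi f (f (α v) + f (β v) * θ) ξ v
      (cmp v (x.1 - α v * (x.2 / β v)), cmp v (x.2 / β v)) = 1 := by
  classical
  set m := f x.1 + f x.2 * θ
  have hTfin : {w : FinPlace M | w.valuation M m ≠ 1 ∨ w.valuation M (N : M) ≠ 1}.Finite := by
    refine ((finite_placeVal_units (Units.map (finIncl M).toMonoidHom (Units.mk0 m hx))).union
      (finite_natCast N hN)).subset fun w hw => hw.imp (fun h => ?_) id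
    show placeVal w (finIncl M m) ≠ 1
    rwa [placeVal_finIncl]
  set S : Finset (FinPlace F) := hTfin.toFinset.image (comapPlace f)
  have hout : ∀ w : FinPlace M, comapPlace f w ∉ S →
      w.valuation M m = 1 ∧ w.valuation M (N : M) = 1 := fun w hw => by
    by_contra h
    exact hw (Finset.mem_image_of_mem _ (hTfin.mem_toFinset.2 (not_and_or.1 h)))
  set E : FinPlace F → FinAdele M := aboveIdem f
  set A : FinAdele M := finIncl M m
  set A' : FinAdele M := finIncl M m⁻¹
  have hA : A * A' = 1 := by rw [← map_mul, mul_inv_cancel₀ hx, map_one]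
  have hu : ∀ v, IsUnit (1 - E v + E v * A) := fun v => IsUnit.of_mul_eq_one (1 - E v + E v * A') (by
    linear_combination (2 - A - A') * aboveIdem_sq f v + E v * E v * hA)
  have key : ∀ T : Finset (FinPlace F), ∀ v ∉ T, E v * ∑ v' ∈ T, E v' = 0 := fun T v hv => by
    rw [Finset.mul_sum]
    exact Finset.sum_eq_zero fun v' hv' => aboveIdem_mul_ne f fun h => hv (h ▸ hv')
  have hprod : ∀ T : Finset (FinPlace F), ∏ v ∈ T, (1 - E v + E v * A) =
      1 - ∑ v ∈ T, E v + (∑ v ∈ T, E v) * A := fun T => by
    induction T using Finset.induction_on with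
    | empty => simp
    | insert a T ha ih =>
      rw [Finset.prod_insert ha, Finset.sum_insert ha, ih]
      linear_combination (1 - A) ^ 2 * key T a ha
  have hlocal : ∀ v, idelePsi f (f (α v) + f (β v) * θ) ξ v
      (cmp v (x.1 - α v * (x.2 / β v)), cmp v (x.2 / β v)) =
      extendChar ξ (1 - E v + E v * A) := fun v => by
    rw [idelePsi, aboveAdele_coord f θ v (hβ v)]
  simp only [hlocal]
  have htriv : ∀ v ∉ S, extendChar ξ (1 - E v + E v * A) = 1 := fun v hv => by
    obtain ⟨u, hu'⟩ := hu v
    rw [← hu', extendChar_coe, hcong u (fun w => ?_) fun w => ?_, Units.val_one]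
    · rw [hu', placeVal, map_add, map_sub, map_mul, map_one]
      by_cases hw : comapPlace f w = v
      · rw [toPlace_aboveIdem_same f hw, sub_self, zero_add, one_mul]
        show placeVal w (finIncl M m) = 1
        rw [placeVal_finIncl, (hout w (hw ▸ hv)).1]
      · rw [toPlace_aboveIdem_ne f hw, zero_mul, sub_zero, add_zero, map_one]
    rw [hu', show 1 - E v + E v * A - 1 = E v * (A - 1) by ring, placeVal_mul]
    by_cases hw : comapPlace f w = v
    · obtain ⟨h1, h2⟩ := hout w (hw ▸ hv)
      rw [placeVal, toPlace_aboveIdem_same f hw, map_one, one_mul, h2]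
      refine (placeVal_sub_le w _ _).trans (max_le ?_ (placeVal_one w).le)
      rw [placeVal_finIncl, h1]
    · rw [placeVal, toPlace_aboveIdem_ne f hw, map_zero, zero_mul]
      exact zero_le
  rw [finprod_eq_prod_of_mulSupport_subset (s := S) _ fun v hv => by
    by_contra hvS; exact hv (htriv v hvS)]
  have hmul : ∀ T : Finset (FinPlace F), IsUnit (∏ v ∈ T, (1 - E v + E v * A)) ∧
      ∏ v ∈ T, extendChar ξ (1 - E v + E v * A) =
        extendChar ξ (∏ v ∈ T, (1 - E v + E v * A)) := fun T => by
    induction T using Finset.induction_on with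
    | empty => simp [extendChar_one]
    | insert a T ha ih =>
      rw [Finset.prod_insert ha, Finset.prod_insert ha, ih.2]
      exact ⟨(hu a).mul ih.1, (extendChar_mul ξ (hu a) ih.1).symm⟩
  rw [(hmul S).2, hprod S]
  set e := ∑ v ∈ S, E v
  have he : e * e = e := by
    rw [Finset.sum_mul]
    refine Finset.sum_congr rfl fun v hv => ?_
    rw [Finset.mul_sum, Finset.sum_eq_single_of_mem v hv fun v' _ hne =>
      aboveIdem_mul_ne f hne.symm]
    exact aboveIdem_sq f v
  have hP : IsUnit (1 - e + e * A) := by rw [← hprod S]; exact (hmul S).1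
  have hR : IsUnit (e + (1 - e) * A) := IsUnit.of_mul_eq_one (e + (1 - e) * A') (by
    linear_combination (1 - A - A' + A * A') * he + (1 - e) * hA)
  have hsplit : (1 - e + e * A) * (e + (1 - e) * A) = A := by
    linear_combination (-(A ^ 2) + 2 * A - 1) * he
  have hAu : extendChar ξ A = 1 := by
    show extendChar ξ ((Units.map (finIncl M).toMonoidHom (Units.mk0 m hx) : (FinAdele M)ˣ) :
      FinAdele M) = 1
    rw [extendChar_coe, hglob, Units.val_one]
  have hR1 : extendChar ξ (e + (1 - e) * A) = 1 := by
    obtain ⟨u, hu'⟩ := hR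
    rw [← hu', extendChar_coe, hcong u (fun w => ?_) fun w => ?_, Units.val_one]
    · rw [hu', placeVal, map_add, map_mul, map_sub, map_one]
      by_cases hw : comapPlace f w ∈ S
      · rw [show toPlace w e = 1 by
          rw [map_sum, Finset.sum_eq_single_of_mem _ hw fun v _ hne =>
            toPlace_aboveIdem_ne f (Ne.symm hne), toPlace_aboveIdem_same f rfl], sub_self, zero_mul,
          add_zero, map_one]
      · rw [show toPlace w e = 0 by
          rw [map_sum]
          exact Finset.sum_eq_zero fun v hv => toPlace_aboveIdem_ne f fun h => hw (h ▸ hv),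
          sub_zero, one_mul, zero_add]
        show placeVal w (finIncl M m) = 1
        rw [placeVal_finIncl, (hout w hw).1]
    rw [hu', show e + (1 - e) * A - 1 = (1 - e) * (A - 1) by ring, placeVal_mul]
    by_cases hw : comapPlace f w ∈ S
    · have he1 : toPlace w e = 1 := by
        rw [map_sum, Finset.sum_eq_single_of_mem _ hw fun v _ hne =>
          toPlace_aboveIdem_ne f (Ne.symm hne), toPlace_aboveIdem_same f rfl]
      rw [placeVal, map_sub, map_one, he1, sub_self, map_zero, zero_mul]
      exact zero_le
    · obtain ⟨h1, h2⟩ := hout w hw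
      have he0 : toPlace w e = 0 := by
        rw [map_sum]
        exact Finset.sum_eq_zero fun v hv => toPlace_aboveIdem_ne f fun h => hw (h ▸ hv)
      rw [placeVal, map_sub, map_one, he0, sub_zero, map_one, one_mul, h2]
      refine (placeVal_sub_le w _ _).trans (max_le ?_ (placeVal_one w).le)
      rw [placeVal_finIncl, h1]
  have := extendChar_mul ξ hP hR
  rw [hsplit, hAu, hR1, mul_one] at this
  exact this.symm

end product

end Fermat.Agent.LT.DihedralTheta

end
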