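import Fermat.Agent.LT.DihedralTheta.Borel

/-!
# The function on `GL₂` at one place, and its equivariance

A `LocalVec` is a family of lattice functions indexed by `GL₂` of the valuation ring, compatible
with the integral Borel group and the Weyl operator.  It extends to `GL₂` of the field so that the
Weyl element acts by the Weyl operator up to one constant.
-/

set_option autoImplicit false

open AddSubgroup

namespace Fermat.Agent.LT.DihedralTheta

variable {E : Type*} [Field E]

/-- The local data. -/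
structure LocalVec (K : LocalForm E) where
  /-- The central quasi-character. -/
  η : E → ℂ
  η_mul : ∀ {a b : E}, a ≠ 0 → b ≠ 0 → η (a * b) = η a * η b
  η_sq : ∀ {a : E}, a ≠ 0 → η a * η a = 1
  /-- The valuation shift of the similitude variable. -/
  e : ℤ
  /-- The lattice functions. -/
  φ : GL (Fin 2) E → E × E → E → ℂ
  /-- Periods. -/
  la : ℤ
  /-- Periods. -/
  lb : ℤ
  /-- Support. -/
  k0 : ℤ
  per : ∀ k ∈ K.intGL, ∀ u, IsPer (K.box la lb) fun z => φ k z u
  supp : ∀ k ∈ K.intGL, ∀ u, HasSupp (K.box k0 k0) fun z => φ k z u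
  supp_u : ∀ k ∈ K.intGL, ∀ z u, φ k z u ≠ 0 → u ≠ 0 ∧ K.ord u = -e
  /-- The group fixing the vector. -/
  U : Subgroup (GL (Fin 2) E)
  U_le : U ≤ K.intGL
  phi_right : ∀ k ∈ K.intGL, ∀ k' ∈ U, φ (k * k') = φ k
  phi_borel : ∀ (a β d : E) (ha : a ≠ 0) (hd : d ≠ 0), bmat a β d ha hd ∈ K.intGL →
    ∀ k ∈ K.intGL, φ (bmat a β d ha hd * k) = K.bact η a β d (φ k)
  phi_lower : ∀ k ∈ K.intGL, ∀ t ∈ K.ball 1, φ (lmat t * k) = φ k
  /-- The constant of the Weyl operator. -/
  lam : ℂ
  phi_w : ∀ k ∈ K.intGL, ∀ z u, K.wact η (φ k) z u = lam * φ (wmat * k) z u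
  fourier_phase : ∀ k ∈ K.intGL, ∀ (x u : E) (hu : u ≠ 0), x ≠ 0 → K.ord x < 0 → K.ord u = -e →
    ∀ y, (K.shift u hu).fourier (fun z => (K.shift u hu).χ (x * K.n z) * φ k z u) y =
      (K.shift u hu).χ (-(K.n y / x)) * φ k (x⁻¹ • y) u * (K.shift u hu).gauss x (K.box la lb)
  gauss_val : ∀ (x u : E) (hu : u ≠ 0), x ≠ 0 → K.ord x < 0 → K.ord u = -e →
    η u * K.absv u * (K.shift u hu).gauss x (K.box la lb) = lam * η (-x) * (K.absv x)⁻¹

namespace LocalVec

variable {K : LocalForm E} (T : LocalVec K)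

/-- The character at `1`. -/
lemma eta_one : T.η 1 = 1 := by
  have h := T.η_mul (a := 1) (b := 1) one_ne_zero one_ne_zero
  rw [mul_one] at h
  exact h.trans (T.η_sq one_ne_zero)

/-- The character takes the same value at an element and at its inverse. -/
lemma eta_inv {a : E} (ha : a ≠ 0) : T.η a⁻¹ = T.η a := by
  have h := T.η_mul ha (inv_ne_zero ha)
  rw [mul_inv_cancel₀ ha, T.eta_one] at h
  calc T.η a⁻¹ = T.η a * T.η a * T.η a⁻¹ := by rw [T.η_sq ha, one_mul]
    _ = T.η a := by rw [mul_assoc, ← h, mul_one]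

/-- The chosen decomposition. -/
noncomputable def fl (g : GL (Fin 2) E) : E × E → E → ℂ :=
  let h := K.exists_iwasawa g
  K.bact T.η h.choose h.choose_spec.choose h.choose_spec.choose_spec.choose
    (T.φ h.choose_spec.choose_spec.choose_spec.choose_spec.choose_spec.choose)

/-- The extended vector in Iwasawa coordinates. -/
lemma fl_eq {g : GL (Fin 2) E} {a β d : E} {ha : a ≠ 0} {hd : d ≠ 0} {k : GL (Fin 2) E}
    (hk : k ∈ K.intGL) (hg : g = bmat a β d ha hd * k) :
    T.fl g = K.bact T.η a β d (T.φ k) := by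
  set h := K.exists_iwasawa g
  obtain ⟨hk', hg'⟩ := h.choose_spec.choose_spec.choose_spec.choose_spec.choose_spec.choose_spec
  set a' := h.choose
  set β' := h.choose_spec.choose
  set d' := h.choose_spec.choose_spec.choose
  set k' := h.choose_spec.choose_spec.choose_spec.choose_spec.choose_spec.choose
  have ha' : a' ≠ 0 := h.choose_spec.choose_spec.choose_spec.choose
  have hd' : d' ≠ 0 := h.choose_spec.choose_spec.choose_spec.choose_spec.choose
  show K.bact T.η a' β' d' (T.φ k') = _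
  have heq : bmat a' β' d' ha' hd' * k' = bmat a β d ha hd * k := hg'.symm.trans hg
  have hprod : bmat a⁻¹ (-(β / (a * d))) d⁻¹ (inv_ne_zero ha) (inv_ne_zero hd) * bmat a β d ha hd
      = 1 := by
    rw [bmat_mul]
    ext i j
    fin_cases i <;> fin_cases j <;> simp [ha, hd]
    field_simp
    ring
  have h2 : k = bmat a⁻¹ (-(β / (a * d))) d⁻¹ (inv_ne_zero ha) (inv_ne_zero hd) *
      bmat a' β' d' ha' hd' * k' := by rw [mul_assoc, heq, ← mul_assoc, hprod, one_mul]
  rw [bmat_mul] at h2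
  have hmem := mul_mem hk (inv_mem hk')
  rw [h2, mul_inv_cancel_right] at hmem
  rw [h2, T.phi_borel _ _ _ _ _ hmem k' hk',
    K.bact_bact T.η_mul ha hd (mul_ne_zero (inv_ne_zero ha) ha') (mul_ne_zero (inv_ne_zero hd) hd')]
  congr 1 <;> field_simp
  ring

/-- The extended vector transforms by the Borel action on the left. -/
lemma fl_borel {a β d : E} (ha : a ≠ 0) (hd : d ≠ 0) (g : GL (Fin 2) E) :
    T.fl (bmat a β d ha hd * g) = K.bact T.η a β d (T.fl g) := by
  obtain ⟨a', β', d', ha', hd', k, hk, rfl⟩ := K.exists_iwasawa g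
  rw [T.fl_eq hk rfl, T.fl_eq hk (show bmat a β d ha hd * (bmat a' β' d' ha' hd' * k) = _ by
    rw [← mul_assoc, bmat_mul]), K.bact_bact T.η_mul ha hd ha' hd']

/-- The extended vector is invariant on the right under the level. -/
lemma fl_right (g : GL (Fin 2) E) {k' : GL (Fin 2) E} (hk' : k' ∈ T.U) :
    T.fl (g * k') = T.fl g := by
  obtain ⟨a, β, d, ha, hd, k, hk, rfl⟩ := K.exists_iwasawa g
  rw [T.fl_eq hk rfl, T.fl_eq (mul_mem hk (T.U_le hk')) (mul_assoc _ _ _), T.phi_right k hk k' hk']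

/-- The support of the extended vector in its second variable. -/
lemma fl_supp {g : GL (Fin 2) E} {z : E × E} {u : E} (h : T.fl g z u ≠ 0) :
    u ≠ 0 ∧ K.ord u = -T.e + K.ord g.val.det := by
  obtain ⟨a, β, d, ha, hd, k, hk, rfl⟩ := K.exists_iwasawa g
  rw [T.fl_eq hk rfl] at h
  obtain ⟨h0, hord⟩ := T.supp_u k hk _ _ (right_ne_zero_of_mul h)
  have hu : u ≠ 0 := fun hu => h0 (by simp [hu])
  refine ⟨hu, ?_⟩
  have hkdet := K.ord_det_eq_zero hk
  rw [div_eq_mul_inv, K.ord_mul hu (inv_ne_zero (mul_ne_zero ha hd)),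
    K.ord_inv (mul_ne_zero ha hd), K.ord_mul ha hd] at hord
  rw [Units.val_mul, Matrix.det_mul, bmat_val, Matrix.det_fin_two_of, mul_zero, sub_zero,
    K.ord_mul (mul_ne_zero ha hd) ((Matrix.isUnit_iff_isUnit_det _).mp k.isUnit).ne_zero,
    K.ord_mul ha hd, hkdet]
  omega

/-- The integrand `χ (u x n z) φ k z u χ (u B (z, w))` of a Fourier integral is periodic. -/
lemma exists_phase_per {k : GL (Fin 2) E} (hk : k ∈ K.intGL) (x u : E) (w : E × E) :
    ∃ R, IsPer (K.box R R) fun z => K.χ (u * x * K.n z) * T.φ k z u * K.χ (u * K.B z w) := by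
  obtain ⟨kw, hkw⟩ := K.exists_box w
  obtain ⟨R, hR1, hR2, hR3, hR4, hR5⟩ : ∃ R, T.la ≤ R ∧ T.lb ≤ R ∧ K.cond - K.ord u - kw ≤ R ∧
      K.cond - K.ord u - K.ord x - T.k0 ≤ R ∧
      K.cond - K.ord u - K.ord x + |K.cond - K.ord u - K.ord x| ≤ R :=
    ⟨max (max T.la T.lb) (max (K.cond - K.ord u - kw) (max (K.cond - K.ord u - K.ord x - T.k0)
      (K.cond - K.ord u - K.ord x + |K.cond - K.ord u - K.ord x|))),
      le_max_of_le_left (le_max_left _ _), le_max_of_le_left (le_max_right _ _),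
      le_max_of_le_right (le_max_left _ _),
      le_max_of_le_right (le_max_of_le_right (le_max_left _ _)),
      le_max_of_le_right (le_max_of_le_right (le_max_right _ _))⟩
  refine ⟨R, fun z ρ hρ => ?_⟩
  have hρ' : ρ ∈ K.box T.la T.lb := K.box_le (by omega) (by omega) hρ
  simp only [T.per k hk u z ρ hρ']
  by_cases hz : T.φ k z u = 0
  · simp [hz]
  have hzb : z ∈ K.box T.k0 T.k0 := T.supp k hk u z hz
  have hub : u ∈ K.ball (K.ord u) := Or.inr le_rfl
  have hux : u * x ∈ K.ball (K.ord u + K.ord x) := K.mul_mem_ball hub (Or.inr le_rfl)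
  have e1 : K.χ (u * x * K.n ρ) = 1 := K.χ_triv _ (K.mul_mem_ball' hux (K.n_mem hρ) (by
    have := abs_nonneg (K.cond - K.ord u - K.ord x)
    rcases abs_choice (K.cond - K.ord u - K.ord x) with h | h <;> omega))
  have e2 : K.χ (u * x * K.B z ρ) = 1 :=
    K.χ_triv _ (K.mul_mem_ball' hux (K.B_mem hzb hρ) (by omega))
  have e3 : K.χ (u * K.B ρ w) = 1 :=
    K.χ_triv _ (K.mul_mem_ball' hub (K.B_mem hρ (hkw _ le_rfl)) (by omega))
  rw [K.n_add, K.B_add_left, mul_add, mul_add, mul_add, AddChar.map_add_eq_mul,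
    AddChar.map_add_eq_mul, AddChar.map_add_eq_mul, e1, e2, e3]
  simp

/-- The integrand of a Fourier integral is supported in the box supporting `φ k`. -/
lemma phase_supp {k : GL (Fin 2) E} (hk : k ∈ K.intGL) (x u : E) (w : E × E) :
    HasSupp (K.box T.k0 T.k0) fun z => K.χ (u * x * K.n z) * T.φ k z u * K.χ (u * K.B z w) :=
  fun z hz => T.supp k hk u z (right_ne_zero_of_mul (left_ne_zero_of_mul hz))

/-- Rescaling a Fourier integral. -/
lemma integral_bact {k : GL (Fin 2) E} (hk : k ∈ K.intGL) {a x u : E} (ha : a ≠ 0) (w : E × E) :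
    (integral K.base fun z => K.χ (u * x * K.n (a • z)) * T.φ k (a • z) u *
        K.χ (u * K.B (a • z) w)) =
      ((K.absv a) ^ 2)⁻¹ * integral K.base
        fun z => K.χ (u * x * K.n z) * T.φ k z u * K.χ (u * K.B z w) := by
  obtain ⟨R, hper⟩ := T.exists_phase_per hk x u w
  set F := fun z => K.χ (u * x * K.n z) * T.φ k z u * K.χ (u * K.B z w)
  have hcomap : ∀ i, IsLat K.base ((K.box i i).comap (LocalForm.smulEquiv a ha).toAddMonoidHom) :=
    fun i => by rw [K.comap_smulEquiv]; exact K.isLat_box _ _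
  have h := integral_comp_equiv (LocalForm.smulEquiv a ha) (K.isLat_box R R)
    (K.isLat_box T.k0 T.k0) hper
    (T.phase_supp hk x u w) (hcomap R) (hcomap T.k0)
  show integral K.base (fun z => F (LocalForm.smulEquiv a ha z)) = _
  rw [h, K.comap_smulEquiv, K.vol_box, K.vol_box]
  congr 1
  rw [LocalForm.absv, ← zpow_natCast, ← zpow_mul, ← zpow_neg, ← zpow_neg, ← zpow_neg,
    ← zpow_sub₀ K.q_ne_zero]
  congr 1
  push_cast
  ring

/-- The rescaled integrand of a Fourier integral is a lattice function. -/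
lemma isSch_phase_smul {k : GL (Fin 2) E} (hk : k ∈ K.intGL) {a : E} (ha : a ≠ 0) (x u : E)
    (w : E × E) :
    IsSch K.base fun z =>
      K.χ (u * x * K.n (a • z)) * T.φ k (a • z) u * K.χ (u * K.B (a • z) w) := by
  obtain ⟨R, hper⟩ := T.exists_phase_per hk x u w
  refine ⟨K.box (R - K.ord a) (R - K.ord a), K.box (T.k0 - K.ord a) (T.k0 - K.ord a),
    K.isLat_box _ _, K.isLat_box _ _, fun z ρ hρ => ?_, fun z hz => ?_⟩
  · rw [← K.comap_smulEquiv a ha R R] at hρ
    simp only [smul_add]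
    exact hper (a • z) (a • ρ) hρ
  · rw [← K.comap_smulEquiv a ha]
    exact T.phase_supp hk x u w _ hz

/-- Away from the support in the similitude variable both sides of `fl_w` vanish. -/
lemma fl_w_of_not_supp {a β d : E} (ha : a ≠ 0) (hd : d ≠ 0) {k : GL (Fin 2) E} (hk : k ∈ K.intGL)
    (y : E × E) {v : E} (hv : ¬ (v ≠ 0 ∧ K.ord (v / (a * d)) = -T.e)) :
    K.wact T.η (T.fl (bmat a β d ha hd * k)) y v =
      T.lam * T.fl (wmat * (bmat a β d ha hd * k)) y v := by
  have hdet : K.ord (wmat : GL (Fin 2) E).val.det = 0 := by simp [Matrix.det_fin_two, K.ord_one]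
  have h1 : ∀ z, T.fl (bmat a β d ha hd * k) z v = 0 := fun z => by
    rw [T.fl_eq hk rfl]
    by_contra hne
    obtain ⟨h0, h2⟩ := T.supp_u k hk _ _ (right_ne_zero_of_mul hne)
    exact hv ⟨fun hh => h0 (by simp [hh]), h2⟩
  have h2 : T.fl (wmat * (bmat a β d ha hd * k)) y v = 0 := by
    by_contra hne
    obtain ⟨h0, h2⟩ := T.fl_supp hne
    have hkdet := K.ord_det_eq_zero hk
    have hkne : k.val.det ≠ 0 := ((Matrix.isUnit_iff_isUnit_det _).mp k.isUnit).ne_zero
    have hwne : (wmat : GL (Fin 2) E).val.det ≠ 0 :=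
      ((Matrix.isUnit_iff_isUnit_det _).mp wmat.isUnit).ne_zero
    rw [Units.val_mul, Matrix.det_mul, Units.val_mul, Matrix.det_mul, bmat_val,
      Matrix.det_fin_two_of, mul_zero, sub_zero,
      K.ord_mul hwne (mul_ne_zero (mul_ne_zero ha hd) hkne),
      K.ord_mul (mul_ne_zero ha hd) hkne, hdet, hkdet] at h2
    refine hv ⟨h0, ?_⟩
    rw [div_eq_mul_inv, K.ord_mul h0 (inv_ne_zero (mul_ne_zero ha hd)),
      K.ord_inv (mul_ne_zero ha hd)]
    omega
  rw [h2, mul_zero, LocalForm.wact,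
    show (fun z => T.fl (bmat a β d ha hd * k) z v * K.χ (v * K.B z y)) = 0 from
      funext fun z => by simp [h1],
    integral_zero, mul_zero]

/-- The transformation of `fl` at `w b k` into the one at `w u k` with `u` unipotent. -/
lemma fl_wmat_mul_bmat {a β d : E} (ha : a ≠ 0) (hd : d ≠ 0) (k : GL (Fin 2) E) (y : E × E)
    (v : E) :
    T.fl (wmat * (bmat a β d ha hd * k)) y v = T.η d * K.absv d *
      T.fl (wmat * (bmat 1 (β / a) 1 one_ne_zero one_ne_zero * k)) (d • y) (v / (a * d)) := by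
  have e : bmat a β d ha hd = bmat a 0 d ha hd * bmat 1 (β / a) 1 one_ne_zero one_ne_zero := by
    rw [bmat_mul]
    ext i j
    fin_cases i <;> fin_cases j <;> simp [mul_div_cancel₀ β ha]
  rw [e, mul_assoc, ← mul_assoc wmat, wmat_mul_diag, mul_assoc, T.fl_borel]
  simp only [LocalForm.bact, zero_div, mul_zero, zero_mul, AddChar.map_zero_eq_one, mul_one]
  rw [mul_comm d a]

/-- The Weyl operator on `fl (b k)` is the Fourier transform of `φ k` with a quadratic phase. -/
lemma wact_fl_bmat {a β d : E} (ha : a ≠ 0) (hd : d ≠ 0) {k : GL (Fin 2) E} (hk : k ∈ K.intGL)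
    {u : E} (hu : u ≠ 0) (y : E × E) :
    K.wact T.η (T.fl (bmat a β d ha hd * k)) y (u * (a * d)) = T.η d * K.absv d *
      (T.η u * K.absv u * (K.shift u hu).fourier
        (fun z => (K.shift u hu).χ (β / a * K.n z) * T.φ k z u) (-(d • y))) := by
  have hint : (fun z => T.fl (bmat a β d ha hd * k) z (u * (a * d)) *
      K.χ (u * (a * d) * K.B z y)) = fun z =>
      T.η a * K.absv a * (K.χ (u * (β / a) * K.n (a • z)) * T.φ k (a • z) u *
        K.χ (u * K.B (a • z) (d • y))) := by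
    funext z
    rw [T.fl_eq hk rfl]
    have e1 : u * (a * d) * (β / d) * K.n z = u * (β / a) * K.n (a • z) := by
      rw [K.n_smul]; field_simp
    have e2 : u * (a * d) * K.B z y = u * K.B (a • z) (d • y) := by
      simp only [LocalForm.B, Prod.smul_fst, Prod.smul_snd, smul_eq_mul]; ring
    simp only [LocalForm.bact, e1, e2, mul_div_cancel_right₀ u (mul_ne_zero ha hd)]
    ring
  rw [LocalForm.wact, hint, integral_const_mul (T.isSch_phase_smul hk ha _ _ _),
    T.integral_bact hk ha]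
  have hF : (integral K.base fun z => K.χ (u * (β / a) * K.n z) * T.φ k z u *
      K.χ (u * K.B z (d • y))) = (K.shift u hu).fourier
        (fun z => (K.shift u hu).χ (β / a * K.n z) * T.φ k z u) (-(d • y)) := by
    simp only [LocalForm.fourier, LocalForm.shift_chi, LocalForm.shift_B,
      LocalForm.shift_toLocalBase]
    congr 1
    funext z
    simp only [LocalForm.B, Prod.fst_neg, Prod.snd_neg, mul_assoc]
    congr 2
    congr 1
    ring
  rw [hF, T.η_mul hu (mul_ne_zero ha hd), T.η_mul ha hd, K.absv_mul hu (mul_ne_zero ha hd),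
    K.absv_mul ha hd]
  generalize (K.shift u hu).fourier _ _ = G
  have := K.absv_ne_zero a
  field_simp
  linear_combination (T.η u * T.η d * K.absv u * K.absv d * G) * T.η_sq ha

/-- The transform of an integral quadratic phase: the phase is absorbed into the matrix. -/
lemma fourier_phase_of_integral {k : GL (Fin 2) E} (hk : k ∈ K.intGL) {x u : E} (hu : u ≠ 0)
    (hxb : x ∈ K.ball 0) (w : E × E) :
    T.η u * K.absv u * (K.shift u hu).fourier
        (fun z => (K.shift u hu).χ (x * K.n z) * T.φ k z u) (-w) =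
      T.lam * T.fl (wmat * (bmat 1 x 1 one_ne_zero one_ne_zero * k)) w u := by
  have hshift : ∀ F : E × E → ℂ, T.η u * K.absv u * (K.shift u hu).fourier F (-w) =
      K.wact T.η (fun z _ => F z) w u := fun F => by rw [K.wact_eq_fourier _ _ hu]
  have hb : bmat 1 x 1 one_ne_zero one_ne_zero ∈ K.intGL :=
    (K.bmat_mem_intGL_iff _ _).mpr ⟨K.ord_one, K.ord_one, hxb⟩
  have hk' := mul_mem hb hk
  have hwk : wmat * (bmat 1 x 1 one_ne_zero one_ne_zero * k) =
      bmat 1 0 1 one_ne_zero one_ne_zero * (wmat * (bmat 1 x 1 one_ne_zero one_ne_zero * k)) := by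
    have e1 : bmat (1 : E) 0 1 one_ne_zero one_ne_zero = 1 := by
      ext i j; fin_cases i <;> fin_cases j <;> simp
    rw [e1, one_mul]
  rw [T.fl_eq (mul_mem K.wmat_mem hk') hwk]
  simp only [LocalForm.bact, mul_zero, zero_mul, AddChar.map_zero_eq_one, mul_one,
    T.eta_one, one_mul, one_smul, div_one, K.absv_unit K.ord_one]
  rw [← T.phi_w _ hk', hshift]
  simp only [LocalForm.wact]
  congr 2
  funext z
  rw [T.phi_borel _ _ _ _ _ hb k hk]
  simp only [LocalForm.bact, div_one, T.eta_one, one_mul, one_smul, mul_one,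
    K.absv_unit K.ord_one, LocalForm.shift_chi, mul_assoc]

/-- The transform of a quadratic phase with a pole: a Gauss integral times the reciprocal phase. -/
lemma fourier_phase_of_pole {k : GL (Fin 2) E} (hk : k ∈ K.intGL) {x u : E} (hu : u ≠ 0)
    (hx0 : x ≠ 0) (hxneg : K.ord x < 0) (hord : K.ord u = -T.e) (w : E × E) :
    T.η u * K.absv u * (K.shift u hu).fourier
        (fun z => (K.shift u hu).χ (x * K.n z) * T.φ k z u) (-w) =
      T.lam * T.fl (wmat * (bmat 1 x 1 one_ne_zero one_ne_zero * k)) w u := by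
  rw [T.fourier_phase k hk x u hu hx0 hxneg hord]
  have hl : x⁻¹ ∈ K.ball 1 := Or.inr (by rw [K.ord_inv hx0]; omega)
  have hneg : (negOne : GL (Fin 2) E) ∈ K.intGL := K.negOne_mem
  have hlk : lmat x⁻¹ * k ∈ K.intGL :=
    mul_mem (K.lmat_mem (K.ball_le (by omega) hl)) hk
  rw [T.fl_eq (mul_mem hneg hlk) (show wmat * (bmat 1 x 1 one_ne_zero one_ne_zero * k) =
    bmat x⁻¹ (-1) x (inv_ne_zero hx0) hx0 * (negOne * (lmat x⁻¹ * k)) by
      rw [← mul_assoc, wmat_mul_unip hx0]; simp only [mul_assoc]),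
    show (negOne : GL (Fin 2) E) = bmat (-1) 0 (-1) (by simp) (by simp) from rfl,
    T.phi_borel _ _ _ _ _ hneg _ hlk, T.phi_lower k hk _ hl]
  simp only [LocalForm.bact, K.absv_inv hx0, T.eta_inv hx0, inv_mul_cancel₀ hx0, div_one, zero_div,
    mul_zero, zero_mul, AddChar.map_zero_eq_one, mul_one, neg_mul_neg, smul_smul,
    K.absv_unit K.ord_neg_one, LocalForm.shift_chi]
  have e1 : u * -(K.n (-w) / x) = u * (-1 / x) * K.n w := by
    have : K.n (-w) = K.n w := by simp [LocalForm.n]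
    rw [this]; ring
  have e3 : x⁻¹ • -w = (-1 * x⁻¹) • w := by rw [neg_one_mul, neg_smul, smul_neg]
  have e4 : T.η (-x) = T.η x * T.η (-1) := by
    rw [← neg_one_mul x, T.η_mul (by simp) hx0]; ring
  rw [e1, e3]
  linear_combination (K.χ (u * (-1 / x) * K.n w) * T.φ k ((-1 * x⁻¹) • w) u) *
    ((T.gauss_val x u hu hx0 hxneg hord).trans (by rw [e4]))

/-- **Equivariance under the Weyl element.** -/
theorem fl_w (g : GL (Fin 2) E) (y : E × E) (v : E) :
    K.wact T.η (T.fl g) y v = T.lam * T.fl (wmat * g) y v := by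
  obtain ⟨a, β, d, ha, hd, k, hk, rfl⟩ := K.exists_iwasawa g
  by_cases hv : v ≠ 0 ∧ K.ord (v / (a * d)) = -T.e
  swap
  · exact T.fl_w_of_not_supp ha hd hk y hv
  obtain ⟨hv0, hord⟩ := hv
  have hu : v / (a * d) ≠ 0 := div_ne_zero hv0 (mul_ne_zero ha hd)
  have hL := T.wact_fl_bmat (β := β) ha hd hk hu y
  rw [div_mul_cancel₀ v (mul_ne_zero ha hd)] at hL
  rw [hL, T.fl_wmat_mul_bmat ha hd, mul_left_comm T.lam]
  congr 1
  by_cases hx : β / a = 0 ∨ 0 ≤ K.ord (β / a)
  · exact T.fourier_phase_of_integral hk hu hx (d • y)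
  · push Not at hx
    exact T.fourier_phase_of_pole hk hu hx.1 hx.2 hord (d • y)

end LocalVec

end Fermat.Agent.LT.DihedralTheta
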