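import Fermat.Agent.LT.DihedralTheta.Three
import Fermat.Agent.LT.DihedralTheta.Vec

/-!
# The depth zero cuspidal vector at a place of residue cardinality three

The vector is an isotypic function on residues times `χ (u n j)`, where `j` is the invariant
`(a c + b d) / (c ^ 2 + d ^ 2)` of an integral matrix modulo three.
-/

set_option autoImplicit false

open AddSubgroup Matrix

namespace Fermat.Agent.LT.DihedralTheta

/-- The Legendre symbol modulo three. -/
def sgnThree (r : ZMod 3) : ℂ := if r = 1 then 1 else if r = 2 then -1 else 0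

/-- The invariant of a matrix modulo three. -/
def jThree (m : Matrix (Fin 2) (Fin 2) (ZMod 3)) : ZMod 3 :=
  (m 0 0 * m 1 0 + m 0 1 * m 1 1) * (m 1 0 ^ 2 + m 1 1 ^ 2)

lemma jThree_bor (a β d : ZMod 3) (ha : a ≠ 0) (hd : d ≠ 0) (m : Matrix (Fin 2) (Fin 2) (ZMod 3))
    (hm : m.det ≠ 0) : jThree (!![a, β; 0, d] * m) = (a * jThree m + β) * d := by
  have key : ∀ a β d p q r s : ZMod 3, a ≠ 0 → d ≠ 0 → p * s - q * r ≠ 0 →
      ((a * p + β * r) * (d * r) + (a * q + β * s) * (d * s)) * ((d * r) ^ 2 + (d * s) ^ 2) =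
        (a * ((p * r + q * s) * (r ^ 2 + s ^ 2)) + β) * d := by decide
  rw [Matrix.det_fin_two] at hm
  simpa [jThree, Matrix.mul_apply, Fin.sum_univ_two] using key a β d _ _ _ _ ha hd hm

lemma jThree_weyl (m : Matrix (Fin 2) (Fin 2) (ZMod 3)) (hm : m.det ≠ 0) :
    jThree (!![0, 1; -1, 0] * m) = jThree m := by
  have key : ∀ p q r s : ZMod 3, p * s - q * r ≠ 0 →
      (r * -p + s * -q) * ((-p) ^ 2 + (-q) ^ 2) = (p * r + q * s) * (r ^ 2 + s ^ 2) := by decide
  rw [Matrix.det_fin_two] at hm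
  simpa [jThree, Matrix.mul_apply, Fin.sum_univ_two] using key _ _ _ _ hm

namespace LocalBase

variable {E : Type*} [Field E] (K : LocalBase E)

/-- The residue matrix. -/
noncomputable def resMat (k : GL (Fin 2) E) : Matrix (Fin 2) (Fin 2) (ZMod 3) := k.val.map K.res

variable {K}

/-- Reduction of matrices is multiplicative on `intGL`. -/
lemma resMat_mul (hq : K.q = 3) {g h : GL (Fin 2) E} (hg : g ∈ K.intGL) (hh : h ∈ K.intGL) :
    K.resMat (g * h) = K.resMat g * K.resMat h := by
  have hm : ∀ i j l, g.val i j * h.val j l ∈ K.ball 0 := fun i j l =>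
    K.mul_mem_ball' (hg.1 i j) (hh.1 j l) (by norm_num)
  ext i l
  simp only [resMat, Matrix.map_apply, Units.val_mul, Matrix.mul_apply, Fin.sum_univ_two,
    res_add hq (hm i 0 l) (hm i 1 l), res_mul hq (hg.1 _ _) (hh.1 _ _)]

/-- The reduction of the identity matrix. -/
lemma resMat_one (hq : K.q = 3) : K.resMat (1 : GL (Fin 2) E) = 1 := by
  ext i j
  rcases eq_or_ne i j with rfl | h
  · simp [resMat, res_one hq]
  · simp [resMat, Matrix.one_apply_ne h, res_zero hq]

/-- Reduction commutes with the determinant, which stays nonzero. -/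
lemma resMat_det (hq : K.q = 3) {k : GL (Fin 2) E} (hk : k ∈ K.intGL) :
    (K.resMat k).det = K.res k.val.det ∧ (K.resMat k).det ≠ 0 := by
  have e : (K.resMat k).det = K.res k.val.det := by
    simp only [resMat, Matrix.det_fin_two, Matrix.map_apply]
    rw [res_sub hq (K.mul_mem_ball' (hk.1 _ _) (hk.1 _ _) (by norm_num))
      (K.mul_mem_ball' (hk.1 _ _) (hk.1 _ _) (by norm_num)), res_mul hq (hk.1 _ _) (hk.1 _ _),
      res_mul hq (hk.1 _ _) (hk.1 _ _)]
  exact ⟨e, e ▸ res_unit hq (K.ord_det_eq_zero hk)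
    ((Matrix.isUnit_iff_isUnit_det _).mp k.isUnit).ne_zero⟩

/-- The principal congruence subgroup. -/
noncomputable def congrThree (hq : K.q = 3) : Subgroup (GL (Fin 2) E) where
  carrier := {k | k ∈ K.intGL ∧ K.resMat k = 1}
  one_mem' := ⟨one_mem _, resMat_one hq⟩
  mul_mem' {g h} hg hh := ⟨mul_mem hg.1 hh.1, by rw [resMat_mul hq hg.1 hh.1, hg.2, hh.2, one_mul]⟩
  inv_mem' {g} hg := ⟨inv_mem hg.1, by
    have := resMat_mul hq hg.1 (inv_mem hg.1)
    rwa [mul_inv_cancel, resMat_one hq, hg.2, one_mul, eq_comm] at this⟩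

end LocalBase

variable {E : Type*} [Field E]

namespace LocalForm

variable (K : LocalForm E)

/-- The character `χ (u ·)` on residues. -/
noncomputable def zetaAt (u : E) (r : ZMod 3) : ℂ := K.χ (u * ((r.val : ℕ) : E))

open Classical in
/-- A function of residues, twisted by a character of their norm. -/
noncomputable def resFun (N : ZMod 3 × ZMod 3 → ZMod 3) (f : ZMod 3 × ZMod 3 → ℂ) (j : ZMod 3)
    (u : E) (z : E × E) : ℂ :=
  if z ∈ K.box 0 0 then f (K.res z.1, K.res z.2) * K.zetaAt u (j * N (K.res z.1, K.res z.2)) else 0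

variable {K} {u : E}

/-- Shifting by an element of order one less than the conductor gives conductor `1`. -/
lemma shift_cond_one (hu : u ≠ 0) (h : K.ord u = K.cond - 1) : (K.shift u hu).cond = 1 := by
  show K.cond - K.ord u = 1; omega

variable (hq : K.q = 3) (hu : u ≠ 0) (h : K.ord u = K.cond - 1)

include hq hu h

lemma chi_eq_zetaAt {x : E} (hx : x ∈ K.ball 0) : K.χ (u * x) = K.zetaAt u (K.res x) :=
  chi_eq_zeta (K := K.shift u hu) hq (shift_cond_one hu h) hx

/-- `zetaAt u` is an additive character. -/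
lemma zetaAt_add (r r' : ZMod 3) : K.zetaAt u (r + r') = K.zetaAt u r * K.zetaAt u r' :=
  zeta_add (K := K.shift u hu) hq (shift_cond_one hu h) r r'

/-- A unit factor of `u` acts through its residue. -/
lemma zetaAt_unit {v : E} (hv : K.ord v = 0) (r : ZMod 3) :
    K.zetaAt (u * v) r = K.zetaAt u (K.res v * r) := by
  have hr : (((r.val : ℕ)) : E) ∈ K.ball 0 := by simpa using K.intCast_mem_ball (r.val : ℤ)
  rw [zetaAt, mul_assoc, chi_eq_zetaAt hq hu h (K.mul_mem_ball' (Or.inr hv.ge) hr (by norm_num)),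
    LocalBase.res_mul hq (Or.inr hv.ge) hr]
  have := LocalBase.res_intCast (K := K.toLocalBase) hq (r.val : ℤ)
  push_cast at this
  rw [this, ZMod.natCast_zmod_val]

end LocalForm

/-- A cuspidal function on residues, with its Fourier and Gauss identities. -/
structure ResModel (K : LocalForm E) (η : E → ℂ) where
  η_mul : ∀ {a b : E}, a ≠ 0 → b ≠ 0 → η (a * b) = η a * η b
  η_sq : ∀ {a : E}, a ≠ 0 → η a * η a = 1
  q_eq : K.q = 3
  /-- The central character on residues. -/
  etaRes : ZMod 3 → ℂ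
  eta_unit : ∀ a : E, a ≠ 0 → K.ord a = 0 → η a = etaRes (K.res a)
  /-- First period. -/
  la : ℤ
  /-- Second period. -/
  lb : ℤ
  la_nonneg : 0 ≤ la
  lb_nonneg : 0 ≤ lb
  /-- The norm on residues. -/
  N : ZMod 3 × ZMod 3 → ZMod 3
  /-- The function on residues. -/
  f : ZMod 3 × ZMod 3 → ℂ
  per_res : ∀ z ∈ K.box 0 0, ∀ ρ ∈ K.box la lb,
    f (K.res z.1 + K.res ρ.1, K.res z.2 + K.res ρ.2) = f (K.res z.1, K.res z.2) ∧
      N (K.res z.1 + K.res ρ.1, K.res z.2 + K.res ρ.2) = N (K.res z.1, K.res z.2)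
  n_eq : ∀ z ∈ K.box 0 0, f (K.res z.1, K.res z.2) ≠ 0 →
    K.res (K.n z) = N (K.res z.1, K.res z.2)
  homog : ∀ s r, s ≠ 0 → f (s * r.1, s * r.2) = etaRes s * f r ∧ N (s * r.1, s * r.2) = N r
  /-- The eigenvalue of the Fourier transform. -/
  mu : E → ℂ
  fourier_eq : ∀ (u : E) (hu : u ≠ 0), K.ord u = K.cond - 1 → ∀ j y,
    (K.shift u hu).fourier (K.resFun N f j u) y = mu u * K.resFun N f j u y
  /-- The constant of the Weyl operator. -/
  lam : ℂ
  lam_eq : ∀ u : E, u ≠ 0 → K.ord u = K.cond - 1 → η (-u) * K.absv u * mu u = lam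
  fourier_phase : ∀ φ : E × E → ℂ, IsPer (K.box la lb) φ → HasSupp (K.box 0 0) φ →
    ∀ (x u : E) (hu : u ≠ 0), x ≠ 0 → K.ord x < 0 → K.ord u = K.cond - 1 → ∀ y,
      (K.shift u hu).fourier (fun z => (K.shift u hu).χ (x * K.n z) * φ z) y =
        (K.shift u hu).χ (-(K.n y / x)) * φ (x⁻¹ • y) * (K.shift u hu).gauss x (K.box la lb)
  gauss_val : ∀ (x u : E) (hu : u ≠ 0), x ≠ 0 → K.ord x < 0 → K.ord u = K.cond - 1 →
    η u * K.absv u * (K.shift u hu).gauss x (K.box la lb) = lam * η (-x) * (K.absv x)⁻¹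

namespace ResModel

variable {K : LocalForm E} {η : E → ℂ} (M : ResModel K η) (ε : ℕ)

open Classical in
/-- The lattice function of an integral matrix. -/
noncomputable def phi (k : GL (Fin 2) E) (z : E × E) (u : E) : ℂ :=
  if u ≠ 0 ∧ K.ord u = K.cond - 1 then
    sgnThree (K.res (u * K.unif ^ (1 - K.cond)) * (K.resMat k).det) ^ ε *
      K.resFun M.N M.f (jThree (K.resMat k)) u z
  else 0

lemma phi_congr {k k' : GL (Fin 2) E} (h : K.resMat k = K.resMat k') : M.phi ε k = M.phi ε k' := by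
  funext z u; simp only [phi, h]

lemma resFun_per (j : ZMod 3) (u : E) : IsPer (K.box M.la M.lb) (K.resFun M.N M.f j u) := by
  intro z ρ hρ
  have hρ0 : ρ ∈ K.box 0 0 := K.box_le M.la_nonneg M.lb_nonneg hρ
  simp only [LocalForm.resFun]
  by_cases hz : z ∈ K.box 0 0
  · rw [if_pos hz, if_pos (add_mem hz hρ0)]
    obtain ⟨z1, z2⟩ := LocalBase.mem_box.mp hz
    obtain ⟨r1, r2⟩ := LocalBase.mem_box.mp hρ0
    obtain ⟨e1, e2⟩ := M.per_res z hz ρ hρ
    rw [Prod.fst_add, Prod.snd_add, LocalBase.res_add M.q_eq z1 r1,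
      LocalBase.res_add M.q_eq z2 r2, e1, e2]
  · rw [if_neg hz, if_neg fun h => hz ((AddSubgroup.add_mem_cancel_right _ hρ0).mp h)]

lemma resFun_supp (j : ZMod 3) (u : E) : HasSupp (K.box 0 0) (K.resFun M.N M.f j u) := by
  intro z hz; by_contra h; exact hz (if_neg h)

lemma resFun_smul (j : ZMod 3) (u : E) {a : E} (ha : a ≠ 0) (ha0 : K.ord a = 0) (z : E × E) :
    K.resFun M.N M.f j u (a • z) = η a * K.resFun M.N M.f j u z := by
  have hiff : a • z ∈ K.box 0 0 ↔ z ∈ K.box 0 0 := by
    simp [LocalBase.mem_box, K.mul_mem_ball_iff ha, ha0]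
  simp only [LocalForm.resFun]
  by_cases hz : z ∈ K.box 0 0
  · rw [if_pos hz, if_pos (hiff.mpr hz)]
    obtain ⟨z1, z2⟩ := LocalBase.mem_box.mp hz
    obtain ⟨e1, e2⟩ := M.homog (K.res a) (K.res z.1, K.res z.2) (LocalBase.res_unit M.q_eq ha0 ha)
    simp only [Prod.smul_fst, Prod.smul_snd, smul_eq_mul,
      LocalBase.res_mul M.q_eq (Or.inr ha0.ge) z1, LocalBase.res_mul M.q_eq (Or.inr ha0.ge) z2]
    dsimp only at e1 e2
    rw [e1, e2, M.eta_unit a ha ha0, mul_assoc]
  · rw [if_neg hz, if_neg (hiff.not.mpr hz), mul_zero]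

/-- The local vector transforms by the Borel action under integral triangular elements. -/
lemma phi_borel (a β d : E) (ha : a ≠ 0) (hd : d ≠ 0) (hmem : bmat a β d ha hd ∈ K.intGL)
    (k : GL (Fin 2) E) (hk : k ∈ K.intGL) :
    M.phi ε (bmat a β d ha hd * k) = K.bact η a β d (M.phi ε k) := by
  have hq := M.q_eq
  obtain ⟨ha0, hd0, hβ⟩ := (K.bmat_mem_intGL_iff ha hd).mp hmem
  have had0 : K.ord (a * d) = 0 := by rw [K.ord_mul ha hd, ha0, hd0]; rfl
  have hinv0 : K.ord (a * d)⁻¹ = 0 := by rw [K.ord_inv (mul_ne_zero ha hd), had0]; rfl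
  have had : K.res (a * d) = K.res a * K.res d :=
    LocalBase.res_mul hq (Or.inr ha0.ge) (Or.inr hd0.ge)
  funext z u
  have hiff : (u / (a * d) ≠ 0 ∧ K.ord (u / (a * d)) = K.cond - 1) ↔
      (u ≠ 0 ∧ K.ord u = K.cond - 1) := by
    rcases eq_or_ne u 0 with rfl | hu
    · simp
    · simp only [ne_eq, hu, not_false_eq_true, true_and, div_eq_mul_inv,
        K.ord_mul hu (inv_ne_zero (mul_ne_zero ha hd)), hinv0, add_zero, mul_eq_zero, inv_eq_zero,
        ha, hd, or_self]
  simp only [LocalForm.bact, phi, K.absv_unit ha0, mul_one]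
  by_cases hh : u ≠ 0 ∧ K.ord u = K.cond - 1
  swap
  · rw [if_neg hh, if_neg (hiff.not.mpr hh)]; simp
  rw [if_pos hh, if_pos (hiff.mpr hh)]
  obtain ⟨hu, hord⟩ := hh
  have hb : K.resMat (bmat a β d ha hd) = !![K.res a, K.res β; 0, K.res d] := by
    ext i j
    fin_cases i <;> fin_cases j <;> simp [LocalBase.resMat, LocalBase.res_zero hq]
  have hra := LocalBase.res_unit hq ha0 ha
  have hrd := LocalBase.res_unit hq hd0 hd
  rw [M.resFun_smul _ _ ha ha0, LocalBase.resMat_mul hq hmem hk, hb,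
    jThree_bor _ _ _ hra hrd _ (LocalBase.resMat_det hq hk).2, Matrix.det_mul,
    Matrix.det_fin_two_of, mul_zero, sub_zero]
  have hres : K.res (u / (a * d) * K.unif ^ (1 - K.cond)) =
      K.res a * K.res d * K.res (u * K.unif ^ (1 - K.cond)) := by
    rw [div_eq_mul_inv, mul_right_comm, LocalBase.res_mul hq (Or.inr ?_) (Or.inr hinv0.ge),
      LocalBase.res_inv hq had0 (mul_ne_zero ha hd), had, mul_comm]
    rw [K.ord_mul hu (zpow_ne_zero _ K.unif_ne_zero), hord, K.ord_unif_zpow]; omega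
  have hzeta : ∀ r, K.zetaAt (u / (a * d)) r = K.zetaAt u (K.res a * K.res d * r) := fun r => by
    rw [div_eq_mul_inv, K.zetaAt_unit hq hu hord hinv0, LocalBase.res_inv hq had0 (mul_ne_zero ha hd),
      had]
  rw [hres]
  simp only [LocalForm.resFun]
  split_ifs with hz
  swap
  · simp
  obtain ⟨hz1, hz2⟩ := LocalBase.mem_box.mp hz
  by_cases hf : M.f (K.res z.1, K.res z.2) = 0
  · simp [hf]
  have hβd : β / d ∈ K.ball 0 := by
    rw [div_eq_inv_mul, K.mul_mem_ball_iff (inv_ne_zero hd), K.ord_inv hd, hd0]; simpa using hβ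
  have hn : K.n z ∈ K.ball 0 := by simpa using K.n_mem hz
  rw [mul_assoc u, LocalForm.chi_eq_zetaAt hq hu hord (K.mul_mem_ball' hβd hn (by norm_num)),
    LocalBase.res_mul hq hβd hn, M.n_eq z hz hf, hzeta, div_eq_mul_inv,
    LocalBase.res_mul hq hβ (Or.inr (by rw [K.ord_inv hd, hd0]; norm_num)),
    LocalBase.res_inv hq hd0 hd]
  have hadd := fun r r' => LocalForm.zetaAt_add hq hu hord r r'
  generalize K.res a = A, K.res β = Bt, K.res d = D, M.N (K.res z.1, K.res z.2) = Nz,
    K.res (u * K.unif ^ (1 - K.cond)) = R, (K.resMat k).det = De, jThree (K.resMat k) = J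
  rw [show (A * J + Bt) * D * Nz = Bt * D * Nz + A * D * (J * Nz) by ring, hadd,
    show R * (A * D * De) = A * D * R * De by ring]
  linear_combination -(sgnThree (A * D * R * De) ^ ε * M.f (K.res z.1, K.res z.2) *
    K.zetaAt u (Bt * D * Nz) * K.zetaAt u (A * D * (J * Nz))) * M.η_sq ha

/-- The local vector of a residue model. -/
noncomputable def localVec : LocalVec K where
  η := η
  η_mul := M.η_mul
  η_sq := M.η_sq
  e := 1 - K.cond
  φ := M.phi ε
  la := M.la
  lb := M.lb
  k0 := 0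
  per k _ u z ρ hρ := by
    simp only [phi]
    split_ifs
    · rw [M.resFun_per _ _ z ρ hρ]
    · rfl
  supp k _ u z hz := by
    simp only [phi] at hz
    split_ifs at hz
    · exact M.resFun_supp _ _ _ (right_ne_zero_of_mul hz)
    · exact absurd rfl hz
  supp_u k _ z u hne := by
    simp only [phi] at hne
    split_ifs at hne with h
    · exact ⟨h.1, by omega⟩
    · exact absurd rfl hne
  U := LocalBase.congrThree M.q_eq
  U_le _ h := h.1
  phi_right k hk k' hk' := M.phi_congr ε (by
    rw [LocalBase.resMat_mul M.q_eq hk hk'.1, hk'.2, mul_one])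
  phi_borel := M.phi_borel ε
  phi_lower k hk t ht := M.phi_congr ε (by
    have hl : K.resMat (lmat t) = 1 := by
      have h0 : K.res t = 0 := (LocalBase.res_eq_zero_iff M.q_eq (K.ball_le (by norm_num) ht)).mpr ht
      ext i j
      fin_cases i <;> fin_cases j <;>
        simp [LocalBase.resMat, LocalBase.res_one M.q_eq, LocalBase.res_zero M.q_eq, h0]
    rw [LocalBase.resMat_mul M.q_eq (K.lmat_mem (K.ball_le (by norm_num) ht)) hk, hl, one_mul])
  lam := M.lam
  phi_w k hk y u := by
    have hq := M.q_eq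
    by_cases hu : u ≠ 0 ∧ K.ord u = K.cond - 1
    · obtain ⟨hu0, hord⟩ := hu
      have hw : K.resMat (wmat * k) = !![0, 1; -1, 0] * K.resMat k := by
        have e : K.resMat (wmat : GL (Fin 2) E) = !![0, 1; -1, 0] := by
          ext i j
          fin_cases i <;> fin_cases j <;>
            simp [LocalBase.resMat, LocalBase.res_one hq, LocalBase.res_zero hq,
              LocalBase.res_neg hq K.one_mem_ball]
        rw [LocalBase.resMat_mul hq K.wmat_mem hk, e]
      rw [K.wact_eq_fourier _ _ hu0]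
      simp only [phi, hu0, hord, ne_eq, not_false_eq_true, and_self, if_true, hw, Matrix.det_mul,
        Matrix.det_fin_two_of, mul_zero, zero_sub, one_mul, mul_neg, mul_one, neg_neg,
        jThree_weyl _ (LocalBase.resMat_det hq hk).2]
      set c := sgnThree (K.res (u * K.unif ^ (1 - K.cond)) * (K.resMat k).det) ^ ε
      set F := K.resFun M.N M.f (jThree (K.resMat k)) u
      have hlin : (K.shift u hu0).fourier (fun y => c * F y) (-y) =
          c * (K.shift u hu0).fourier F (-y) := by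
        simp only [LocalForm.fourier, mul_assoc]
        obtain ⟨kc, hkc⟩ := K.exists_box (-y)
        obtain ⟨r, hr1, hr2, hr3⟩ : ∃ r, M.la ≤ r ∧ M.lb ≤ r ∧ 1 ≤ r + kc :=
          ⟨max (max M.la M.lb) (1 - kc), le_max_of_le_left (le_max_left _ _),
            le_max_of_le_left (le_max_right _ _), by
              have := le_max_right (max M.la M.lb) (1 - kc); omega⟩
        refine integral_const_mul ⟨K.box r r, K.box 0 0, K.isLat_box r r, K.isLat_box 0 0,
          fun z ρ hρ => ?_, fun z hz => M.resFun_supp _ _ _ (left_ne_zero_of_mul hz)⟩ c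
        show F (z + ρ) * _ = F z * _
        rw [show F (z + ρ) = F z from M.resFun_per _ _ z ρ (K.box_le hr1 hr2 hρ), K.shift_B, K.B_add_left, neg_add,
          AddChar.map_add_eq_mul, (K.shift u hu0).chi_neg ((K.shift u hu0).χ_triv _
            (K.ball_le (by rw [LocalForm.shift_cond_one hu0 hord]; omega)
              (K.B_mem hρ (hkc _ le_rfl)))), mul_one]
      rw [hlin, M.fourier_eq u hu0 hord, show (-y : E × E) = (-1 : E) • y by simp,
        M.resFun_smul _ _ (by simp) K.ord_neg_one, ← M.lam_eq u hu0 hord, ← neg_one_mul u,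
        M.η_mul (by simp) hu0]
      ring
    · have h0 : (fun z => M.phi ε k z u * K.χ (u * K.B z y)) = 0 := by
        funext z; simp only [phi, if_neg hu, zero_mul, Pi.zero_apply]
      rw [LocalForm.wact, h0, integral_zero, mul_zero]
      simp only [phi, if_neg hu, mul_zero]
  fourier_phase k _ x u hu hx hm hord y := by
    have hord' : K.ord u = K.cond - 1 := by omega
    refine M.fourier_phase (fun z => M.phi ε k z u) (fun z ρ hρ => ?_) (fun z hz => ?_) x u hu hx hm
      hord' y
    · simp only [phi]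
      split_ifs
      · rw [M.resFun_per _ _ z ρ hρ]
      · rfl
    · simp only [phi] at hz
      split_ifs at hz
      · exact M.resFun_supp _ _ _ (right_ne_zero_of_mul hz)
      · exact absurd rfl hz
  gauss_val x u hu hx hm hord := M.gauss_val x u hu hx hm (by omega)

end ResModel

end Fermat.Agent.LT.DihedralTheta
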