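import Fermat.Agent.LT.DihedralTheta.TorusBasic
import Mathlib.Algebra.QuadraticAlgebra.Basic
import Mathlib.NumberTheory.NumberField.Units.DirichletTheorem
import Mathlib.NumberTheory.NumberField.InfinitePlace.TotallyRealComplex
import Mathlib.Algebra.Module.ZLattice.Basic
import Mathlib.GroupTheory.FiniteAbelian.Basic
import Mathlib.MeasureTheory.Group.FundamentalDomain
import Mathlib.LinearAlgebra.FreeModule.IdealQuotient

/-!
# The units of the torus

The logarithms of the norm one units form a lattice of full rank in the space of logarithms; the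
norms of the units have finite index in the units of `F`.
-/

set_option autoImplicit false

noncomputable section

open NumberField (InfinitePlace)
open scoped Pointwise
open Fermat.Agent.LT.Places

namespace Fermat.Agent.LT.DihedralTheta

variable {F : Type*} [Field F] [NumberField F]

/-- Every unit has a power congruent to one modulo `M`. -/
theorem exists_pow_congr_one (K : Type*) [Field K] [NumberField K] {M : ℕ} (hM : 0 < M) :
    ∃ k : ℕ, 0 < k ∧ ∀ u : (NumberField.RingOfIntegers K)ˣ, ∃ z : NumberField.RingOfIntegers K,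
      (((u ^ k : (NumberField.RingOfIntegers K)ˣ) : NumberField.RingOfIntegers K) : K) =
        (M : K) * (z : K) + 1 := by
  set O := NumberField.RingOfIntegers K
  have hI : Ideal.span {(M : O)} ≠ ⊥ := by
    simpa [Ideal.span_singleton_eq_bot] using (Nat.cast_ne_zero (R := O)).mpr hM.ne'
  have : Finite (O ⧸ Ideal.span {(M : O)}) := Ideal.finiteQuotientOfFreeOfNeBot _ hI
  refine ⟨Nat.card (O ⧸ Ideal.span {(M : O)})ˣ, Nat.card_pos, fun u => ?_⟩
  have h1 := pow_card_eq_one'
    (x := Units.map (Ideal.Quotient.mk (Ideal.span {(M : O)})).toMonoidHom u)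
  rw [← map_pow, Units.ext_iff] at h1
  obtain ⟨z, hz⟩ := Ideal.mem_span_singleton'.mp
    (Ideal.Quotient.eq.mp (h1.trans (map_one (Ideal.Quotient.mk _)).symm))
  refine ⟨z, ?_⟩
  have h2 := congrArg (fun y : O => (y : K)) hz
  simp only [map_sub, map_mul, map_one, map_natCast] at h2
  linear_combination -h2

namespace ThetaData

variable (D : ThetaData F)

lemma emb_one (w : InfinitePlace F) : D.emb w (1, 0) = 1 := by simp [emb]

lemma emb'_one (w : InfinitePlace F) : D.emb' w (1, 0) = 1 := by simp [emb']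

lemma emb_smul (w : InfinitePlace F) (c : F) (x : F × F) :
    D.emb w (c • x) = w.embedding c * D.emb w x := by
  simp only [emb, Prod.smul_fst, Prod.smul_snd, smul_eq_mul, map_mul]; ring

lemma emb'_smul (w : InfinitePlace F) (c : F) (x : F × F) :
    D.emb' w (c • x) = w.embedding c * D.emb' w x := by
  simp only [emb', Prod.smul_fst, Prod.smul_snd, smul_eq_mul, map_mul]; ring

lemma root_ne_root' (w : InfinitePlace F) : D.root w ≠ D.root' w := fun h => by
  have hs : w.embedding D.s = 2 * D.root w := by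
    rw [root'] at h; linear_combination -h
  have h0 : D.s ^ 2 - 4 * D.p = 0 := by
    apply w.embedding.injective
    simp only [map_sub, map_mul, map_pow, map_ofNat, map_zero]
    linear_combination -4 * D.root_eq w + (w.embedding D.s - 2 * D.root w) * hs
  have h1 := D.aniso (-D.s / 2, 1) (by
    simp only [normForm]
    linear_combination -h0 / 4)
  simp at h1

lemma emb_ne {x : F × F} (hx : x ≠ 0) (w : InfinitePlace F) :
    D.emb w x ≠ 0 ∧ D.emb' w x ≠ 0 := by
  rw [← mul_ne_zero_iff, emb_mul_emb']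
  exact (map_ne_zero _).mpr (D.norm_ne hx)

lemma logRatio_one : D.logRatio (1, 0) = 0 := by
  funext w; simp [logRatio, emb_one, emb'_one]

lemma logRatio_gmul {x y : F × F} (hx : x ≠ 0) (hy : y ≠ 0) :
    D.logRatio (gmul D.s D.p x y) = D.logRatio x + D.logRatio y := by
  funext w
  simp only [logRatio, Pi.add_apply, emb_gmul, emb'_gmul, norm_mul]
  rw [Real.log_mul (norm_ne_zero_iff.mpr (D.emb_ne hx w).1) (norm_ne_zero_iff.mpr (D.emb_ne hy w).1),
    Real.log_mul (norm_ne_zero_iff.mpr (D.emb_ne hx w).2) (norm_ne_zero_iff.mpr (D.emb_ne hy w).2)]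
  ring

lemma logRatio_smul {c : F} (hc : c ≠ 0) {x : F × F} (hx : x ≠ 0) :
    D.logRatio (c • x) = D.logRatio x := by
  funext w
  have h : ‖w.embedding c‖ ≠ 0 := norm_ne_zero_iff.mpr ((map_ne_zero _).mpr hc)
  simp only [logRatio, emb_smul, emb'_smul, norm_mul]
  rw [Real.log_mul h (norm_ne_zero_iff.mpr (D.emb_ne hx w).1),
    Real.log_mul h (norm_ne_zero_iff.mpr (D.emb_ne hx w).2)]
  ring

/-- A norm one unit is nonzero. -/
lemma normOneUnits_ne {x : F × F} (hx : x ∈ D.normOneUnits) : x ≠ 0 := hx.1.1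

lemma one_mem_normOneUnits : ((1 : F), (0 : F)) ∈ D.normOneUnits :=
  ⟨D.one_mem_units, by simp [normForm]⟩

lemma gmul_mem_normOneUnits {x y : F × F} (hx : x ∈ D.normOneUnits) (hy : y ∈ D.normOneUnits) :
    gmul D.s D.p x y ∈ D.normOneUnits :=
  ⟨D.gmul_mem_units hx.1 hy.1, by rw [normForm_gmul, hx.2, hy.2, one_mul]⟩

lemma ginv_mem_normOneUnits {x : F × F} (hx : x ∈ D.normOneUnits) :
    D.ginv x ∈ D.normOneUnits :=
  ⟨D.ginv_mem_units hx.1, by rw [D.norm_ginv (D.normOneUnits_ne hx), hx.2, inv_one]⟩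

lemma logRatio_ginv {x : F × F} (hx : x ≠ 0) : D.logRatio (D.ginv x) = -D.logRatio x := by
  have h := D.logRatio_gmul hx (D.ginv_ne hx)
  rw [D.gmul_ginv hx, D.logRatio_one] at h
  exact eq_neg_of_add_eq_zero_right h.symm

/-- Norm one units with bounded logarithms are finite. -/
theorem finite_bounded (R : ℝ) :
    {x ∈ D.normOneUnits | ∀ w, |D.logRatio x w| ≤ R}.Finite := by
  classical
  obtain ⟨N, hN, hNint⟩ := D.exists_order_denominator
  set δ : InfinitePlace F → ℝ := fun w => ‖D.root w - D.root' w‖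
  have hδ : ∀ w, 0 < δ w := fun w => norm_pos_iff.mpr (sub_ne_zero.mpr (D.root_ne_root' w))
  set B : InfinitePlace F → ℝ := fun w =>
    Real.exp |R| + (2 * Real.exp |R| / δ w) * (1 + ‖D.root w‖)
  have hB : ∀ w, 0 ≤ B w := fun w => by have := hδ w; positivity
  set Z : Set F := {z | IsIntegral ℤ z ∧ ∀ φ : F →+* ℂ, ‖φ z‖ ≤ N * ∑ w, B w}
  have hZ : Z.Finite := NumberField.Embeddings.finite_of_norm_le F ℂ _
  refine Set.Finite.of_finite_image
    (f := fun x : F × F => ((N : F) * x.1, (N : F) * x.2))
    ((hZ.prod hZ).subset ?_) fun a _ b _ e => ?_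
  · rintro _ ⟨x, ⟨hx, hR⟩, rfl⟩
    have key : ∀ w : InfinitePlace F, ‖w.embedding x.1‖ ≤ B w ∧ ‖w.embedding x.2‖ ≤ B w := by
      intro w
      have hne := D.emb_ne (D.normOneUnits_ne hx) w
      have hprod : ‖D.emb w x‖ * ‖D.emb' w x‖ = 1 := by
        rw [← norm_mul, emb_mul_emb', hx.2, map_one, norm_one]
      have hlog : Real.log ‖D.emb w x‖ + Real.log ‖D.emb' w x‖ = 0 := by
        rw [← Real.log_mul (norm_ne_zero_iff.mpr hne.1) (norm_ne_zero_iff.mpr hne.2), hprod,
          Real.log_one]
      have h1 : |Real.log ‖D.emb w x‖ - Real.log ‖D.emb' w x‖| ≤ |R| := (hR w).trans (le_abs_self R)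
      rw [abs_le] at h1
      have he : ‖D.emb w x‖ ≤ Real.exp |R| := by
        rw [← Real.exp_log (norm_pos_iff.mpr hne.1)]
        exact Real.exp_le_exp.mpr (by linarith)
      have he' : ‖D.emb' w x‖ ≤ Real.exp |R| := by
        rw [← Real.exp_log (norm_pos_iff.mpr hne.2)]
        exact Real.exp_le_exp.mpr (by linarith)
      have e2 : ‖w.embedding x.2‖ * δ w ≤ 2 * Real.exp |R| := by
        rw [← norm_mul, show w.embedding x.2 * (D.root w - D.root' w) = D.emb w x - D.emb' w x by
          simp only [emb, emb']; ring]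
        exact (norm_sub_le _ _).trans (by linarith)
      have h2 : ‖w.embedding x.2‖ ≤ 2 * Real.exp |R| / δ w := by rwa [le_div_iff₀ (hδ w)]
      have h0 : 0 ≤ 2 * Real.exp |R| / δ w := (norm_nonneg _).trans h2
      refine ⟨?_, ?_⟩
      · rw [show w.embedding x.1 = D.emb w x - w.embedding x.2 * D.root w by simp [emb]]
        refine (norm_sub_le _ _).trans ?_
        rw [norm_mul]
        simp only [B, mul_add, mul_one]
        nlinarith [mul_le_mul_of_nonneg_right h2 (norm_nonneg (D.root w))]
      · simp only [B, mul_add, mul_one]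
        nlinarith [Real.exp_pos |R|, mul_nonneg h0 (norm_nonneg (D.root w))]
    have hφ : ∀ (z : F) (φ : F →+* ℂ), (∀ w : InfinitePlace F, ‖w.embedding z‖ ≤ B w) →
        ‖φ ((N : F) * z)‖ ≤ N * ∑ w, B w := by
      intro z φ hz
      rw [map_mul, map_natCast, norm_mul, Complex.norm_natCast]
      refine mul_le_mul_of_nonneg_left ?_ (Nat.cast_nonneg _)
      rw [← InfinitePlace.apply φ z, ← InfinitePlace.norm_embedding_eq]
      exact (hz _).trans (Finset.single_le_sum (fun w _ => hB w) (Finset.mem_univ _))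
    have ho := hNint x (D.mem_units_iff.mp hx.1).2.1
    exact ⟨⟨ho.1, fun φ => hφ _ φ fun w => (key w).1⟩, ho.2, fun φ => hφ _ φ fun w => (key w).2⟩
  · simp only [Prod.mk.injEq] at e
    have hN0 : (N : F) ≠ 0 := Nat.cast_ne_zero.mpr hN.ne'
    exact Prod.ext (mul_left_cancel₀ hN0 e.1) (mul_left_cancel₀ hN0 e.2)

/-- The logarithms of the norm one units. -/
def logGroup : AddSubgroup (InfinitePlace F → ℝ) where
  carrier := D.logRatio '' D.normOneUnits
  zero_mem' := ⟨_, D.one_mem_normOneUnits, D.logRatio_one⟩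
  add_mem' := by
    rintro _ _ ⟨x, hx, rfl⟩ ⟨y, hy, rfl⟩
    exact ⟨_, D.gmul_mem_normOneUnits hx hy,
      D.logRatio_gmul (D.normOneUnits_ne hx) (D.normOneUnits_ne hy)⟩
  neg_mem' := by
    rintro _ ⟨x, hx, rfl⟩
    exact ⟨_, D.ginv_mem_normOneUnits hx, D.logRatio_ginv (D.normOneUnits_ne hx)⟩

/-- The same as a `ℤ`-submodule. -/
def logLattice : Submodule ℤ (InfinitePlace F → ℝ) := D.logGroup.toIntSubmodule

lemma mem_logLattice {y : InfinitePlace F → ℝ} :
    y ∈ D.logLattice ↔ ∃ x ∈ D.normOneUnits, D.logRatio x = y := Iff.rfl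

theorem finite_logKer : {x ∈ D.normOneUnits | D.logRatio x = 0}.Finite :=
  (D.finite_bounded 0).subset fun x hx => ⟨hx.1, fun w => by simp [hx.2]⟩

/-- The kernel of the logarithm on norm one units is finite and nonempty. -/
theorem card_logKer_ne_zero :
    Nat.card {x | x ∈ D.normOneUnits ∧ D.logRatio x = 0} ≠ 0 := by
  have : Finite {x | x ∈ D.normOneUnits ∧ D.logRatio x = 0} := D.finite_logKer.to_subtype
  have : Nonempty {x | x ∈ D.normOneUnits ∧ D.logRatio x = 0} :=
    ⟨⟨_, D.one_mem_normOneUnits, D.logRatio_one⟩⟩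
  exact Nat.card_pos.ne'

instance discrete_logLattice : DiscreteTopology D.logLattice := by
  refine discreteTopology_of_isOpen_singleton_zero ?_
  refine isOpen_singleton_of_finite_mem_nhds 0 (s := Metric.closedBall 0 1) ?_ ?_
  · exact Metric.closedBall_mem_nhds _ one_pos
  · refine Set.Finite.of_finite_image (((D.finite_bounded 1).image D.logRatio).subset ?_)
      (Set.injOn_of_injective Subtype.val_injective)
    rintro _ ⟨⟨y, hy⟩, hy1, rfl⟩
    obtain ⟨x, hx, rfl⟩ := D.mem_logLattice.mp hy
    rw [Metric.mem_closedBall, dist_zero_right] at hy1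
    exact ⟨x, ⟨hx, fun w => by rw [← Real.norm_eq_abs]; exact (norm_le_pi_norm _ w).trans hy1⟩, rfl⟩

/-- The quadratic algebra, a field by anisotropy. -/
abbrev qAlg : Type _ := QuadraticAlgebra F (-D.p) D.s

instance qAlg_fact : Fact (∀ r : F, r ^ 2 ≠ -D.p + D.s * r) := ⟨fun r h => by
  have := D.aniso (r, -1) (by simp only [normForm]; linear_combination h)
  simp at this⟩

instance qAlg_numberField : NumberField D.qAlg where
  to_charZero := charZero_of_injective_algebraMap
    (QuadraticAlgebra.algebraMap_injective (R := F) (a := -D.p) (b := D.s))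
  to_finiteDimensional := Module.Finite.trans (R := ℚ) F D.qAlg

/-- The coordinates. -/
def pairOf (z : D.qAlg) : F × F := (z.re, z.im)

lemma pairOf_mul (z z' : D.qAlg) :
    D.pairOf (z * z') = gmul D.s D.p (D.pairOf z) (D.pairOf z') := by
  simp only [pairOf, gmul, QuadraticAlgebra.re_mul, QuadraticAlgebra.im_mul]
  refine Prod.ext ?_ ?_ <;> simp only
  ring

/-- A square root chosen above each place. -/
def qRoot (b : Bool) (w : InfinitePlace F) : ℂ := if b then D.root w else D.root' w

lemma qRoot_eq (b : Bool) (w : InfinitePlace F) :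
    D.qRoot b w * D.qRoot b w - w.embedding D.s * D.qRoot b w + w.embedding D.p = 0 := by
  cases b
  · simp only [qRoot, root', Bool.false_eq_true, if_false]; linear_combination D.root_eq w
  · exact D.root_eq w

/-- The embeddings of the quadratic algebra. -/
def qEmb (b : Bool) (w : InfinitePlace F) : D.qAlg →+* ℂ where
  toFun z := w.embedding z.re + w.embedding z.im * D.qRoot b w
  map_one' := by simp [QuadraticAlgebra.re_one, QuadraticAlgebra.im_one]
  map_zero' := by simp
  map_add' z z' := by simp only [QuadraticAlgebra.re_add, QuadraticAlgebra.im_add, map_add]; ring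
  map_mul' z z' := by
    simp only [QuadraticAlgebra.re_mul, QuadraticAlgebra.im_mul, map_add, map_mul, map_neg]
    linear_combination -(w.embedding z.im * w.embedding z'.im) * D.qRoot_eq b w

lemma qEmb_algebraMap (b : Bool) (w : InfinitePlace F) (r : F) :
    D.qEmb b w (algebraMap F D.qAlg r) = w.embedding r := by
  simp [qEmb]

/-- The places of the quadratic algebra. -/
def qPlaceOf (i : Bool × InfinitePlace F) : InfinitePlace D.qAlg :=
  InfinitePlace.mk (D.qEmb i.1 i.2)

lemma qPlaceOf_apply (b : Bool) (w : InfinitePlace F) (z : D.qAlg) :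
    D.qPlaceOf (b, w) z = ‖D.qEmb b w z‖ := InfinitePlace.apply _ z

variable [NumberField.IsTotallyComplex F]

lemma qEmb_not_conj (b b' : Bool) (w : InfinitePlace F) :
    NumberField.ComplexEmbedding.conjugate (D.qEmb b w) ≠ D.qEmb b' w := fun h => by
  refine (InfinitePlace.isComplex_iff.mp (NumberField.IsTotallyComplex.isComplex w))
    (RingHom.ext fun r => ?_)
  have := RingHom.congr_fun h (algebraMap F D.qAlg r)
  rwa [NumberField.ComplexEmbedding.conjugate_coe_eq, qEmb_algebraMap, qEmb_algebraMap] at this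

lemma qPlaceOf_bijective : Function.Bijective D.qPlaceOf := by
  refine ⟨fun ⟨b, w⟩ ⟨b', w'⟩ h => ?_, fun W => ?_⟩
  · have hw : w = w' := by
      rw [← InfinitePlace.mk_embedding w, ← InfinitePlace.mk_embedding w']
      refine InfinitePlace.ext _ _ fun r => ?_
      have := DFunLike.congr_fun h (algebraMap F D.qAlg r)
      rwa [qPlaceOf_apply, qPlaceOf_apply, qEmb_algebraMap, qEmb_algebraMap] at this
    subst hw
    rcases InfinitePlace.mk_eq_iff.mp h with h' | h'
    · have := RingHom.congr_fun h' (⟨0, 1⟩ : D.qAlg)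
      simp [qEmb, qRoot] at this
      cases b <;> cases b' <;> simp at this ⊢
      · exact D.root_ne_root' w this.symm
      · exact D.root_ne_root' w this
    · exact absurd h' (D.qEmb_not_conj b b' w)
  · set w := InfinitePlace.mk (W.embedding.comp (algebraMap F D.qAlg))
    obtain ⟨φ, hφW, hφ⟩ : ∃ φ : D.qAlg →+* ℂ, InfinitePlace.mk φ = W ∧
        φ.comp (algebraMap F D.qAlg) = w.embedding := by
      rcases InfinitePlace.embedding_mk_eq (W.embedding.comp (algebraMap F D.qAlg)) with h | h
      · exact ⟨W.embedding, W.mk_embedding, h.symm⟩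
      · refine ⟨NumberField.ComplexEmbedding.conjugate W.embedding, ?_, h.symm⟩
        rw [InfinitePlace.mk_conjugate_eq, W.mk_embedding]
    set t := φ (⟨0, 1⟩ : D.qAlg)
    have hval : ∀ z : D.qAlg, φ z = w.embedding z.re + w.embedding z.im * t := fun z => by
      rw [show z = algebraMap F D.qAlg z.re + algebraMap F D.qAlg z.im * ⟨0, 1⟩ by
        ext <;> simp [QuadraticAlgebra.algebraMap_eq], map_add, map_mul, ← hφ]
      simp [t, QuadraticAlgebra.algebraMap_eq]
    have ht : (t - D.root w) * (t - D.root' w) = 0 := by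
      have h2 := hval ((⟨0, 1⟩ : D.qAlg) * ⟨0, 1⟩)
      rw [map_mul] at h2
      simp only [QuadraticAlgebra.re_mul, QuadraticAlgebra.im_mul, mul_zero, mul_one, zero_add,
        map_neg] at h2
      rw [root']
      linear_combination h2 - D.root_eq w
    rcases mul_eq_zero.mp ht with h | h <;> rw [sub_eq_zero] at h
    · refine ⟨(true, w), ?_⟩
      rw [← hφW]
      exact congrArg InfinitePlace.mk (RingHom.ext fun z => by rw [hval z, h]; rfl)
    · refine ⟨(false, w), ?_⟩
      rw [← hφW]
      exact congrArg InfinitePlace.mk (RingHom.ext fun z => by rw [hval z, h]; rfl)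

lemma mult_qPlace (W : InfinitePlace D.qAlg) : W.mult = 2 := by
  obtain ⟨⟨b, w⟩, rfl⟩ := D.qPlaceOf_bijective.2 W
  refine InfinitePlace.IsComplex.mult_eq_two (InfinitePlace.isComplex_mk_iff.mpr fun h => ?_)
  exact D.qEmb_not_conj b b w h

omit [NumberField.IsTotallyComplex F] in
lemma log_qPlaceOf (z : D.qAlg) (w : InfinitePlace F) :
    Real.log (D.qPlaceOf (true, w) z) - Real.log (D.qPlaceOf (false, w) z) =
      D.logRatio (D.pairOf z) w := by
  rw [qPlaceOf_apply, qPlaceOf_apply]; rfl

omit [NumberField.IsTotallyComplex F] in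
lemma pairOf_add (z z' : D.qAlg) : D.pairOf (z + z') = D.pairOf z + D.pairOf z' := rfl

omit [NumberField.IsTotallyComplex F] in
lemma pairOf_natCast_mul (M : ℕ) (z : D.qAlg) :
    D.pairOf ((M : D.qAlg) * z) = (M : F) • D.pairOf z := by
  rw [← nsmul_eq_mul, Nat.cast_smul_eq_nsmul]
  exact map_nsmul (AddMonoidHom.mk' D.pairOf D.pairOf_add) M z

omit [NumberField.IsTotallyComplex F] in
lemma pairOf_one : D.pairOf 1 = (1, 0) := rfl

omit [NumberField.IsTotallyComplex F] in
/-- A power of every unit of the quadratic algebra is a unit of the order. -/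
theorem exists_pow_mem_units :
    ∃ k : ℕ, 0 < k ∧ ∀ u : (NumberField.RingOfIntegers D.qAlg)ˣ,
      D.pairOf ((u : NumberField.RingOfIntegers D.qAlg) : D.qAlg) ≠ 0 ∧
        D.pairOf (((u ^ k : (NumberField.RingOfIntegers D.qAlg)ˣ) :
          NumberField.RingOfIntegers D.qAlg) : D.qAlg) ∈ D.units := by
  classical
  let B := NumberField.integralBasis D.qAlg
  choose m hm hmo using fun i => D.exists_nsmul_mem_order (D.pairOf (B i))
  have hM : 0 < ∏ i, m i := Finset.prod_pos fun i _ => hm i
  let φ : D.qAlg →+ F × F := AddMonoidHom.mk' (fun z => ((∏ i, m i : ℕ) : F) • D.pairOf z)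
    fun z z' => by rw [pairOf_add, smul_add]
  have hMz : ∀ z : NumberField.RingOfIntegers D.qAlg, φ (z : D.qAlg) ∈ D.order := by
    intro z
    refine (Submodule.span_le (p := (D.order.comap φ).toIntSubmodule)).mpr ?_
      ((NumberField.mem_span_integralBasis D.qAlg).mpr ⟨z, rfl⟩ :
        (z : D.qAlg) ∈ Submodule.span ℤ (Set.range B))
    rintro _ ⟨i, rfl⟩
    show ((∏ i, m i : ℕ) : F) • D.pairOf (B i) ∈ D.order
    rw [← Finset.prod_erase_mul _ _ (Finset.mem_univ i), Nat.cast_mul, mul_smul,
      Nat.cast_smul_eq_nsmul]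
    exact nsmul_mem (hmo i) _
  obtain ⟨k, hk, hku⟩ := exists_pow_congr_one D.qAlg hM
  have hinv : ∀ u : (NumberField.RingOfIntegers D.qAlg)ˣ,
      gmul D.s D.p (D.pairOf ((u : NumberField.RingOfIntegers D.qAlg) : D.qAlg))
        (D.pairOf (((u⁻¹ : (NumberField.RingOfIntegers D.qAlg)ˣ) :
          NumberField.RingOfIntegers D.qAlg) : D.qAlg)) = (1, 0) := fun u => by
    rw [← pairOf_mul, ← map_mul, Units.mul_inv, map_one, pairOf_one]
  have hne : ∀ u : (NumberField.RingOfIntegers D.qAlg)ˣ,
      D.pairOf ((u : NumberField.RingOfIntegers D.qAlg) : D.qAlg) ≠ 0 := fun u h => by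
    have := hinv u
    simp [h, gmul] at this
  have hord : ∀ u : (NumberField.RingOfIntegers D.qAlg)ˣ,
      D.pairOf (((u ^ k : (NumberField.RingOfIntegers D.qAlg)ˣ) :
        NumberField.RingOfIntegers D.qAlg) : D.qAlg) ∈ D.order := fun u => by
    obtain ⟨z, hz⟩ := hku u
    rw [hz, pairOf_add, pairOf_natCast_mul, pairOf_one]
    exact add_mem (hMz z) D.one_mem_order
  refine ⟨k, hk, fun u => ⟨hne u, D.mem_units_iff.mpr ⟨hne _, hord u, fun v => ?_⟩⟩⟩
  have hle : ∀ x ∈ D.order, v.valuation F (normForm D.s D.p x) ≤ 1 := fun x hx => by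
    rw [← torus_valued_cmp, ← (D.place v).n_coord, ← (D.place v).mem_ball_zero]
    exact (D.place v).form.torus_n_mem (hx v)
  have h := congrArg (fun x => v.valuation F (normForm D.s D.p x)) (hinv (u ^ k))
  simp only [normForm_gmul, map_mul, ← inv_pow] at h
  rw [show normForm D.s D.p (1, 0) = 1 by simp [normForm], map_one] at h
  refine le_antisymm (hle _ (hord u)) ?_
  rw [← h]
  exact mul_le_of_le_one_right' (hle _ (hord u⁻¹))

/-- The logarithms of the norm one units span the space of logarithms. -/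
theorem span_logLattice : Submodule.span ℝ (D.logLattice : Set (InfinitePlace F → ℝ)) = ⊤ := by
  classical
  obtain ⟨k, hk, hku⟩ := D.exists_pow_mem_units
  set S := Submodule.span ℝ (D.logLattice : Set (InfinitePlace F → ℝ))
  let hat : NumberField.Units.dirichletUnitTheorem.logSpace D.qAlg → InfinitePlace D.qAlg → ℝ :=
    fun g W => if h : W = NumberField.Units.dirichletUnitTheorem.w₀ then -∑ i, g i else g ⟨W, h⟩
  have hat_add : ∀ g g' W, hat (g + g') W = hat g W + hat g' W := fun g g' W => by
    simp only [hat]; split <;> simp [Finset.sum_add_distrib] ; ring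
  have hat_smul : ∀ (c : ℝ) g W, hat (c • g) W = c * hat g W := fun c g W => by
    simp only [hat]; split <;> simp [Finset.mul_sum]
  let R : NumberField.Units.dirichletUnitTheorem.logSpace D.qAlg →ₗ[ℝ] InfinitePlace F → ℝ :=
    { toFun := fun g w => (hat g (D.qPlaceOf (true, w)) - hat g (D.qPlaceOf (false, w))) / 2
      map_add' := fun g g' => funext fun w => by simp only [hat_add, Pi.add_apply]; ring
      map_smul' := fun c g => funext fun w => by
        simp only [hat_smul, Pi.smul_apply, smul_eq_mul, RingHom.id_apply]; ring }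
  have hsurj : Function.Surjective R := fun y => by
    let e := Equiv.ofBijective _ D.qPlaceOf_bijective
    let f : InfinitePlace D.qAlg → ℝ := fun W =>
      if (e.symm W).1 then y (e.symm W).2 else -y (e.symm W).2
    have hf : ∑ W, f W = 0 := by
      rw [← e.sum_comp, Fintype.sum_prod_type, Fintype.sum_bool]
      simp [f]
    refine ⟨fun i => f i.1, funext fun w => ?_⟩
    have hhat : ∀ W, hat (fun i => f i.1) W = f W := fun W => by
      simp only [hat]
      split
      · next h =>
        rw [Fintype.sum_eq_add_sum_subtype_ne _ NumberField.Units.dirichletUnitTheorem.w₀] at hf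
        rw [h]; linarith
      · rfl
    show (hat _ (e (true, w)) - hat _ (e (false, w))) / 2 = y w
    simp [hhat, f]
  have hmem : ∀ l ∈ NumberField.Units.unitLattice D.qAlg, R l ∈ S := by
    intro l hl
    obtain ⟨au, -, rfl⟩ := Submodule.mem_map.mp hl
    set u : (NumberField.RingOfIntegers D.qAlg)ˣ := Additive.toMul au
    obtain ⟨hne, hu⟩ := hku u
    set z := ((u : NumberField.RingOfIntegers D.qAlg) : D.qAlg)
    have hR : R (NumberField.Units.logEmbedding D.qAlg au) = D.logRatio (D.pairOf z) := by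
      funext w
      have hh : ∀ W, hat (NumberField.Units.logEmbedding D.qAlg au) W = 2 * Real.log (W z) := by
        intro W
        simp only [hat]
        split
        · next h =>
          rw [h, show au = Additive.ofMul u from rfl,
            NumberField.Units.dirichletUnitTheorem.sum_logEmbedding_component, D.mult_qPlace]
          push_cast; ring
        · next h =>
          show ((InfinitePlace.mult W : ℕ) : ℝ) * _ = _
          rw [D.mult_qPlace]; norm_num; rfl
      simp only [R, LinearMap.coe_mk, AddHom.coe_mk]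
      rw [hh, hh, ← log_qPlaceOf]
      ring
    rw [show (AddMonoidHom.toIntLinearMap (NumberField.Units.logEmbedding D.qAlg)) au =
      NumberField.Units.logEmbedding D.qAlg au from rfl, hR]
    set x := D.pairOf (((u ^ k : (NumberField.RingOfIntegers D.qAlg)ˣ) :
      NumberField.RingOfIntegers D.qAlg) : D.qAlg)
    have hx0 : x ≠ 0 := hu.1
    have hlog : D.logRatio x = (k : ℝ) • D.logRatio (D.pairOf z) := by
      funext w
      rw [Pi.smul_apply, ← log_qPlaceOf, ← log_qPlaceOf, smul_eq_mul]
      simp only [z, Units.val_pow_eq_pow_val, map_pow, Real.log_pow]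
      ring
    have hn : normForm D.s D.p x ≠ 0 := D.norm_ne hx0
    set x' := (normForm D.s D.p x)⁻¹ • gmul D.s D.p x x
    have hx' : x' ∈ D.normOneUnits := by
      refine ⟨D.smul_mem_units (fun v => by
        rw [map_inv₀, (D.mem_units_iff.mp hu).2.2 v, inv_one]) (D.gmul_mem_units hu hu), ?_⟩
      rw [show ∀ c : F, normForm D.s D.p (c • gmul D.s D.p x x) =
          c ^ 2 * normForm D.s D.p (gmul D.s D.p x x) by intro c; simp [normForm]; ring,
        normForm_gmul]
      field_simp
    have hlog' : D.logRatio x' = ((2 * k : ℕ) : ℝ) • D.logRatio (D.pairOf z) := by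
      rw [D.logRatio_smul (inv_ne_zero hn) (D.gmul_ne hx0 hx0), D.logRatio_gmul hx0 hx0, hlog,
        ← add_smul]
      push_cast; ring_nf
    have h2 : ((2 * k : ℕ) : ℝ) ≠ 0 := Nat.cast_ne_zero.mpr (by omega)
    rw [← inv_smul_smul₀ h2 (D.logRatio (D.pairOf z)), ← hlog']
    exact Submodule.smul_mem _ _ (Submodule.subset_span (D.mem_logLattice.mpr ⟨_, hx', rfl⟩))
  refine eq_top_iff.mpr fun y _ => ?_
  obtain ⟨g, rfl⟩ := hsurj y
  have hg : g ∈ Submodule.span ℝ
      (NumberField.Units.unitLattice D.qAlg : Set (NumberField.Units.dirichletUnitTheorem.logSpace D.qAlg)) := by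
    rw [NumberField.Units.dirichletUnitTheorem.unitLattice_span_eq_top]; trivial
  exact (Submodule.span_le (p := S.comap R)).mpr (fun l hl => hmem l hl) hg

/-- **(U2)** The logarithms of the norm one units are a full lattice with finite kernel. -/
theorem exists_logBasis : ∃ b : Module.Basis (InfinitePlace F) ℝ (InfinitePlace F → ℝ),
    (∀ y, y ∈ Submodule.span ℤ (Set.range b) ↔ ∃ x ∈ D.normOneUnits, D.logRatio x = y) ∧
    {x ∈ D.normOneUnits | D.logRatio x = 0}.Finite := by
  classical
  have : IsZLattice ℝ D.logLattice := ⟨D.span_logLattice⟩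
  have := ZLattice.module_finite ℝ D.logLattice
  have := ZLattice.module_free ℝ D.logLattice
  set b₀ := Module.Free.chooseBasis ℤ D.logLattice
  have hcard : Fintype.card (Module.Free.ChooseBasisIndex ℤ D.logLattice) =
      Fintype.card (InfinitePlace F) := by
    rw [← Module.finrank_eq_card_chooseBasisIndex, ZLattice.rank ℝ D.logLattice,
      Module.finrank_fintype_fun_eq_card]
  refine ⟨(b₀.reindex (Fintype.equivOfCardEq hcard)).ofZLatticeBasis ℝ, fun y => ?_,
    D.finite_logKer⟩
  rw [Module.Basis.ofZLatticeBasis_span]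
  exact D.mem_logLattice

omit [NumberField.IsTotallyComplex F] in
/-- **(U3)** Tiling by the norm one units. -/
theorem hasSum_setIntegral_logRatio {b : Module.Basis (InfinitePlace F) ℝ (InfinitePlace F → ℝ)}
    (hb : ∀ y, y ∈ Submodule.span ℤ (Set.range b) ↔ ∃ x ∈ D.normOneUnits, D.logRatio x = y)
    {G : (InfinitePlace F → ℝ) → ℂ} (hG : MeasureTheory.Integrable G) :
    HasSum (fun x : D.normOneUnits => ∫ y in ZSpan.fundamentalDomain b, G (y + D.logRatio x))
      ((Nat.card {x | x ∈ D.normOneUnits ∧ D.logRatio x = 0} : ℂ) * ∫ y, G y) := by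
  classical
  set L := Submodule.span ℤ (Set.range b)
  set B := ZSpan.fundamentalDomain b
  have hd := ZSpan.isAddFundamentalDomain b (MeasureTheory.volume : MeasureTheory.Measure (InfinitePlace F → ℝ))
  have : MeasureTheory.VAddInvariantMeasure L (InfinitePlace F → ℝ) MeasureTheory.volume :=
    inferInstanceAs (MeasureTheory.VAddInvariantMeasure L.toAddSubgroup _ _)
  have hL : HasSum (fun g : L => ∫ y in B, G (y + g)) (∫ y, G y) := by
    have h1 := MeasureTheory.hasSum_integral_measure (f := G)
      (μ := fun g : L => MeasureTheory.volume.restrict (g +ᵥ B)) (by rwa [hd.sum_restrict])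
    rw [hd.sum_restrict] at h1
    refine h1.congr_fun fun g => ?_
    have he : MeasurableEmbedding fun y : InfinitePlace F → ℝ => g +ᵥ y :=
      measurableEmbedding_const_vadd g
    have := (MeasureTheory.measurePreserving_vadd g
      (MeasureTheory.volume : MeasureTheory.Measure (InfinitePlace F → ℝ))).setIntegral_image_emb
      he G B
    rw [show g +ᵥ B = (fun y => g +ᵥ y) '' B from rfl, this]
    exact MeasureTheory.integral_congr_ae (Filter.Eventually.of_forall fun y => by
      simp [Submodule.vadd_def, add_comm])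
  set K := {x | x ∈ D.normOneUnits ∧ D.logRatio x = 0}
  have : Finite K := D.finite_logKer.to_subtype
  choose σ hσ hσ' using fun g : L => (hb g).mp g.2
  let Φ : K × L → D.normOneUnits := fun i =>
    ⟨gmul D.s D.p i.1.1 (σ i.2), D.gmul_mem_normOneUnits i.1.2.1 (hσ i.2)⟩
  have hΦl : ∀ i, D.logRatio (Φ i).1 = i.2 := fun i => by
    show D.logRatio (gmul D.s D.p _ _) = _
    rw [D.logRatio_gmul (D.normOneUnits_ne i.1.2.1) (D.normOneUnits_ne (hσ i.2)), i.1.2.2,
      zero_add, hσ']
  have hΦ : Function.Bijective Φ := by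
    constructor
    · rintro ⟨a, g⟩ ⟨a', g'⟩ h
      have hg : g = g' := Subtype.ext (by rw [← hΦl (a, g), ← hΦl (a', g'), h])
      subst hg
      have h' := congrArg (fun z => gmul D.s D.p z (D.ginv (σ g))) (Subtype.ext_iff.mp h)
      simp only [Φ, gmul_assoc, D.gmul_ginv (D.normOneUnits_ne (hσ g)), gmul_one] at h'
      exact Prod.ext (Subtype.ext h') rfl
    · rintro ⟨x, hx⟩
      let g : L := ⟨D.logRatio x, (hb _).mpr ⟨x, hx, rfl⟩⟩
      have h0 := D.normOneUnits_ne (hσ g)
      refine ⟨(⟨gmul D.s D.p x (D.ginv (σ g)), D.gmul_mem_normOneUnits hx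
        (D.ginv_mem_normOneUnits (hσ g)), ?_⟩, g), Subtype.ext ?_⟩
      · rw [D.logRatio_gmul (D.normOneUnits_ne hx) (D.ginv_ne h0), D.logRatio_ginv h0, hσ']
        exact add_neg_cancel _
      · show gmul D.s D.p (gmul D.s D.p x _) (σ g) = x
        rw [gmul_assoc, gmul_comm D.s D.p (D.ginv (σ g)), D.gmul_ginv h0, gmul_one]
  rw [← (Equiv.ofBijective Φ hΦ).hasSum_iff]
  have := Fintype.ofFinite K
  have h2 : HasSum (fun i : K × L => ∫ y in B, G (y + i.2)) ((Nat.card K : ℂ) * ∫ y, G y) := by
    have h3 : HasSum (fun i : K × L => ∑ a : K, if i.1 = a then ∫ y in B, G (y + i.2) else 0)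
        (∑ _a : K, ∫ y, G y) := hasSum_sum fun a _ => by
      rw [← Function.Injective.hasSum_iff (g := fun g : L => (a, g))
        (fun g g' h => (Prod.ext_iff.mp h).2) fun i hi => if_neg fun h => hi ⟨i.2, by simp [← h]⟩]
      simpa [Function.comp_def] using hL
    simpa [Nat.card_eq_fintype_card] using h3
  refine h2.congr_fun fun i => ?_
  show (∫ y in B, G (y + D.logRatio (Φ i).1)) = _
  rw [hΦl]

/-- The units of `F` that are norms of units of the order. -/
def normUnits : Subgroup (NumberField.RingOfIntegers F)ˣ where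
  carrier := {u | ∃ x ∈ D.units, normForm D.s D.p x = ((u : NumberField.RingOfIntegers F) : F)}
  one_mem' := ⟨_, D.one_mem_units, by simp [normForm]⟩
  mul_mem' := by
    rintro u u' ⟨x, hx, h⟩ ⟨x', hx', h'⟩
    exact ⟨_, D.gmul_mem_units hx hx', by simp [normForm_gmul, h, h']⟩
  inv_mem' := by
    rintro u ⟨x, hx, h⟩
    exact ⟨_, D.ginv_mem_units hx, by
      simp [D.norm_ginv hx.1, h]⟩

omit [NumberField.IsTotallyComplex F] in
/-- **(U4)** The norms of units have finite index. -/
theorem exists_normReps : ∃ T : Finset F,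
    (∀ t ∈ T, t ≠ 0 ∧ ∀ v : FinPlace F, v.valuation F t = 1) ∧
    ∀ e : F, e ≠ 0 → (∀ v : FinPlace F, v.valuation F e = 1) →
      ∃! t, t ∈ T ∧ ∃ x ∈ D.units, e = t * normForm D.s D.p x := by
  classical
  set O := NumberField.RingOfIntegers F
  set H := D.normUnits
  have hval : ∀ (u : Oˣ) (v : FinPlace F), v.valuation F ((u : O) : F) = 1 := fun u v => by
    refine le_antisymm (v.valuation_le_one _) ?_
    have h : v.valuation F ((u : O) : F) * v.valuation F (((u⁻¹ : Oˣ) : O) : F) = 1 := by
      rw [← map_mul, ← map_mul, Units.mul_inv, map_one, map_one]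
    calc (1 : WithZero (Multiplicative ℤ)) = _ := h.symm
      _ ≤ _ := mul_le_of_le_one_right' (v.valuation_le_one _)
  have : Group.FG Oˣ := Group.fg_iff_monoid_fg.mpr inferInstance
  have : Finite (Oˣ ⧸ H) := CommGroup.finite_of_fg_isMulTorsion _ fun q => by
    induction q using QuotientGroup.induction_on with
    | _ u =>
      refine isOfFinOrder_iff_pow_eq_one.mpr ⟨2, two_pos, ?_⟩
      rw [← QuotientGroup.mk_pow, QuotientGroup.eq_one_iff]
      exact ⟨((u : O) : F) • (1, 0), D.smul_mem_units (hval u) D.one_mem_units,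
        by simp [normForm, Algebra.smul_def]⟩
  have := Fintype.ofFinite (Oˣ ⧸ H)
  refine ⟨Finset.univ.image fun q : Oˣ ⧸ H => ((q.out : O) : F), ?_, fun e he hev => ?_⟩
  · simp only [Finset.mem_image, Finset.mem_univ, true_and]
    rintro _ ⟨q, rfl⟩
    exact ⟨by simp, hval _⟩
  obtain ⟨r, hr⟩ := IsDedekindDomain.HeightOneSpectrum.mem_integers_of_valuation_le_one F e
    fun v => (hev v).le
  obtain ⟨r', hr'⟩ := IsDedekindDomain.HeightOneSpectrum.mem_integers_of_valuation_le_one F e⁻¹
    fun v => by rw [map_inv₀, hev v, inv_one]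
  let u : Oˣ := Units.mkOfMulEqOne r r' (NumberField.RingOfIntegers.ext (by
    show algebraMap O F (r * r') = algebraMap O F 1
    rw [map_mul, hr, hr', map_one, mul_inv_cancel₀ he]))
  have hu : ((u : O) : F) = e := hr
  obtain ⟨⟨h, hh⟩, ho⟩ := QuotientGroup.mk_out_eq_mul H u
  obtain ⟨x, hx, hxh⟩ := H.inv_mem hh
  refine ⟨_, ⟨Finset.mem_image.mpr ⟨(u : Oˣ ⧸ H), Finset.mem_univ _, rfl⟩, x, hx, ?_⟩, ?_⟩
  · rw [ho, hxh, ← hu]
    simp
  rintro _ ⟨ht, x', hx', hx'e⟩
  obtain ⟨q, -, rfl⟩ := Finset.mem_image.mp ht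
  suffices q = (u : Oˣ ⧸ H) by rw [this]
  rw [← QuotientGroup.out_eq' q, QuotientGroup.eq]
  refine ⟨x', hx', ?_⟩
  rw [← hu] at hx'e
  simp [hx'e]

end ThetaData

end Fermat.Agent.LT.DihedralTheta

end
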