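import Fermat.Agent.LT.DihedralTheta.Arch
import Fermat.Agent.LT.DihedralTheta.TorusUnits
import Fermat.Agent.LT.DihedralTheta.ConverseHecke
import Mathlib.MeasureTheory.Integral.Pi

/-!
# The Gaussian on the log torus

A unit of norm one translates the torus variable; the integral over the whole torus is the Bessel
function at `u * n x`; on a bounded set the Gaussian is dominated by one at `y = 0`.
-/

set_option autoImplicit false

noncomputable section

open MeasureTheory NumberField
open Fermat.Agent.LT.Places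

namespace Fermat.Agent.LT.DihedralTheta

lemma pair_exp_eq_cosh {α β : ℝ} (hα : 0 < α) (hβ : 0 < β) (y : ℝ) :
    α ^ 2 * Real.exp y + β ^ 2 * Real.exp (-y) =
      2 * (α * β) * Real.cosh (y + (Real.log α - Real.log β)) := by
  rw [Real.cosh_eq, Real.exp_neg (y + _), Real.exp_neg y, Real.exp_add, Real.exp_sub,
    Real.exp_log hα, Real.exp_log hβ]
  have := Real.exp_ne_zero y
  field_simp

lemma integrable_exp_pair {a α β : ℝ} (ha : 0 < a) (hα : 0 < α) (hβ : 0 < β) :
    Integrable fun y : ℝ => Real.exp (-(a * (α ^ 2 * Real.exp y + β ^ 2 * Real.exp (-y)))) := by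
  simp only [pair_exp_eq_cosh hα hβ, ← mul_assoc]
  exact (integrable_exp_neg_cosh (by positivity)).comp_add_right _

lemma integral_exp_pair {a α β : ℝ} (hα : 0 < α) (hβ : 0 < β) :
    ∫ y : ℝ, Real.exp (-(a * (α ^ 2 * Real.exp y + β ^ 2 * Real.exp (-y)))) =
      2 * Whittaker.besselK (a * 2 * (α * β)) := by
  simp only [pair_exp_eq_cosh hα hβ, ← mul_assoc]
  rw [integral_add_right_eq_self (fun r : ℝ => Real.exp (-(a * 2 * α * β * Real.cosh r))),
    integral_exp_neg_cosh]

variable {F : Type*} [Field F] [NumberField F]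

namespace ThetaData

variable (D : ThetaData F)

lemma norm_emb_mul_emb' (w : InfinitePlace F) (x : F × F) :
    ‖D.emb w x‖ * ‖D.emb' w x‖ = w (normForm D.s D.p x) := by
  rw [← norm_mul, D.emb_mul_emb', InfinitePlace.norm_embedding_eq]

lemma norm_emb_pos (w : InfinitePlace F) {x : F × F} (hx : x ≠ 0) :
    0 < ‖D.emb w x‖ ∧ 0 < ‖D.emb' w x‖ := by
  have h := InfinitePlace.pos_iff (w := w) |>.mpr (D.norm_ne hx)
  rw [← D.norm_emb_mul_emb'] at h
  exact ⟨pos_of_mul_pos_left h (norm_nonneg _), pos_of_mul_pos_right h (norm_nonneg _)⟩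

/-- One factor of the Gaussian. -/
def gaussFac (t : InfinitePlace F → ℝ) (u : F) (x : F × F) (w : InfinitePlace F) (y : ℝ) : ℝ :=
  t w * w u * Real.exp (-(2 * Real.pi * (t w * w u) *
    (‖D.emb w x‖ ^ 2 * Real.exp y + ‖D.emb' w x‖ ^ 2 * Real.exp (-y))))

lemma gauss_eq (z : InfinitePlace F → ℂ) (t y : InfinitePlace F → ℝ) (u : F) (x : F × F) :
    D.gauss z t y u x = Whittaker.expChar (u * normForm D.s D.p x) z *
      ∏ w : InfinitePlace F, (D.gaussFac t u x w (y w) : ℂ) := by
  rw [gauss, Complex.ofReal_prod]; rfl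

/-- A unit of norm one translates the torus variable. -/
theorem gauss_gmul_normOne {ε : F × F} (hε : ε ∈ D.normOneUnits) (z : InfinitePlace F → ℂ)
    (t y : InfinitePlace F → ℝ) (u : F) (x : F × F) :
    D.gauss z t y u (gmul D.s D.p x ε) = D.gauss z t (y + D.logRatio ε) u x := by
  rw [gauss_eq, gauss_eq, normForm_gmul, hε.2, mul_one]
  congr 1
  refine Finset.prod_congr rfl fun w _ => ?_
  obtain ⟨h1, h2⟩ := D.norm_emb_pos w (D.normOneUnits_ne hε)
  have h12 : ‖D.emb w ε‖ * ‖D.emb' w ε‖ = 1 := by rw [D.norm_emb_mul_emb', hε.2, map_one]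
  have e1 : Real.exp (D.logRatio ε w) = ‖D.emb w ε‖ ^ 2 := by
    rw [logRatio, Real.exp_sub, Real.exp_log h1, Real.exp_log h2, div_eq_iff h2.ne', sq, mul_assoc,
      h12, mul_one]
  have e2 : Real.exp (-(D.logRatio ε w)) = ‖D.emb' w ε‖ ^ 2 := by
    rw [Real.exp_neg, e1]
    exact inv_eq_of_mul_eq_one_right (by rw [← mul_pow, h12, one_pow])
  simp only [gaussFac, Pi.add_apply, D.emb_gmul, D.emb'_gmul, norm_mul, mul_pow, Real.exp_add,
    neg_add, e1, e2]
  ring_nf

variable [IsTotallyComplex F]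

omit [IsTotallyComplex F] in
/-- The Gaussian is integrable on the log torus. -/
theorem integrable_gauss (z : InfinitePlace F → ℂ) {t : InfinitePlace F → ℝ} (ht : ∀ w, 0 < t w)
    {u : F} (hu : u ≠ 0) {x : F × F} (hx : x ≠ 0) :
    Integrable fun y => D.gauss z t y u x := by
  simp only [gauss_eq]
  refine Integrable.const_mul ?_ _
  exact Integrable.fintype_prod fun w => (((integrable_exp_pair (a := 2 * Real.pi * (t w * w u))
    (by have := ht w; have := (InfinitePlace.pos_iff (w := w)).mpr hu; positivity)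
    (D.norm_emb_pos w hx).1 (D.norm_emb_pos w hx).2).const_mul (t w * w u))).ofReal

omit [IsTotallyComplex F] in
/-- **The integral over the torus.** -/
theorem integral_gauss (z : InfinitePlace F → ℂ) (t : InfinitePlace F → ℝ) (u : F) {x : F × F}
    (hx : x ≠ 0) :
    ∫ y, D.gauss z t y u x = (2 : ℂ) ^ Fintype.card (InfinitePlace F) *
      ((∏ w : InfinitePlace F, w (normForm D.s D.p x) : ℝ) : ℂ)⁻¹ *
      (Whittaker.expChar (u * normForm D.s D.p x) z *
        (Whittaker.bessel (u * normForm D.s D.p x) t : ℂ)) := by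
  simp only [gauss_eq]
  rw [MeasureTheory.integral_const_mul, integral_fintype_prod_volume_eq_prod
    fun (w : InfinitePlace F) (r : ℝ) => ((D.gaussFac t u x w r : ℝ) : ℂ)]
  set ξ := u * normForm D.s D.p x
  have hN : (∏ w : InfinitePlace F, w (normForm D.s D.p x) : ℝ) ≠ 0 :=
    (Finset.prod_pos fun w _ => InfinitePlace.pos_iff.mpr (D.norm_ne hx)).ne'
  have hfac : ∀ w : InfinitePlace F, ∫ r, ((D.gaussFac t u x w r : ℝ) : ℂ) =
      2 * ((w (normForm D.s D.p x) : ℂ))⁻¹ *
        ((w ξ * t w * Whittaker.besselK (4 * Real.pi * (w ξ * t w)) : ℝ) : ℂ) := fun w => by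
    have hw : w (normForm D.s D.p x) ≠ 0 := (InfinitePlace.pos_iff.mpr (D.norm_ne hx)).ne'
    rw [integral_complex_ofReal]
    simp only [gaussFac]
    rw [MeasureTheory.integral_const_mul, integral_exp_pair (D.norm_emb_pos w hx).1 (D.norm_emb_pos w hx).2,
      D.norm_emb_mul_emb', show w ξ = w u * w (normForm D.s D.p x) from map_mul _ _ _,
      show 2 * Real.pi * (t w * w u) * 2 * w (normForm D.s D.p x) =
        4 * Real.pi * (w u * w (normForm D.s D.p x) * t w) by ring]
    push_cast
    field_simp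
    rw [mul_div_assoc, div_self (Complex.ofReal_ne_zero.mpr hw), mul_one]
  rw [Finset.prod_congr rfl fun w _ => hfac w, Finset.prod_mul_distrib, Finset.prod_mul_distrib,
    Finset.prod_const, Finset.card_univ, Whittaker.bessel, Complex.ofReal_prod, Complex.ofReal_prod,
    Finset.prod_inv_distrib]
  ring

omit [IsTotallyComplex F] in
/-- Domination on a bounded set of the torus. -/
theorem norm_gauss_le (z : InfinitePlace F → ℂ) {t y : InfinitePlace F → ℝ} (ht : ∀ w, 0 < t w)
    {R : ℝ} (hy : ∀ w, |y w| ≤ R) (u : F) (x : F × F) :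
    ‖D.gauss z t y u x‖ ≤ Real.exp R ^ Fintype.card (InfinitePlace F) *
      ‖D.gauss 0 (fun w => Real.exp (-R) * t w) 0 u x‖ := by
  rw [gauss_eq, gauss_eq, norm_mul, norm_mul, norm_prod, norm_prod, Whittaker.norm_expChar,
    Whittaker.norm_expChar, one_mul, one_mul, ← Finset.card_univ, ← Finset.prod_const,
    ← Finset.prod_mul_distrib]
  refine Finset.prod_le_prod (fun w _ => norm_nonneg _) fun w _ => ?_
  obtain ⟨h1, h2⟩ := abs_le.mp (hy w)
  have hu : 0 ≤ w u := apply_nonneg _ _
  have := ht w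
  simp only [gaussFac, Complex.norm_real, Real.norm_eq_abs, Pi.zero_apply, neg_zero, Real.exp_zero,
    mul_one]
  have e : ∀ E : ℝ, Real.exp R * (Real.exp (-R) * t w * w u * E) = t w * w u * E := fun E => by
    rw [show Real.exp R * (Real.exp (-R) * t w * w u * E) = (Real.exp R * Real.exp (-R)) * (t w * w u * E) by ring,
      ← Real.exp_add, add_neg_cancel, Real.exp_zero, one_mul]
  rw [abs_of_nonneg (by positivity), abs_of_nonneg (by positivity), e]
  refine mul_le_mul_of_nonneg_left ?_ (by positivity)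
  rw [Real.exp_le_exp, neg_le_neg_iff]
  have ha : (0:ℝ) ≤ 2 * Real.pi * (t w * w u) := by positivity
  calc 2 * Real.pi * (Real.exp (-R) * t w * w u) * (‖D.emb w x‖ ^ 2 + ‖D.emb' w x‖ ^ 2)
      = 2 * Real.pi * (t w * w u) *
          (‖D.emb w x‖ ^ 2 * Real.exp (-R) + ‖D.emb' w x‖ ^ 2 * Real.exp (-R)) := by ring
    _ ≤ _ := mul_le_mul_of_nonneg_left (add_le_add
        (mul_le_mul_of_nonneg_left (Real.exp_le_exp.mpr h1) (sq_nonneg _))
        (mul_le_mul_of_nonneg_left (Real.exp_le_exp.mpr (by linarith)) (sq_nonneg _))) ha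

end ThetaData

end Fermat.Agent.LT.DihedralTheta

end
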