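import Fermat.Agent.LT.DihedralTheta.UnfoldIndex
import Fermat.Agent.LT.DihedralTheta.UnfoldGauss
import Fermat.Agent.LT.DihedralTheta.ArchConst
import Fermat.Agent.LT.DihedralTheta.ConverseForm

/-!
# The series of the coefficients is an integral of theta functions; behaviour under the Weyl element
-/

set_option autoImplicit false

noncomputable section

open MeasureTheory NumberField
open Fermat.Agent.LT.Places

namespace Fermat.Agent.LT.DihedralTheta

variable {F : Type*} [Field F] [NumberField F]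

lemma countable_numberField : Countable F :=
  (Module.finBasis ℚ F).equivFun.toEquiv.countable_iff.mpr inferInstance

namespace ThetaData

variable (D : ThetaData F)

/-- The theta function. -/
def thetaSeries (g : GLFin F) (h : D.Divisor) (u : F) (z : InfinitePlace F → ℂ)
    (t y : InfinitePlace F → ℝ) : ℂ :=
  ∑' x, D.thetaFin g h u x * D.gauss z t y u x

/-- The theta series converges absolutely. -/
theorem summable_thetaFin_gauss {C : ℂ} (hC : D.IsArchConst C) (g : GLFin F) (h : D.Divisor)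
    {u : F} (hu : u ≠ 0) (z : InfinitePlace F → ℂ) {t : InfinitePlace F → ℝ} (ht : ∀ w, 0 < t w)
    (y : InfinitePlace F → ℝ) : Summable fun x => D.thetaFin g h u x * D.gauss z t y u x := by
  classical
  obtain ⟨N, M, S, hP⟩ := IsAdelicSch.exists_period D (D.isAdelicSch_thetaLoc g h hu)
  have := finite_classes (F := F) hP.N_pos hP.M_pos
  let := Fintype.ofFinite (Classes F N M)
  exact (hP.tsum_adFun_mul fun a => (hC z t y u hu ht N hP.N_pos (classRep a)).1).1

variable [IsTotallyComplex F]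

/-- The summand of the unfolded series. -/
def idxTerm (S : Finset D.Divisor) (g : GLFin F) (z : InfinitePlace F → ℂ)
    (t : InfinitePlace F → ℝ) (i : D.Idx S) (y : InfinitePlace F → ℝ) : ℂ :=
  D.divWt i.1.1.1 * D.thetaFin g i.1.1.1 (D.uRep i.1.2) i.2.1 *
    D.gauss z t y (D.uRep i.1.2) i.2.1

lemma idxTerm_idxMul (S : Finset D.Divisor) (g : GLFin F) (z : InfinitePlace F → ℂ)
    (t : InfinitePlace F → ℝ) (i : D.Idx S) (ε : D.normOneUnits) (y : InfinitePlace F → ℝ) :
    D.idxTerm S g z t (D.idxMul S i ε) y = D.idxTerm S g z t i (y + D.logRatio ε.1) := by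
  have h := D.idxPair_idxMul S i ε
  have h2 : D.divTerm g ((D.idxPair S (D.idxMul S i ε)).1).1 (D.idxPair S (D.idxMul S i ε)).2 =
      D.divTerm g ((D.idxPair S i).1).1 (D.idxPair S i).2 := by rw [h]
  simp only [idxPair] at h2
  rw [D.divTerm_shift g _ (D.uRep_ne _) _, D.divTerm_shift g _ (D.uRep_ne _) _] at h2
  simp only [idxMul, normForm_gmul, ε.2.2, mul_one] at h2
  have hN : ((∏ w : InfinitePlace F, w (normForm D.s D.p i.2.1) : ℝ) : ℂ)⁻¹ ≠ 0 :=
    inv_ne_zero (Complex.ofReal_ne_zero.mpr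
      (Finset.prod_pos fun w _ => InfinitePlace.pos_iff.mpr (D.norm_ne i.2.2)).ne')
  simp only [idxTerm, idxMul]
  rw [D.gauss_gmul_normOne ε.2]
  congr 1
  refine mul_left_cancel₀ hN ?_
  linear_combination h2

variable {b : Module.Basis (InfinitePlace F) ℝ (InfinitePlace F → ℝ)}

omit [IsTotallyComplex F] in
lemma exists_fundamentalDomain_bound :
    ∃ R : ℝ, ∀ y ∈ ZSpan.fundamentalDomain b, ∀ w, |y w| ≤ R := by
  obtain ⟨R, hR⟩ := (ZSpan.fundamentalDomain_isBounded b).exists_norm_le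
  exact ⟨R, fun y hy w => (norm_le_pi_norm y w).trans (hR y hy)⟩

omit [IsTotallyComplex F] in
lemma volume_fundamentalDomain_lt_top : volume (ZSpan.fundamentalDomain b) < ⊤ :=
  (ZSpan.fundamentalDomain_isBounded b).measure_lt_top

omit [IsTotallyComplex F] in
lemma integrableOn_idxTerm (S : Finset D.Divisor) (g : GLFin F) (z : InfinitePlace F → ℂ)
    {t : InfinitePlace F → ℝ} (ht : ∀ w, 0 < t w) (i : D.Idx S) :
    IntegrableOn (D.idxTerm S g z t i) (ZSpan.fundamentalDomain b) :=
  ((D.integrable_gauss z ht (D.uRep_ne _) i.2.2).const_mul _).integrableOn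

/-- Absolute convergence. -/
theorem summable_integral_norm_idxTerm {C : ℂ} (hC : D.IsArchConst C) (S : Finset D.Divisor)
    (g : GLFin F) (z : InfinitePlace F → ℂ) {t : InfinitePlace F → ℝ} (ht : ∀ w, 0 < t w) :
    Summable fun i : D.Idx S => ∫ y in ZSpan.fundamentalDomain b, ‖D.idxTerm S g z t i y‖ := by
  obtain ⟨R, hR⟩ := exists_fundamentalDomain_bound (b := b)
  set B := ZSpan.fundamentalDomain b
  set t' : InfinitePlace F → ℝ := fun w => Real.exp (-R) * t w
  set A : ℝ := volume.real B * Real.exp R ^ Fintype.card (InfinitePlace F)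
  set G : S × D.UClass → {x : F × F // x ≠ 0} → ℝ := fun p x =>
    A * ‖D.divWt p.1.1‖ * ‖D.thetaFin g p.1.1 (D.uRep p.2) x.1 * D.gauss 0 t' 0 (D.uRep p.2) x.1‖
  have hA : 0 ≤ A := mul_nonneg measureReal_nonneg (by positivity)
  have hG0 : ∀ p x, 0 ≤ G p x := fun p x => by simp only [G]; positivity
  refine Summable.of_nonneg_of_le (f := fun i : D.Idx S => G i.1 i.2)
    (fun i => integral_nonneg fun y => norm_nonneg _) (fun i => ?_) ?_
  · refine (setIntegral_mono_on (D.integrableOn_idxTerm S g z ht i).norm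
      (integrableOn_const (C := ‖D.divWt i.1.1.1 * D.thetaFin g i.1.1.1 (D.uRep i.1.2) i.2.1‖ *
        (Real.exp R ^ Fintype.card (InfinitePlace F) * ‖D.gauss 0 t' 0 (D.uRep i.1.2) i.2.1‖))
        volume_fundamentalDomain_lt_top.ne)
      (ZSpan.fundamentalDomain_measurableSet b) fun y hy => ?_).trans ?_
    · rw [idxTerm, norm_mul]
      exact mul_le_mul_of_nonneg_left (D.norm_gauss_le z ht (hR y hy) _ _) (norm_nonneg _)
    · rw [setIntegral_const, smul_eq_mul]
      refine le_of_eq ?_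
      simp only [G, A, norm_mul]
      ring
  · have hnn : (0 : D.Idx S → ℝ) ≤ fun i => G i.1 i.2 := fun i => hG0 i.1 i.2
    refine (summable_prod_of_nonneg (f := fun i : D.Idx S => G i.1 i.2) hnn).mpr ⟨fun p => ?_, ?_⟩
    · show Summable fun x : {x : F × F // x ≠ 0} => G p x
      have h1 : Summable fun x : {x : F × F // x ≠ 0} =>
          ‖D.thetaFin g p.1.1 (D.uRep p.2) x.1 * D.gauss 0 t' 0 (D.uRep p.2) x.1‖ :=
        (D.summable_thetaFin_gauss hC g p.1.1 (D.uRep_ne p.2) 0
          (fun w => mul_pos (Real.exp_pos _) (ht w)) 0).norm.comp_injective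
            (i := fun x : {x : F × F // x ≠ 0} => x.1) Subtype.val_injective
      exact Summable.mul_left (A * ‖D.divWt p.1.1‖) h1
    · refine summable_of_hasFiniteSupport ?_
      refine ((Set.finite_iUnion fun h : S => (D.finite_uClass_thetaFin g h.1).image
        fun q => (h, q))).subset fun p hp => ?_
      obtain ⟨⟨x, hx⟩, hpx⟩ : ∃ x, G p x ≠ 0 := by
        by_contra hh
        push Not at hh
        exact hp (by show ∑' x, G p x = 0; rw [tsum_congr hh, tsum_zero])
      refine Set.mem_iUnion.mpr ⟨p.1, p.2, ⟨x, fun h0 => hpx ?_⟩, rfl⟩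
      simp [G, h0]

/-- **Unfolding.** -/
theorem card_mul_phiExp_eq {U : Level F} (hU : D.IsLevel U) {C : ℂ} (hC : D.IsArchConst C)
    {S : Finset D.Divisor} (hS1 : ∀ h : D.Divisor, ∃ h₀ ∈ S, ∃ x : F × F, x ≠ 0 ∧ h₀.EquivBy h x)
    (hS2 : ∀ h₀ ∈ S, ∀ h₁ ∈ S, ∀ x : F × F, x ≠ 0 → h₀.EquivBy h₁ x → h₀ = h₁)
    (hb : ∀ y, y ∈ Submodule.span ℤ (Set.range b) ↔ ∃ x ∈ D.normOneUnits, D.logRatio x = y)
    (P : InfinitePlace F → H3) (g : GLFin F) :
    (Nat.card {x | x ∈ D.normOneUnits ∧ D.logRatio x = 0} : ℂ) *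
        (2 : ℂ) ^ Fintype.card (InfinitePlace F) *
        phiExp U D.coeff (P, (g : GLFin F ⧸ U.toSubgroup)) =
      ∑' p : S × D.UClass, D.divWt p.1.1 * ∫ y in ZSpan.fundamentalDomain b,
        D.thetaSeries g p.1.1 (D.uRep p.2) (fun w => H3.zc (P w)) (fun w => H3.tc (P w)) y := by
  set z : InfinitePlace F → ℂ := fun w => H3.zc (P w)
  set t : InfinitePlace F → ℝ := fun w => H3.tc (P w)
  have ht : ∀ w, 0 < t w := fun w => H3.tc_pos _
  set B := ZSpan.fundamentalDomain b
  set κ : ℂ := (Nat.card {x | x ∈ D.normOneUnits ∧ D.logRatio x = 0} : ℂ) *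
    (2 : ℂ) ^ Fintype.card (InfinitePlace F)
  set f : D.Idx S → ℂ := fun i => ∫ y in B, D.idxTerm S g z t i y
  have hnorm := D.summable_integral_norm_idxTerm (b := b) hC S g z ht
  have hf : Summable f := Summable.of_norm_bounded hnorm fun i => norm_integral_le_integral_norm _
  obtain ⟨σ, hσ, hbij⟩ := D.exists_idxEquiv S hS1 hS2
  obtain ⟨E, hE⟩ : ∃ E : ({ξ : F // ξ ≠ 0} × D.DivClass) × D.normOneUnits ≃ D.Idx S,
      ∀ ζ ε, E (ζ, ε) = D.idxMul S (σ ζ) ε := ⟨Equiv.ofBijective _ hbij, fun _ _ => rfl⟩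
  set T : {ξ : F // ξ ≠ 0} × D.DivClass → ℂ := fun ζ =>
    κ * (D.divTerm g ζ.1.1 ζ.2 * (Whittaker.expChar ζ.1.1 z * (Whittaker.bessel ζ.1.1 t : ℂ)))
  have hfib : ∀ ζ, HasSum (fun ε : D.normOneUnits => f (E (ζ, ε))) (T ζ) := fun ζ => by
    have hG : Integrable (D.idxTerm S g z t (σ ζ)) :=
      (D.integrable_gauss z ht (D.uRep_ne _) (σ ζ).2.2).const_mul _
    have h := D.hasSum_setIntegral_logRatio hb hG
    have hval : ∫ y, D.idxTerm S g z t (σ ζ) y = (2 : ℂ) ^ Fintype.card (InfinitePlace F) *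
        (D.divTerm g ζ.1.1 ζ.2 *
          (Whittaker.expChar ζ.1.1 z * (Whittaker.bessel ζ.1.1 t : ℂ))) := by
      simp only [idxTerm]
      rw [MeasureTheory.integral_const_mul, D.integral_gauss z t _ (σ ζ).2.2]
      conv_rhs => rw [← hσ ζ]
      simp only [idxPair]
      rw [D.divTerm_shift g _ (D.uRep_ne _) (σ ζ).2.2]
      ring
    rw [hval, ← mul_assoc] at h
    refine h.congr_fun fun ε => ?_
    show f (E (ζ, ε)) = _
    rw [hE]
    exact setIntegral_congr_fun (ZSpan.fundamentalDomain_measurableSet b) fun y _ =>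
      D.idxTerm_idxMul S g z t (σ ζ) ε y
  have hfE : HasSum (fun q => f (E q)) (∑' i, f i) := (E.hasSum_iff (f := f)).mpr hf.hasSum
  have hT : HasSum T (∑' i, f i) := HasSum.prod_fiberwise hfE hfib
  have hξ : ∀ ξ : {ξ : F // ξ ≠ 0}, HasSum (fun d => T (ξ, d))
      (κ * phiTerm (D.coeff g) ξ.1 P) := fun ξ => by
    show HasSum (fun d => κ * (D.divTerm g ξ.1 d *
      (Whittaker.expChar ξ.1 z * (Whittaker.bessel ξ.1 t : ℂ)))) _
    rw [show phiTerm (D.coeff g) ξ.1 P = D.coeff g ξ.1 *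
      (Whittaker.expChar ξ.1 z * (Whittaker.bessel ξ.1 t : ℂ)) from mul_assoc _ _ _]
    exact HasSum.mul_left κ (HasSum.mul_right (Whittaker.expChar ξ.1 z *
      (Whittaker.bessel ξ.1 t : ℂ)) (D.hasSum_divTerm g ξ.2))
  have hF : HasSum (fun ξ : F => κ * phiTerm (D.coeff g) ξ P) (∑' i, f i) := by
    refine (hasSum_subtype_iff_of_support_subset (s := {ξ : F | ξ ≠ 0}) fun ξ hξ0 h0 => ?_).mp
      (hT.prod_fiberwise hξ)
    subst h0
    exact hξ0 (by simp [phiTerm])
  rw [(((D.isWhittakerCoeff hU).hasSum_phiExp_mk P g).mul_left κ).unique hF, hf.tsum_prod]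
  refine tsum_congr fun p => ?_
  have : Countable F := countable_numberField
  calc ∑' x : {x : F × F // x ≠ 0}, f (p, x)
      = ∫ y in B, ∑' x : {x : F × F // x ≠ 0}, D.idxTerm S g z t (p, x) y :=
        integral_tsum_of_summable_integral_norm (fun x => D.integrableOn_idxTerm S g z ht (p, x))
          (hnorm.prod_factor p)
    _ = ∫ y in B, D.divWt p.1.1 * D.thetaSeries g p.1.1 (D.uRep p.2) z t y := by
        refine setIntegral_congr_fun (ZSpan.fundamentalDomain_measurableSet b) fun y _ => ?_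
        rw [thetaSeries, ← tsum_mul_left]
        simp only [idxTerm, mul_assoc]
        refine tsum_subtype_eq_of_support_subset (s := {x : F × F | x ≠ 0})
          (f := fun x => D.divWt p.1.1 * (D.thetaFin g p.1.1 (D.uRep p.2) x *
            D.gauss z t y (D.uRep p.2) x)) fun x hx h0 => hx ?_
        subst h0
        simp [D.thetaFin_zero g p.1.1 (D.uRep_ne p.2)]
    _ = _ := MeasureTheory.integral_const_mul _ _

omit [IsTotallyComplex F] in
lemma glEmb_weylElt_smul (w : InfinitePlace F) (P : H3) :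
    glEmb F w (weylElt F) • P = H3.wInv • P := by
  refine H3.scalar_smul (-1) (by norm_num) _ _ ?_ P
  ext i j
  fin_cases i <;> fin_cases j <;> simp [glEmb, weylElt, H3.wInv, H3.gl]

/-- **The series is an eigenvector of the Weyl element.** -/
theorem exists_weyl_const {U : Level F} (hU : D.IsLevel U) :
    ∃ κ : ℂ, ∀ y, phiExp U D.coeff (weylElt F • y) = κ * phiExp U D.coeff y := by
  have hC := D.isArchConst_archConst
  obtain ⟨S, hS1, hS2⟩ := D.exists_classReps
  obtain ⟨b, hb, -⟩ := D.exists_logBasis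
  have hK : (Nat.card {x | x ∈ D.normOneUnits ∧ D.logRatio x = 0} : ℂ) *
      (2 : ℂ) ^ Fintype.card (InfinitePlace F) ≠ 0 :=
    mul_ne_zero (Nat.cast_ne_zero.mpr D.card_logKer_ne_zero) (pow_ne_zero _ two_ne_zero)
  set c : ℂ := D.archConst * D.coordConst * D.lamConst
  have key : ∀ y : Y U, phiExp U D.coeff y = c * phiExp U D.coeff (weylElt F • y) := by
    rintro ⟨P, q⟩
    induction q using QuotientGroup.induction_on with
    | H g =>
    rw [show (weylElt F • ((P, (g : GLFin F ⧸ U.toSubgroup)) : Y U)) =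
      (fun w => glEmb F w (weylElt F) • P w,
        ((glIncl F (weylElt F) * g : GLFin F) : GLFin F ⧸ U.toSubgroup)) from rfl]
    set z : InfinitePlace F → ℂ := fun w => H3.zc (P w)
    set t : InfinitePlace F → ℝ := fun w => H3.tc (P w)
    have hP : ∀ w, glEmb F w (weylElt F) • P w = H3.pt (wHor z t w) (wHeight z t w) := fun w => by
      rw [glEmb_weylElt_smul]
      conv_lhs => rw [← H3.pt_coord (P w)]
      exact H3.wInv_smul _ (H3.tc_pos _)
    have hpos : ∀ w, 0 < wHeight z t w := fun w =>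
      div_pos (H3.tc_pos _) (add_pos_of_nonneg_of_pos (Complex.normSq_nonneg _)
        (pow_pos (H3.tc_pos _) 2))
    have hz : (fun w => H3.zc (glEmb F w (weylElt F) • P w)) = wHor z t := funext fun w => by
      rw [hP, H3.zc_pt _ (hpos w)]
    have ht : (fun w => H3.tc (glEmb F w (weylElt F) • P w)) = wHeight z t := funext fun w => by
      rw [hP, H3.tc_pt _ (hpos w)]
    refine mul_left_cancel₀ hK ?_
    rw [mul_left_comm _ c, D.card_mul_phiExp_eq hU hC hS1 hS2 hb,
      D.card_mul_phiExp_eq hU hC hS1 hS2 hb, hz, ht, ← tsum_mul_left]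
    refine tsum_congr fun p => ?_
    rw [mul_left_comm c]
    congr 1
    rw [← MeasureTheory.integral_const_mul]
    exact setIntegral_congr_fun (ZSpan.fundamentalDomain_measurableSet b) fun y _ =>
      D.tsum_thetaFin_weyl hC g p.1.1 z t y (fun w => H3.tc_pos _) (D.uRep_ne p.2)
  refine ⟨c⁻¹, fun y => ?_⟩
  rcases eq_or_ne c 0 with hc | hc
  · rw [key (weylElt F • y), key y, hc]; simp
  · rw [key y, inv_mul_cancel_left₀ hc]

end ThetaData

end Fermat.Agent.LT.DihedralTheta

end
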