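import Fermat.Agent.LT.DihedralTheta.Ramified

/-!
# Fourier inversion on boxes
-/

set_option autoImplicit false

open AddSubgroup

namespace Fermat.Agent.LT.DihedralTheta

/-- Finite sums with a common period. -/
lemma integral_finset_sum {V : Type*} [AddCommGroup V] {S P D : AddSubgroup V} {ι : Type*}
    (T : Finset ι) (f : ι → V → ℂ) (hP : IsLat S P) (hD : IsLat S D)
    (hper : ∀ i ∈ T, IsPer P (f i)) (hsupp : ∀ i ∈ T, HasSupp D (f i)) :
    integral S (fun x => ∑ i ∈ T, f i x) = ∑ i ∈ T, integral S (f i) := by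
  rw [integral_eq hP hD (fun x p hp => Finset.sum_congr rfl fun i hi => hper i hi x p hp) fun x hx =>
    (Finset.exists_ne_zero_of_sum_ne_zero hx).elim fun i hi => hsupp i hi.1 x hi.2,
    Finset.sum_congr rfl fun i hi => integral_eq hP hD (hper i hi) (hsupp i hi), ← Finset.mul_sum]
  simp only [sumOver]
  rw [finsum_sum_comm _ _ fun i hi => finite_support hP hD (hsupp i hi)]

namespace LocalForm

variable {E : Type*} [Field E] (K : LocalForm E)

/-- The box `(a', b')` is the dual of the box `(a, b)`. -/
structure IsDual (a b a' b' : ℤ) : Prop where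
  pair : ∀ z ∈ K.box a b, ∀ y ∈ K.box a' b', K.χ (K.B z y) = 1
  left : ∀ y, (∀ z ∈ K.box a b, K.χ (K.B z y) = 1) → y ∈ K.box a' b'
  right : ∀ z, (∀ y ∈ K.box a' b', K.χ (K.B z y) = 1) → z ∈ K.box a b

/-- The bilinear form is symmetric. -/
lemma B_comm (z w : E × E) : K.B z w = K.B w z := by simp only [B]; ring

/-- The kernel of the character is closed under negation. -/
lemma chi_neg {u : E} (h : K.χ u = 1) : K.χ (-u) = 1 := by
  rw [AddChar.map_neg_eq_inv, h, inv_one]

variable {K} {a b a' b' k : ℤ} {φ : E × E → ℂ}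

/-- The Fourier transform of a periodic function with bounded support is supported on the dual
box. -/
lemma IsDual.fourier_supp (hd : K.IsDual a b a' b') (hper : IsPer (K.box a b) φ)
    (hsupp : HasSupp (K.box k k) φ) : HasSupp (K.box a' b') (K.fourier φ) := by
  intro y hy
  by_contra hy'
  refine hy ?_
  obtain ⟨k', hk'⟩ := K.exists_box y
  let r : ℤ := max (max a b) (K.cond - k')
  have hyb : y ∈ K.box k' k' := hk' _ le_rfl
  have hR : K.box r r ≤ K.box a b := K.box_le (by omega) (by omega)
  have hgper : IsPer (K.box r r) (fun z => φ z * K.χ (-K.B z y)) := fun z p hp => by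
    have h1 : K.χ (-K.B p y) = 1 := K.chi_neg (K.χ_triv _ (K.ball_le (by omega) (K.B_mem hp hyb)))
    simp only [hper z p (hR hp), K.B_add_left, neg_add, AddChar.map_add_eq_mul, h1, mul_one]
  let ω : AddChar (K.box a b) ℂ :=
    K.χ.compAddMonoidHom (AddMonoidHom.mk' (fun q : K.box a b => -K.B q y) fun q q' => by
      simp only [AddSubgroup.coe_add, K.B_add_left, neg_add])
  have hω : ω ≠ 1 := fun h1 => hy' (hd.left y fun z hz => by
    have := DFunLike.congr_fun h1 (⟨z, hz⟩ : K.box a b)
    simpa [ω] using K.chi_neg this)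
  have h := integral_stationary (h := fun _ => 0) (K.isLat_box a b) (K.isLat_box r r) hR
    (K.isLat_box k k) hgper (fun z hz => hsupp z (left_ne_zero_of_mul hz)) (fun _ => ω)
    (fun z q => by
      show φ (z + q) * K.χ (-K.B (z + q) y) = φ z * K.χ (-K.B z y) * K.χ (-K.B q y)
      rw [hper z q q.2, K.B_add_left, neg_add, AddChar.map_add_eq_mul, mul_assoc])
    (fun _ _ => rfl) (fun _ hh => absurd hh hω) (fun _ _ => rfl) (fun _ _ _ => rfl)
  rw [fourier, h]
  exact integral_zero

end LocalForm

end Fermat.Agent.LT.DihedralTheta
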