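import Mathlib.GroupTheory.Index
import Mathlib.Algebra.BigOperators.Finprod
import Mathlib.Analysis.Complex.Basic
import Mathlib.Algebra.Group.AddChar

/-!
# Integration of locally constant functions relative to a lattice

`V` is an abelian group and `S` a subgroup; a lattice is a subgroup commensurable with `S`.
Functions periodic under a lattice and supported in a lattice have an integral, normalised by
giving `S` mass one.  The main tool is the stationary phase lemma `integral_stationary`.
-/

set_option autoImplicit false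

open AddSubgroup

namespace Fermat.Agent.LT.DihedralTheta

variable {V : Type*} [AddCommGroup V]

/-- `P` is commensurable with `S`. -/
structure IsLat (S P : AddSubgroup V) : Prop where
  left : S.relIndex P ≠ 0
  right : P.relIndex S ≠ 0

/-- The mass of a lattice. -/
noncomputable def vol (S P : AddSubgroup V) : ℂ := (S.relIndex P : ℂ) / (P.relIndex S : ℂ)

/-- `f` is periodic under `P`. -/
def IsPer (P : AddSubgroup V) (f : V → ℂ) : Prop := ∀ x, ∀ p ∈ P, f (x + p) = f x

/-- `f` vanishes outside `D`. -/
def HasSupp (D : AddSubgroup V) (f : V → ℂ) : Prop := ∀ x, f x ≠ 0 → x ∈ D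

/-- Periodic under a lattice and supported in a lattice. -/
def IsSch (S : AddSubgroup V) (f : V → ℂ) : Prop :=
  ∃ P D, IsLat S P ∧ IsLat S D ∧ IsPer P f ∧ HasSupp D f

/-- The sum over cosets. -/
noncomputable def sumOver (P : AddSubgroup V) (f : V → ℂ) : ℂ := ∑ᶠ c : V ⧸ P, f c.out

open Classical in
/-- The integral. -/
noncomputable def integral (S : AddSubgroup V) (f : V → ℂ) : ℂ :=
  if h : IsSch S f then vol S h.choose * sumOver h.choose f else 0

variable {S P Q D : AddSubgroup V} {f g : V → ℂ}

namespace IsLat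

/-- A lattice is commensurable with itself. -/
lemma refl (S : AddSubgroup V) : IsLat S S :=
  ⟨by simp [relIndex_self], by simp [relIndex_self]⟩

lemma relIndex_ne (hP : IsLat S P) (hQ : IsLat S Q) : P.relIndex Q ≠ 0 :=
  relIndex_ne_zero_trans hP.right hQ.left

/-- Lattices are closed under intersection. -/
lemma inf (hP : IsLat S P) (hQ : IsLat S Q) : IsLat S (P ⊓ Q) :=
  ⟨fun h => hP.left (relIndex_eq_zero_of_le_right inf_le_left h),
    relIndex_inf_ne_zero hP.right hQ.right⟩

end IsLat

/-- The base has volume `1`. -/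
lemma vol_self (S : AddSubgroup V) : vol S S = 1 := by simp [vol, relIndex_self]

/-- A lattice has nonzero volume. -/
lemma vol_ne_zero (hP : IsLat S P) : vol S P ≠ 0 :=
  div_ne_zero (Nat.cast_ne_zero.mpr hP.left) (Nat.cast_ne_zero.mpr hP.right)

/-- The volume of a lattice is the index times the volume of a sublattice. -/
lemma vol_eq_mul (hQP : Q ≤ P) (hQ : IsLat S Q) (hP : IsLat S P) :
    vol S P = (Q.relIndex P : ℂ) * vol S Q := by
  set R := Q ⊓ S
  have hRQ : R ≤ Q := inf_le_left
  have hRS : R ≤ S := inf_le_right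
  have hRP : R ≤ P := hRQ.trans hQP
  have hR : IsLat S R := hQ.inf (IsLat.refl S)
  have key : ∀ T : AddSubgroup V, IsLat S T → R ≤ T →
      vol S T = (R.relIndex T : ℂ) / (R.relIndex S : ℂ) := by
    intro T hT hRT
    have hm : R ≤ T ⊓ S := le_inf hRT hRS
    have h1 := relIndex_mul_relIndex R (T ⊓ S) T hm inf_le_left
    have h2 := relIndex_mul_relIndex R (T ⊓ S) S hm inf_le_right
    rw [inf_relIndex_left] at h1
    rw [inf_relIndex_right] at h2
    have hne : R.relIndex (T ⊓ S) ≠ 0 := fun h0 =>
      hR.relIndex_ne (IsLat.refl S) (by rw [← h2, h0, zero_mul])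
    rw [vol, ← h1, ← h2, Nat.cast_mul, Nat.cast_mul,
      mul_div_mul_left _ _ (Nat.cast_ne_zero.mpr hne)]
  rw [key P hP hRP, key Q hQ hRQ, ← relIndex_mul_relIndex R Q P hRQ hQP, Nat.cast_mul]
  ring

/-- A periodic function is periodic under any smaller lattice. -/
lemma IsPer.mono (h : IsPer P f) (hQP : Q ≤ P) : IsPer Q f := fun x p hp => h x p (hQP hp)

/-- A periodic function may be evaluated at a representative. -/
lemma IsPer.out_eq (h : IsPer P f) (x : V) : f (x : V ⧸ P).out = f x := by
  obtain ⟨p, hp⟩ := QuotientAddGroup.mk_out_eq_add P x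
  rw [hp]; exact h x p p.2

/-- Only finitely many cosets meet the support. -/
lemma finite_support (hP : IsLat S P) (hD : IsLat S D) (hf : HasSupp D f) :
    (Function.support fun c : V ⧸ P => f c.out).Finite := by
  have : Finite (D ⧸ P.addSubgroupOf D) :=
    (Nat.card_pos_iff.mp (Nat.pos_of_ne_zero (by
      have := hP.relIndex_ne hD; rwa [relIndex, AddSubgroup.index] at this))).2
  refine (Set.finite_range fun d : D ⧸ P.addSubgroupOf D => ((d.out : V) : V ⧸ P)).subset ?_
  intro c hc
  refine ⟨((⟨c.out, hf _ hc⟩ : D) : D ⧸ P.addSubgroupOf D), ?_⟩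
  conv_rhs => rw [← QuotientAddGroup.out_eq' c]
  obtain ⟨p, hp⟩ := QuotientAddGroup.mk_out_eq_add (P.addSubgroupOf D) (⟨c.out, hf _ hc⟩ : D)
  refine (QuotientAddGroup.eq).mpr ?_
  rw [hp]
  simpa using neg_mem (AddSubgroup.mem_addSubgroupOf.mp p.2)

/-- The quotient of two lattices is finite. -/
lemma finite_quotient (hQ : IsLat S Q) (hP : IsLat S P) :
    Finite (P ⧸ Q.addSubgroupOf P) :=
  (Nat.card_pos_iff.mp (Nat.pos_of_ne_zero (by
    have := hQ.relIndex_ne hP; rwa [relIndex, AddSubgroup.index] at this))).2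

/-- Cosets of a smaller lattice, grouped. -/
lemma sumOver_fibre (hQP : Q ≤ P) (hQ : IsLat S Q) (hP : IsLat S P) (hD : IsLat S D)
    (hper : IsPer Q f) (hsupp : HasSupp D f) :
    haveI := finite_quotient hQ hP
    sumOver Q f =
      ∑ᶠ c : V ⧸ P, ∑ᶠ q : P ⧸ Q.addSubgroupOf P, f (c.out + (q.out : V)) := by
  have := finite_quotient hQ hP
  let e := AddSubgroup.quotientEquivProdOfLE hQP
  have hfin : (Function.support fun p => f (e.symm p).out).Finite :=
    (finite_support hQ hD hsupp).preimage e.symm.injective.injOn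
  rw [sumOver, ← finsum_comp_equiv e.symm, finsum_curry _ hfin]
  refine finsum_congr fun c => finsum_congr fun q => ?_
  conv_lhs => rw [← QuotientAddGroup.out_eq' q]
  exact hper.out_eq _

lemma sumOver_refine (hQP : Q ≤ P) (hQ : IsLat S Q) (hP : IsLat S P) (hD : IsLat S D)
    (hper : IsPer P f) (hsupp : HasSupp D f) :
    sumOver Q f = (Q.relIndex P : ℂ) * sumOver P f := by
  have := finite_quotient hQ hP
  have := Fintype.ofFinite (P ⧸ Q.addSubgroupOf P)
  rw [sumOver_fibre hQP hQ hP hD (hper.mono hQP) hsupp, sumOver]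
  refine Eq.trans ?_ (mul_finsum (fun c : V ⧸ P => f c.out) _).symm
  refine finsum_congr fun c => ?_
  rw [finsum_eq_sum_of_fintype, Finset.sum_congr rfl fun q _ => hper c.out (q.out : V) q.out.2]
  simp [relIndex, AddSubgroup.index, Nat.card_eq_fintype_card]

/-- The integral may be computed with any period. -/
lemma integral_eq (hP : IsLat S P) (hD : IsLat S D) (hper : IsPer P f) (hsupp : HasSupp D f) :
    integral S f = vol S P * sumOver P f := by
  have h : IsSch S f := ⟨P, D, hP, hD, hper, hsupp⟩
  rw [integral, dif_pos h]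
  set P' := h.choose
  obtain ⟨D', hP', -, hper', -⟩ := h.choose_spec
  have hR := hP'.inf hP
  have key : ∀ T, IsLat S T → IsPer T f → P' ⊓ P ≤ T →
      vol S T * sumOver T f = vol S (P' ⊓ P) * sumOver (P' ⊓ P) f := by
    intro T hT hperT hle
    rw [vol_eq_mul hle hR hT, sumOver_refine hle hR hT hD hperT hsupp]
    ring
  rw [key P' hP' hper' inf_le_left, key P hP hper inf_le_right]

/-- The integral of `0` is `0`. -/
lemma integral_zero : integral S (0 : V → ℂ) = 0 := by
  rw [integral_eq (f := (0 : V → ℂ)) (IsLat.refl S) (IsLat.refl S) (fun _ _ _ => rfl) (fun x h => absurd rfl h)]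
  simp [sumOver]

/-- Constant multiples of Schwartz functions are Schwartz. -/
lemma IsSch.const_mul (hf : IsSch S f) (a : ℂ) : IsSch S fun x => a * f x := by
  obtain ⟨P, D, hP, hD, hper, hsupp⟩ := hf
  exact ⟨P, D, hP, hD, fun x p hp => by simp only [hper x p hp],
    fun x hx => hsupp x (right_ne_zero_of_mul hx)⟩

/-- The integral commutes with constant multiples. -/
lemma integral_const_mul (hf : IsSch S f) (a : ℂ) :
    integral S (fun x => a * f x) = a * integral S f := by
  obtain ⟨P, D, hP, hD, hper, hsupp⟩ := hf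
  rw [integral_eq hP hD hper hsupp, integral_eq (f := fun x => a * f x) hP hD
    (fun x p hp => by simp only [hper x p hp]) (fun x hx => hsupp x (right_ne_zero_of_mul hx))]
  simp only [sumOver]
  rw [← mul_finsum (fun c : V ⧸ P => f c.out) a]
  ring

/-- Translation invariance. -/
lemma integral_comp_add (hP : IsLat S P) (hD : IsLat S D) (hper : IsPer P f) (hsupp : HasSupp D f)
    {t : V} {D' : AddSubgroup V} (hD' : IsLat S D') (hsupp' : HasSupp D' fun x => f (x + t)) :
    integral S (fun x => f (x + t)) = integral S f := by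
  have hper' : IsPer P fun x => f (x + t) := fun x p hp => by
    show f (x + p + t) = f (x + t)
    rw [add_right_comm]; exact hper _ p hp
  rw [integral_eq hP hD' hper' hsupp', integral_eq hP hD hper hsupp]
  congr 1
  rw [sumOver, sumOver]
  refine Eq.trans (finsum_congr fun c => ?_)
    (finsum_comp_equiv (f := fun c : V ⧸ P => f c.out) (Equiv.addRight (t : V ⧸ P)))
  simp only [Equiv.coe_addRight]
  have : c + (t : V ⧸ P) = ((c.out + t : V) : V ⧸ P) := by
    rw [QuotientAddGroup.mk_add, QuotientAddGroup.out_eq']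
  rw [this, hper.out_eq]

/-- The integral of the indicator of a lattice is its volume. -/
lemma integral_indicator (hP : IsLat S P) [DecidablePred (· ∈ P)] :
    integral S (fun x => if x ∈ P then 1 else 0) = vol S P := by
  rw [integral_eq hP hP (fun x p hp => by simp [AddSubgroup.add_mem_cancel_right, hp])
    (fun x hx => by by_contra h; simp [h] at hx), sumOver, finsum_eq_single _ (0 : V ⧸ P)]
  · have : (0 : V ⧸ P).out ∈ P := by
      rw [← QuotientAddGroup.eq_zero_iff, QuotientAddGroup.out_eq']
    simp [this]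
  · intro c hc
    have : c.out ∉ P := fun h => hc (by
      rw [← QuotientAddGroup.out_eq' c]; exact (QuotientAddGroup.eq_zero_iff _).mpr h)
    simp [this]

/-- **Stationary phase**: if translations by `Q` multiply `g` by a character, only the points where
that character is trivial contribute. -/
lemma integral_stationary (hQ : IsLat S Q) (hP : IsLat S P) (hPQ : P ≤ Q) (hD : IsLat S D)
    (hper : IsPer P g) (hsupp : HasSupp D g) (ω : V → AddChar Q ℂ)
    (hg : ∀ x, ∀ q : Q, g (x + q) = g x * ω x q) (hω : ∀ x, ∀ q : Q, ω (x + q) = ω x)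
    {h : V → ℂ} (h1 : ∀ x, ω x = 1 → h x = g x) (h2 : ∀ x, ω x ≠ 1 → h x = 0)
    (hperh : IsPer P h) :
    integral S g = integral S h := by
  classical
  have hsupph : HasSupp D h := fun x hx => hsupp x fun h0 => hx (by
    by_cases hx1 : ω x = 1
    · rw [h1 x hx1, h0]
    · exact h2 x hx1)
  rw [integral_eq hP hD hper hsupp, integral_eq hP hD hperh hsupph,
    sumOver_fibre hPQ hP hQ hD hper hsupp, sumOver_fibre hPQ hP hQ hD hperh hsupph]
  congr 1
  have := finite_quotient hP hQ
  have := Fintype.ofFinite (Q ⧸ P.addSubgroupOf Q)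
  refine finsum_congr fun c => ?_
  rw [finsum_eq_sum_of_fintype, finsum_eq_sum_of_fintype]
  by_cases hc : ω c.out = 1
  · refine Finset.sum_congr rfl fun q _ => ?_
    rw [h1 _ (by rw [hω, hc])]
  have hzero : ∀ q : Q ⧸ P.addSubgroupOf Q, h (c.out + (q.out : V)) = 0 := fun q =>
    h2 _ (by rw [hω]; exact hc)
  rw [Finset.sum_eq_zero fun q _ => hzero q]
  obtain ⟨a, ha⟩ : ∃ a : Q, ω c.out a ≠ 1 := by
    by_contra hh
    push Not at hh
    exact hc (DFunLike.ext _ _ fun a => (hh a).trans (AddChar.one_apply a).symm)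
  have hshift : ∀ q : Q ⧸ P.addSubgroupOf Q,
      g (c.out + ((q + (a : Q ⧸ P.addSubgroupOf Q)).out : V)) =
        ω c.out a * g (c.out + (q.out : V)) := by
    intro q
    obtain ⟨p, hp⟩ := QuotientAddGroup.mk_out_eq_add (P.addSubgroupOf Q) (q.out + a)
    rw [QuotientAddGroup.mk_add, QuotientAddGroup.out_eq'] at hp
    rw [hp, AddSubgroup.coe_add, ← add_assoc, hper _ _ (AddSubgroup.mem_addSubgroupOf.mp p.2), hg,
      hg, (ω c.out).map_add_eq_mul]
    ring
  set T := ∑ q : Q ⧸ P.addSubgroupOf Q, g (c.out + (q.out : V)) with hT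
  have : T = ω c.out a * T := by
    rw [hT, Finset.mul_sum]
    exact (Fintype.sum_equiv (Equiv.addRight (a : Q ⧸ P.addSubgroupOf Q)) _ _ fun q =>
      (hshift q).symm).symm
  have h0 : (ω c.out a - 1) * T = 0 := by linear_combination -this
  exact (mul_eq_zero.mp h0).resolve_left (sub_ne_zero.mpr ha)

end Fermat.Agent.LT.DihedralTheta
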