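import Fermat.Agent.LT.DihedralTheta.Vec
import Fermat.Agent.LT.DihedralTheta.Residue
import Mathlib.Analysis.Real.Sqrt

/-!
# The Whittaker function of a local vector and a character of the quadratic algebra

`whit g ξ` is the integral of `ψ h · fl g (h, ξ / n h)`, normalised by the mass of the units and
the square root of the norm.  It has the transformation laws of a Whittaker function for the
trivial central character.
-/

set_option autoImplicit false

open AddSubgroup Matrix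

namespace Fermat.Agent.LT.DihedralTheta

variable {E : Type*} [Field E]

namespace LocalForm

variable (K : LocalForm E)

/-- The product of the quadratic algebra. -/
def qmul (w z : E × E) : E × E :=
  (w.1 * z.1 - K.p * w.2 * z.2, w.1 * z.2 + w.2 * z.1 + K.s * w.2 * z.2)

/-- The conjugation. -/
def qconj (z : E × E) : E × E := (z.1 + K.s * z.2, -z.2)

/-- The norm form is multiplicative. -/
lemma n_qmul (w z : E × E) : K.n (K.qmul w z) = K.n w * K.n z := by
  simp only [n, qmul]; ring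

/-- The product is associative. -/
lemma qmul_assoc (u w z : E × E) : K.qmul (K.qmul u w) z = K.qmul u (K.qmul w z) := by
  simp only [qmul]; refine Prod.ext ?_ ?_ <;> simp only <;> ring

/-- A scalar acts by scalar multiplication. -/
lemma qmul_scalar (a : E) (z : E × E) : K.qmul (a, 0) z = a • z := by
  simp [qmul, Prod.ext_iff]

/-- `(1, 0)` is the right unit. -/
lemma qmul_one (z : E × E) : K.qmul z (1, 0) = z := by simp [qmul]

/-- The product is additive in the second variable. -/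
lemma qmul_add (w z z' : E × E) : K.qmul w (z + z') = K.qmul w z + K.qmul w z' := by
  simp only [qmul, Prod.fst_add, Prod.snd_add]
  refine Prod.ext ?_ ?_ <;> simp only [Prod.fst_add, Prod.snd_add] <;> ring

/-- The product is linear in the second variable. -/
lemma qmul_smul (a : E) (w z : E × E) : K.qmul w (a • z) = a • K.qmul w z := by
  simp only [qmul, Prod.smul_fst, Prod.smul_snd, smul_eq_mul]
  refine Prod.ext ?_ ?_ <;> simp only [Prod.smul_fst, Prod.smul_snd, smul_eq_mul] <;> ring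

/-- A point times its conjugate is its norm. -/
lemma qmul_qconj (w : E × E) : K.qmul w (K.qconj w) = (K.n w, 0) := by
  simp only [qmul, qconj, n]; refine Prod.ext ?_ ?_ <;> simp only <;> ring

/-- Conjugation preserves the square boxes. -/
lemma qconj_mem {i : ℤ} {z : E × E} (hz : z ∈ K.box i i) : K.qconj z ∈ K.box i i := by
  obtain ⟨z1, z2⟩ := LocalBase.mem_box.mp hz
  exact LocalBase.mem_box.mpr ⟨add_mem z1 (K.mul_mem_ball' K.s_mem z2 (by omega)), neg_mem z2⟩

/-- A product of points in square boxes. -/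
lemma qmul_mem {i j : ℤ} {w z : E × E} (hw : w ∈ K.box i i) (hz : z ∈ K.box j j) :
    K.qmul w z ∈ K.box (i + j) (i + j) := by
  obtain ⟨w1, w2⟩ := LocalBase.mem_box.mp hw
  obtain ⟨z1, z2⟩ := LocalBase.mem_box.mp hz
  exact LocalBase.mem_box.mpr
    ⟨sub_mem (K.mul_mem_ball w1 z1) (K.mul_mem_ball' (K.mul_mem_ball K.p_mem w2) z2 (by omega)),
      add_mem (add_mem (K.mul_mem_ball w1 z2) (K.mul_mem_ball w2 z1))
        (K.mul_mem_ball' (K.mul_mem_ball K.s_mem w2) z2 (by omega))⟩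

/-- A scalar multiple of a point in a square box. -/
lemma smul_mem_box {i j : ℤ} {a : E} {z : E × E} (ha : a ∈ K.ball i) (hz : z ∈ K.box j j) :
    a • z ∈ K.box (i + j) (i + j) := by
  obtain ⟨z1, z2⟩ := LocalBase.mem_box.mp hz
  exact LocalBase.mem_box.mpr ⟨K.mul_mem_ball ha z1, K.mul_mem_ball ha z2⟩

/-- `h + ρ = h (1 + σ)` with `σ` small. -/
lemma exists_qmul_one_add {h ρ : E × E} (hn : K.n h ≠ 0) {i r : ℤ} (hh : h ∈ K.box i i)
    (hρ : ρ ∈ K.box r r) :
    ∃ σ ∈ K.box (i + r - K.ord (K.n h)) (i + r - K.ord (K.n h)),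
      h + ρ = K.qmul h ((1, 0) + σ) := by
  refine ⟨(K.n h)⁻¹ • K.qmul (K.qconj h) ρ, ?_, ?_⟩
  · refine K.box_le ?_ ?_
      (K.smul_mem_box (Or.inr le_rfl) (K.qmul_mem (K.qconj_mem hh) hρ)) <;>
    · rw [K.ord_inv hn]; omega
  · rw [K.qmul_add, K.qmul_one, K.qmul_smul, ← K.qmul_assoc, K.qmul_qconj, K.qmul_scalar,
      smul_smul, inv_mul_cancel₀ hn, one_smul]

open Classical in
/-- The mass of the units of the quadratic algebra. -/
noncomputable def unitVol : ℂ :=
  integral K.base fun z => if z ∈ K.box 0 0 ∧ K.n z ≠ 0 ∧ K.ord (K.n z) = 0 then 1 else 0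

/-- The square root of the residue cardinality. -/
noncomputable def sqrtQ : ℂ := ((Real.sqrt K.q : ℝ) : ℂ)

/-- The square root of `q` is nonzero. -/
lemma sqrtQ_ne : K.sqrtQ ≠ 0 :=
  Complex.ofReal_ne_zero.mpr (Real.sqrt_pos.mpr (Nat.cast_pos.mpr K.q_pos)).ne'

/-- The square root of `q` squares to `q`. -/
lemma sqrtQ_mul : K.sqrtQ * K.sqrtQ = (K.q : ℂ) := by
  rw [sqrtQ, ← Complex.ofReal_mul, Real.mul_self_sqrt (Nat.cast_nonneg _)]
  simp

/-- Even powers of the square root of `q`. -/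
lemma sqrtQ_zpow_two (k : ℤ) : K.sqrtQ ^ (2 * k) = (K.q : ℂ) ^ k := by
  rw [_root_.zpow_mul, zpow_two, K.sqrtQ_mul]

end LocalForm

variable {K : LocalForm E}

/-- A character of the quadratic algebra compatible with a local vector, and the smoothness and
boundedness of the vector. -/
structure IsGoodVec (T : LocalVec K) (ψ : E × E → ℂ) : Prop where
  psi_mul : ∀ {w z : E × E}, K.n w ≠ 0 → K.n z ≠ 0 → ψ (K.qmul w z) = ψ w * ψ z
  psi_scal : ∀ {a : E}, a ≠ 0 → ψ (a, 0) = T.η a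
  psi_norm : ∀ {z : E × E}, K.n z ≠ 0 → ‖ψ z‖ = 1
  norm_chi : ∀ x, ‖K.χ x‖ = 1
  smooth : ∃ R : ℤ, 1 ≤ R ∧ (∀ ρ ∈ K.box R R, ψ ((1, 0) + ρ) = 1) ∧
    ∀ k ∈ K.intGL, ∀ z u v, v - 1 ∈ K.ball R → T.φ k z (u * v) = T.φ k z u
  bounded : ∃ C : ℝ, ∀ k ∈ K.intGL, ∀ z u, ‖T.φ k z u‖ ≤ C

/-- An integral over a box is bounded by the supremum times the volume of the box. -/
lemma LocalForm.norm_integral_le {f : E × E → ℂ} {R k : ℤ} (hR : k ≤ R) {M : ℝ}
    (hper : IsPer (K.box R R) f) (hsupp : HasSupp (K.box k k) f) (hb : ∀ z, ‖f z‖ ≤ M) :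
    ‖integral K.base f‖ ≤ M * ((K.q : ℝ) ^ (k + k))⁻¹ := by
  classical
  set one : E × E → ℂ := fun z => if z ∈ K.box k k then 1 else 0
  have hper1 : IsPer (K.box R R) one := fun z p hp => by
    simp only [one, AddSubgroup.add_mem_cancel_right _ (K.box_le hR hR hp)]
  have hsupp1 : HasSupp (K.box k k) one := fun z hz => by by_contra hh; exact hz (if_neg hh)
  have hfin := finite_support (K.isLat_box R R) (K.isLat_box k k) hsupp1
  rw [integral_eq (K.isLat_box R R) (K.isLat_box k k) hper hsupp, sumOver,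
    finsum_eq_sum_of_support_subset _ (s := hfin.toFinset) fun c hc => by
      rw [Finset.mem_coe, Set.Finite.mem_toFinset]
      simp [one, hsupp _ hc]]
  have hvol : vol K.base (K.box k k) = vol K.base (K.box R R) * (hfin.toFinset.card : ℂ) := by
    rw [← integral_indicator (K.isLat_box k k),
      integral_eq (K.isLat_box R R) (K.isLat_box k k) hper1 hsupp1]
    congr 1
    rw [sumOver, finsum_eq_sum_of_support_subset _ (s := hfin.toFinset)
      (fun c hc => by simpa using hc), Finset.card_eq_sum_ones, Nat.cast_sum]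
    refine Finset.sum_congr rfl fun c hc => ?_
    have hc' : one c.out ≠ 0 := by simpa using hc
    simp only [one] at hc' ⊢
    split_ifs at hc' ⊢ with hh
    · simp
    · exact absurd rfl hc'
  calc ‖vol K.base (K.box R R) * ∑ c ∈ hfin.toFinset, f c.out‖
      ≤ ‖vol K.base (K.box R R)‖ * (hfin.toFinset.card * M) := by
        rw [norm_mul]
        refine mul_le_mul_of_nonneg_left ((norm_sum_le _ _).trans ?_) (norm_nonneg _)
        simpa using Finset.sum_le_card_nsmul _ _ M fun c _ => hb c.out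
    _ = M * ‖vol K.base (K.box k k)‖ := by rw [hvol, norm_mul, Complex.norm_natCast]; ring
    _ = _ := by rw [K.vol_box, norm_inv, norm_zpow, Complex.norm_natCast]

namespace LocalVec

variable (T : LocalVec K) (ψ : E × E → ℂ)

/-- The integrand of the Whittaker function. -/
noncomputable def whitInt (g : GL (Fin 2) E) (ξ : E) (h : E × E) : ℂ :=
  ψ h * T.fl g h (ξ / K.n h)

/-- The Whittaker function. -/
noncomputable def whit (g : GL (Fin 2) E) (ξ : E) : ℂ :=
  K.sqrtQ ^ (K.ord ξ + T.e - K.ord g.val.det) / K.unitVol * integral K.base (T.whitInt ψ g ξ)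

variable {T ψ}

/-- Support of the Whittaker integrand. -/
lemma whitInt_ne_zero {g : GL (Fin 2) E} {ξ : E} {h : E × E} (hne : T.whitInt ψ g ξ h ≠ 0) :
    K.n h ≠ 0 ∧ ξ ≠ 0 ∧ K.ord (K.n h) = K.ord ξ + T.e - K.ord g.val.det := by
  obtain ⟨h0, hord⟩ := T.fl_supp (right_ne_zero_of_mul hne)
  obtain ⟨hξ, hn⟩ := div_ne_zero_iff.mp h0
  refine ⟨hn, hξ, ?_⟩
  rw [div_eq_mul_inv, K.ord_mul hξ (inv_ne_zero hn), K.ord_inv hn] at hord
  omega

/-- The Whittaker integrand in Iwasawa coordinates. -/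
lemma whitInt_eq {a β d : E} (ha : a ≠ 0) (hd : d ≠ 0) {k : GL (Fin 2) E} (hk : k ∈ K.intGL)
    {g : GL (Fin 2) E} (hg : g = bmat a β d ha hd * k) (ξ : E) (h : E × E) :
    T.whitInt ψ g ξ h = T.η a * K.absv a * K.χ (ξ * (β / d)) *
      (ψ h * T.φ k (a • h) (ξ / K.n h / (a * d))) := by
  rw [whitInt, T.fl_eq hk hg, LocalForm.bact]
  by_cases hn : K.n h = 0
  · have h0 : T.φ k (a • h) (ξ / K.n h / (a * d)) = 0 := by
      by_contra hne
      exact (T.supp_u k hk _ _ hne).1 (by simp [hn])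
    simp [h0]
  · rw [show ξ / K.n h * (β / d) * K.n h = ξ * (β / d) by field_simp]
    ring

variable (hT : IsGoodVec T ψ)

include hT

/-- Periods and support of the integrand. -/
lemma exists_sch (g : GL (Fin 2) E) :
    ∃ k0 : ℤ, ∀ ξ, HasSupp (K.box k0 k0) (T.whitInt ψ g ξ) ∧
      ∃ R : ℤ, IsPer (K.box R R) (T.whitInt ψ g ξ) := by
  obtain ⟨a, β, d, ha, hd, k, hk, hg⟩ := K.exists_iwasawa g
  refine ⟨T.k0 - K.ord a, fun ξ => ?_⟩
  have hsupp : HasSupp (K.box (T.k0 - K.ord a) (T.k0 - K.ord a)) (T.whitInt ψ g ξ) := fun h hne => by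
    rw [whitInt_eq ha hd hk hg] at hne
    rw [← K.comap_smulEquiv a ha]
    exact T.supp k hk _ (a • h) (right_ne_zero_of_mul (right_ne_zero_of_mul hne))
  refine ⟨hsupp, ?_⟩
  obtain ⟨R₀, hR1, hψ, hφ⟩ := hT.smooth
  set i := T.k0 - K.ord a
  set N := K.ord ξ + T.e - K.ord g.val.det
  obtain ⟨R, hR, hla, hlb, hri⟩ : ∃ R, R₀ + N - i ≤ R ∧ T.la - K.ord a ≤ R ∧ T.lb - K.ord a ≤ R ∧
      i ≤ R :=
    ⟨max (max (R₀ + N - i) (T.la - K.ord a)) (max (T.lb - K.ord a) i),
      le_max_of_le_left (le_max_left _ _), le_max_of_le_left (le_max_right _ _),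
      le_max_of_le_right (le_max_left _ _), le_max_of_le_right (le_max_right _ _)⟩
  refine ⟨R, ?_⟩
  have main : ∀ h, ∀ ρ ∈ K.box R R, T.whitInt ψ g ξ h ≠ 0 →
      T.whitInt ψ g ξ (h + ρ) = T.whitInt ψ g ξ h := by
    intro h ρ hρ hne
    obtain ⟨hn, hξ, hN⟩ := whitInt_ne_zero hne
    obtain ⟨σ, hσ, e⟩ := K.exists_qmul_one_add hn (hsupp h hne) hρ
    have hσR : σ ∈ K.box R₀ R₀ := K.box_le (by omega) (by omega) hσ
    obtain ⟨s1, s2⟩ := LocalBase.mem_box.mp hσR
    have hv : K.n ((1, 0) + σ) - 1 ∈ K.ball R₀ := by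
      rw [show K.n ((1, 0) + σ) - 1 = 2 * σ.1 + K.s * σ.2 + K.n σ by
        simp only [LocalForm.n, Prod.fst_add, Prod.snd_add]; ring]
      exact add_mem (add_mem (K.mul_mem_ball' K.two_mem s1 (by omega))
        (K.mul_mem_ball' K.s_mem s2 (by omega))) (K.ball_le (by omega) (K.n_mem hσR))
    have hv0 : K.n ((1, 0) + σ) ≠ 0 := fun h0 => by
      rw [h0, zero_sub] at hv
      have := (neg_mem_iff.mp hv).resolve_left one_ne_zero
      rw [K.ord_one] at this; omega
    have hvo : K.ord (K.n ((1, 0) + σ)) = 0 := by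
      have h1 := (K.ball_le hR1 hv)
      have hb : K.n ((1, 0) + σ) ∈ K.ball 0 := by
        have := add_mem (K.ball_le (by omega : (0 : ℤ) ≤ 1) h1) K.one_mem_ball
        rwa [sub_add_cancel] at this
      refine le_antisymm (not_lt.mp fun hlt => ?_) (hb.resolve_left hv0)
      have := sub_mem (show K.n ((1, 0) + σ) ∈ K.ball 1 from Or.inr hlt) h1
      rw [sub_sub_cancel] at this
      have := this.resolve_left one_ne_zero
      rw [K.ord_one] at this; omega
    have hvi : (K.n ((1, 0) + σ))⁻¹ - 1 ∈ K.ball R₀ := by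
      rw [show (K.n ((1, 0) + σ))⁻¹ - 1 =
        (K.n ((1, 0) + σ))⁻¹ * -(K.n ((1, 0) + σ) - 1) by field_simp; ring,
        K.mul_mem_ball_iff (inv_ne_zero hv0), K.ord_inv hv0, hvo]
      simpa using neg_mem hv
    have hu : ξ / K.n (h + ρ) / (a * d) =
        ξ / K.n h / (a * d) * (K.n ((1, 0) + σ))⁻¹ := by
      rw [e, K.n_qmul]; field_simp
    have hz : T.φ k (a • (h + ρ)) = T.φ k (a • h) := by
      funext w
      rw [smul_add]
      refine T.per k hk w (a • h) _ ?_
      obtain ⟨r1, r2⟩ := LocalBase.mem_box.mp hρ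
      exact LocalBase.mem_box.mpr
        ⟨K.mul_mem_ball' (k := K.ord a) (Or.inr le_rfl) r1 (by omega),
          K.mul_mem_ball' (k := K.ord a) (Or.inr le_rfl) r2 (by omega)⟩
    rw [whitInt_eq ha hd hk hg, whitInt_eq ha hd hk hg, hz, hu, hφ k hk _ _ _ hvi,
      show ψ (h + ρ) = ψ h by rw [e, hT.psi_mul hn hv0, hψ σ hσR, mul_one]]
  intro h ρ hρ
  by_cases h0 : T.whitInt ψ g ξ h = 0
  · by_contra hne
    rw [h0] at hne
    have := main (h + ρ) (-ρ) (neg_mem hρ) hne
    rw [add_neg_cancel_right, h0] at this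
    exact hne this.symm
  · exact main h ρ hρ h0

omit hT in
/-- The Whittaker function vanishes at `0`. -/
lemma whit_zero (g : GL (Fin 2) E) : T.whit ψ g 0 = 0 := by
  have : T.whitInt ψ g 0 = 0 := by
    funext h
    by_contra hne
    exact (whitInt_ne_zero hne).2.1 rfl
  rw [whit, this, integral_zero, mul_zero]

omit hT in
/-- The Whittaker function is invariant on the right under the level. -/
lemma whit_right (g : GL (Fin 2) E) {k : GL (Fin 2) E} (hk : k ∈ T.U) (ξ : E) :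
    T.whit ψ (g * k) ξ = T.whit ψ g ξ := by
  have hdet : K.ord (g * k).val.det = K.ord g.val.det := by
    rw [Units.val_mul, Matrix.det_mul,
      K.ord_mul ((Matrix.isUnit_iff_isUnit_det _).mp g.isUnit).ne_zero
        ((Matrix.isUnit_iff_isUnit_det _).mp k.isUnit).ne_zero,
      K.ord_det_eq_zero (T.U_le hk), add_zero]
  have hint : T.whitInt ψ (g * k) ξ = T.whitInt ψ g ξ := by
    funext h; simp only [whitInt, T.fl_right g hk]
  rw [whit, whit, hdet, hint]

omit hT in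
lemma ord_det_bmat_mul {a β d : E} (ha : a ≠ 0) (hd : d ≠ 0) (g : GL (Fin 2) E) :
    K.ord (bmat a β d ha hd * g).val.det = K.ord a + K.ord d + K.ord g.val.det := by
  rw [Units.val_mul, Matrix.det_mul, bmat_val, Matrix.det_fin_two_of, mul_zero, sub_zero,
    K.ord_mul (mul_ne_zero ha hd) ((Matrix.isUnit_iff_isUnit_det _).mp g.isUnit).ne_zero,
    K.ord_mul ha hd]

/-- The action of the Borel group. -/
theorem whit_borel {a β d : E} (ha : a ≠ 0) (hd : d ≠ 0) (g : GL (Fin 2) E) (ξ : E) :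
    T.whit ψ (bmat a β d ha hd * g) ξ = K.χ (ξ * (β / d)) * T.whit ψ g (ξ * a / d) := by
  rcases eq_or_ne ξ 0 with rfl | hξ
  · simp [whit_zero]
  set ξ' := ξ * a / d
  have hint : T.whitInt ψ (bmat a β d ha hd * g) ξ =
      fun h => (K.χ (ξ * (β / d)) * K.absv a) *
        T.whitInt ψ g ξ' (LocalForm.smulEquiv a ha h) := by
    funext h
    rw [show LocalForm.smulEquiv a ha h = a • h from rfl]
    simp only [whitInt, T.fl_borel ha hd g, LocalForm.bact]
    by_cases hn : K.n h = 0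
    · have h0 : ∀ z u, u = 0 → T.fl g z u = 0 := fun z u hu => by
        by_contra hne
        exact (T.fl_supp hne).1 hu
      rw [h0 _ _ (by simp [hn]), h0 _ (ξ' / K.n (a • h)) (by simp [K.n_smul, hn])]
      simp
    · have e1 : ξ / K.n h * (β / d) * K.n h = ξ * (β / d) := by field_simp
      have e2 : ξ' / K.n (a • h) = ξ / K.n h / (a * d) := by
        simp only [ξ', K.n_smul]; field_simp
      have e3 : ψ (a • h) = T.η a * ψ h := by
        rw [← K.qmul_scalar, hT.psi_mul (by simp [LocalForm.n, ha]) hn, hT.psi_scal ha]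
      rw [e1, e2, e3]
      ring
  obtain ⟨k0, hk0⟩ := exists_sch hT g
  obtain ⟨hs, R, hR⟩ := hk0 ξ'
  have hcomap : ∀ i, IsLat K.base
      ((K.box i i).comap (LocalForm.smulEquiv a ha).toAddMonoidHom) := fun i => by
    rw [K.comap_smulEquiv]; exact K.isLat_box _ _
  have hsch : IsSch K.base fun h => T.whitInt ψ g ξ' (LocalForm.smulEquiv a ha h) :=
    ⟨_, _, hcomap R, hcomap k0, fun h ρ hρ => by
      show T.whitInt ψ g ξ' (LocalForm.smulEquiv a ha (h + ρ)) = _
      rw [map_add]; exact hR _ _ hρ, fun h hh => hs _ hh⟩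
  have hcv := integral_comp_equiv (LocalForm.smulEquiv a ha) (K.isLat_box R R)
    (K.isLat_box k0 k0) hR hs (hcomap R) (hcomap k0)
  rw [whit, whit, hint, integral_const_mul hsch, hcv, K.comap_smulEquiv, K.vol_box, K.vol_box,
    ord_det_bmat_mul ha hd g]
  simp only [ξ', div_eq_mul_inv (ξ * a) d, K.ord_mul (mul_ne_zero hξ ha) (inv_ne_zero hd),
    K.ord_mul hξ ha, K.ord_inv hd, LocalForm.absv]
  rw [show K.ord ξ + K.ord a + -K.ord d + T.e - K.ord g.val.det =
    K.ord ξ + T.e - (K.ord a + K.ord d + K.ord g.val.det) + 2 * K.ord a by ring,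
    zpow_add₀ K.sqrtQ_ne, K.sqrtQ_zpow_two, ← zpow_neg (K.q : ℂ), ← zpow_neg (K.q : ℂ),
    ← zpow_sub₀ K.q_ne_zero, show -(R - K.ord a + (R - K.ord a)) - -(R + R) = 2 * K.ord a by ring,
    two_mul, zpow_add₀ K.q_ne_zero, _root_.zpow_neg]
  have := zpow_ne_zero (K.ord a) K.q_ne_zero
  field_simp

/-- The Whittaker function vanishes for small `ξ`. -/
theorem whit_supp (g : GL (Fin 2) E) :
    ∃ B : ℤ, ∀ ξ, T.whit ψ g ξ ≠ 0 → ξ ≠ 0 ∧ B ≤ K.ord ξ := by
  obtain ⟨k0, hk0⟩ := exists_sch hT g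
  refine ⟨2 * k0 - T.e + K.ord g.val.det, fun ξ hne => ?_⟩
  obtain ⟨h, hh⟩ : ∃ h, T.whitInt ψ g ξ h ≠ 0 := by
    by_contra hh
    push Not at hh
    exact hne (by rw [whit, show T.whitInt ψ g ξ = 0 from funext hh, integral_zero, mul_zero])
  obtain ⟨hn, hξ, hN⟩ := whitInt_ne_zero hh
  refine ⟨hξ, ?_⟩
  have := (K.n_mem ((hk0 ξ).1 h hh)).resolve_left hn
  omega

/-- Polynomial growth. -/
theorem whit_bound (g : GL (Fin 2) E) :
    ∃ C : ℝ, ∀ ξ, ‖T.whit ψ g ξ‖ ≤ C * Real.sqrt K.q ^ K.ord ξ := by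
  classical
  obtain ⟨a, β, d, ha, hd, k, hk, hg⟩ := K.exists_iwasawa g
  obtain ⟨C, hC⟩ := hT.bounded
  obtain ⟨k0, hk0⟩ := exists_sch hT g
  set M := ‖T.η a‖ * ‖K.absv a‖ * |C|
  have hb : ∀ ξ h, ‖T.whitInt ψ g ξ h‖ ≤ M := fun ξ h => by
    by_cases h0 : T.whitInt ψ g ξ h = 0
    · rw [h0, norm_zero]; positivity
    obtain ⟨hn, -, -⟩ := whitInt_ne_zero h0
    simp only [whitInt_eq ha hd hk hg, norm_mul, hT.norm_chi, mul_one, hT.psi_norm hn, one_mul]
    exact mul_le_mul_of_nonneg_left ((hC k hk _ _).trans (le_abs_self C)) (by positivity)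
  refine ⟨Real.sqrt K.q ^ (T.e - K.ord g.val.det) / ‖K.unitVol‖ *
    (M * ((K.q : ℝ) ^ (k0 + k0))⁻¹), fun ξ => ?_⟩
  obtain ⟨hs, R₀, hR₀⟩ := hk0 ξ
  set R := max R₀ k0
  have hle : K.box R R ≤ K.box R₀ R₀ := K.box_le (le_max_left _ _) (le_max_left _ _)
  have hI : ‖integral K.base (T.whitInt ψ g ξ)‖ ≤ M * ((K.q : ℝ) ^ (k0 + k0))⁻¹ :=
    LocalForm.norm_integral_le (le_max_right R₀ k0) (hR₀.mono hle) hs (hb ξ)
  rw [whit, norm_mul, norm_div, norm_zpow, LocalForm.sqrtQ, Complex.norm_real, Real.norm_eq_abs,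
    abs_of_nonneg (Real.sqrt_nonneg _),
    show K.ord ξ + T.e - K.ord g.val.det = T.e - K.ord g.val.det + K.ord ξ by ring,
    zpow_add₀ (Real.sqrt_pos.mpr (Nat.cast_pos.mpr K.q_pos)).ne']
  calc Real.sqrt K.q ^ (T.e - K.ord g.val.det) * Real.sqrt K.q ^ K.ord ξ / ‖K.unitVol‖ *
        ‖integral K.base (T.whitInt ψ g ξ)‖
      ≤ Real.sqrt K.q ^ (T.e - K.ord g.val.det) * Real.sqrt K.q ^ K.ord ξ / ‖K.unitVol‖ *
        (M * ((K.q : ℝ) ^ (k0 + k0))⁻¹) := by
        refine mul_le_mul_of_nonneg_left hI ?_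
        have hp := Real.sqrt_pos.mpr (show (0 : ℝ) < K.q from Nat.cast_pos.mpr K.q_pos)
        exact div_nonneg (mul_nonneg (zpow_nonneg hp.le _) (zpow_nonneg hp.le _)) (norm_nonneg _)
    _ = _ := by ring

end LocalVec

end Fermat.Agent.LT.DihedralTheta
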