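import Fermat.Agent.LT.DihedralTheta.Borel
import Fermat.Agent.LT.Places.Hecke
import Fermat.Agent.LT.Whittaker.Law
import Mathlib.NumberTheory.NumberField.Basic

/-!
# The completion at a finite place as a `LocalBase`, and the components of the additive character
-/

set_option autoImplicit false

noncomputable section

open IsDedekindDomain NumberField WithZero
open Fermat.Agent.LT.Places

namespace Fermat.Agent.LT.DihedralTheta

variable {F : Type*} [Field F] [NumberField F]

/-- The order at `v`, with junk value at zero. -/
def placeOrd (v : FinPlace F) (x : v.adicCompletion F) : ℤ := -log (Valued.v x)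

lemma valued_ne_zero {v : FinPlace F} {x : v.adicCompletion F} (hx : x ≠ 0) : Valued.v x ≠ 0 :=
  (Valuation.ne_zero_iff _).mpr hx

/-- The valuation in terms of the order. -/
lemma valued_eq_exp {v : FinPlace F} {x : v.adicCompletion F} (hx : x ≠ 0) :
    Valued.v x = exp (-placeOrd v x) := by
  rw [placeOrd, neg_neg, exp_log (valued_ne_zero hx)]

lemma valued_le_exp_iff {v : FinPlace F} {x : v.adicCompletion F} (k : ℤ) :
    Valued.v x ≤ exp (-k) ↔ x = 0 ∨ k ≤ placeOrd v x := by
  rcases eq_or_ne x 0 with rfl | hx
  · simp
  · rw [valued_eq_exp hx, exp_le_exp, neg_le_neg_iff]; simp [hx]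

/-- The local uniformiser has order `1`. -/
lemma placeOrd_piLocal (v : FinPlace F) :
    placeOrd v (piLocal v : v.adicCompletion F) = 1 := by
  rw [placeOrd, valued_piLocal, log_exp, neg_neg]

/-- The completion as a local base. -/
def placeBase (v : FinPlace F) : LocalBase (v.adicCompletion F) where
  ord := placeOrd v
  unif := piLocal v
  unif_ne_zero := (piLocal v).ne_zero
  ord_unif := placeOrd_piLocal v
  ord_mul {a b} ha hb := by
    rw [placeOrd, map_mul, log_mul (valued_ne_zero ha) (valued_ne_zero hb), neg_add, placeOrd,
      placeOrd]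
  ord_add {a b} ha hb hab := by
    have h := Valued.v.map_add a b
    rw [valued_eq_exp ha, valued_eq_exp hb, valued_eq_exp hab] at h
    rcases le_max_iff.mp h with h | h <;> rw [exp_le_exp] at h <;> omega
  q := Nat.card (Residue v)
  q_pos := Nat.card_pos
  residue_card H H' hH hH' := by
    have hle : ∀ {x}, x ∈ H' ↔ Valued.v x ≤ 1 := fun {x} => by
      rw [hH', ← valued_le_exp_iff, neg_zero, exp_zero]
    have hlt : ∀ {x}, x ∈ H ↔ Valued.v x < 1 := fun {x} => by
      rw [hH]
      rcases eq_or_ne x 0 with rfl | hx
      · simp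
      · rw [valued_eq_exp hx, ← exp_zero, exp_lt_exp]; simp only [hx, false_or]; omega
    rw [AddSubgroup.relIndex, AddSubgroup.index]
    refine Nat.card_congr (Equiv.ofBijective
      (fun r : Residue v => ((⟨resLift v r, hle.mpr (valued_resLift v r)⟩ : H') :
        H' ⧸ H.addSubgroupOf H')) ⟨fun r s h => resLift_injective v ?_, fun c => ?_⟩).symm
    · have := AddSubgroup.mem_addSubgroupOf.mp (QuotientAddGroup.eq.mp h)
      rw [Valuation.map_sub_swap, ← neg_add_eq_sub]
      simpa using hlt.mp this
    · induction c using QuotientAddGroup.induction_on with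
      | H x =>
        obtain ⟨r, hr⟩ := exists_resLift_near v (hle.mp x.2)
        refine ⟨r, QuotientAddGroup.eq.mpr (AddSubgroup.mem_addSubgroupOf.mpr (hlt.mpr ?_))⟩
        simpa [neg_add_eq_sub] using hr

/-- Membership in a ball in terms of the valuation. -/
lemma mem_placeBall {v : FinPlace F} {x : v.adicCompletion F} {k : ℤ} :
    x ∈ (placeBase v).ball k ↔ Valued.v x ≤ exp (-k) := by
  rw [valued_le_exp_iff]; rfl

/-- The unit ball consists of the elements of valuation at most `1`. -/
lemma mem_placeBall_zero {v : FinPlace F} {x : v.adicCompletion F} :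
    x ∈ (placeBase v).ball 0 ↔ Valued.v x ≤ 1 := by rw [mem_placeBall, neg_zero, exp_zero]

/-- `intGL` at a place is the integral group. -/
lemma intGL_eq_intGroup (v : FinPlace F) : (placeBase v).intGL = intGroup v := by
  ext g
  constructor
  · rintro ⟨h1, h2⟩
    exact mem_intGroup_of_inv (fun i j => mem_placeBall_zero.mp (h1 i j))
      fun i j => mem_placeBall_zero.mp (h2 i j)
  · intro hg
    exact ⟨fun i j => mem_placeBall_zero.mpr (hg.1 i j),
      fun i j => mem_placeBall_zero.mpr ((inv_mem hg).1 i j)⟩

/-- The component of `psiFin` at `v`. -/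
def placeChar (v : FinPlace F) : AddChar (v.adicCompletion F) ℂ :=
  (Whittaker.psiChar (F := F)).compAddMonoidHom (single v)

/-- The local character is the finite adelic character on an adele supported at the place. -/
lemma placeChar_apply (v : FinPlace F) (x : v.adicCompletion F) :
    placeChar v x = Whittaker.psiFin F (single v x) := rfl

/-- The local character is unitary. -/
lemma norm_placeChar (v : FinPlace F) (x : v.adicCompletion F) : ‖placeChar v x‖ = 1 :=
  Whittaker.norm_psiFin _

/-- The local character is trivial on integral elements. -/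
lemma placeChar_eq_one {v : FinPlace F} {x : v.adicCompletion F} (h : Valued.v x ≤ 1) :
    placeChar v x = 1 :=
  Whittaker.psiFin_of_mem (single_mem_integralAdele h)

/-- The product formula of the additive character. -/
theorem psiFin_eq_finprod (u : FinAdele F) :
    Whittaker.psiFin F u = ∏ᶠ v, placeChar v (toPlace v u) := by
  classical
  set S := (finite_placeVal u).toFinset
  have hu : u - ∑ v ∈ S, single v (toPlace v u) ∈ integralAdele F := by
    refine mem_integralAdele_iff.mpr fun w => ?_
    rw [placeVal, map_sub, map_sum]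
    by_cases hw : w ∈ S
    · rw [Finset.sum_eq_single_of_mem w hw fun v _ hne => toPlace_single_ne (Ne.symm hne) _,
        toPlace_single_same, sub_self, map_zero]
      exact zero_le
    · rw [Finset.sum_eq_zero fun v hv => toPlace_single_ne (fun h : w = v => hw (h ▸ hv)) _,
        sub_zero]
      rw [Set.Finite.mem_toFinset] at hw
      exact not_lt.mp hw
  conv_lhs => rw [← sub_add_cancel u (∑ v ∈ S, single v (toPlace v u))]
  have hsum : ∀ T : Finset (FinPlace F),
      Whittaker.psiChar (F := F) (∑ v ∈ T, single v (toPlace v u)) =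
        ∏ v ∈ T, placeChar v (toPlace v u) := fun T => by
    induction T using Finset.induction_on with
    | empty => simp
    | insert a T ha ih =>
      rw [Finset.sum_insert ha, Finset.prod_insert ha, AddChar.map_add_eq_mul, ih]
      rfl
  rw [Whittaker.psiFin_add, Whittaker.psiFin_of_mem hu, one_mul, ← Whittaker.psiChar_apply, hsum]
  refine (finprod_eq_prod_of_mulSupport_subset _ fun v hv => ?_).symm
  rw [Finset.mem_coe, Set.Finite.mem_toFinset]
  by_contra h
  exact hv (placeChar_eq_one (not_lt.mp h))

/-- A natural number clearing the denominators of the inverse different. -/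
lemma exists_trace_denominator : ∃ M : ℕ, 0 < M ∧
    ∀ b : F, (∀ o : 𝓞 F, ∃ n : ℤ, Algebra.trace ℚ F (b * o) = n) →
      ∀ v : FinPlace F, v.valuation F ((M : F) * b) ≤ 1 := by
  classical
  set B := RingOfIntegers.basis F
  set bq := integralBasis F
  obtain ⟨M, hM, hMi⟩ := Reduction.exists_denominator (F := F)
    (fun i => finIncl F (bq.traceDual i))
  refine ⟨M, hM, fun b hb v => ?_⟩
  choose n hn using fun i => hb (B i)
  have hrepr : b = ∑ i, (n i : F) * bq.traceDual i := by
    conv_lhs => rw [← bq.traceDual.sum_repr b]
    refine Finset.sum_congr rfl fun i _ => ?_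
    rw [Module.Basis.traceDual_repr_apply, Algebra.traceForm_apply,
      show bq i = (B i : F) from integralBasis_apply F i, hn i, Algebra.smul_def]
    simp
  rw [hrepr, Finset.mul_sum]
  refine Valuation.map_sum_le _ fun i _ => ?_
  rw [mul_left_comm, map_mul, ← map_intCast (algebraMap (𝓞 F) F)]
  refine mul_le_one' (v.valuation_le_one _) ?_
  rw [← placeVal_finIncl, map_mul, map_natCast]
  exact placeVal_le_one v (hMi i)

/-- If the component is trivial on a ball, that ball is small. -/
lemma le_of_placeChar_trivial {v : FinPlace F} {M : ℕ} (_hM : 0 < M)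
    (hMb : ∀ b : F, (∀ o : 𝓞 F, ∃ n : ℤ, Algebra.trace ℚ F (b * o) = n) →
      ∀ v : FinPlace F, v.valuation F ((M : F) * b) ≤ 1) {k : ℤ} (hk : k < 0)
    (h : ∀ x, Valued.v x ≤ exp (-k) → placeChar v x = 1) :
    exp (-k) * v.valuation F (M : F) ≤ 1 := by
  set x : v.adicCompletion F := (placeBase v).unif ^ k
  have hx0 : x ≠ 0 := zpow_ne_zero _ (placeBase v).unif_ne_zero
  have hxv : Valued.v x = exp (-k) := by
    rw [valued_eq_exp hx0, show placeOrd v x = k from (placeBase v).ord_unif_zpow k]
  obtain ⟨b, hb⟩ := Whittaker.exists_finIncl_sub (single v x)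
  have hbw : ∀ w ≠ v, w.valuation F b ≤ 1 := fun w hw => by
    have := placeVal_le_one w hb
    rw [placeVal, map_sub, toPlace_single_ne hw, zero_sub, Valuation.map_neg] at this
    rwa [← placeVal_finIncl, placeVal]
  have hbv : v.valuation F b = exp (-k) := by
    have := placeVal_le_one v hb
    rw [placeVal, map_sub, toPlace_single_same] at this
    rw [← placeVal_finIncl, placeVal, ← hxv, ← Valuation.map_sub_eq_of_lt_left (v := Valued.v)
      (x := x) (y := x - toPlace v (finIncl F b)) (by
        rw [hxv]; refine lt_of_le_of_lt this ?_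
        rw [← exp_zero, exp_lt_exp]; omega), sub_sub_cancel]
  have htr : ∀ o : 𝓞 F, ∃ n : ℤ, Algebra.trace ℚ F (b * o) = n := fun o => by
    set a := toPlace v (finIncl F (b * o))
    have ha : Valued.v a ≤ exp (-k) := by
      show placeVal v _ ≤ _
      rw [placeVal_finIncl, map_mul, hbv, RingOfIntegers.coe_eq_algebraMap]
      exact mul_le_of_le_one_right' (v.valuation_le_one o)
    have hint : single v a - finIncl F (b * o) ∈ integralAdele F :=
      mem_integralAdele_iff.mpr fun w => by
        rcases eq_or_ne w v with rfl | hw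
        · rw [placeVal, map_sub, toPlace_single_same, sub_self, map_zero]; exact zero_le
        · rw [placeVal, map_sub, toPlace_single_ne hw, zero_sub, Valuation.map_neg]
          show placeVal w _ ≤ 1
          rw [placeVal_finIncl, map_mul, RingOfIntegers.coe_eq_algebraMap]
          exact mul_le_one' (hbw w hw) (w.valuation_le_one o)
    have h1 := h a ha
    rw [placeChar_apply, Whittaker.psiFin_eq hint, Whittaker.psiGlobal, Complex.exp_eq_one_iff] at h1
    obtain ⟨n, hn⟩ := h1
    refine ⟨-n, ?_⟩
    have h2 : (Algebra.trace ℚ F (b * o) : ℝ) = ((-n : ℤ) : ℝ) := by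
      have h3 := congrArg Complex.im hn
      simp at h3
      have hpi := Real.pi_ne_zero
      push_cast
      field_simp at h3 ⊢
      linarith
    exact_mod_cast h2
  have := hMb b htr v
  rwa [map_mul, hbv, mul_comm] at this

/-- A character trivial on some ball but not on all has a conductor. -/
lemma exists_placeCond (v : FinPlace F) :
    ∃ k : ℤ, (∀ x ∈ (placeBase v).ball k, placeChar v x = 1) ∧
      (∃ x ∈ (placeBase v).ball (k - 1), placeChar v x ≠ 1) ∧ k ≤ 0 := by
  obtain ⟨M, hM, hMb⟩ := exists_trace_denominator (F := F)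
  set P : ℤ → Prop := fun k => ∀ x ∈ (placeBase v).ball k, placeChar v x = 1
  have h0 : P 0 := fun x hx => placeChar_eq_one (mem_placeBall_zero.mp hx)
  have hM0 := valuation_natCast_ne_zero v hM
  have hbdd : ∀ k, P k → min 0 (log (v.valuation F (M : F))) ≤ k := fun k hk => by
    rcases le_or_gt 0 k with hk0 | hk0
    · exact (min_le_left _ _).trans hk0
    · have := le_of_placeChar_trivial hM hMb hk0 fun x hx => hk x (mem_placeBall.mpr hx)
      rw [← exp_log hM0, ← exp_add, ← exp_zero, exp_le_exp] at this
      exact (min_le_right _ _).trans (by omega)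
  obtain ⟨k, hk, hmin⟩ := Int.exists_least_of_bdd ⟨_, hbdd⟩ ⟨0, h0⟩
  refine ⟨k, hk, ?_, hmin 0 h0⟩
  by_contra hall
  push Not at hall
  have := hmin (k - 1) hall
  omega

/-- The conductor exponent of the component. -/
def placeCond (v : FinPlace F) : ℤ := (exists_placeCond v).choose

lemma placeChar_triv {v : FinPlace F} {x : v.adicCompletion F}
    (hx : x ∈ (placeBase v).ball (placeCond v)) : placeChar v x = 1 :=
  (exists_placeCond v).choose_spec.1 x hx

lemma placeChar_nontriv (v : FinPlace F) :
    ∃ x ∈ (placeBase v).ball (placeCond v - 1), placeChar v x ≠ 1 :=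
  (exists_placeCond v).choose_spec.2.1

/-- Almost all conductors vanish. -/
theorem finite_placeCond : {v : FinPlace F | placeCond v ≠ 0}.Finite := by
  obtain ⟨M, hM, hMb⟩ := exists_trace_denominator (F := F)
  refine (finite_natCast M hM).subset fun v hv => fun h1 => hv ?_
  have hle : placeCond v ≤ 0 := (exists_placeCond v).choose_spec.2.2
  by_contra hne
  have := le_of_placeChar_trivial hM hMb (lt_of_le_of_ne hle hne) fun x hx =>
    placeChar_triv (mem_placeBall.mpr hx)
  rw [h1, mul_one, ← exp_zero, exp_le_exp] at this
  omega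

/-- The local form at `v` with the given coefficients. -/
def placeForm (v : FinPlace F) (s p : v.adicCompletion F) (hs : Valued.v s ≤ 1)
    (hp : Valued.v p ≤ 1) : LocalForm (v.adicCompletion F) where
  toLocalBase := placeBase v
  s := s
  p := p
  χ := placeChar v
  cond := placeCond v
  s_mem := mem_placeBall_zero.mpr hs
  p_mem := mem_placeBall_zero.mpr hp
  χ_triv _ hx := placeChar_triv hx
  χ_nontriv := placeChar_nontriv v

end Fermat.Agent.LT.DihedralTheta

end
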