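import Fermat.Agent.LT.DihedralTheta.Data
import Mathlib.Analysis.Complex.Polynomial.Basic

/-!
# The torus of the quadratic algebra: divisors, units, logarithms

A divisor is an element of nonzero norm at every place, a unit at almost all of them; it is taken
up to local units. Global elements act on divisors, and the norm one units act on the space of
logarithms at the infinite places.
-/

set_option autoImplicit false

noncomputable section

open NumberField (InfinitePlace)
open Fermat.Agent.LT.Places

namespace Fermat.Agent.LT.DihedralTheta

variable {F : Type*} [Field F] [NumberField F]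

/-- The product of the quadratic algebra over `F`. -/
def gmul {R : Type*} [CommRing R] (s p : R) (x y : R × R) : R × R :=
  (x.1 * y.1 - p * x.2 * y.2, x.1 * y.2 + x.2 * y.1 + s * x.2 * y.2)

/-- The norm form of pairs is multiplicative. -/
lemma normForm_gmul {R : Type*} [CommRing R] (s p : R) (x y : R × R) :
    normForm s p (gmul s p x y) = normForm s p x * normForm s p y := by
  simp only [normForm, gmul]; ring

namespace PlaceDatum

variable {s p : F} {v : FinPlace F} (P : PlaceDatum s p v)

/-- A unit of the local order. -/
def IsUnitPair (z : v.adicCompletion F × v.adicCompletion F) : Prop :=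
  z ∈ P.form.box 0 0 ∧ P.form.n z ≠ 0 ∧ P.form.ord (P.form.n z) = 0

/-- The local norm of the coordinates is the image of the global norm. -/
lemma n_coord (x : F × F) : P.form.n (P.coord x) = cmp v (normForm s p x) := by
  show (P.coord x).1 ^ 2 + cmp v (2 * P.α + s * P.β) * (P.coord x).1 * (P.coord x).2 +
      cmp v (normForm s p (P.α, P.β)) * (P.coord x).2 ^ 2 = _
  simp only [coord, ← map_pow, ← map_mul, ← map_add, normForm]
  congr 1
  have := P.β_ne
  field_simp
  ring

/-- The coordinates respect products. -/
lemma coord_gmul (x y : F × F) :
    P.coord (gmul s p x y) = P.form.qmul (P.coord x) (P.coord y) := by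
  show _ = ((P.coord x).1 * (P.coord y).1 -
      cmp v (normForm s p (P.α, P.β)) * (P.coord x).2 * (P.coord y).2,
    (P.coord x).1 * (P.coord y).2 + (P.coord x).2 * (P.coord y).1 +
      cmp v (2 * P.α + s * P.β) * (P.coord x).2 * (P.coord y).2)
  have := P.β_ne
  simp only [coord, ← map_mul, ← map_sub, ← map_add, normForm, gmul]
  refine Prod.ext ?_ ?_ <;> (dsimp only; congr 1; field_simp; ring)

end PlaceDatum

namespace ThetaData

variable (D : ThetaData F)

/-- An element of nonzero norm at every place, a unit at almost all. -/
structure Divisor where
  /-- The components. -/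
  cmpt : ∀ v : FinPlace F, v.adicCompletion F × v.adicCompletion F
  n_ne : ∀ v, (D.place v).form.n (cmpt v) ≠ 0
  almost_unit : {v | ¬ (D.place v).IsUnitPair (cmpt v)}.Finite

/-- Equality up to local units. -/
def Divisor.Equiv {D : ThetaData F} (h h' : D.Divisor) : Prop :=
  ∀ v, ∃ c, (D.place v).IsUnitPair c ∧ h'.cmpt v = (D.place v).form.qmul c (h.cmpt v)

/-- `h'` is `x · h` up to local units. -/
def Divisor.EquivBy {D : ThetaData F} (h h' : D.Divisor) (x : F × F) : Prop :=
  ∀ v, ∃ c, (D.place v).IsUnitPair c ∧
    h'.cmpt v = (D.place v).form.qmul c ((D.place v).form.qmul (h.cmpt v) ((D.place v).coord x))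

/-- The global units. -/
def units : Set (F × F) := {x | x ≠ 0 ∧ ∀ v, (D.place v).IsUnitPair ((D.place v).coord x)}

/-- The units of norm one. -/
def normOneUnits : Set (F × F) := {x | x ∈ D.units ∧ normForm D.s D.p x = 1}

/-- The quadratic polynomial has a complex root at each infinite place. -/
lemma exists_root (w : InfinitePlace F) :
    ∃ r : ℂ, r * r - w.embedding D.s * r + w.embedding D.p = 0 := by
  obtain ⟨d, hd⟩ := IsAlgClosed.exists_eq_mul_self
    (w.embedding (D.s ^ 2 - 4 * D.p))
  refine ⟨(w.embedding D.s + d) / 2, ?_⟩
  simp only [map_sub, map_pow, map_mul, map_ofNat] at hd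
  linear_combination -hd / 4

/-- The image of the generator at an infinite place. -/
def root (w : InfinitePlace F) : ℂ := (D.exists_root w).choose

/-- The image of the conjugate generator. -/
def root' (w : InfinitePlace F) : ℂ := w.embedding D.s - D.root w

/-- The first embedding above `w`. -/
def emb (w : InfinitePlace F) (x : F × F) : ℂ := w.embedding x.1 + w.embedding x.2 * D.root w

/-- The second embedding above `w`. -/
def emb' (w : InfinitePlace F) (x : F × F) : ℂ := w.embedding x.1 + w.embedding x.2 * D.root' w

/-- The logarithm of the ratio of the two absolute values. -/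
def logRatio (x : F × F) (w : InfinitePlace F) : ℝ :=
  Real.log ‖D.emb w x‖ - Real.log ‖D.emb' w x‖

/-- The chosen complex root is a root. -/
lemma root_eq (w : InfinitePlace F) :
    D.root w * D.root w - w.embedding D.s * D.root w + w.embedding D.p = 0 :=
  (D.exists_root w).choose_spec

/-- The product of the two embeddings is the embedded norm. -/
lemma emb_mul_emb' (w : InfinitePlace F) (x : F × F) :
    D.emb w x * D.emb' w x = w.embedding (normForm D.s D.p x) := by
  simp only [emb, emb', root', normForm, map_add, map_mul, map_pow]
  linear_combination -(w.embedding x.2 ^ 2) * D.root_eq w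

/-- The first embedding is multiplicative. -/
lemma emb_gmul (w : InfinitePlace F) (x y : F × F) :
    D.emb w (gmul D.s D.p x y) = D.emb w x * D.emb w y := by
  simp only [emb, gmul, map_add, map_sub, map_mul]
  linear_combination -(w.embedding x.2 * w.embedding y.2) * D.root_eq w

/-- The second embedding is multiplicative. -/
lemma emb'_gmul (w : InfinitePlace F) (x y : F × F) :
    D.emb' w (gmul D.s D.p x y) = D.emb' w x * D.emb' w y := by
  simp only [emb', root', gmul, map_add, map_sub, map_mul]
  linear_combination -(w.embedding x.2 * w.embedding y.2) * D.root_eq w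

end ThetaData

end Fermat.Agent.LT.DihedralTheta

end
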