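import Fermat.Agent.LT.DihedralTheta.Expand
import Fermat.Agent.LT.DihedralTheta.TorusUnits

/-!
# The index set of the unfolded theta series

A pair `(ξ, d)` of a nonzero element and a class of divisors is `(u * n x, h x)` for a class
representative `h`, a representative `u` of `Fˣ` modulo norms of units and a nonzero `x`, unique
up to a unit of norm one; the term of the pair is the finite part of the theta function.
-/

set_option autoImplicit false

noncomputable section

open IsDedekindDomain NumberField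
open Fermat.Agent.LT.Places

namespace Fermat.Agent.LT.DihedralTheta

variable {F : Type*} [Field F] [NumberField F]

/-- The square root of the product formula. -/
lemma finprod_sqrt_zpow [IsTotallyComplex F] {a : F} (ha : a ≠ 0) :
    ∏ᶠ v : FinPlace F, ((Real.sqrt (Nat.card (Residue v) : ℝ) : ℂ)) ^ (-placeOrd v (cmp v a)) =
      ((∏ w : InfinitePlace F, w a : ℝ) : ℂ)⁻¹ := by
  classical
  set r : FinPlace F → ℝ := fun v => Real.sqrt (Nat.card (Residue v) : ℝ) ^ (-placeOrd v (cmp v a))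
  have hfin := finite_valuation_ne_one ha
  set S := hfin.toFinset
  have hout : ∀ v ∉ S, placeOrd v (cmp v a) = 0 := fun v hv =>
    placeOrd_cmp_eq_zero (by simpa [S] using hv)
  have hsupp : ∀ (g : FinPlace F → ℤ → ℝ), (∀ v, g v 0 = 1) →
      Function.mulSupport (fun v => g v (-placeOrd v (cmp v a))) ⊆ S := fun g hg v hv => by
    by_contra h
    exact hv (by show g v _ = 1; rw [hout v h, neg_zero, hg])
  have h := ThetaData.prod_mul_finprod_eq_one ha
  rw [finprod_eq_prod_of_mulSupport_subset _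
    (hsupp (fun v k => (Nat.card (Residue v) : ℝ) ^ k) fun v => zpow_zero _)] at h
  simp only [IsTotallyComplex.mult_eq, Finset.prod_pow] at h
  have hpos : 0 < ∏ w : InfinitePlace F, w a :=
    Finset.prod_pos fun w _ => InfinitePlace.pos_iff.mpr ha
  have hr : ∏ v ∈ S, r v = (∏ w : InfinitePlace F, w a)⁻¹ := by
    refine (pow_left_inj₀ (Finset.prod_nonneg fun v _ => zpow_nonneg (Real.sqrt_nonneg _) _)
      (inv_nonneg.mpr hpos.le) two_ne_zero).mp ?_
    rw [← Finset.prod_pow, inv_pow, ← eq_inv_of_mul_eq_one_right h]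
    refine Finset.prod_congr rfl fun v _ => ?_
    rw [← zpow_natCast, ← zpow_mul, mul_comm, zpow_mul, zpow_natCast,
      Real.sq_sqrt (Nat.cast_nonneg _)]
  rw [← Complex.ofReal_inv, ← hr, Complex.ofReal_prod,
    finprod_eq_prod_of_mulSupport_subset _ (s := S) fun v hv => ?_]
  · exact Finset.prod_congr rfl fun v _ => (Complex.ofReal_zpow _ _).symm
  · by_contra h
    exact hv (by show _ ^ (-placeOrd v (cmp v a)) = (1 : ℂ); rw [hout v h, neg_zero, zpow_zero])

namespace ThetaData

variable (D : ThetaData F)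

/-- The weight of a divisor at a place. -/
def wtLoc (h : D.Divisor) (v : FinPlace F) : ℂ :=
  (D.place v).form.sqrtQ ^ (-h.expAt v) * (D.place v).psi (h.cmpt v)

/-- The weight of a divisor. -/
def divWt (h : D.Divisor) : ℂ := ∏ᶠ v, D.wtLoc h v

lemma finite_wtLoc (h : D.Divisor) : (Function.mulSupport fun v => D.wtLoc h v).Finite := by
  refine (D.almost_std.union h.almost_unit).subset fun v hv => ?_
  by_contra hc
  simp only [Set.mem_union, Set.mem_ofPred_eq, not_or, not_not] at hc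
  refine hv ?_
  show _ * _ = (1 : ℂ)
  rw [show (D.place v).psi (h.cmpt v) = 1 from hc.1.psi_unram.unit _ hc.2.1 hc.2.2.1 hc.2.2.2,
    Divisor.expAt, hc.2.2.2, neg_zero, zpow_zero, one_mul]

lemma finite_psi_coord {x : F × F} (hx : x ≠ 0) :
    (Function.mulSupport fun v => (D.place v).psi ((D.place v).coord x)).Finite := by
  refine (D.almost_std.union (D.principalDivisor hx).almost_unit).subset fun v hv => ?_
  by_contra hc
  simp only [Set.mem_union, Set.mem_ofPred_eq, not_or, not_not] at hc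
  exact hv (hc.1.psi_unram.unit _ hc.2.1 hc.2.2.1 hc.2.2.2)

lemma wtLoc_shift (h : D.Divisor) {x : F × F} (hx : x ≠ 0) (v : FinPlace F) :
    D.wtLoc (h.shift hx) v = D.wtLoc h v *
      ((Real.sqrt (Nat.card (Residue v) : ℝ) : ℂ) ^ (-placeOrd v (cmp v (normForm D.s D.p x))) *
        (D.place v).psi ((D.place v).coord x)) := by
  set K := (D.place v).form
  have he : (h.shift hx).expAt v = h.expAt v + placeOrd v (cmp v (normForm D.s D.p x)) := by
    show K.ord (K.n (K.qmul (h.cmpt v) ((D.place v).coord x))) = _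
    rw [K.n_qmul, K.ord_mul (h.n_ne v) (D.n_coord_ne hx v), PlaceDatum.n_coord]
    rfl
  have hp : (D.place v).psi ((h.shift hx).cmpt v) =
      (D.place v).psi (h.cmpt v) * (D.place v).psi ((D.place v).coord x) :=
    (D.place v).good.psi_mul (h.n_ne v) (D.n_coord_ne hx v)
  rw [wtLoc, wtLoc, he, hp, neg_add, zpow_add₀ K.sqrtQ_ne]
  show _ = _ * (K.sqrtQ ^ _ * _)
  ring

/-- **The term of `(u * n x, h x)`.** -/
theorem divTerm_shift [IsTotallyComplex F] (g : GLFin F) (h : D.Divisor) {u : F} (hu : u ≠ 0)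
    {x : F × F} (hx : x ≠ 0) :
    D.divTerm g (u * normForm D.s D.p x) (h.shift hx).cls =
      D.divWt h * ((∏ w : InfinitePlace F, w (normForm D.s D.p x) : ℝ) : ℂ)⁻¹ *
        D.thetaFin g h u x := by
  classical
  set ξ := u * normForm D.s D.p x
  have hξ : ξ ≠ 0 := mul_ne_zero hu (D.norm_ne hx)
  have hsplit : ∀ v, (D.place v).whitVal (glPlace v g) (cmp v ξ) ((h.shift hx).cmpt v) =
      D.wtLoc (h.shift hx) v * D.thetaLoc g h u v ((D.place v).coord x) := fun v => by
    rw [PlaceDatum.whitVal, wtLoc, thetaLoc, mul_assoc]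
    congr 1
    show (D.place v).psi ((h.shift hx).cmpt v) * (D.place v).vec.fl _ ((h.shift hx).cmpt v)
      (cmp v ξ / (D.place v).form.n ((D.place v).form.qmul (h.cmpt v) ((D.place v).coord x))) = _
    rw [(D.place v).form.n_qmul, PlaceDatum.n_coord, map_mul, mul_div_mul_right _ _
      ((map_ne_zero _).mpr (D.norm_ne hx))]
    rfl
  have hwf := D.finite_wtLoc (h.shift hx)
  have htf : (Function.mulSupport fun v => D.thetaLoc g h u v ((D.place v).coord x)).Finite :=
    ((D.finite_divVal g hξ (h.shift hx)).union hwf).subset fun v hv => by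
      by_contra hc
      simp only [Set.mem_union, Function.mem_mulSupport, ne_eq, not_or, not_not] at hc
      rw [hsplit, hc.2, one_mul] at hc
      exact hv hc.1
  have hsf : (Function.mulSupport fun v : FinPlace F =>
      (Real.sqrt (Nat.card (Residue v) : ℝ) : ℂ) ^ (-placeOrd v (cmp v (normForm D.s D.p x)))).Finite :=
    (finite_valuation_ne_one (D.norm_ne hx)).subset fun v hv h1 => hv (by
      show _ ^ _ = (1 : ℂ)
      rw [placeOrd_cmp_eq_zero h1, neg_zero, zpow_zero])
  have hpf := D.finite_psi_coord hx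
  have hsp := (hsf.union hpf).subset (Function.mulSupport_mul
    (fun v : FinPlace F => (Real.sqrt (Nat.card (Residue v) : ℝ) : ℂ) ^
      (-placeOrd v (cmp v (normForm D.s D.p x)))) fun v => (D.place v).psi ((D.place v).coord x))
  rw [divTerm_cls, divVal, finprod_congr hsplit, finprod_mul_distrib hwf htf,
    finprod_congr (D.wtLoc_shift h hx), finprod_mul_distrib (D.finite_wtLoc h) hsp,
    finprod_mul_distrib hsf hpf, D.psi_global x hx, finprod_sqrt_zpow (D.norm_ne hx), mul_one]
  rfl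

/-- Equality up to norms of units. -/
def normSetoid : Setoid {u : F // u ≠ 0} where
  r u u' := ∃ x ∈ D.units, u'.1 = u.1 * normForm D.s D.p x
  iseqv :=
    { refl := fun u => ⟨_, D.one_mem_units, by simp [normForm]⟩
      symm := by
        rintro u u' ⟨x, hx, e⟩
        exact ⟨_, D.ginv_mem_units hx, by
          rw [e, D.norm_ginv hx.1, mul_inv_cancel_right₀ (D.norm_ne hx.1)]⟩
      trans := by
        rintro u u' u'' ⟨x, hx, e⟩ ⟨x', hx', e'⟩
        exact ⟨_, D.gmul_mem_units hx hx', by rw [e', e, normForm_gmul, mul_assoc]⟩ }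

/-- The similitude variables. -/
abbrev UClass : Type _ := Quotient D.normSetoid

/-- The representative of a class. -/
def uRep (q : D.UClass) : F := (Quotient.out q).1

/-- A class representative is nonzero. -/
lemma uRep_ne (q : D.UClass) : D.uRep q ≠ 0 := (Quotient.out q).2

/-- Only finitely many classes have given orders everywhere. -/
lemma finite_uClass [IsTotallyComplex F] (n : FinPlace F → ℤ) :
    {q : D.UClass | ∀ v, placeOrd v (cmp v (D.uRep q)) = n v}.Finite := by
  classical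
  obtain ⟨T, hT, hex⟩ := D.exists_normReps
  rcases Set.eq_empty_or_nonempty {q : D.UClass | ∀ v, placeOrd v (cmp v (D.uRep q)) = n v} with h | ⟨q₁, hq₁⟩
  · rw [h]; exact Set.finite_empty
  refine (Set.finite_range fun t : T => (Quotient.mk D.normSetoid
    ⟨(D.uRep q₁) * t.1, mul_ne_zero (D.uRep_ne q₁) (hT t.1 t.2).1⟩ : D.UClass)).subset fun q hq => ?_
  have he : ∀ v : FinPlace F, v.valuation F ((D.uRep q) / (D.uRep q₁)) = 1 := fun v => by
    rw [map_div₀, ← valued_cmp, ← valued_cmp, valued_eq_exp ((map_ne_zero _).mpr (D.uRep_ne q)),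
      valued_eq_exp ((map_ne_zero _).mpr (D.uRep_ne q₁)), hq v, hq₁ v, div_self WithZero.exp_ne_zero]
  obtain ⟨t, ⟨ht, x, hx, e⟩, -⟩ := hex _ (div_ne_zero (D.uRep_ne q) (D.uRep_ne q₁)) he
  refine ⟨⟨t, ht⟩, ?_⟩
  conv_rhs => rw [← Quotient.out_eq q]
  refine Quotient.sound (s := D.normSetoid) ⟨x, hx, ?_⟩
  rw [div_eq_iff (D.uRep_ne q₁)] at e
  show (D.uRep q) = _
  rw [e]; ring

/-- The classes with a nonzero theta function. -/
lemma finite_uClass_thetaFin [IsTotallyComplex F] (g : GLFin F) (h : D.Divisor) :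
    {q : D.UClass | ∃ x, D.thetaFin g h (D.uRep q) x ≠ 0}.Finite := by
  refine (D.finite_uClass fun v => -(D.place v).vec.e +
    (D.place v).form.ord (glPlace v g).val.det + h.expAt v).subset fun q ⟨x, hx⟩ v => ?_
  have hfin : (Function.mulSupport fun v => D.thetaLoc g h (D.uRep q) v ((D.place v).coord x)).Finite := by
    by_contra hinf
    have h1 : D.thetaFin g h (D.uRep q) x = 1 := finprod_of_infinite_mulSupport hinf
    obtain ⟨N, M, S, hP⟩ := IsAdelicSch.exists_period D (D.isAdelicSch_thetaLoc g h (D.uRep_ne q))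
    refine hinf ((S.finite_toSet.union ((finite_placeVal (finIncl F x.1)).union
      (finite_placeVal (finIncl F x.2)))).subset fun v hv => ?_)
    by_contra hc
    simp only [Set.mem_union, Finset.mem_coe, Set.mem_ofPred_eq, not_or, not_lt, placeVal_finIncl] at hc
    refine hv ?_
    show D.thetaLoc g h (D.uRep q) v _ = 1
    rw [PlaceDatum.coord_eq]
    exact (hP.outside v hc.1 _).1 (LocalBase.mem_box.mpr
      ⟨mem_placeBall_zero.mpr (by rw [valued_cmp]; exact hc.2.1),
        mem_placeBall_zero.mpr (by rw [valued_cmp]; exact hc.2.2)⟩)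
  have hv : D.thetaLoc g h (D.uRep q) v ((D.place v).coord x) ≠ 0 := fun h0 =>
    hx (finprod_eq_zero _ v h0 hfin)
  obtain ⟨-, hord⟩ := (D.place v).vec.fl_supp hv
  set K := (D.place v).form
  have hu : cmp v (D.uRep q) ≠ 0 := (map_ne_zero _).mpr (D.uRep_ne q)
  have h2 : K.ord (cmp v (D.uRep q) / K.n (h.cmpt v)) = K.ord (cmp v (D.uRep q)) - h.expAt v := by
    rw [div_eq_mul_inv, K.ord_mul hu (inv_ne_zero (h.n_ne v)), K.ord_inv (h.n_ne v), Divisor.expAt]
    ring
  change K.ord (cmp v (D.uRep q) / K.n (h.cmpt v)) = _ at hord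
  rw [h2] at hord
  show K.ord (cmp v (D.uRep q)) = -(D.place v).vec.e + K.ord (glPlace v g).val.det + h.expAt v
  change K.ord (cmp v (D.uRep q)) - h.expAt v =
    -(D.place v).vec.e + K.ord (glPlace v g).val.det at hord
  linear_combination hord

variable (S : Finset D.Divisor)

/-- The index set. -/
abbrev Idx : Type _ := (S × D.UClass) × {x : F × F // x ≠ 0}

/-- The pair of an index. -/
def idxPair (i : D.Idx S) : {ξ : F // ξ ≠ 0} × D.DivClass :=
  (⟨(D.uRep i.1.2) * normForm D.s D.p i.2.1, mul_ne_zero (D.uRep_ne i.1.2) (D.norm_ne i.2.2)⟩,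
    (i.1.1.1.shift i.2.2).cls)

/-- The action of the units of norm one. -/
def idxMul (i : D.Idx S) (ε : D.normOneUnits) : D.Idx S :=
  (i.1, ⟨gmul D.s D.p i.2.1 ε.1, D.gmul_ne i.2.2 ε.2.1.1⟩)

/-- The pair of an index is unchanged by norm one units. -/
lemma idxPair_idxMul (i : D.Idx S) (ε : D.normOneUnits) :
    D.idxPair S (D.idxMul S i ε) = D.idxPair S i := by
  refine Prod.ext (Subtype.ext ?_) ?_
  · show _ * normForm D.s D.p (gmul D.s D.p i.2.1 ε.1) = _
    rw [normForm_gmul, ε.2.2, mul_one]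
    rfl
  · refine (Divisor.cls_eq_iff.mpr fun v => ⟨(D.place v).coord ε.1, ε.2.1.2 v, ?_⟩).symm
    show (D.place v).form.qmul _ ((D.place v).coord (gmul D.s D.p i.2.1 ε.1)) =
      (D.place v).form.qmul _ ((D.place v).form.qmul _ _)
    rw [PlaceDatum.coord_gmul, ← (D.place v).form.qmul_assoc,
      (D.place v).form.torus_qmul_comm ((D.place v).coord ε.1)]
    rfl

/-- **The fibres of `idxPair` are the orbits of the units of norm one.** -/
theorem exists_idxEquiv (hS1 : ∀ h : D.Divisor, ∃ h₀ ∈ S, ∃ x : F × F, x ≠ 0 ∧ h₀.EquivBy h x)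
    (hS2 : ∀ h₀ ∈ S, ∀ h₁ ∈ S, ∀ x : F × F, x ≠ 0 → h₀.EquivBy h₁ x → h₀ = h₁) :
    ∃ σ : {ξ : F // ξ ≠ 0} × D.DivClass → D.Idx S, (∀ ζ, D.idxPair S (σ ζ) = ζ) ∧
      Function.Bijective fun p : ({ξ : F // ξ ≠ 0} × D.DivClass) × D.normOneUnits =>
        D.idxMul S (σ p.1) p.2 := by
  have hsec : ∀ ζ : {ξ : F // ξ ≠ 0} × D.DivClass, ∃ i, D.idxPair S i = ζ := by
    rintro ⟨⟨ξ, hξ⟩, d⟩
    obtain ⟨h₀, hh₀, x₀, hx₀, he⟩ := hS1 d.out
    have hu₁ : ξ / normForm D.s D.p x₀ ≠ 0 := div_ne_zero hξ (D.norm_ne hx₀)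
    set q : D.UClass := Quotient.mk D.normSetoid ⟨_, hu₁⟩ with hq
    obtain ⟨ε, hε, e⟩ : ∃ ε ∈ D.units, ξ / normForm D.s D.p x₀ = (D.uRep q) * normForm D.s D.p ε :=
      Quotient.exact (Quotient.out_eq q)
    refine ⟨((⟨h₀, hh₀⟩, q), ⟨gmul D.s D.p x₀ ε, D.gmul_ne hx₀ hε.1⟩), Prod.ext (Subtype.ext ?_) ?_⟩
    · show (D.uRep q) * normForm D.s D.p (gmul D.s D.p x₀ ε) = ξ
      rw [normForm_gmul, mul_left_comm, ← e, mul_div_cancel₀ _ (D.norm_ne hx₀)]
    · show (h₀.shift _).cls = d
      rw [← Quotient.out_eq d]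
      refine (Divisor.cls_eq_iff.mpr fun v => ?_).symm
      obtain ⟨c, hc, ec⟩ := he v
      obtain ⟨c', hc', hcc⟩ := PlaceDatum.IsUnitPair.exists_inv _ hc
      refine ⟨(D.place v).form.qmul ((D.place v).coord ε) c', (hε.2 v).mul _ hc', ?_⟩
      show (D.place v).form.qmul (h₀.cmpt v) ((D.place v).coord (gmul D.s D.p x₀ ε)) = _
      rw [ec, (D.place v).form.qmul_assoc _ c', ← (D.place v).form.qmul_assoc c', hcc,
        (D.place v).form.torus_one_qmul, PlaceDatum.coord_gmul, ← (D.place v).form.qmul_assoc,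
        (D.place v).form.torus_qmul_comm ((D.place v).coord ε)]
  choose σ hσ using hsec
  refine ⟨σ, hσ, ⟨fun p p' h => ?_, fun j => ?_⟩⟩
  · have hζ : p.1 = p'.1 := by
      rw [← hσ p.1, ← hσ p'.1, ← D.idxPair_idxMul S (σ p.1) p.2, ← D.idxPair_idxMul S (σ p'.1) p'.2]
      exact congrArg _ h
    obtain ⟨ζ, ε⟩ := p; obtain ⟨ζ', ε'⟩ := p'
    obtain rfl : ζ = ζ' := hζ
    have hx := (σ ζ).2.2
    have h2 : gmul D.s D.p (σ ζ).2.1 ε.1 = gmul D.s D.p (σ ζ).2.1 ε'.1 :=
      congrArg (fun i : D.Idx S => i.2.1) h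
    have h3 := congrArg (gmul D.s D.p (D.ginv (σ ζ).2.1)) h2
    rw [← gmul_assoc, ← gmul_assoc, gmul_comm D.s D.p (D.ginv _) (σ ζ).2.1, D.gmul_ginv hx,
      gmul_comm D.s D.p (1, 0), gmul_comm D.s D.p (1, 0), gmul_one, gmul_one] at h3
    rw [Subtype.ext h3]
  · generalize hi : σ (D.idxPair S j) = i
    have hp : D.idxPair S i = D.idxPair S j := by rw [← hi]; exact hσ _
    obtain ⟨⟨⟨h, hh⟩, q⟩, x, hx⟩ := i
    obtain ⟨⟨⟨h', hh'⟩, q'⟩, x', hx'⟩ := j
    have hξ : (D.uRep q) * normForm D.s D.p x = (D.uRep q') * normForm D.s D.p x' :=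
      congrArg (fun z : {ξ : F // ξ ≠ 0} × D.DivClass => z.1.1) hp
    have he : (h.shift hx).Equiv (h'.shift hx') := Divisor.cls_eq_iff.mp (congrArg Prod.snd hp)
    have hh_eq : h = h' := hS2 h hh h' hh' _
      (D.gmul_ne (D.gmul_ne hx (by simp)) (D.ginv_ne hx'))
      (((h.equivBy_shift hx).trans he.equivBy).trans ((h'.equivBy_shift hx').symm hx'))
    subst hh_eq
    set ε := gmul D.s D.p (D.ginv x) x' with hεdef
    have hx'e : x' = gmul D.s D.p x ε := by
      rw [hεdef, ← gmul_assoc, D.gmul_ginv hx, gmul_comm, gmul_one]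
    have hunit : ε ∈ D.units := ⟨D.gmul_ne (D.ginv_ne hx) hx', fun v => by
      obtain ⟨c, hc, ec⟩ := he v
      have h1 : (D.place v).form.qmul (h.cmpt v) ((D.place v).coord x') =
          (D.place v).form.qmul (h.cmpt v) ((D.place v).form.qmul c ((D.place v).coord x)) := by
        rw [← (D.place v).form.qmul_assoc, (D.place v).form.torus_qmul_comm (h.cmpt v) c,
          (D.place v).form.qmul_assoc]
        exact ec
      rw [hεdef, PlaceDatum.coord_gmul, (D.place v).form.qmulHom_injective (h.n_ne v) h1,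
        (D.place v).form.torus_qmul_comm c, ← (D.place v).form.qmul_assoc, ← PlaceDatum.coord_gmul,
        gmul_comm D.s D.p (D.ginv x) x, D.gmul_ginv hx, PlaceDatum.coord_one,
        (D.place v).form.torus_one_qmul]
      exact hc⟩
    have hn : (D.uRep q) = (D.uRep q') * normForm D.s D.p ε := by
      refine mul_right_cancel₀ (D.norm_ne hx) ?_
      rw [hξ, hx'e, normForm_gmul]; ring
    have hq : q' = q := by
      rw [← Quotient.out_eq q', ← Quotient.out_eq q]
      exact Quotient.sound (s := D.normSetoid) ⟨ε, hunit, hn⟩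
    subst hq
    have hε1 : normForm D.s D.p ε = 1 := (mul_eq_left₀ (D.uRep_ne q')).mp hn.symm
    refine ⟨(D.idxPair S ((⟨h, hh'⟩, q'), ⟨x', hx'⟩), ⟨ε, hunit, hε1⟩), ?_⟩
    show D.idxMul S (σ _) _ = _
    rw [hi]
    exact Prod.ext rfl (Subtype.ext hx'e.symm)

end ThetaData

end Fermat.Agent.LT.DihedralTheta

end
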